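import Fermat.Agent.Deform.Burnside
import Fermat.Agent.Deform.MatrixRep
import Fermat.Agent.TW.Irreducible
import Mathlib.LinearAlgebra.Dual.Lemmas
import Mathlib.RingTheory.LocalRing.ResidueField.Basic

/-!
# Spanning representations and their frames
-/

set_option autoImplicit false

noncomputable section

open IsLocalRing Matrix FA.Deform FA.TW

namespace FA.RT

local notation "Qb" => AlgebraicClosure ℚ
local notation "GQ" => AlgebraicClosure ℚ ≃ₐ[ℚ] AlgebraicClosure ℚ
local notation "M2" => Matrix (Fin 2) (Fin 2)

/-- A representation without a line over an algebraically closed field spans. -/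
theorem span_eq_top_of_noLine {k : Type} [Field k] (r : GQ →* M2 k) {L : Type} [Field L]
    [IsAlgClosed L] (j : k →+* L) (h : NoLine (mapRep j r) ⊤) :
    Submodule.span k (Set.range r) = ⊤ := by
  classical
  let rK := mapRep j r
  have htopK : Submodule.span L (Set.range rK) = ⊤ := by
    refine eq_top_of_no_invariant_line _ (Submodule.subset_span ⟨1, map_one rK⟩) ?_ ?_
    · intro a ha b hb
      induction ha, hb using Submodule.span_induction₂ with
      | mem_mem x y hx hy =>
        obtain ⟨σ, rfl⟩ := hx
        obtain ⟨τ, rfl⟩ := hy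
        exact Submodule.subset_span ⟨σ * τ, map_mul rK σ τ⟩
      | zero_left y _ => simp
      | zero_right x _ => simp
      | add_left x y z _ _ _ h1 h2 => rw [add_mul]; exact add_mem h1 h2
      | add_right x y z _ _ _ h1 h2 => rw [mul_add]; exact add_mem h1 h2
      | smul_left c x y _ _ h1 => rw [Matrix.smul_mul]; exact Submodule.smul_mem _ c h1
      | smul_right c x y _ _ h1 => rw [Matrix.mul_smul]; exact Submodule.smul_mem _ c h1
    · intro v hv
      obtain ⟨g, -, hg⟩ := h v hv
      exact ⟨rK g, Submodule.subset_span ⟨g, rfl⟩, hg⟩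
  by_contra hne
  obtain ⟨f, hf0, hf⟩ := Submodule.exists_le_ker_of_lt_top _ (lt_top_iff_ne_top.mpr hne)
  apply hf0
  let fK : M2 L →ₗ[L] L := ∑ i, ∑ l,
    (j (f (Matrix.single i l 1))) • Matrix.entryLinearMap L L i l
  have hfK : ∀ M : M2 k, fK (j.mapMatrix M) = j (f M) := by
    intro M
    conv_rhs => rw [Matrix.matrix_eq_sum_single M]
    simp only [fK, LinearMap.sum_apply, LinearMap.smul_apply, Matrix.entryLinearMap_apply,
      RingHom.mapMatrix_apply, Matrix.map_apply, smul_eq_mul, map_sum]
    refine Finset.sum_congr rfl fun i _ => Finset.sum_congr rfl fun l _ => ?_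
    rw [show Matrix.single i l (M i l) = M i l • Matrix.single i l (1 : k) by
      rw [Matrix.smul_single, smul_eq_mul, mul_one], map_smul, smul_eq_mul, map_mul, mul_comm]
  have hz : ∀ M, fK M = 0 := by
    intro M
    have hM : M ∈ Submodule.span L (Set.range rK) := htopK ▸ Submodule.mem_top
    refine (Submodule.span_le.mpr ?_ hM : M ∈ LinearMap.ker fK)
    rintro _ ⟨σ, rfl⟩
    show fK (j.mapMatrix (r σ)) = 0
    rw [hfK, show f (r σ) = 0 from hf (Submodule.subset_span ⟨σ, rfl⟩), map_zero]
  refine LinearMap.ext fun M => ?_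
  have := hfK M
  rw [hz] at this
  exact j.injective (by rw [← this, LinearMap.zero_apply, map_zero])

/-- A spanning residual representation has a frame. -/
theorem exists_frame_of_span {O : Type} [CommRing O] [IsLocalRing O]
    (r : GQ →* M2 (ResidueField O))
    (hspan : Submodule.span (ResidueField O) (Set.range r) = ⊤) : ∃ F : Frame O, F.Adapted r := by
  classical
  choose s hs using residue_surjective (R := O)
  let s' : ResidueField O → O := Function.update s 0 0
  have hs'0 : s' 0 = 0 := Function.update_self 0 0 s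
  have hs' : ∀ a, residue O (s' a) = a := fun a => by
    rcases eq_or_ne a 0 with rfl | ha
    · rw [hs'0, map_zero]
    · simp only [s', Function.update_of_ne ha]; exact hs a
  have key : ∀ E : M2 (ResidueField O), ∃ c : GQ →₀ O, evalComb c r = E := by
    intro E
    obtain ⟨c, hc⟩ := Finsupp.mem_span_range_iff_exists_finsupp.mp
      (hspan ▸ Submodule.mem_top (x := E) : E ∈ Submodule.span (ResidueField O) (Set.range r))
    refine ⟨c.mapRange s' hs'0, ?_⟩
    rw [evalComb, Finsupp.sum_mapRange_index (fun g => by simp), ← hc]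
    refine Finsupp.sum_congr fun g _ => ?_
    rw [ResidueField.algebraMap_eq, hs']
  obtain ⟨cx, hcx⟩ := key !![1, 0; 0, 0]
  obtain ⟨cy, hcy⟩ := key !![0, 0; 1, 0]
  exact ⟨⟨cx, cy⟩, hcx, hcy⟩

/-- A spanning representation is not lower triangular. -/
theorem exists_upper_ne_zero {k : Type} [Field k] (r : GQ →* M2 k)
    (hspan : Submodule.span k (Set.range r) = ⊤) : ∃ σ, r σ 0 1 ≠ 0 := by
  by_contra h
  push Not at h
  have hle : Submodule.span k (Set.range r) ≤ LinearMap.ker (Matrix.entryLinearMap k k 0 1) :=
    Submodule.span_le.mpr fun x hx => by obtain ⟨σ, rfl⟩ := hx; exact h σ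
  rw [hspan] at hle
  exact one_ne_zero (α := k) (by
    simpa using hle (Submodule.mem_top (x := (Matrix.single 0 1 1 : M2 k))))

end FA.RT
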