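import Mathlib.RingTheory.WittVector.Complete
import Mathlib.RingTheory.WittVector.DiscreteValuationRing
import Mathlib.RingTheory.LocalRing.ResidueField.Basic
import Mathlib.FieldTheory.Finite.GaloisField
import Fermat.Agent.JTorsion.PadicRep

/-!
# Coefficient rings

Witt vectors of a finite field: a complete discrete valuation ring of characteristic zero with
that residue field, carrying the `p`-adic cyclotomic character.
-/

set_option autoImplicit false

noncomputable section

open IsLocalRing

namespace FA.RT

/-- The residue map of the Witt vectors. -/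
theorem ker_constantCoeff_witt {p : ℕ} [Fact p.Prime] {k : Type} [Field k] [CharP k p]
    [PerfectRing k p] :
    RingHom.ker (WittVector.constantCoeff (p := p) (R := k)) = maximalIdeal (WittVector p k) := by
  refine IsLocalRing.eq_maximalIdeal (RingHom.ker_isMaximal_of_surjective _ fun c =>
    ⟨WittVector.teichmuller p c, ?_⟩)
  show (WittVector.teichmuller p c).coeff 0 = c
  simp

/-- **A coefficient ring with prescribed finite residue field.** -/
theorem exists_coeffRing (p : ℕ) [Fact p.Prime] (k : Type) [Field k] [Finite k] [CharP k p] :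
    ∃ (O : Type) (_ : CommRing O) (_ : IsDomain O) (_ : IsDiscreteValuationRing O)
      (_ : IsAdicComplete (maximalIdeal O) O) (_ : CharZero O) (_ : Finite (ResidueField O)),
      (p : O) ∈ maximalIdeal O ∧ maximalIdeal O = Ideal.span {(p : O)} ∧
      Nonempty (ResidueField O ≃+* k) := by
  have hker := ker_constantCoeff_witt (p := p) (k := k)
  have hsurj : Function.Surjective (WittVector.constantCoeff (p := p) (R := k)) := fun c =>
    ⟨WittVector.teichmuller p c, by show (WittVector.teichmuller p c).coeff 0 = c; simp⟩
  let e : ResidueField (WittVector p k) ≃+* k :=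
    (Ideal.quotEquivOfEq hker.symm).trans (RingHom.quotientKerEquivOfSurjective hsurj)
  have hspan : maximalIdeal (WittVector p k) = Ideal.span {(p : WittVector p k)} :=
    (IsDiscreteValuationRing.irreducible_iff_uniformizer _).mp (WittVector.irreducible p)
  have : CharP (WittVector p k) 0 := by
    refine charP_of_injective_ringHom (f := Int.castRingHom (WittVector p k)) ?_ 0
    rw [injective_iff_map_eq_zero]
    intro a ha
    by_contra ha0
    have hp0 : (p : WittVector p k) ≠ 0 := (WittVector.irreducible p).ne_zero
    obtain ⟨b, hab, hb⟩ := (Int.finiteMultiplicity_iff.mpr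
      ⟨by simpa using (Fact.out : p.Prime).ne_one, ha0⟩ : FiniteMultiplicity (p : ℤ) a).exists_eq_pow_mul_and_not_dvd
    rw [hab, map_mul, map_pow, map_natCast] at ha
    rcases mul_eq_zero.mp ha with h | h
    · exact hp0 (eq_zero_of_pow_eq_zero h)
    · have h' := congrArg (WittVector.constantCoeff (p := p) (R := k)) h
      rw [map_zero, eq_intCast, map_intCast, CharP.intCast_eq_zero_iff k p] at h'
      exact hb h'
  refine ⟨WittVector p k, inferInstance, inferInstance, inferInstance, ?_,
    CharP.charP_to_charZero _, Finite.of_equiv _ e.symm.toEquiv,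
    hspan.ge (Ideal.mem_span_singleton_self _), hspan, ⟨e⟩⟩
  rw [hspan]
  infer_instance

/-- The cyclotomic character as a coefficient valued function. -/
theorem exists_cyc (p : ℕ) [Fact p.Prime] {O : Type} [CommRing O] [IsDomain O]
    [IsDiscreteValuationRing O] [IsAdicComplete (maximalIdeal O) O]
    (hspan : maximalIdeal O = Ideal.span {(p : O)}) :
    ∃ χ : (AlgebraicClosure ℚ ≃ₐ[ℚ] AlgebraicClosure ℚ) →* Oˣ,
      ∀ q : ℕ, q.Prime → q ≠ p → ∀ A : ValuationSubring (AlgebraicClosure ℚ),
        A.LiesOverPrime q → (∀ σ ∈ A.inertiaSubgroupIn ℚ, χ σ = 1) ∧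
          ∀ σ, A.IsFrobeniusAt σ q → (χ σ : O) = q := by
  obtain ⟨χ, -, h⟩ := FA.JTorsion.exists_cycO p
    (hspan.ge (Ideal.mem_span_singleton_self (p : O)))
  exact ⟨χ, h⟩

end FA.RT
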