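import Fermat.Agent.RT.LocalFromPoints
import Fermat.Prelude.Def_GaloisRep_StrictOrdinary
import Fermat.Prelude.Def_GaloisRep_Flat

/-!
# Local conditions are invariant under conjugation
-/

set_option autoImplicit false

noncomputable section

open IsLocalRing Matrix FA.Deform

namespace FA.RT

local notation "Qb" => AlgebraicClosure ℚ
local notation "GQ" => AlgebraicClosure ℚ ≃ₐ[ℚ] AlgebraicClosure ℚ
local notation "M2" => Matrix (Fin 2) (Fin 2)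

variable {B : Type} [CommRing B] [IsLocalRing B]

/-- Flatness passes to equivalent representations. -/
theorem isFlatAt_of_equiv {ρ₁ ρ₂ : GaloisRepAdic B} (e : GaloisRepAdic.Equiv ρ₁ ρ₂) {p : ℕ}
    (h : ρ₁.IsFlatAt p) : ρ₂.IsFlatAt p := by
  refine ⟨h.1, fun I hI => ?_⟩
  obtain ⟨H, i1, i2, h1, h2, h3, E, hE, hact⟩ := h.2 I hI
  let ψ : (ρ₁.V ⧸ (I • (⊤ : Submodule B ρ₁.V))) ≃ₗ[B] (ρ₂.V ⧸ (I • (⊤ : Submodule B ρ₂.V))) :=
    Submodule.Quotient.equiv _ _ e.toLinearEquiv (by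
      rw [Submodule.map_smul'', Submodule.map_top]
      exact congrArg (I • ·) (LinearEquiv.range e.toLinearEquiv))
  refine ⟨H, i1, i2, h1, h2, h3, E.trans ψ.toEquiv, fun f g => ?_, fun σ f g hfg => ?_⟩
  · show ψ (E (f * g)) = ψ (E f) + ψ (E g)
    rw [hE, map_add]
  · show ψ (E g) = ρ₂.levelAction I σ (ψ (E f))
    rw [hact σ f g hfg]
    obtain ⟨v, hv⟩ := Submodule.Quotient.mk_surjective _ (E f)
    rw [← hv]
    show ψ (Submodule.Quotient.mk (ρ₁.ρ σ v)) = _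
    exact congrArg Submodule.Quotient.mk (e.map_apply σ v)

/-- Strict ordinarity passes to equivalent representations. -/
theorem isStrictOrdinaryAt_of_equiv {ρ₁ ρ₂ : GaloisRepAdic B} (e : GaloisRepAdic.Equiv ρ₁ ρ₂)
    {p : ℕ} (h : ρ₁.IsStrictOrdinaryAt p) : ρ₂.IsStrictOrdinaryAt p := by
  refine ⟨h.1, fun P hP => ?_⟩
  obtain ⟨L, ⟨b, hb⟩, hD, hI, hs⟩ := h.2 P hP
  let f := e.toLinearEquiv
  have hmem : ∀ w, w ∈ L.map (f : ρ₁.V →ₗ[B] ρ₂.V) ↔ f.symm w ∈ L := fun w => by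
    rw [Submodule.mem_map]
    exact ⟨fun ⟨x, hx, hxw⟩ => by rw [← hxw]; simpa using hx,
      fun hw => ⟨f.symm w, hw, f.apply_symm_apply w⟩⟩
  have hsym : ∀ σ w, f.symm (ρ₂.ρ σ w) = ρ₁.ρ σ (f.symm w) := fun σ w => f.injective (by
    rw [f.apply_symm_apply]
    exact (by rw [f.apply_symm_apply] : ρ₂.ρ σ w = ρ₂.ρ σ (f (f.symm w))).trans
      (e.map_apply σ (f.symm w)).symm)
  refine ⟨L.map (f : ρ₁.V →ₗ[B] ρ₂.V), ⟨b.map f, ?_⟩, fun σ hσ v hv => ?_, fun σ hσ v => ?_,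
    fun σ hσ => ?_⟩
  · rw [hb, Submodule.map_span, Set.image_singleton, Module.Basis.map_apply]
    rfl
  · rw [hmem] at hv ⊢
    rw [hsym]
    exact hD σ hσ _ hv
  · rw [hmem, map_sub, hsym]
    exact hI σ hσ _
  · obtain ⟨x, z, hx, hz, ha⟩ := hs σ hσ
    refine ⟨x, z, fun w hw => ?_, fun v => ?_, ha⟩
    · refine f.symm.injective ?_
      rw [hsym, map_smul]
      exact hx _ ((hmem w).mp hw)
    · rw [hmem, map_sub, hsym, map_smul]
      exact hz _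

/-- A conjugate matrix representation is equivalent. -/
def conjEquiv {r₁ r : GQ →* M2 B} (h₁ : IsContRep r₁) (h : IsContRep r) (v : (M2 B)ˣ)
    (hv : ∀ σ, r σ = (v⁻¹ : (M2 B)ˣ).1 * r₁ σ * v.1) :
    GaloisRepAdic.Equiv (ofMatrix r₁ h₁) (ofMatrix r h) where
  toLinearEquiv := LinearEquiv.ofLinearMap (R := B) (M := Fin 2 → B) (M₂ := Fin 2 → B)
    (Matrix.toLin' (v⁻¹ : (M2 B)ˣ).1) (Matrix.toLin' v.1)
    ((Matrix.toLin'_mul _ _).symm.trans (by rw [Units.inv_mul, Matrix.toLin'_one]; rfl))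
    ((Matrix.toLin'_mul _ _).symm.trans (by rw [Units.mul_inv, Matrix.toLin'_one]; rfl))
  map_apply σ x := by
    show (v⁻¹ : (M2 B)ˣ).1 *ᵥ (ofMatrix r₁ h₁).ρ σ x = (ofMatrix r h).ρ σ ((v⁻¹ : (M2 B)ˣ).1 *ᵥ x)
    refine (congrArg ((v⁻¹ : (M2 B)ˣ).1 *ᵥ ·) (ofMatrix_rho_apply h₁ σ x)).trans
      (Eq.trans ?_ (ofMatrix_rho_apply h σ _).symm)
    have key : ∀ y : Fin 2 → B,
        (v⁻¹ : (M2 B)ˣ).1 *ᵥ (r₁ σ *ᵥ y) = r σ *ᵥ ((v⁻¹ : (M2 B)ˣ).1 *ᵥ y) := fun y => by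
      rw [mulVec_mulVec, mulVec_mulVec, hv σ, mul_assoc _ v.1, Units.mul_inv, mul_one]
    exact key x

/-- A conjugate of a continuous representation is continuous. -/
theorem isContRep_conj {r₁ r : GQ →* M2 B} (h₁ : IsContRep r₁) (v : (M2 B)ˣ)
    (hv : ∀ σ, r σ = (v⁻¹ : (M2 B)ˣ).1 * r₁ σ * v.1) : IsContRep r := fun n => by
  obtain ⟨L, hL, h⟩ := h₁ n
  refine ⟨L, hL, fun σ hσ a b => ?_⟩
  have e : r σ - 1 = (v⁻¹ : (M2 B)ˣ).1 * (r₁ σ - 1) * v.1 := by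
    rw [hv σ, mul_sub, sub_mul, mul_one, Units.inv_mul]
  rw [e]
  simp only [Matrix.mul_apply]
  exact Ideal.sum_mem _ fun l _ => Ideal.mul_mem_right _ _
    (Ideal.sum_mem _ fun m _ => Ideal.mul_mem_left _ _ (h σ hσ m l))

end FA.RT
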