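import Fermat.Agent.RT.BigResidual
import Fermat.Agent.TW.Residual
import Fermat.Agent.Frob.Odd
import Fermat.Agent.Frob.Semistable
import Fermat.Agent.Frob.Charpoly
import Fermat.Agent.LocalDef.EllipticGood
import Fermat.Prelude.Def_FLTPrelim_ModularRep

/-!
# The residual representation of a semistable curve
-/

set_option autoImplicit false

noncomputable section

open Matrix WeierstrassCurve FA.EC FA.Frob FA.Deform FA.TW FA.LocalDef FA.Local
open scoped WeierstrassCurve.Affine

namespace FA.RT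

local notation "Qb" => AlgebraicClosure ℚ
local notation "GQ" => AlgebraicClosure ℚ ≃ₐ[ℚ] AlgebraicClosure ℚ
local notation "M2" => Matrix (Fin 2) (Fin 2)

variable {p : ℕ} [hp : Fact p.Prime] (W : WeierstrassCurve ℤ)

/-- The matrices of the mod `p` representation of `W`. -/
def curveRep (p : ℕ) [Fact p.Prime] (W : WeierstrassCurve ℤ) [(ratCurve W).IsElliptic] :
    GQ →* M2 (ZMod p) :=
  resMatrix (residualRep p (ratCurve W))

variable [(ratCurve W).IsElliptic]

/-- A basis of the `p`-torsion. -/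
def torsBasis : Module.Basis (Fin 2) (ZMod p) (Submodule.torsionBy ℤ ((ratCurve W)⁄Qb).Point p) :=
  resBasis (residualRep p (ratCurve W))

theorem curveRep_apply (σ : GQ) : curveRep p W σ = LinearMap.toMatrix (torsBasis W) (torsBasis W)
    (Affine.Point.galoisRepModuleEnd (K := Qb) ℚ (ratCurve W).toAffine p σ) := rfl

theorem isOpen_ker_curveRep : IsOpen ((curveRep p W).ker : Set GQ) :=
  isOpen_ker_resMatrix _

theorem natCard_rootsOfUnity : Nat.card (rootsOfUnity p Qb) = p :=
  have : NeZero p := ⟨hp.out.ne_zero⟩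
  IsAlgClosed.card_rootsOfUnity_eq Qb p

/-- The determinant is the cyclotomic character. -/
theorem det_curveRep (σ : GQ) (a : ℕ) (ha : ∀ μ : Qb, μ ^ p = 1 → σ μ = μ ^ a) :
    (curveRep p W σ).det = (a : ZMod p) := by
  have : NeZero p := ⟨hp.out.ne_zero⟩
  rw [curveRep_apply, LinearMap.det_toMatrix, det_galoisRepModuleEnd p _ natCard_rootsOfUnity,
    cycloChar_apply]
  refine (modularCyclotomicCharacter.unique Qb _ _ fun t ht => ?_).symm
  have ht' : (t : Qb) ^ p = 1 := by
    rw [← Units.val_pow_eq_pow_val, (mem_rootsOfUnity p t).mp ht, Units.val_one]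
  show σ (t : Qb) = _
  rw [ha _ ht', ZMod.val_natCast]
  exact pow_eq_pow_mod a ht'

/-- The trace of Frobenius at a good prime. -/
theorem trace_curveRep {l : ℕ} (hl : l.Prime) (hgood : W.IsGoodPrimeFor l) (hpl : p ≠ l)
    {A : ValuationSubring Qb} (hA : A.LiesOverPrime l) {σ : GQ} (hσ : A.IsFrobeniusAt σ l) :
    (curveRep p W σ).trace = (W.apOfModel l : ZMod p) := by
  rw [← galoisTrace_frobenius W hl hgood hpl hA hσ, curveRep_apply,
    Affine.Point.galoisTrace_def]
  exact (LinearMap.trace_eq_matrix_trace (ZMod p) _ _).symm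

theorem curveRep_eq_one_iff (σ : GQ) : curveRep p W σ = 1 ↔
    ∀ x : Submodule.torsionBy ℤ ((ratCurve W)⁄Qb).Point p, σ • x = x :=
  (resMatrix_eq_one_iff _ σ).trans ⟨fun h x => LinearMap.congr_fun h x,
    fun h => LinearMap.ext h⟩

theorem toMatrix_mulVec {σ : GQ} (x : Submodule.torsionBy ℤ ((ratCurve W)⁄Qb).Point p) :
    curveRep p W σ *ᵥ (torsBasis (p := p) W).equivFun x =
      (torsBasis (p := p) W).equivFun
        ((σ • x : Submodule.torsionBy ℤ ((ratCurve W)⁄Qb).Point p)) :=
  LinearMap.toMatrix_mulVec_repr (torsBasis W) (torsBasis W)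
    (Affine.Point.galoisRepModuleEnd (K := Qb) ℚ (ratCurve W).toAffine p σ) x

/-- At a multiplicative prime `q ≠ p` inertia has unipotent image. -/
theorem curveRep_unipotent (hΔ : W.Δ ≠ 0) (hW : W.IsSemistableModel) {q : ℕ} (hq : q.Prime)
    (hqp : q ≠ p) (hbad : (q : ℤ) ∣ W.Δ) {A : ValuationSubring Qb} (hA : A.LiesOverPrime q)
    {σ : GQ} (hσ : σ ∈ A.inertiaSubgroupIn ℚ) :
    (curveRep p W σ - 1) * (curveRep p W σ - 1) = 0 := by
  have hm : MultAt W q A := ⟨hΔ, hq, hbad, hW q hq hbad, hA⟩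
  refine Matrix.ext_of_mulVec_single fun i => ?_
  obtain ⟨x, hx⟩ := (torsBasis (p := p) W).equivFun.surjective
    (Pi.single i 1 : Fin 2 → ZMod p)
  have h1 : ∀ y : Submodule.torsionBy ℤ ((ratCurve W)⁄Qb).Point p,
      (curveRep p W σ - 1) *ᵥ (torsBasis (p := p) W).equivFun y =
        (torsBasis (p := p) W).equivFun (σ • y - y :
          Submodule.torsionBy ℤ ((ratCurve W)⁄Qb).Point p) := fun y => by
    rw [sub_mulVec, one_mulVec, toMatrix_mulVec]
    exact (map_sub _ _ _).symm
  rw [← hx, ← mulVec_mulVec, h1, h1, hm.smul_smul_sub hqp.symm hσ hσ, sub_self, zero_mulVec]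
  exact map_zero _

theorem pow_eq_one_of_sq_eq_zero {R : Type*} [CommRing R] [CharP R p] {M : M2 R}
    (h : (M - 1) * (M - 1) = 0) : M ^ p ^ 1 = 1 := by
  have : CharP (M2 R) p := inferInstance
  rw [pow_one, ← sub_eq_zero]
  have hc : Commute M 1 := Commute.one_right M
  have := sub_pow_char_of_commute p hc
  rw [one_pow] at this
  rw [← this]
  obtain ⟨m, hm⟩ : ∃ m, p = 2 + m := ⟨p - 2, by have := hp.out.two_le; omega⟩
  rw [show (M - 1) ^ p = (M - 1) ^ (2 + m) by rw [← hm], pow_add, pow_two, h, zero_mul]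

/-- At a good prime different from `p` inertia acts trivially. -/
theorem curveRep_unramified {q : ℕ} (hq : q.Prime)
    (hqp : q ≠ p) (hgood : W.IsGoodPrimeFor q) {A : ValuationSubring Qb} (hA : A.LiesOverPrime q)
    {σ : GQ} (hσ : σ ∈ A.inertiaSubgroupIn ℚ) : curveRep p W σ = 1 := by
  rw [curveRep_eq_one_iff]
  refine fun x => sub_eq_zero.mp (Subtype.ext ?_)
  exact Frob.eq_zero_of_e1_of_ne hq hA hqp.symm
    ((inert_of_mem_inertiaSubgroupIn A hσ).e1_smul_sub_of_good (ratCurve W)
      (intCoeff_ratCurve W A) (valuation_Δ_ratCurve W hq hA hgood) x.1)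
    (Frob.nsmul_torsion (σ • x - x))

/-- Where `p` divides the valuation of the discriminant the representation is unramified. -/
theorem curveRep_eq_one_of_dvd (hΔ : W.Δ ≠ 0) (hW : W.IsSemistableModel) (hp2 : p ≠ 2) {q : ℕ}
    (hq : q.Prime) (hqp : q ≠ p) (hbad : (q : ℤ) ∣ W.Δ) (hdvd : p ∣ padicValInt q W.Δ)
    {A : ValuationSubring Qb} (hA : A.LiesOverPrime q) {σ : GQ}
    (hσ : σ ∈ A.inertiaSubgroupIn ℚ) : curveRep p W σ = 1 := by
  rw [curveRep_eq_one_iff]
  refine fun x => (⟨hΔ, hq, hbad, hW q hq hbad, hA⟩ : MultAt W q A).smul_eq hp2 hqp.symm ?_ hσ x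
  rw [WeierstrassCurve.map_Δ, eq_intCast, padicValRat.of_int, Int.natCast_dvd_natCast]
  exact hdvd

theorem detOmega_curveRep (A : ValuationSubring Qb) : DetOmega A p (curveRep p W) :=
  fun σ _ a ha => det_curveRep W σ a ha

/-- At a good `p` the representation is finite flat. -/
theorem isFlatRes_curveRep {A : ValuationSubring Qb} (hA : A.LiesOverPrime p)
    (hgood : W.IsGoodPrimeFor p) : IsFlatRes A (curveRep p W) := by
  classical
  have := finite_torsion (ratCurve W) hp.out.ne_zero
  let _ : Fintype (Submodule.torsionBy ℤ ((ratCurve W)⁄Qb).Point p) := Fintype.ofFinite _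
  let b := (torsBasis (p := p) W).equivFun
  refine (hasModel_torsion_good W hp.out hA hgood hp.out.pos).of_injective
    (b.symm.toAddEquiv.toAddMonoidHom) b.symm.injective fun σ _ x => ?_
  show b.symm (curveRep p W σ *ᵥ x) = _
  obtain ⟨y, rfl⟩ := b.surjective x
  rw [toMatrix_mulVec]
  exact (b.symm_apply_apply _).trans (congrArg (σ • ·) (b.symm_apply_apply y).symm)

/-- At `p` the representation is ordinary or of level two. -/
theorem curveRep_localType (hΔ : W.Δ ≠ 0) (hW : W.IsSemistableModel) (hp2 : p ≠ 2)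
    {A : ValuationSubring Qb} (hA : A.LiesOverPrime p) :
    IsOrdType A (curveRep p W) ∨ IsSSType (p := p) A (curveRep p W) := by
  by_cases hbad : (p : ℤ) ∣ W.Δ
  · left
    have hm : MultAt W p A := ⟨hΔ, hp.out, hbad, hW p hp.out hbad, hA⟩
    obtain ⟨z, hz0, hI, hD⟩ := exists_line_at_p hm hp2 natCard_rootsOfUnity
    let b := (torsBasis (p := p) W).equivFun
    refine ⟨b z, b.map_ne_zero_iff.mpr hz0, fun σ hσ => ?_, fun σ hσ w => ?_⟩
    · obtain ⟨c, hc⟩ := Submodule.mem_span_singleton.mp (hD σ hσ)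
      refine ⟨c, ?_⟩
      rw [toMatrix_mulVec, ← hc]
      exact map_smul b c z
    · obtain ⟨y, rfl⟩ := b.surjective w
      obtain ⟨c, hc⟩ := Submodule.mem_span_singleton.mp ((hI σ hσ).2 y)
      refine ⟨c, ?_⟩
      rw [toMatrix_mulVec]
      exact (map_sub b _ _).symm.trans ((congrArg b hc.symm).trans (map_smul b c z))
  · exact flat_residual_type hA hp2 (detOmega_curveRep W A) (isFlatRes_curveRep W hA hbad)

/-- An odd representation without a stable line has none over any extension. -/
theorem noLine_of_odd {k : Type} [Field k] (h2 : (2 : k) ≠ 0) {G : Type*} [Group G]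
    (r : G →* M2 k) {c : G} (hc : c * c = 1) (hdet : (r c).det = -1)
    (hirr : ∀ l : Fin 2 → k, l ≠ 0 → ∃ g, ∀ a : k, r g *ᵥ l ≠ a • l)
    {L : Type} [Field L] (j : k →+* L) (v : Fin 2 → L) (hv : v ≠ 0) :
    ∃ g, ∀ a : L, (r g).map j *ᵥ v ≠ a • v := by
  set M := r c with hM
  have hMM : M * M = 1 := by rw [hM, ← map_mul, hc, map_one]
  have hMd : M.det ≠ 0 := by rw [hdet]; exact neg_ne_zero.mpr one_ne_zero
  have ht : M.trace = 0 := by
    have h := LocalDef.mul_self_two M
    rw [hMM, hdet, neg_one_smul, sub_neg_eq_add] at h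
    by_contra ht
    have h0 : M.trace • M = 0 := add_right_cancel (h.symm.trans (zero_add _).symm)
    refine hMd ?_
    rw [(smul_eq_zero.mp h0).resolve_left ht, Matrix.det_zero]
  have hev : ∀ e : k, e * e = 1 → ∃ u : Fin 2 → k, u ≠ 0 ∧ M *ᵥ u = e • u := by
    intro e he
    have h : (M - e • 1).det = 0 := by
      have := hdet
      simp [Matrix.det_fin_two, Matrix.trace_fin_two] at this ht ⊢
      linear_combination this - e * ht + he
    obtain ⟨u, hu, hMu⟩ := Matrix.exists_mulVec_eq_zero_iff.mpr h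
    exact ⟨u, hu, by rwa [sub_mulVec, smul_mulVec, one_mulVec, sub_eq_zero] at hMu⟩
  by_contra hcon
  push Not at hcon
  obtain ⟨e, he⟩ := hcon c
  have hee : e * e = 1 := by
    have h : ((M * M).map j) *ᵥ v = (e * e) • v := by
      rw [Matrix.map_mul, ← mulVec_mulVec, he, mulVec_smul, he, smul_smul]
    rw [hMM, Matrix.map_one j (map_zero j) (map_one j), one_mulVec] at h
    by_contra hne
    exact hv ((smul_eq_zero.mp (show (e * e - 1) • v = 0 by
      rw [sub_smul, one_smul, ← h, sub_self])).resolve_left (sub_ne_zero.mpr hne))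
  obtain ⟨e₀, he₀, he₀e⟩ : ∃ e₀ : k, e₀ * e₀ = 1 ∧ j e₀ = e := by
    rcases mul_self_eq_one_iff.mp hee with rfl | rfl
    · exact ⟨1, one_mul 1, map_one j⟩
    · exact ⟨-1, by ring, by rw [map_neg, map_one]⟩
  obtain ⟨u, hu, hMu⟩ := hev e₀ he₀
  let w : Fin 2 → L := fun i => j (u i)
  have hmap : ∀ (N : M2 k) (x : Fin 2 → k),
      N.map j *ᵥ (fun i => j (x i)) = fun i => j ((N *ᵥ x) i) := fun N x =>
    funext fun i => (RingHom.map_mulVec j N x i).symm
  have hw0 : w ≠ 0 := fun h => hu (funext fun i => j.injective ((congrFun h i).trans (map_zero j).symm))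
  have hMw : M.map j *ᵥ w = e • w := by
    rw [hmap, hMu, ← he₀e]
    funext i
    simp [w]
  have hnon : ∀ a : L, M.map j ≠ a • 1 := by
    intro a h
    have h00 := congrFun (congrFun h 0) 0
    have h11 := congrFun (congrFun h 1) 1
    simp at h00 h11
    have : M 0 0 = M 1 1 := j.injective (h00.trans h11.symm)
    have h01 := congrFun (congrFun h 0) 1
    simp at h01
    have := hdet
    rw [Matrix.det_fin_two, h01, zero_mul, sub_zero] at this
    rw [Matrix.trace_fin_two] at ht
    have h4 : (2 : k) * M 0 0 = 0 := by linear_combination ht + ‹M 0 0 = M 1 1›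
    rw [(mul_eq_zero.mp h4).resolve_left h2, zero_mul] at this
    exact one_ne_zero (neg_eq_zero.mp this.symm)
  obtain ⟨a, ha⟩ := TW.eigen_line hnon hw0 hMw he
  obtain ⟨g, hg⟩ := hirr u hu
  obtain ⟨b, hb⟩ := hcon g
  have ha0 : a ≠ 0 := fun h => hv (by rw [ha, h, zero_smul])
  have hgw : (r g).map j *ᵥ w = b • w := by
    rw [ha, mulVec_smul, smul_comm] at hb
    exact (smul_right_injective _ ha0) hb
  rw [hmap] at hgw
  by_cases hu0 : u 0 = 0
  · have hu1 : u 1 ≠ 0 := fun h => hu (funext fun i => by fin_cases i <;> assumption)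
    refine hg ((r g *ᵥ u) 1 / u 1) (funext fun i => j.injective ?_)
    have h1 := congrFun hgw 1
    have h := congrFun hgw i
    simp only [w, Pi.smul_apply, smul_eq_mul] at h h1 ⊢
    rw [h, map_mul, map_div₀, h1, mul_div_cancel_right₀ _ (fun e => hu1 (j.injective (e.trans (map_zero j).symm)))]
  · refine hg ((r g *ᵥ u) 0 / u 0) (funext fun i => j.injective ?_)
    have h1 := congrFun hgw 0
    have h := congrFun hgw i
    simp only [w, Pi.smul_apply, smul_eq_mul] at h h1 ⊢
    rw [h, map_mul, map_div₀, h1, mul_div_cancel_right₀ _ (fun e => hu0 (j.injective (e.trans (map_zero j).symm)))]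

theorem det_complexConjugation (hp2 : p ≠ 2) :
    (curveRep p W complexConjugation).det = -1 := by
  rw [curveRep_apply, LinearMap.det_toMatrix]
  refine det_invol complexConjugation_mul_self (fun h => ?_) hp2 (ratCurve W)
  obtain ⟨z, hz⟩ := IsAlgClosed.exists_pow_nat_eq (-1 : Qb) (n := 2) two_pos
  have h1 := complexEmbedding_complexConjugation z
  rw [h, AlgEquiv.one_apply] at h1
  have h2 : complexEmbedding z ^ 2 = -1 := by rw [← map_pow, hz, map_neg, map_one]
  have h3 : (complexEmbedding z).im = 0 := Complex.conj_eq_iff_im.mp h1.symm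
  have h4 := congrArg Complex.re h2
  rw [pow_two, Complex.mul_re, h3] at h4
  simp at h4
  nlinarith

/-- The representation of an irreducible `W` has no line over any extension. -/
theorem noLine_top_curveRep (hp2 : p ≠ 2) (hirr : W.ModRepIsIrreducible p) {L : Type} [Field L]
    (j : ZMod p →+* L) : NoLine (mapRep j (curveRep p W)) ⊤ := fun v hv => by
  have h2 : (2 : ZMod p) ≠ 0 := fun h => hp2 ((Nat.prime_dvd_prime_iff_eq hp.out Nat.prime_two).mp
    ((ZMod.natCast_eq_zero_iff 2 p).mp (by exact_mod_cast h)))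
  refine (noLine_of_odd h2 (curveRep p W) complexConjugation_mul_self
    (det_complexConjugation W hp2) (fun l hl => ?_) j v hv).imp
      fun g hg => ⟨trivial, fun a => by rw [mapRep_eq]; exact hg a⟩
  by_contra hcon
  push Not at hcon
  let b := (torsBasis (p := p) W).equivFun
  obtain ⟨x, rfl⟩ := b.surjective l
  have hx : x ≠ 0 := b.map_ne_zero_iff.mp hl
  rcases hirr.2 (Submodule.span (ZMod p) {x}) (fun σ y hy => by
    obtain ⟨c, rfl⟩ := Submodule.mem_span_singleton.mp hy
    obtain ⟨a, ha⟩ := hcon σ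
    rw [toMatrix_mulVec, ← map_smul] at ha
    have := b.injective ha
    refine Submodule.mem_span_singleton.mpr ⟨c * a, ?_⟩
    rw [smul_comm σ c x, this, smul_smul]) with h | h
  · exact hx (Submodule.span_singleton_eq_bot.mp h)
  · have h1 := finrank_span_singleton (K := ZMod p) hx
    rw [h, finrank_top, finrank_torsion (ratCurve W) p] at h1
    omega

/-- **The residual representation of a semistable curve is big.** -/
theorem isBig_curveRep (hΔ : W.Δ ≠ 0) (hW : W.IsSemistableModel) (hp2 : p ≠ 2)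
    (hirr : W.ModRepIsIrreducible p) {L : Type} [Field L] [IsAlgClosed L] (j : ZMod p →+* L) :
    IsBig (mapRep j (curveRep p W)) := by
  have hA : ∃ A : ValuationSubring Qb, A.LiesOverPrime p := Deform.exists_liesOverPrime hp.out
  obtain ⟨A, hA⟩ := hA
  refine isBig_of_semistable hp2 _ (isOpen_ker_curveRep W) (det_curveRep W) (fun q hq hqp => ?_)
    hA (curveRep_localType W hΔ hW hp2 hA) j ?_
  · obtain ⟨B, hB⟩ := Deform.exists_liesOverPrime hq
    refine ⟨B, hB, fun σ hσ => ⟨1, ?_⟩⟩
    by_cases hbad : (q : ℤ) ∣ W.Δ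
    · exact pow_eq_one_of_sq_eq_zero (curveRep_unipotent W hΔ hW hq hqp hbad hB hσ)
    · rw [curveRep_unramified W hq hqp hbad hB hσ, one_pow]
  · exact noLine_top_curveRep W hp2 hirr j

end FA.RT
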