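import Fermat.Agent.RT.Points
import Fermat.Agent.LocalDef.ModelQuot
import Fermat.Agent.LocalDef.FlatBridge
import Fermat.Agent.LocalDef.Connected
import Fermat.Agent.TW.Translate
import Mathlib.RingTheory.Filtration
import Mathlib.RingTheory.Ideal.Quotient.Index

/-!
# Local conditions from the points to the carried algebra

If all points are flat (strictly ordinary) at `p`, so is the lift over the carried algebra: by
Artin–Rees its finite levels are subquotients of products of levels of the points, and the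
ordinary line is cut out by an idempotent defined over the algebra itself.
-/

set_option autoImplicit false

noncomputable section

open IsLocalRing Matrix FA.Deform FA.TW FA.LocalDef

namespace FA.RT

local notation "Qb" => AlgebraicClosure ℚ
local notation "GQ" => AlgebraicClosure ℚ ≃ₐ[ℚ] AlgebraicClosure ℚ

/-- A product of models. -/
theorem hasModel_pi {A : ValuationSubring Qb} {ι : Type} [Fintype ι] [DecidableEq ι]
    {V : ι → Type} [∀ i, AddCommGroup (V i)] [∀ i, Fintype (V i)] {act : ∀ i, GQ → V i → V i}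
    (h : ∀ i, HasModel A (V i) (act i)) :
    HasModel A (∀ i, V i) fun σ x i => act i σ (x i) := by
  choose M hM using h
  refine ⟨Model.pi M, fun σ hσ i x => ?_⟩
  rw [Model.pi_a, Model.pi_a, map_prod]
  exact Finset.prod_congr rfl fun j _ => hM j σ hσ _ _

/-- A matrix of trace one and determinant zero has a line as its image. -/
theorem exists_line_of_idem {R : Type} [CommRing R] [IsLocalRing R] {e : M2 R}
    (htr : e.trace = 1) (hdet : e.det = 0) :
    ∃ b : Module.Basis (Fin 2) R (Fin 2 → R),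
      e *ᵥ b 0 = b 0 ∧ ∀ v, e *ᵥ v ∈ R ∙ b 0 := by
  rw [Matrix.trace_fin_two] at htr
  rw [Matrix.det_fin_two] at hdet
  obtain ⟨Q, hQ, hQ0, hQc⟩ : ∃ Q : M2 R, IsUnit Q.det ∧ e *ᵥ (Q *ᵥ Pi.single 0 1) = Q *ᵥ Pi.single 0 1
      ∧ ∀ v, ∃ c : R, e *ᵥ v = c • (Q *ᵥ Pi.single 0 1) := by
    rcases isUnit_or_isUnit_of_add_one htr with ⟨u, hu⟩ | ⟨u, hu⟩
    · refine ⟨!![e 0 0, 0; e 1 0, 1], (by rw [det_fin_two_of, mul_one, zero_mul, sub_zero, ← hu];
                                          exact u.isUnit), ?_, fun v => ⟨v 0 + (↑u⁻¹ : R) * e 0 1 * v 1, ?_⟩⟩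
      · funext i; fin_cases i
        · simp only [Fin.zero_eta, Matrix.mulVec, dotProduct, Fin.sum_univ_two]; simp
          linear_combination (e 0 0) * htr - hdet
        · simp only [Fin.mk_one, Matrix.mulVec, dotProduct, Fin.sum_univ_two]; simp
          linear_combination (e 1 0) * htr
      · have h1 : (↑u⁻¹ : R) * e 0 0 = 1 := by rw [← hu, Units.inv_mul]
        funext i; fin_cases i
        · simp only [Fin.zero_eta, Matrix.mulVec, dotProduct, Fin.sum_univ_two]; simp
          linear_combination (-(e 0 1) * v 1) * h1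
        · simp only [Fin.mk_one, Matrix.mulVec, dotProduct, Fin.sum_univ_two]; simp
          linear_combination (-(e 1 1) * v 1) * h1 + ((↑u⁻¹ : R) * v 1) * hdet
    · refine ⟨!![e 0 1, 1; e 1 1, 0], (by
        rw [det_fin_two_of, mul_zero, one_mul, zero_sub, IsUnit.neg_iff, ← hu]; exact u.isUnit),
        ?_, fun v => ⟨v 1 + (↑u⁻¹ : R) * e 1 0 * v 0, ?_⟩⟩
      · funext i; fin_cases i
        · simp only [Fin.zero_eta, Matrix.mulVec, dotProduct, Fin.sum_univ_two]; simp
          linear_combination (e 0 1) * htr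
        · simp only [Fin.mk_one, Matrix.mulVec, dotProduct, Fin.sum_univ_two]; simp
          linear_combination (e 1 1) * htr - hdet
      · have h1 : (↑u⁻¹ : R) * e 1 1 = 1 := by rw [← hu, Units.inv_mul]
        funext i; fin_cases i
        · simp only [Fin.zero_eta, Matrix.mulVec, dotProduct, Fin.sum_univ_two]; simp
          linear_combination (-(e 0 0) * v 0) * h1 + ((↑u⁻¹ : R) * v 0) * hdet
        · simp only [Fin.mk_one, Matrix.mulVec, dotProduct, Fin.sum_univ_two]; simp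
          linear_combination (-(e 1 0) * v 0) * h1
  have hb : Function.Bijective Q.mulVecLin := Function.bijective_iff_has_inverse.mpr
    ⟨fun v => Q⁻¹ *ᵥ v,
      fun v => by simp only [mulVecLin_apply, mulVec_mulVec, nonsing_inv_mul _ hQ, one_mulVec],
      fun v => by simp only [mulVecLin_apply, mulVec_mulVec, mul_nonsing_inv _ hQ, one_mulVec]⟩
  let b := (Pi.basisFun R (Fin 2)).map (LinearEquiv.ofBijective Q.mulVecLin hb)
  have hb0 : b 0 = Q *ᵥ Pi.single 0 1 := by
    simp [b]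
  refine ⟨b, by rw [hb0]; exact hQ0, fun v => ?_⟩
  obtain ⟨c, hc⟩ := hQc v
  rw [hb0, hc]
  exact Submodule.smul_mem _ _ (Submodule.mem_span_singleton_self _)

/-- The matrices of a representation in another basis. -/
theorem toMatrix_basis_mul_matrixOf {B : Type} [CommRing B] [IsLocalRing B] {r : GQ →* M2 B}
    (h : IsContRep r) (b : Module.Basis (Fin 2) B (Fin 2 → B)) (σ : GQ) :
    (Pi.basisFun B (Fin 2)).toMatrix b * matrixOf (ofMatrix r h) b σ =
      r σ * (Pi.basisFun B (Fin 2)).toMatrix b := by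
  have h1 : LinearMap.toMatrix (Pi.basisFun B (Fin 2)) (Pi.basisFun B (Fin 2))
      ((ofMatrix r h).ρ σ) = r σ := DFunLike.congr_fun (matrixOf_ofMatrix r h) σ
  show (Pi.basisFun B (Fin 2)).toMatrix b * LinearMap.toMatrix b b ((ofMatrix r h).ρ σ) = _
  refine (basis_toMatrix_mul_linearMap_toMatrix _ _ _ _).trans ?_
  refine Eq.trans ?_ (congrArg (· * _) h1)
  exact (linearMap_toMatrix_mul_basis_toMatrix _ _ _ _).symm

/-- The action on the space of a matrix representation. -/
theorem ofMatrix_rho_apply {B : Type} [CommRing B] [IsLocalRing B] {r : GQ →* M2 B}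
    (h : IsContRep r) (σ : GQ) (v : Fin 2 → B) : (ofMatrix r h).ρ σ v = r σ *ᵥ v := by
  show Matrix.toLinAlgEquiv (Pi.basisFun B (Fin 2)) (r σ) v = r σ *ᵥ v
  rw [Matrix.toLinAlgEquiv_apply]
  funext i
  fin_cases i <;> simp [Pi.basisFun_apply, Fin.sum_univ_two]

variable {O : Type} [CommRing O] [IsDomain O] [IsDiscreteValuationRing O]
  [IsAdicComplete (maximalIdeal O) O]
  {rb : GQ →* Matrix (Fin 2) (Fin 2) (ResidueField O)} {cyc : GQ → O}
  {S : PointSet rb cyc}

omit [IsAdicComplete (maximalIdeal O) O] in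
/-- **Artin–Rees.** An element small in every projection is small. -/
theorem PointSet.Model.exists_shift (M : S.Model) (I : Ideal O) :
    ∃ k, ∀ n (x : M.R), (∀ j, M.proj j x ∈ (I ^ (k + n)).map (algebraMap O (S.B j))) →
      x ∈ (I ^ n).map (algebraMap O M.R) := by
  classical
  have : Fintype S.J := Fintype.ofFinite S.J
  let G : M.R →ₗ[O] ∀ j, S.B j := LinearMap.pi fun j => (M.proj j).toLinearMap
  have hG : Function.Injective G := (injective_iff_map_eq_zero G).mpr fun x hx =>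
    M.proj_injective x fun j => congrFun hx j
  obtain ⟨k, hk⟩ := Ideal.exists_pow_inf_eq_pow_smul I (LinearMap.range G)
  refine ⟨k, fun n x hx => ?_⟩
  have h1 : G x ∈ I ^ (k + n) • (⊤ : Submodule O (∀ j, S.B j)) ⊓ LinearMap.range G := by
    refine Submodule.mem_inf.mpr ⟨?_, LinearMap.mem_range_self G x⟩
    rw [show G x = ∑ j, Pi.single j (G x j) from (Finset.univ_sum_single (G x)).symm]
    refine Submodule.sum_mem _ fun j _ => ?_
    have hj : G x j ∈ I ^ (k + n) • (⊤ : Submodule O (S.B j)) := by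
      rw [Ideal.smul_top_eq_map]
      exact hx j
    have := Submodule.mem_map_of_mem (f := LinearMap.single O (fun j => S.B j) j) hj
    rw [Submodule.map_smul''] at this
    exact Submodule.smul_mono le_rfl le_top this
  rw [hk (k + n) (Nat.le_add_right k n), Nat.add_sub_cancel_left] at h1
  have h2 : G x ∈ (I ^ n • (⊤ : Submodule O M.R)).map G := by
    rw [Submodule.map_smul'', Submodule.map_top]
    exact Submodule.smul_mono le_rfl inf_le_right h1
  obtain ⟨y, hy, hyx⟩ := h2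
  rw [← hG hyx]
  rw [Ideal.smul_top_eq_map] at hy
  exact hy

omit [IsAdicComplete (maximalIdeal O) O] in
/-- The structure map of a carried algebra is local. -/
theorem Carried.map_maximalIdeal_le (C : Carried rb cyc) :
    (maximalIdeal O).map (algebraMap O C.R) ≤ maximalIdeal C.R := by
  refine Ideal.map_le_iff_le_comap.mpr fun c hc => (mem_maximalIdeal _).mpr fun hu => ?_
  have h1 := (hu.map C.π)
  rw [show C.π (algebraMap O C.R c) = residue O c from RingHom.congr_fun C.π_algebraMap c,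
    (residue_eq_zero_iff c).mpr hc] at h1
  exact not_isUnit_zero h1

omit [IsAdicComplete (maximalIdeal O) O] in
/-- A finite quotient is killed by a power of the maximal ideal. -/
theorem Carried.exists_pow_le (C : Carried rb cyc) (I : Ideal C.R) [Finite (C.R ⧸ I)] :
    ∃ t, maximalIdeal C.R ^ t ≤ I := by
  by_cases hI : I = ⊤
  · exact ⟨0, hI ▸ le_top⟩
  have : Finite (Ideal (C.R ⧸ I)) :=
    Finite.of_injective (fun J : Ideal (C.R ⧸ I) => (J : Set (C.R ⧸ I))) SetLike.coe_injective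
  obtain ⟨a, b, hab, he⟩ := Finite.exists_ne_map_eq_of_infinite fun n =>
    (maximalIdeal C.R ^ n).map (Ideal.Quotient.mk I)
  wlog hlt : a < b generalizing a b
  · exact this b a hab.symm he.symm (lt_of_le_of_ne (not_lt.mp hlt) hab.symm)
  refine ⟨a, Submodule.le_of_le_smul_of_le_jacobson_bot (IsNoetherian.noetherian _)
    (maximalIdeal_le_jacobson ⊥) fun x hx => ?_⟩
  have hx' : Ideal.Quotient.mk I x ∈ (maximalIdeal C.R ^ b).map (Ideal.Quotient.mk I) :=
    he ▸ Ideal.mem_map_of_mem _ hx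
  obtain ⟨y, hy, hyx⟩ := (Ideal.mem_map_iff_of_surjective _ Ideal.Quotient.mk_surjective).mp hx'
  rw [Ideal.Quotient.eq] at hyx
  refine Submodule.mem_sup.mpr ⟨x - y, by simpa using I.neg_mem hyx, y, ?_, sub_add_cancel x y⟩
  rw [smul_eq_mul, ← pow_succ']
  exact Ideal.pow_le_pow_right (Nat.succ_le_of_lt hlt) hy

omit [IsAdicComplete (maximalIdeal O) O] in
/-- Powers of the maximal ideal of `O` cut out finite quotients of a point. -/
theorem PointSet.finite_quotient_map [Finite (ResidueField O)] (S : PointSet rb cyc) (j : S.J)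
    (N : ℕ) : Finite (S.B j ⧸ (maximalIdeal O ^ N).map (algebraMap O (S.B j))) := by
  have : Finite (O ⧸ maximalIdeal O) := ‹Finite (ResidueField O)›
  have : Finite (O ⧸ maximalIdeal O ^ N) :=
    Ideal.finite_quotient_pow (IsNoetherian.noetherian _) N
  have : Module.Finite (O ⧸ maximalIdeal O ^ N)
      (S.B j ⧸ (maximalIdeal O ^ N).map (algebraMap O (S.B j))) :=
    Module.Finite.of_restrictScalars_finite O _ _
  exact Module.finite_of_finite (O ⧸ maximalIdeal O ^ N)

variable {p : ℕ} {A : ValuationSubring Qb}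

omit [IsAdicComplete (maximalIdeal O) O] in
/-- **Flat points give flat models of the carried lift.** -/
theorem PointSet.Model.hasFlatModels [Finite (ResidueField O)] (M : S.Model)
    (hA : A.LiesOverPrime p) (h : ∀ j, (ofMatrix (S.r j) (S.cont j)).IsFlatAt p) :
    HasFlatModels (ofMatrix M.rR M.cont) A := by
  classical
  intro I hI inst
  have : Fintype S.J := Fintype.ofFinite S.J
  obtain ⟨t, ht⟩ := M.toCarried.exists_pow_le I
  obtain ⟨k, hk⟩ := M.exists_shift (maximalIdeal O)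
  let Jd : ∀ j, Ideal (S.B j) := fun j =>
    (maximalIdeal O ^ (k + t)).map (algebraMap O (S.B j))
  have hJfin : ∀ j, Finite (S.B j ⧸ Jd j) := fun j => S.finite_quotient_map j (k + t)
  let W : S.J → Type := fun j => (Fin 2 → S.B j) ⧸ (Jd j • (⊤ : Submodule (S.B j) (Fin 2 → S.B j)))
  have hWfin : ∀ j, Finite (W j) := fun j => by
    refine Finite.of_surjective (fun v : Fin 2 → S.B j ⧸ Jd j =>
      (Submodule.Quotient.mk fun i => Quotient.out (v i) : W j)) fun w => ?_
    obtain ⟨w, rfl⟩ := Submodule.Quotient.mk_surjective _ w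
    refine ⟨fun i => Ideal.Quotient.mk _ (w i), (Submodule.Quotient.eq _).mpr ?_⟩
    rw [mem_smul_top_iff_repr (Pi.basisFun (S.B j) (Fin 2))]
    intro i
    rw [Pi.basisFun_repr, Pi.sub_apply, ← Ideal.Quotient.eq]
    exact Quotient.out_eq _
  let ftW : ∀ j, Fintype (W j) := fun j => Fintype.ofFinite _
  have hmod : ∀ j, HasModel A (W j) fun σ x =>
      (ofMatrix (S.r j) (S.cont j)).levelAction (Jd j) σ x := fun j => by
    have := hJfin j
    exact @hasModel_of_isFlatAt A p _ _ _ (ofMatrix (S.r j) (S.cont j)) hA (h j) (Jd j) (hJfin j)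
      (ftW j)
  choose U hU hUσ using M.proj_rR
  choose u hu using hU
  let ι₀ : (Fin 2 → M.R) →+ ∀ j, W j := AddMonoidHom.mk'
    (fun v j => Submodule.Quotient.mk
      (((u j)⁻¹ : (M2 (S.B j))ˣ).1 *ᵥ fun i => M.proj j (v i)))
    fun v w => funext fun j => by
      show _ = (_ : W j) + _
      rw [← Submodule.Quotient.mk_add, ← mulVec_add]
      congr 2
      funext i
      exact map_add _ _ _
  have hker : ∀ v, ι₀ v = 0 → v ∈ I • (⊤ : Submodule M.R (Fin 2 → M.R)) := by
    intro v hv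
    rw [mem_smul_top_iff_repr (Pi.basisFun M.R (Fin 2))]
    intro i
    rw [Pi.basisFun_repr]
    refine (Ideal.map_pow (algebraMap O M.R) (maximalIdeal O) t ▸
      (Ideal.pow_right_mono M.toCarried.map_maximalIdeal_le t).trans ht) (hk t _ fun j => ?_)
    have h1 := (mem_smul_top_iff_repr (Pi.basisFun (S.B j) (Fin 2)) _ _).mp
      ((Submodule.Quotient.mk_eq_zero _).mp (congrFun hv j))
    have h2 : (fun i => M.proj j (v i)) = (u j).1 *ᵥ
        (((u j)⁻¹ : (M2 (S.B j))ˣ).1 *ᵥ fun i => M.proj j (v i)) := by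
      rw [mulVec_mulVec, Units.mul_inv, one_mulVec]
    rw [congrFun h2 i]
    simp only [Pi.basisFun_repr] at h1
    rw [Matrix.mulVec_eq_sum, Finset.sum_apply]
    refine Ideal.sum_mem _ fun l _ => ?_
    simp only [Pi.smul_apply, MulOpposite.smul_eq_mul_unop, MulOpposite.unop_op]
    exact Ideal.mul_mem_left _ _ (h1 l)
  have heq : ∀ σ v, ι₀ (M.rR σ *ᵥ v) =
      fun j => (ofMatrix (S.r j) (S.cont j)).levelAction (Jd j) σ (ι₀ v j) := by
    intro σ v
    funext j
    refine Eq.trans ?_ (congrArg Submodule.Quotient.mk (ofMatrix_rho_apply (S.cont j) σ _).symm)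
    show Submodule.Quotient.mk _ = Submodule.Quotient.mk _
    congr 1
    have h1 : ((u j)⁻¹ : (M2 (S.B j))ˣ).1 * (M.rR σ).map (M.proj j) =
        S.r j σ * ((u j)⁻¹ : (M2 (S.B j))ˣ).1 := by
      calc _ = ((u j)⁻¹ : (M2 (S.B j))ˣ).1 * ((M.rR σ).map (M.proj j) * U j) *
            ((u j)⁻¹ : (M2 (S.B j))ˣ).1 := by
            rw [← hu, mul_assoc, mul_assoc, Units.mul_inv, mul_one]
        _ = _ := by rw [← hUσ j σ, ← hu, ← mul_assoc, Units.inv_mul, one_mul]
    rw [show (fun i => M.proj j ((M.rR σ *ᵥ v) i)) =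
        (M.rR σ).map (M.proj j) *ᵥ fun i => M.proj j (v i) from
      funext fun i => RingHom.map_mulVec (M.proj j).toRingHom (M.rR σ) v i, mulVec_mulVec, h1,
      ← mulVec_mulVec]
  let T := ι₀.range
  let _ : Fintype T := Fintype.ofFinite _
  let act' : GQ → T → T := fun σ x =>
    ⟨fun j => (ofMatrix (S.r j) (S.cont j)).levelAction (Jd j) σ (x.1 j), by
      obtain ⟨v, hv⟩ := x.2
      exact ⟨M.rR σ *ᵥ v, by rw [heq, hv]⟩⟩
  have hT : HasModel A T act' :=
    HasModel.of_injective (hasModel_pi hmod) T.subtype Subtype.coe_injective fun σ _ x => rfl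
  let q : (Fin 2 → M.R) →+ (Fin 2 → M.R) ⧸ (I • (⊤ : Submodule M.R (Fin 2 → M.R))) :=
    (I • (⊤ : Submodule M.R (Fin 2 → M.R))).mkQ.toAddMonoidHom
  let π : T →+ (Fin 2 → M.R) ⧸ (I • (⊤ : Submodule M.R (Fin 2 → M.R))) :=
    AddMonoidHom.liftOfSurjective ι₀.rangeRestrict ι₀.rangeRestrict_surjective
      ⟨q, fun v hv => (Submodule.Quotient.mk_eq_zero _).mpr (hker v (congrArg Subtype.val hv))⟩
  have hπ : ∀ v, π (ι₀.rangeRestrict v) = q v := fun v =>
    AddMonoidHom.liftOfRightInverse_comp_apply _ _ _ _ v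
  refine HasModel.of_surjective hT π (fun y => ?_) fun σ _ x => ?_
  · obtain ⟨v, rfl⟩ := Submodule.Quotient.mk_surjective _ y
    exact ⟨_, hπ v⟩
  · obtain ⟨v, rfl⟩ := ι₀.rangeRestrict_surjective x
    have h1 : act' σ (ι₀.rangeRestrict v) = ι₀.rangeRestrict (M.rR σ *ᵥ v) :=
      Subtype.ext (heq σ v).symm
    refine ((congrArg π h1).trans (hπ _)).trans ?_
    refine Eq.trans ?_ (congrArg ((ofMatrix M.rR M.cont).levelAction I σ) (hπ v)).symm
    exact (congrArg (⇑q) (ofMatrix_rho_apply M.cont σ v)).symm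

omit [IsAdicComplete (maximalIdeal O) O] in
/-- **Strictly ordinary points give a strictly ordinary carried lift.** -/
theorem PointSet.Model.isStrictOrdinaryAt [hp : Fact p.Prime] (hp2 : p ≠ 2) (M : S.Model)
    (hpO : (p : O) ∈ maximalIdeal O)
    (h : ∀ j, (ofMatrix (S.r j) (S.cont j)).IsStrictOrdinaryAt p) :
    (ofMatrix M.rR M.cont).IsStrictOrdinaryAt p := by
  classical
  refine ⟨M.toCarried.map_maximalIdeal_le ?_, fun P hP => ?_⟩
  · rw [← map_natCast (algebraMap O M.R)]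
    exact Ideal.mem_map_of_mem _ hpO
  choose L hb hD hI hs using fun j => (h j).2 P hP
  choose b hLb using hb
  choose U hU hUσ using M.proj_rR
  -- the projections in adapted bases
  let C : ∀ j, M2 (S.B j) := fun j => U j * (Pi.basisFun (S.B j) (Fin 2)).toMatrix (b j)
  have hC : ∀ j, IsUnit (C j) := fun j =>
    (hU j).mul (IsUnit.of_mul_eq_one _ ((Pi.basisFun (S.B j) (Fin 2)).toMatrix_mul_toMatrix_flip (b j)))
  choose c hc using hC
  let Φ : ∀ j, M2 M.R →+* M2 (S.B j) := fun j =>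
    (MulSemiringAction.toRingHom (ConjAct (M2 (S.B j))ˣ) _ (ConjAct.toConjAct (c j)⁻¹)).comp
      (M.proj j).toRingHom.mapMatrix
  have hΦ : ∀ j X, Φ j X = ((c j)⁻¹ : (M2 (S.B j))ˣ).1 * X.map (M.proj j) * C j := fun j X => by
    rw [← hc j]
    show ((c j)⁻¹ : (M2 (S.B j))ˣ).1 * X.map (M.proj j) *
      (((c j)⁻¹)⁻¹ : (M2 (S.B j))ˣ).1 = _
    rw [inv_inv]
  have hΦinj : ∀ X Y, (∀ j, Φ j X = Φ j Y) → X = Y := fun X Y hXY => by
    ext i l
    refine sub_eq_zero.mp (M.proj_injective _ fun j => ?_)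
    have h1 := hXY j
    rw [hΦ, hΦ, ← hc j, Units.mul_left_inj, Units.mul_right_inj] at h1
    rw [map_sub, sub_eq_zero]
    exact congrFun (congrFun h1 i) l
  have hΦsmul : ∀ j (a : M.R) X, Φ j (a • X) = M.proj j a • Φ j X := fun j a X => by
    rw [hΦ, hΦ, Matrix.map_smul' _ _ _ (map_mul (M.proj j)), Matrix.mul_smul, Matrix.smul_mul]
  have hΦtr : ∀ j X, (Φ j X).trace = M.proj j X.trace := fun j X => by
    rw [hΦ, ← hc j, Matrix.trace_units_conj', AddMonoidHom.map_trace (M.proj j)]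
  have hΦdet : ∀ j X, (Φ j X).det = M.proj j X.det := fun j X => by
    rw [hΦ, ← hc j, Matrix.det_units_conj']
    exact ((M.proj j).toRingHom.map_det X).symm
  -- the points in the adapted bases
  let T : ∀ j, GQ → M2 (S.B j) := fun j σ => matrixOf (ofMatrix (S.r j) (S.cont j)) (b j) σ
  have hΦT : ∀ j σ, Φ j (M.rR σ) = T j σ := fun j σ => by
    rw [hΦ, mul_assoc, ← hc j, Units.inv_mul_eq_iff_eq_mul, hc j]
    show (M.rR σ).map (M.proj j) * (U j * _) = U j * _ * _
    rw [← mul_assoc, ← hUσ, mul_assoc, mul_assoc]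
    exact congrArg (U j * ·) (toMatrix_basis_mul_matrixOf (S.cont j) (b j) σ).symm
  have hTdet : ∀ j σ, (T j σ).det = algebraMap O (S.B j) (cyc σ) := fun j σ => by
    rw [← hΦT, hΦdet, M.det, AlgHom.commutes]
  have hT : ∀ j, ∀ σ ∈ P.decompositionSubgroup ℚ, T j σ 1 0 = 0 ∧
      ∀ (n a : ℕ), (∀ μ : Qb, μ ^ p ^ n = 1 → σ μ = μ ^ a) →
        T j σ 0 0 - (a : S.B j) * T j σ 1 1 ∈ Ideal.span {((p ^ n : ℕ) : S.B j)} := by
    intro j σ hσ
    obtain ⟨x, z, hx, hz, ha⟩ := hs j σ hσ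
    have hb0 : b j 0 ∈ L j := by rw [hLb j]; exact Submodule.mem_span_singleton_self _
    have hTe : ∀ i l, T j σ i l = (b j).repr ((ofMatrix (S.r j) (S.cont j)).ρ σ (b j l)) i :=
      fun i l => LinearMap.toMatrix_apply (b j) (b j) _ i l
    have h00 : T j σ 0 0 = x := by rw [hTe, hx _ hb0]; simp
    have h11 : T j σ 1 1 = z := by
      obtain ⟨w, hw⟩ := Submodule.mem_span_singleton.mp (hLb j ▸ hz (b j 1))
      have h1 := congrArg (fun v => (b j).repr v 1) hw
      simp at h1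
      rw [hTe]
      linear_combination -h1
    refine ⟨by rw [hTe, hx _ hb0]; simp, fun n a hμ => ?_⟩
    rw [h00, h11]
    exact ha n a hμ
  have hTI : ∀ j, ∀ σ ∈ P.inertiaSubgroupIn ℚ, T j σ 1 1 = 1 := by
    intro j σ hσ
    obtain ⟨w, hw⟩ := Submodule.mem_span_singleton.mp (hLb j ▸ hI j σ hσ (b j 1))
    have h1 := congrArg (fun v => (b j).repr v 1) hw
    simp at h1
    show LinearMap.toMatrix (b j) (b j) _ 1 1 = 1
    rw [LinearMap.toMatrix_apply]
    linear_combination -h1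
  have hID : ∀ σ, σ ∈ P.inertiaSubgroupIn ℚ → σ ∈ P.decompositionSubgroup ℚ := fun σ hσ =>
    TW.inertia_le_decomposition hσ
  -- an inertia element with nontrivial cyclotomic character
  obtain ⟨ζ, hζ⟩ := exists_zeta hp.out
  have : NeZero p := ⟨hp.out.ne_zero⟩
  obtain ⟨σ₀, hσ₀, hσ₀ζ⟩ := exists_inertia_zeta hp.out hP hζ (m := 2)
    (fun h2 => hp2 ((Nat.prime_dvd_prime_iff_eq hp.out Nat.prime_two).mp h2))
  have hμ₀ : ∀ μ : Qb, μ ^ p ^ 1 = 1 → σ₀ μ = μ ^ 2 := fun μ hμ => by
    rw [pow_one] at hμ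
    obtain ⟨i, -, rfl⟩ := hζ.eq_pow_of_pow_eq_one hμ
    rw [map_pow, hσ₀ζ, ← pow_mul, ← pow_mul, mul_comm]
  obtain ⟨d, hd⟩ : IsUnit (cyc σ₀ - 1) := by
    obtain ⟨j⟩ := M.nonempty_points
    obtain ⟨h10, h1⟩ := hT j σ₀ (hID _ hσ₀)
    obtain ⟨y, hy⟩ := Ideal.mem_span_singleton'.mp (h1 1 2 hμ₀)
    have hdet := hTdet j σ₀
    rw [det_fin_two, hTI j σ₀ hσ₀, mul_one, h10, mul_zero, sub_zero] at hdet
    rw [hTI j σ₀ hσ₀, mul_one, hdet, pow_one,
      ← map_natCast (algebraMap O (S.B j)) p] at hy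
    have hy' := congrArg (S.ε j) hy
    rw [map_mul, map_sub, S.ε_algebraMap, S.ε_algebraMap, map_natCast (S.ε j),
      (residue_eq_zero_iff _).mpr hpO, mul_zero] at hy'
    refine (residue_ne_zero_iff_isUnit _).mp ?_
    rw [map_sub, map_one]
    intro h0
    exact one_ne_zero (α := ResidueField O) (by push_cast at hy'; linear_combination hy' + h0)
  -- the idempotent
  set e : M2 M.R := algebraMap O M.R (↑d⁻¹) • (M.rR σ₀ - 1) with he
  have hE : ∀ j, Φ j e 0 0 = 1 ∧ Φ j e 1 0 = 0 ∧ Φ j e 1 1 = 0 := by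
    intro j
    obtain ⟨h10, -⟩ := hT j σ₀ (hID _ hσ₀)
    have h11 := hTI j σ₀ hσ₀
    have hdet := hTdet j σ₀
    rw [det_fin_two, h11, mul_one, h10, mul_zero, sub_zero] at hdet
    rw [he, hΦsmul, map_sub, map_one, hΦT, AlgHom.commutes]
    refine ⟨?_, by simp [h10], by simp [h11]⟩
    rw [Matrix.smul_apply, Matrix.sub_apply, hdet, Matrix.one_apply_eq, smul_eq_mul,
      ← map_one (algebraMap O (S.B j)), ← map_sub, ← map_mul, ← hd, Units.inv_mul]
  have htr : e.trace = 1 := by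
    refine sub_eq_zero.mp (M.proj_injective _ fun j => ?_)
    rw [map_sub, map_one, ← hΦtr, trace_fin_two, (hE j).1, (hE j).2.2, add_zero, sub_self]
  have hdet : e.det = 0 := M.proj_injective _ fun j => by
    rw [← hΦdet, det_fin_two, (hE j).2.1, (hE j).2.2, mul_zero, mul_zero, sub_zero]
  obtain ⟨w, hwe, hw⟩ := exists_line_of_idem htr hdet
  have hρ : ∀ σ (v : Fin 2 → M.R), (ofMatrix M.rR M.cont).ρ σ v = M.rR σ *ᵥ v :=
    ofMatrix_rho_apply M.cont
  -- the relations
  have hrel : ∀ σ ∈ P.decompositionSubgroup ℚ,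
      M.rR σ * e = (M.rR σ * e).trace • e ∧
      e * (M.rR σ - ((M.rR σ).trace - (M.rR σ * e).trace) • 1) =
        M.rR σ - ((M.rR σ).trace - (M.rR σ * e).trace) • 1 ∧
      ∀ j, M.proj j (M.rR σ * e).trace = T j σ 0 0 ∧
        M.proj j ((M.rR σ).trace - (M.rR σ * e).trace) = T j σ 1 1 := by
    intro σ hσ
    have hxj : ∀ j, M.proj j (M.rR σ * e).trace = T j σ 0 0 := fun j => by
      obtain ⟨h10, -⟩ := hT j σ hσ
      rw [← hΦtr, map_mul, hΦT, trace_fin_two, Matrix.mul_apply, Matrix.mul_apply]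
      simp [Fin.sum_univ_two, (hE j).1, (hE j).2.1, (hE j).2.2, h10]
    have hzj : ∀ j, M.proj j ((M.rR σ).trace - (M.rR σ * e).trace) = T j σ 1 1 := fun j => by
      rw [map_sub, hxj, ← hΦtr, hΦT, trace_fin_two, add_sub_cancel_left]
    refine ⟨hΦinj _ _ fun j => ?_, hΦinj _ _ fun j => ?_, fun j => ⟨hxj j, hzj j⟩⟩
    · obtain ⟨h10, -⟩ := hT j σ hσ
      rw [hΦsmul, hxj, map_mul, hΦT]
      ext i l
      fin_cases i <;> fin_cases l <;>
        simp [Matrix.mul_apply, Fin.sum_univ_two, (hE j).1, (hE j).2.1, (hE j).2.2, h10]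
    · obtain ⟨h10, -⟩ := hT j σ hσ
      rw [map_mul, map_sub, hΦsmul _ _ 1, map_one, hzj, hΦT]
      ext i l
      fin_cases i <;> fin_cases l <;>
        simp [Matrix.mul_apply, Fin.sum_univ_two, (hE j).1, (hE j).2.1, (hE j).2.2, h10]
  have hstab : ∀ σ ∈ P.decompositionSubgroup ℚ, ∀ v ∈ (M.R ∙ w 0),
      (ofMatrix M.rR M.cont).ρ σ v = (M.rR σ * e).trace • v := by
    intro σ hσ v hv
    obtain ⟨s, rfl⟩ := Submodule.mem_span_singleton.mp hv
    refine (hρ σ _).trans ?_
    show M.rR σ *ᵥ (s • w 0) = (M.rR σ * e).trace • s • w 0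
    rw [mulVec_smul, smul_comm]
    congr 1
    conv_lhs => rw [← hwe, mulVec_mulVec, (hrel σ hσ).1, smul_mulVec, hwe]
  refine ⟨M.R ∙ w 0, ⟨w, rfl⟩, fun σ hσ v hv => ?_,
    fun σ hσ (v : Fin 2 → M.R) => ?_, fun σ hσ => ?_⟩
  · rw [hstab σ hσ v hv]
    exact Submodule.smul_mem _ _ hv
  · obtain ⟨-, h2, h3⟩ := hrel σ (hID _ hσ)
    have hz : (M.rR σ).trace - (M.rR σ * e).trace = 1 :=
      sub_eq_zero.mp (M.proj_injective _ fun j => by
        rw [map_sub, (h3 j).2, map_one, hTI j σ hσ, sub_self])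
    rw [hz, one_smul] at h2
    have h4 := hw ((M.rR σ - 1) *ᵥ v)
    rw [mulVec_mulVec, h2, sub_mulVec, one_mulVec] at h4
    exact Eq.subst (motive := fun x : Fin 2 → M.R => x - v ∈ M.R ∙ w 0) (hρ σ v).symm h4
  · obtain ⟨h1, h2, h3⟩ := hrel σ hσ
    refine ⟨(M.rR σ * e).trace, (M.rR σ).trace - (M.rR σ * e).trace, hstab σ hσ,
      fun (v : Fin 2 → M.R) => ?_,
      fun n a hμ => ?_⟩
    · have h4 := hw ((M.rR σ - ((M.rR σ).trace - (M.rR σ * e).trace) • 1) *ᵥ v)
      rw [mulVec_mulVec, h2, sub_mulVec, smul_mulVec, one_mulVec] at h4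
      exact Eq.subst (motive := fun x : Fin 2 → M.R =>
        x - ((M.rR σ).trace - (M.rR σ * e).trace) • v ∈ M.R ∙ w 0) (hρ σ v).symm h4
    · obtain ⟨k, hk⟩ := M.exists_shift (Ideal.span {(p : O)})
      obtain ⟨ξ, hξ⟩ := exists_primitiveRoot hp.out (k + n)
      have : NeZero (p ^ (k + n)) := ⟨pow_ne_zero _ hp.out.ne_zero⟩
      obtain ⟨a', -, ha'⟩ := hξ.eq_pow_of_pow_eq_one
        (show σ ξ ^ (p ^ (k + n)) = 1 by rw [← map_pow, hξ.pow_eq_one, map_one])
      have hμ' : ∀ μ : Qb, μ ^ p ^ (k + n) = 1 → σ μ = μ ^ a' := fun μ hμμ => by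
        obtain ⟨i, -, rfl⟩ := hξ.eq_pow_of_pow_eq_one hμμ
        rw [map_pow, ← ha', ← pow_mul, ← pow_mul, mul_comm]
      have hmain : (M.rR σ * e).trace - (a' : M.R) * ((M.rR σ).trace - (M.rR σ * e).trace) ∈
          Ideal.span {((p ^ n : ℕ) : M.R)} := by
        have h5 := hk n ((M.rR σ * e).trace -
            (a' : M.R) * ((M.rR σ).trace - (M.rR σ * e).trace)) fun j => by
          rw [map_sub, map_mul, map_natCast, (h3 j).1, (h3 j).2, Ideal.span_singleton_pow,
            Ideal.map_span, Set.image_singleton, map_pow, map_natCast, ← Nat.cast_pow]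
          exact (hT j σ hσ).2 (k + n) a' hμ'
        rwa [Ideal.span_singleton_pow, Ideal.map_span, Set.image_singleton, map_pow, map_natCast,
          ← Nat.cast_pow] at h5
      obtain ⟨ξ', hξ'⟩ := exists_primitiveRoot hp.out n
      have haa : (a : ℕ) ≡ a' [MOD p ^ n] := by
        have e1 := hμ ξ' hξ'.pow_eq_one
        have e2 := hμ' ξ' ((hξ'.pow_eq_one_iff_dvd _).mpr (pow_dvd_pow p (Nat.le_add_left n k)))
        have hN : 0 < p ^ n := pow_pos hp.out.pos n
        refine hξ'.pow_inj (Nat.mod_lt _ hN) (Nat.mod_lt _ hN) ?_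
        rw [← pow_eq_pow_mod a hξ'.pow_eq_one, ← pow_eq_pow_mod a' hξ'.pow_eq_one, ← e1, ← e2]
      obtain ⟨q, hq⟩ := (Nat.modEq_iff_dvd.mp haa)
      have haR : (a' : M.R) - a = ((p ^ n : ℕ) : M.R) * (q : M.R) := by
        have := congrArg (fun z : ℤ => (z : M.R)) hq
        push_cast at this ⊢
        exact this
      have h6 : (M.rR σ * e).trace - (a : M.R) * ((M.rR σ).trace - (M.rR σ * e).trace) =
          ((M.rR σ * e).trace - (a' : M.R) * ((M.rR σ).trace - (M.rR σ * e).trace)) +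
          ((p ^ n : ℕ) : M.R) * ((q : M.R) * ((M.rR σ).trace - (M.rR σ * e).trace)) := by
        linear_combination ((M.rR σ).trace - (M.rR σ * e).trace) * haR
      rw [h6]
      exact add_mem hmain (Ideal.mul_mem_right _ _ (Ideal.mem_span_singleton_self _))

end FA.RT
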