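import Fermat.Agent.RT.Tate.Det
import Fermat.Agent.RT.Tate.Mult
import Fermat.Agent.RT.Tate.Flat
import Fermat.Prelude.Def_GaloisRep_StrictOrdinary
import Mathlib.LinearAlgebra.Matrix.Charpoly.Coeff

/-!
# The point of a semistable elliptic curve

The `p`-adic representation of an integral equation with semistable reduction, with coefficients
in a ring receiving `ℤ_p`: determinant, residual representation, traces at all primes different
from `p`, and the local conditions at `p`.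
-/

set_option autoImplicit false
set_option linter.unusedSectionVars false

noncomputable section

open IsLocalRing Matrix WeierstrassCurve FA.EC FA.Frob FA.Deform FA.JTorsion
open scoped WeierstrassCurve.Affine Pointwise

namespace FA.RT

open Tate

local notation "Qb" => AlgebraicClosure ℚ
local notation "GQ" => AlgebraicClosure ℚ ≃ₐ[ℚ] AlgebraicClosure ℚ
local notation "M2" => Matrix (Fin 2) (Fin 2)

variable {p : ℕ} [hp : Fact p.Prime] {W : WeierstrassCurve ℤ} [(ratCurve W).IsElliptic]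

section Matrices

variable (B : TateBasis p W) {q : ℕ} {A : ValuationSubring Qb}

/-- Inertia at a multiplicative prime different from `p` has trace `2`. -/
theorem Tate.TateBasis.trace_inertia_mult (hp2 : p ≠ 2) (hm : MultAt W q A) (hqp : q ≠ p) {σ : GQ}
    (hσ : σ ∈ A.inertiaSubgroupIn ℚ) : (B.rep σ).trace = 2 := by
  obtain ⟨C, hC, h⟩ := B.exists_triangular hp2 hm
  obtain ⟨x, y, z, e, -, hz⟩ := h σ (LocalDef.inertia_le_decomposition hσ)
  obtain ⟨c, hc⟩ := (Matrix.isUnit_iff_isUnit_det C).mpr hC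
  have hM : B.rep σ = c.1 * !![x, y; 0, z] * (c⁻¹ : (M2 ℤ_[p])ˣ).1 := by
    rw [Units.eq_mul_inv_iff_mul_eq, hc, e]
  have hdet := B.det_rep σ
  rw [cycP_inertia p hm.prime hqp hm.lies hσ, Units.val_one, hM, Matrix.det_units_conj,
    det_fin_two_of, hz hσ, mul_one, mul_zero, sub_zero] at hdet
  rw [hM, Matrix.trace_units_conj, trace_fin_two_of, hdet, hz hσ]
  norm_num

/-- A Frobenius element at a multiplicative prime different from `p` has trace `±(q + 1)`. -/
theorem Tate.TateBasis.trace_frobenius_mult (hp2 : p ≠ 2) (hm : MultAt W q A) (hqp : q ≠ p)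
    {σ : GQ} (hσ : A.IsFrobeniusAt σ q) :
    ∃ s : ℤ, (s = 1 ∨ s = -1) ∧ (B.rep σ).trace = (s : ℤ_[p]) * (q + 1) := by
  obtain ⟨C, hC, h⟩ := B.exists_triangular hp2 hm
  obtain ⟨x, y, z, e, hz, -⟩ := h σ hσ.mem_decompositionSubgroup
  obtain ⟨c, hc⟩ := (Matrix.isUnit_iff_isUnit_det C).mpr hC
  have hM : B.rep σ = c.1 * !![x, y; 0, z] * (c⁻¹ : (M2 ℤ_[p])ˣ).1 := by
    rw [Units.eq_mul_inv_iff_mul_eq, hc, e]
  have hdet := B.det_rep σ
  rw [cycP_frobenius p hm.prime hqp hm.lies hσ, hM, Matrix.det_units_conj, det_fin_two_of,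
    mul_zero, sub_zero] at hdet
  rw [hM, Matrix.trace_units_conj, trace_fin_two_of]
  rcases hz with rfl | rfl
  · exact ⟨1, Or.inl rfl, by rw [← hdet]; push_cast; ring⟩
  · exact ⟨-1, Or.inr rfl, by rw [← hdet]; push_cast; ring⟩

end Matrices

variable {O : Type} [CommRing O] [IsLocalRing O]

/-- A ring map from `ℤ_p` to the residue field reads the first digit. -/
theorem residue_comp_eq (hpO : (p : O) ∈ maximalIdeal O) (ι : ℤ_[p] →+* O)
    (j : ZMod p →+* ResidueField O) (x : ℤ_[p]) :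
    residue O (ι x) = j ((PadicInt.toZModPow 1 x).val : ZMod p) := by
  have : NeZero (p ^ 1) := ⟨pow_ne_zero _ hp.out.ne_zero⟩
  have h : x - ((PadicInt.toZModPow 1 x).val : ℤ_[p]) ∈ Ideal.span {(p : ℤ_[p]) ^ 1} := by
    rw [← PadicInt.ker_toZModPow, RingHom.mem_ker, map_sub, map_natCast, ZMod.natCast_zmod_val,
      sub_self]
  rw [pow_one] at h
  obtain ⟨c, hc⟩ := Ideal.mem_span_singleton'.mp h
  have h0 : residue O (ι (x - ((PadicInt.toZModPow 1 x).val : ℤ_[p]))) = 0 := by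
    rw [← hc, map_mul, map_natCast, map_mul, (residue_eq_zero_iff _).mpr hpO, mul_zero]
  rw [map_sub, map_sub, map_natCast, map_natCast, sub_eq_zero] at h0
  rw [h0, map_natCast]

/-- Congruence modulo `p ^ n` passes to `O`. -/
theorem map_mem_span_of_toZModPow (ι : ℤ_[p] →+* O) {n : ℕ} {x : ℤ_[p]}
    (h : PadicInt.toZModPow n x = 0) : ι x ∈ Ideal.span {((p ^ n : ℕ) : O)} := by
  rw [← RingHom.mem_ker, PadicInt.ker_toZModPow] at h
  obtain ⟨c, hc⟩ := Ideal.mem_span_singleton'.mp h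
  rw [← hc, map_mul, map_pow, map_natCast, ← Nat.cast_pow]
  exact Ideal.mul_mem_left _ _ (Ideal.mem_span_singleton_self _)

/-- **Strictly ordinary at a multiplicative `p`.** -/
theorem Tate.TateBasis.isStrictOrdinaryAt (B : TateBasis p W) (hp2 : p ≠ 2) (ι : ℤ_[p] →+* O)
    (hpO : (p : O) ∈ maximalIdeal O) (hΔ : W.Δ ≠ 0) (hW : W.IsSemistableModel)
    (hbad : (p : ℤ) ∣ W.Δ) (hc : IsContRep (mapRep ι B.rep)) :
    (ofMatrix (mapRep ι B.rep) hc).IsStrictOrdinaryAt p := by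
  refine ⟨hpO, fun P hP => ?_⟩
  obtain ⟨C, hC, h⟩ :=
    B.exists_triangular hp2 (A := P) ⟨hΔ, hp.out, hbad, hW p hp.out hbad, hP⟩
  set C' : M2 O := C.map ι with hC'
  have hu : IsUnit C'.det := by
    rw [hC', ← RingHom.mapMatrix_apply, ← RingHom.map_det]; exact hC.map ι
  have hb : Function.Bijective C'.mulVecLin := Function.bijective_iff_has_inverse.mpr
    ⟨fun v => C'⁻¹ *ᵥ v,
      fun v => by simp only [mulVecLin_apply, mulVec_mulVec, nonsing_inv_mul _ hu, one_mulVec],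
      fun v => by simp only [mulVecLin_apply, mulVec_mulVec, mul_nonsing_inv _ hu, one_mulVec]⟩
  let b := (Pi.basisFun O (Fin 2)).map (LinearEquiv.ofBijective C'.mulVecLin hb)
  have hb0 : b 0 = C' *ᵥ Pi.single 0 1 := by simp [b]
  -- the triangular form over `O`
  have htri : ∀ σ ∈ P.decompositionSubgroup ℚ, ∃ x y z : O,
      mapRep ι B.rep σ * C' = C' * !![x, y; 0, z] ∧
      (∀ n a : ℕ, (∀ μ : Qb, μ ^ p ^ n = 1 → σ μ = μ ^ a) →
        x - (a : O) * z ∈ Ideal.span {((p ^ n : ℕ) : O)}) ∧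
      (σ ∈ P.inertiaSubgroupIn ℚ → z = 1) := by
    intro σ hσ
    obtain ⟨x, y, z, e, hz, hI⟩ := h σ hσ
    refine ⟨ι x, ι y, ι z, ?_, fun n a ha => ?_, fun hi => by rw [hI hi, map_one]⟩
    · have := congrArg ι.mapMatrix e
      rw [map_mul, map_mul] at this
      refine this.trans (congrArg (C' * ·) ?_)
      ext i k; fin_cases i <;> fin_cases k <;> simp
    · have hdet := congrArg Matrix.det e
      rw [det_mul, det_mul, det_fin_two_of, mul_zero, sub_zero, mul_comm C.det] at hdet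
      have hxz := hC.mul_right_cancel hdet
      rw [← map_natCast ι a, ← map_mul, ← map_sub]
      refine map_mem_span_of_toZModPow ι ?_
      have hzz : z * z = 1 := by rcases hz with rfl | rfl <;> ring
      rw [show x - (a : ℤ_[p]) * z = ((B.rep σ).det - a) * z by
        rw [hxz, sub_mul, mul_assoc, hzz, mul_one], map_mul, map_sub, B.det_rep,
        cycP_eq_natCast ha, map_natCast, sub_self, zero_mul]
  have hmem : ∀ (σ : GQ) (x y z : O), mapRep ι B.rep σ * C' = C' * !![x, y; 0, z] →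
      (∀ v ∈ (O ∙ b 0), mapRep ι B.rep σ *ᵥ v = x • v) ∧
        ∀ v : Fin 2 → O, mapRep ι B.rep σ *ᵥ v - z • v ∈ O ∙ b 0 := by
    intro σ x y z e
    constructor
    · intro v hv
      obtain ⟨s, rfl⟩ := Submodule.mem_span_singleton.mp hv
      rw [mulVec_smul, smul_comm]
      congr 1
      rw [hb0, mulVec_mulVec, e, ← mulVec_mulVec, ← mulVec_smul]
      congr 1
      funext i; fin_cases i <;> simp
    · intro v
      obtain ⟨u, rfl⟩ : ∃ u, C' *ᵥ u = v := hb.2 v
      refine Submodule.mem_span_singleton.mpr ⟨(x - z) * u 0 + y * u 1, ?_⟩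
      rw [mulVec_mulVec, e, ← mulVec_mulVec, ← mulVec_smul, ← mulVec_sub, hb0, ← mulVec_smul]
      congr 1
      funext i; fin_cases i <;> simp [dotProduct, Fin.sum_univ_two]
      ring
  refine ⟨O ∙ b 0, ⟨b, rfl⟩, fun σ hσ (v : Fin 2 → O) hv => ?_,
    fun σ hσ (v : Fin 2 → O) => ?_, fun σ hσ => ?_⟩
  · obtain ⟨x, y, z, e, -, -⟩ := htri σ hσ
    refine Eq.subst (motive := fun w : Fin 2 → O => w ∈ O ∙ b 0)
      (ofMatrix_rho_apply hc σ v).symm ?_
    rw [(hmem σ x y z e).1 v hv]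
    exact Submodule.smul_mem _ _ hv
  · obtain ⟨x, y, z, e, -, hz⟩ := htri σ (LocalDef.inertia_le_decomposition hσ)
    have h2 := (hmem σ x y z e).2 v
    rw [hz hσ, one_smul] at h2
    exact Eq.subst (motive := fun w : Fin 2 → O => w - v ∈ O ∙ b 0)
      (ofMatrix_rho_apply hc σ v).symm h2
  · obtain ⟨x, y, z, e, ha, -⟩ := htri σ hσ
    exact ⟨x, z, fun (v : Fin 2 → O) hv => (ofMatrix_rho_apply hc σ v).trans
      ((hmem σ x y z e).1 v hv), fun (v : Fin 2 → O) => Eq.subst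
      (motive := fun w : Fin 2 → O => w - z • v ∈ O ∙ b 0)
      (ofMatrix_rho_apply hc σ v).symm ((hmem σ x y z e).2 v), ha⟩

/-- The properties of the point of a semistable curve. -/
structure IsEllipticPoint (p : ℕ) [Fact p.Prime] (W : WeierstrassCurve ℤ)
    [(ratCurve W).IsElliptic] (ι : ℤ_[p] →+* O) (r : GQ →* M2 O) : Prop where
  cont : IsContRep r
  det : ∀ σ, (r σ).det = ι ((cycP p σ : ℤ_[p]ˣ) : ℤ_[p])
  detIsCyclotomic : (ofMatrix r cont).DetIsCyclotomic p
  residual : ∀ j : ZMod p →+* ResidueField O, mapRep (residue O) r = mapRep j (curveRep p W)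
  det_inertia : ∀ q : ℕ, q.Prime → q ≠ p → ∀ A : ValuationSubring Qb, A.LiesOverPrime q →
    ∀ σ ∈ A.inertiaSubgroupIn ℚ, (r σ).det = 1
  det_frobenius : ∀ q : ℕ, q.Prime → q ≠ p → ∀ A : ValuationSubring Qb, A.LiesOverPrime q →
    ∀ σ : GQ, A.IsFrobeniusAt σ q → (r σ).det = q
  unramified : ∀ q : ℕ, q.Prime → q ≠ p → W.IsGoodPrimeFor q →
    (ofMatrix r cont).IsUnramifiedAt q
  trace_good : ∀ q : ℕ, q.Prime → q ≠ p → W.IsGoodPrimeFor q → ∀ A : ValuationSubring Qb,
    A.LiesOverPrime q → ∀ σ : GQ, A.IsFrobeniusAt σ q → (r σ).trace = (W.apOfModel q : O)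
  trace_inertia : ∀ q : ℕ, q.Prime → q ≠ p → ∀ A : ValuationSubring Qb, A.LiesOverPrime q →
    ∀ σ ∈ A.inertiaSubgroupIn ℚ, (r σ).trace = 2
  unipotent : ∀ q : ℕ, q.Prime → q ≠ p → (ofMatrix r cont).IsUnipotentOnInertiaAt q
  trace_bad : ∀ q : ℕ, q.Prime → q ≠ p → (q : ℤ) ∣ W.Δ → ∀ A : ValuationSubring Qb,
    A.LiesOverPrime q → ∀ σ : GQ, A.IsFrobeniusAt σ q →
      ∃ s : ℤ, (s = 1 ∨ s = -1) ∧ (r σ).trace = (s : O) * (q + 1)
  flat : W.IsGoodPrimeFor p → (ofMatrix r cont).IsFlatAt p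
  strictOrdinary : (p : ℤ) ∣ W.Δ → (ofMatrix r cont).IsStrictOrdinaryAt p

/-- **The `p`-adic representation of a semistable curve.** -/
theorem exists_ellipticPoint [Finite (ResidueField O)] (hΔ : W.Δ ≠ 0) (hW : W.IsSemistableModel)
    (hp2 : p ≠ 2) (ι : ℤ_[p] →+* O) (hpO : (p : O) ∈ maximalIdeal O) :
    ∃ r : GQ →* M2 O, IsEllipticPoint p W ι r := by
  obtain ⟨B⟩ := exists_tateBasis (p := p) W
  have hc := B.isContRep ι hpO
  have hdet : ∀ σ, (mapRep ι B.rep σ).det = ι ((cycP p σ : ℤ_[p]ˣ) : ℤ_[p]) := fun σ => by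
    rw [mapRep_eq, ← RingHom.map_det, B.det_rep]
  have htr : ∀ σ, (mapRep ι B.rep σ).trace = ι (B.rep σ).trace := fun σ =>
    (AddMonoidHom.map_trace ι.toAddMonoidHom (B.rep σ)).symm
  have hinertia : ∀ q : ℕ, q.Prime → q ≠ p → ∀ A : ValuationSubring Qb, A.LiesOverPrime q →
      ∀ σ ∈ A.inertiaSubgroupIn ℚ, (mapRep ι B.rep σ).trace = 2 ∧
        (mapRep ι B.rep σ).det = 1 := by
    intro q hq hqp A hA σ hσ
    refine ⟨?_, by rw [hdet, cycP_inertia p hq hqp hA hσ, Units.val_one, map_one]⟩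
    rw [htr]
    by_cases hbad : (q : ℤ) ∣ W.Δ
    · rw [B.trace_inertia_mult hp2 ⟨hΔ, hq, hbad, hW q hq hbad, hA⟩ hqp hσ, map_ofNat]
    · rw [B.rep_inertia_good hq hA hqp hbad hσ, trace_one, Fintype.card_fin, map_natCast]
      rfl
  refine ⟨mapRep ι B.rep, {
    cont := hc
    det := hdet
    detIsCyclotomic := ⟨hpO, fun n σ a ha => ?_⟩
    residual := fun j => ?_
    det_inertia := fun q hq hqp A hA σ hσ => (hinertia q hq hqp A hA σ hσ).2
    det_frobenius := fun q hq hqp A hA σ hσ => by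
      rw [hdet, cycP_frobenius p hq hqp hA hσ, map_natCast]
    unramified := fun q hq hqp hgood A hA σ hσ => ?_
    trace_good := fun q hq hqp hgood A hA σ hσ => by
      rw [htr, (B.rep_frobenius hq hA hqp hgood hσ).1, map_intCast]
    trace_inertia := fun q hq hqp A hA σ hσ => (hinertia q hq hqp A hA σ hσ).1
    unipotent := fun q hq hqp A hA σ hσ => ?_
    trace_bad := fun q hq hqp hbad A hA σ hσ => by
      obtain ⟨s, hs, h⟩ :=
        B.trace_frobenius_mult hp2 ⟨hΔ, hq, hbad, hW q hq hbad, hA⟩ hqp hσ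
      exact ⟨s, hs, by rw [htr, h, map_mul, map_intCast, map_add, map_natCast, map_one]⟩
    flat := fun hgood => B.isFlatAt ι hpO hgood hc
    strictOrdinary := fun hbad => B.isStrictOrdinaryAt hp2 ι hpO hΔ hW hbad hc }⟩
  · have h1 : LinearMap.det ((ofMatrix (mapRep ι B.rep) hc).ρ σ) = (mapRep ι B.rep σ).det := by
      exact (LinearMap.det_toMatrix (Pi.basisFun O (Fin 2)) _).symm.trans
        (congrArg Matrix.det (DFunLike.congr_fun (matrixOf_ofMatrix (mapRep ι B.rep) hc) σ))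
    rw [h1, hdet, ← map_natCast ι a, ← map_sub]
    exact map_mem_span_of_toZModPow ι (by rw [map_sub, cycP_eq_natCast ha, map_natCast, sub_self])
  · refine MonoidHom.ext fun σ => Matrix.ext fun i k => ?_
    show residue O (ι (B.rep σ i k)) = j (curveRep p W σ i k)
    rw [B.rep_toZMod, residue_comp_eq hpO ι j]
  · show Matrix.toLinAlgEquiv (Pi.basisFun O (Fin 2)) (mapRep ι B.rep σ) = 1
    rw [mapRep_eq, B.rep_inertia_good hq hA hqp hgood hσ, map_one, map_one]
  · obtain ⟨ht, hd⟩ := hinertia q hq hqp A hA σ hσ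
    refine (LinearMap.charpoly_toMatrix _ (Pi.basisFun O (Fin 2))).symm.trans ?_
    refine (congrArg Matrix.charpoly
      (DFunLike.congr_fun (matrixOf_ofMatrix (mapRep ι B.rep) hc) σ)).trans ?_
    rw [Matrix.charpoly_fin_two, ht, hd, map_ofNat, map_one]
    ring

/-- The same over a complete discrete valuation ring. -/
theorem exists_ellipticPoint' {O : Type} [CommRing O] [IsDomain O] [IsDiscreteValuationRing O]
    [IsAdicComplete (maximalIdeal O) O] [Finite (ResidueField O)] (hΔ : W.Δ ≠ 0)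
    (hW : W.IsSemistableModel) (hp2 : p ≠ 2) (hpO : (p : O) ∈ maximalIdeal O) :
    ∃ (ι : ℤ_[p] →+* O) (r : GQ →* M2 O), IsEllipticPoint p W ι r := by
  obtain ⟨ι, -⟩ := exists_padicHom (maximalIdeal O) hpO
  obtain ⟨r, hr⟩ := exists_ellipticPoint hΔ hW hp2 ι hpO
  exact ⟨ι, r, hr⟩

end FA.RT
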