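import Fermat.Agent.RT.SetupExists
import Fermat.Agent.RT.SpanFrame
import Fermat.Agent.RT.CurveResidual
import Fermat.Agent.RT.EllipticPoint
import Fermat.Agent.RT.Conjugate
import Fermat.Agent.RT.Coeff
import Fermat.Agent.TW.Assemble
import Fermat.Agent.LocalDef.TangentStrict
import Fermat.Agent.LocalDef.TangentSS
import Mathlib.FieldTheory.Finite.Basic

/-!
# The lifting problem of a semistable curve at `p = 3, 5`

The coefficient ring, the residual representation, the local world at `p` (flat at a good `p`,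
strictly ordinary at a bad one) and the data used by the patching.
-/

set_option autoImplicit false
set_option linter.unusedSectionVars false

noncomputable section

open IsLocalRing Matrix Polynomial WeierstrassCurve FA.EC FA.Frob FA.Deform FA.TW FA.LocalDef FA.JTorsion

namespace FA.RT

local notation "Qb" => AlgebraicClosure ℚ
local notation "GQ" => AlgebraicClosure ℚ ≃ₐ[ℚ] AlgebraicClosure ℚ
local notation "M2" => Matrix (Fin 2) (Fin 2)

/-! ### Coefficients -/

/-- Coefficients for a lifting problem at `p`: a complete discrete valuation ring unramified over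
`ℤ_p` whose residue field splits every quadratic polynomial over `𝔽_p`. -/
theorem exists_coefficients (p : ℕ) [hp : Fact p.Prime] :
    ∃ (O : Type) (_ : CommRing O) (_ : IsDomain O) (_ : IsDiscreteValuationRing O)
      (_ : IsAdicComplete (maximalIdeal O) O) (_ : CharZero O) (_ : Finite (ResidueField O)),
      (p : O) ∈ maximalIdeal O ∧ maximalIdeal O = Ideal.span {(p : O)} ∧
      Nonempty (ℤ_[p] →+* O) ∧
      ∃ j : ZMod p →+* ResidueField O, ∀ t d : ZMod p, ∃ a, a * a - j t * a + j d = 0 := by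
  obtain ⟨O, iC, iD, iV, iA, iZ, iF, hpO, hspan, ⟨e⟩⟩ := exists_coeffRing p (GaloisField p 2)
  obtain ⟨ι, -⟩ := exists_padicHom (maximalIdeal O) hpO
  refine ⟨O, iC, iD, iV, iA, iZ, iF, hpO, hspan, ⟨ι⟩,
    e.symm.toRingHom.comp (algebraMap (ZMod p) (GaloisField p 2)), fun t d => ?_⟩
  suffices ∃ a : GaloisField p 2, a * a - algebraMap (ZMod p) _ t * a + algebraMap (ZMod p) _ d = 0 by
    obtain ⟨a, ha⟩ := this
    refine ⟨e.symm a, ?_⟩
    have := congrArg e.symm ha
    simpa using this
  let f : (ZMod p)[X] := X ^ 2 - C t * X + C d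
  have hdeg : f.natDegree = 2 := by simp only [f]; compute_degree!
  by_cases hroot : ∃ x : ZMod p, f.IsRoot x
  · obtain ⟨x, hx⟩ := hroot
    refine ⟨algebraMap (ZMod p) _ x, ?_⟩
    have h : x * x - t * x + d = 0 := by
      simpa [f, pow_two] using hx
    rw [← map_mul, ← map_mul, ← map_sub, ← map_add, h, map_zero]
  push Not at hroot
  have hirr : Irreducible f := by
    refine (Polynomial.irreducible_iff_roots_eq_zero_of_degree_le_three (by omega) (by omega)).mpr ?_
    refine Multiset.eq_zero_of_forall_notMem fun x hx => hroot x ?_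
    exact (Polynomial.mem_roots'.mp hx).2
  have : Fact (Irreducible f) := ⟨hirr⟩
  have hm : f.Monic := by simp only [f]; monicity!
  have : Module.Finite (ZMod p) (AdjoinRoot f) := hm.finite_adjoinRoot
  have : Finite (AdjoinRoot f) := Module.finite_of_finite (ZMod p)
  have hc : Nat.card (AdjoinRoot f) = Nat.card (GaloisField p 2) := by
    rw [GaloisField.card p 2 two_ne_zero, Module.natCard_eq_pow_finrank (K := ZMod p),
      (AdjoinRoot.powerBasis' hm).finrank, AdjoinRoot.powerBasis'_dim, hdeg, Nat.card_zmod]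
  let _ : Fintype (AdjoinRoot f) := Fintype.ofFinite _
  let _ : Fintype (GaloisField p 2) := Fintype.ofFinite _
  let g : AdjoinRoot f ≃+* GaloisField p 2 := FiniteField.ringEquivOfCardEq
    (by rw [← Nat.card_eq_fintype_card, ← Nat.card_eq_fintype_card]; exact hc)
  refine ⟨g (AdjoinRoot.root f), ?_⟩
  have hzero := AdjoinRoot.eval₂_root f
  simp only [f, eval₂_add, eval₂_sub, eval₂_mul, eval₂_pow, eval₂_X, eval₂_C] at hzero
  have hcomp : g.toRingHom.comp (AdjoinRoot.of f) = algebraMap (ZMod p) (GaloisField p 2) :=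
    Subsingleton.elim _ _
  rw [← hcomp]
  have := congrArg g hzero
  simpa [pow_two] using this

/-! ### The local worlds -/

/-- A lift is flat at `p`. -/
def AtFlat (p : ℕ) (B : Type) [CommRing B] [IsLocalRing B] (m : GQ →* M2 B) : Prop :=
  ∃ h : IsContRep m, (ofMatrix m h).IsFlatAt p

/-- A lift is strictly ordinary at `p`. -/
def AtStrict (p : ℕ) (B : Type) [CommRing B] [IsLocalRing B] (m : GQ →* M2 B) : Prop :=
  ∃ h : IsContRep m, (ofMatrix m h).IsStrictOrdinaryAt p

/-- The condition at `p` on lifts. -/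
def AtWorld (p : ℕ) (W : WeierstrassCurve ℤ) (B : Type) [CommRing B] [IsLocalRing B]
    (m : GQ →* M2 B) : Prop :=
  ((p : ℤ) ∣ W.Δ → AtStrict p B m) ∧ (W.IsGoodPrimeFor p → AtFlat p B m)

variable {p : ℕ} [hp : Fact p.Prime] (W : WeierstrassCurve ℤ) [(ratCurve W).IsElliptic]
  {O : Type} [CommRing O] [IsDomain O] [IsDiscreteValuationRing O]
  [IsAdicComplete (maximalIdeal O) O] [Finite (ResidueField O)]
  (hp2 : p ≠ 2) (hpO : (p : O) ∈ maximalIdeal O) (ι : ℤ_[p] →+* O)
  (j : ZMod p →+* ResidueField O) (P : Places) (hΔ : W.Δ ≠ 0) (hW : W.IsSemistableModel)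

/-- The condition at `p` on tangent classes. -/
def CpWorld (c : GQ → M2 (ResidueField O)) : Prop :=
  haveI : Fintype (ResidueField O) := Fintype.ofFinite _
  if (p : ℤ) ∣ W.Δ then
    IsSmoothClass (P.place p) c ∧ IsStrictOrdClass (P.place p) p (mapRep j (curveRep p W)) c
  else IsFlatClass (P.place p) (mapRep j (curveRep p W)) c

omit [IsAdicComplete (maximalIdeal O) O] [Finite (ResidueField O)] in
theorem det_mapRep_curveRep (σ : GQ) (a : ℕ) (ha : ∀ μ : Qb, μ ^ p = 1 → σ μ = μ ^ a) :
    (mapRep j (curveRep p W) σ).det = (a : ResidueField O) := by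
  rw [mapRep_eq, ← RingHom.map_det, det_curveRep W σ a ha, map_natCast]

omit [IsAdicComplete (maximalIdeal O) O] [Finite (ResidueField O)] in
theorem isOpen_ker_mapRep_curveRep : IsOpen ((mapRep j (curveRep p W)).ker : Set GQ) :=
  Subgroup.isOpen_mono (H₁ := (curveRep p W).ker) (fun σ hσ => by
    rw [MonoidHom.mem_ker] at hσ ⊢
    rw [mapRep_eq, hσ]
    exact Matrix.map_one j (map_zero j) (map_one j)) (isOpen_ker_curveRep W)

include hp2 hpO ι hΔ hW in
omit [IsAdicComplete (maximalIdeal O) O] in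
theorem tangentBound_world :
    TangentBound (P.place p) (mapRep j (curveRep p W)) (CpWorld W j P) := by
  classical
  let _ : Fintype (ResidueField O) := Fintype.ofFinite _
  have : CharP (ResidueField O) p := (CharP.charP_iff_prime_eq_zero hp.out).mpr (by
    rw [← map_natCast (residue O), residue_eq_zero_iff]; exact hpO)
  have hA := P.liesOver p hp.out
  have hd : DetOmega (P.place p) p (mapRep j (curveRep p W)) :=
    fun σ _ a ha => det_mapRep_curveRep W j σ a ha
  obtain ⟨r, hr⟩ := exists_ellipticPoint hΔ hW hp2 ι hpO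
  have hlift : mapRep (residue O) (matrixOf (ofMatrix r hr.cont) (Pi.basisFun O (Fin 2))) =
      mapRep j (curveRep p W) := by
    rw [matrixOf_ofMatrix]; exact hr.residual j
  by_cases hbad : (p : ℤ) ∣ W.Δ
  · have hres := (isStrictOrd_tgVal (π := residue O) (O := O) rfl residue_surjective
      (ofMatrix r hr.cont) (Pi.basisFun O (Fin 2)) hlift (P.place p)
      (by rw [map_natCast, ← map_natCast (residue O), residue_eq_zero_iff]; exact hpO) hA
      (hr.strictOrdinary hbad)).1
    obtain ⟨Z, h1, h2, h3, h4⟩ :=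
      tangentBound_strictOrd hp2 hA _ (isOpen_ker_mapRep_curveRep W j) hd hres
    exact ⟨Z, h1, h2, h3, fun c hc h => h4 c hc (by simpa [CpWorld, hbad] using h)⟩
  · have hres := isFlatRes_of_models (π := residue O) (O := O) rfl residue_surjective
      (ofMatrix r hr.cont) (Pi.basisFun O (Fin 2)) hlift (P.place p)
      (fun I hI _ => hasModel_of_isFlatAt _ hA (hr.flat hbad) I hI)
    obtain ⟨Z, h1, h2, h3, h4⟩ := tangentBound_flat hp2 hA _ hd hres
    refine ⟨Z, h1, h2, h3, fun c hc h => h4 c hc ?_⟩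
    simp only [CpWorld, hbad, if_false] at h
    convert h using 1

include hΔ hW in
omit [IsAdicComplete (maximalIdeal O) O] [Finite (ResidueField O)] in
theorem unipotent_mapRep_curveRep (q : ℕ) (hq : q.Prime) (hqp : q ≠ p) {A : ValuationSubring Qb}
    (hA : A.LiesOverPrime q) {σ : GQ} (hσ : σ ∈ A.inertiaSubgroupIn ℚ) :
    ∃ m : ℕ, mapRep j (curveRep p W) σ ^ p ^ m = 1 := by
  refine ⟨1, ?_⟩
  have h : curveRep p W σ ^ p ^ 1 = 1 := by
    by_cases hbad : (q : ℤ) ∣ W.Δ
    · exact pow_eq_one_of_sq_eq_zero (curveRep_unipotent W hΔ hW hq hqp hbad hA hσ)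
    · rw [curveRep_unramified W hq hqp hbad hA hσ, one_pow]
  rw [mapRep_eq, ← map_pow, h, map_one]

omit [IsDomain O] [IsDiscreteValuationRing O] [IsAdicComplete (maximalIdeal O) O]
  [Finite (ResidueField O)] in
theorem cycP_spec (σ : GQ) : ∃ (a : ℕ) (y : O), ι (cycP p σ : ℤ_[p]) = a + p * y := by
  have : NeZero (p ^ 1) := ⟨pow_ne_zero _ hp.out.ne_zero⟩
  have h : (cycP p σ : ℤ_[p]) - ((PadicInt.toZModPow 1 (cycP p σ : ℤ_[p])).val : ℤ_[p]) ∈
      Ideal.span {(p : ℤ_[p]) ^ 1} := by
    rw [← PadicInt.ker_toZModPow, RingHom.mem_ker, map_sub, map_natCast, ZMod.natCast_zmod_val,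
      sub_self]
  rw [pow_one] at h
  obtain ⟨c, hc⟩ := Ideal.mem_span_singleton'.mp h
  refine ⟨(PadicInt.toZModPow 1 (cycP p σ : ℤ_[p])).val, ι c, ?_⟩
  rw [← map_natCast ι, ← map_natCast ι p, ← map_mul, ← map_add, mul_comm, hc, add_sub_cancel]

variable (Sig : Finset ℕ) (hSig : ∀ q ∈ Sig, q.Prime ∧ q ≠ p)

/-- **The lifting problem of a curve.** -/
def curveSetup : Setup O :=
  Setup.ofBound hp.out hp2 hpO (mapRep j (curveRep p W)) (isOpen_ker_mapRep_curveRep W j)
    (fun σ => ι (cycP p σ : ℤ_[p])) (cycP_spec ι) P Sig hSig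
    (fun q hq _ hσ => unipotent_mapRep_curveRep W j hΔ hW q (hSig q hq).1 (hSig q hq).2
      (P.liesOver q (hSig q hq).1) hσ)
    (CpWorld W j P) (tangentBound_world W hp2 hpO ι j P hΔ hW)

local notation "SS" => curveSetup W hp2 hpO ι j P hΔ hW Sig hSig

instance : Fact ((SS).m = 4) := ⟨rfl⟩

/-- The cyclotomic values at Frobenius. -/
theorem curveSetup_cyc_frob (q : ↥(SS).Sig) : (SS).cyc ((SS).Φ q) = (q.1 : O) := by
  show ι (cycP p ((SS).Φ q) : ℤ_[p]) = _
  rw [cycP_frobenius p (hSig q.1 q.2).1 (hSig q.1 q.2).2 (P.liesOver _ (hSig q.1 q.2).1)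
    ((SS).Φ_spec q), map_natCast]

/-- The cyclotomic values on inertia. -/
theorem curveSetup_cyc_tame (q : ↥(SS).Sig) : (SS).cyc ((SS).tame q) = 1 := by
  show ι (cycP p ((SS).tame q) : ℤ_[p]) = _
  rw [cycP_inertia p (hSig q.1 q.2).1 (hSig q.1 q.2).2 (P.liesOver _ (hSig q.1 q.2).1)
    ((SS).tame_mem q), Units.val_one, map_one]

/-- Outside the primes of the problem the residual representation is unramified. -/
theorem curveSetup_unr (hbad : ∀ q : ℕ, q.Prime → (q : ℤ) ∣ W.Δ → q = p ∨ q ∈ Sig) (q : ℕ)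
    (hq : q.Prime) (hqT : q ∉ (SS).T) (A : ValuationSubring Qb) (hA : A.LiesOverPrime q) (σ : GQ)
    (hσ : σ ∈ A.inertiaSubgroupIn ℚ) : (SS).rb σ = 1 := by
  have h1 : q ≠ p := fun h => hqT (Finset.mem_insert.mpr (Or.inl h))
  have h2 : q ∉ Sig := fun h => hqT (Finset.mem_insert.mpr (Or.inr h))
  show mapRep j (curveRep p W) σ = 1
  rw [mapRep_eq, curveRep_unramified W hq h1 (fun h => (hbad q hq h).elim h1 h2) hA hσ]
  exact Matrix.map_one j (map_zero j) (map_one j)

/-- The residual representation spans. -/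
theorem curveSetup_span (hirr : W.ModRepIsIrreducible p) :
    Submodule.span (ResidueField O) (Set.range (SS).rb) = ⊤ := by
  let a := algebraMap (ResidueField O) (AlgebraicClosure (ResidueField O))
  refine span_eq_top_of_noLine _ a ?_
  have : mapRep a (SS).rb = mapRep (a.comp j) (curveRep p W) := rfl
  rw [this]
  exact noLine_top_curveRep W hp2 hirr (a.comp j)

/-- Frames exist. -/
theorem curveSetup_frame (hirr : W.ModRepIsIrreducible p) :
    (∃ F : Frame O, F.Adapted (SS).rb) ∧ ∃ σ, (SS).rb σ 0 1 ≠ 0 :=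
  ⟨exists_frame_of_span _ (curveSetup_span W hp2 hpO ι j P hΔ hW Sig hSig hirr),
    exists_upper_ne_zero _ (curveSetup_span W hp2 hpO ι j P hΔ hW Sig hSig hirr)⟩

/-- **The condition at `p` passes to carried algebras.** -/
theorem curveSetup_atP (S' : PointSet (SS).rb (SS).cyc) (M : S'.Model)
    (h : ∀ i, AtWorld p W (S'.B i) (S'.r i)) (t : ↥(tangent M.π O)) :
    (SS).Cp (tgVal M.rR (SS).rb t) := by
  classical
  let _ : Fintype (ResidueField O) := Fintype.ofFinite _
  have : CharP (ResidueField O) p := (CharP.charP_iff_prime_eq_zero hp.out).mpr (by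
    rw [← map_natCast (residue O), residue_eq_zero_iff]; exact hpO)
  have hA := P.liesOver p hp.out
  have hlift : mapRep M.π (matrixOf (ofMatrix M.rR M.cont) (Pi.basisFun M.R (Fin 2))) =
      mapRep j (curveRep p W) := by
    rw [matrixOf_ofMatrix]; exact M.lift
  show CpWorld W j P _
  by_cases hbad : (p : ℤ) ∣ W.Δ
  · simp only [CpWorld, hbad, if_true]
    refine ⟨isSmoothClass_tgVal M.π_surjective M.cont _ _ t, ?_⟩
    have := (isStrictOrd_tgVal (O := O) M.π_algebraMap residue_surjective (ofMatrix M.rR M.cont)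
      (Pi.basisFun M.R (Fin 2)) hlift (P.place p)
      (by rw [map_natCast, ← map_natCast (residue O), residue_eq_zero_iff]; exact hpO) hA
      (M.isStrictOrdinaryAt hp2 hpO fun i => ((h i).1 hbad).2)).2 t
    rw [matrixOf_ofMatrix] at this
    exact this
  · simp only [CpWorld, hbad, if_false]
    have hm := M.hasFlatModels hA fun i => ((h i).2 hbad).2
    rcases eq_or_ne t 0 with rfl | ht
    · have hres := isFlatRes_of_models (O := O) M.π_algebraMap residue_surjective
        (ofMatrix M.rR M.cont) (Pi.basisFun M.R (Fin 2)) hlift (P.place p) hm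
      have h0 : tgVal M.rR (SS).rb (0 : ↥(tangent M.π O)) = 0 := funext fun σ => by
        show (M.rR σ).map (fun _ => (0 : ResidueField O)) * _ = 0
        rw [show (M.rR σ).map (fun _ => (0 : ResidueField O)) = 0 from Matrix.ext fun _ _ => rfl,
          Matrix.zero_mul]
      rw [h0]
      exact isFlatClass_zero hres
    · have := isFlatClass_tgVal (O := O) M.π_algebraMap residue_surjective (ofMatrix M.rR M.cont)
        (Pi.basisFun M.R (Fin 2)) hlift (P.place p) hm ht
      rw [matrixOf_ofMatrix] at this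
      exact this

/-- **Taylor–Wiles sets for a curve.** -/
theorem curveSetup_twSets (hirr : W.ModRepIsIrreducible p)
    (hbad : ∀ q : ℕ, q.Prime → (q : ℤ) ∣ W.Δ → q = p ∨ q ∈ Sig)
    (GW : GreenbergWiles P (SS).T (adRep (SS).rb) (twRep (SS).rb) complexConjugation)
    (S₀ : Finset ℕ) :
    ∃ r : ℕ, ∀ n : ℕ, ∃ D : (SS).TWSet r n,
      Function.Injective D.qv ∧ ∀ i, D.qv i ∉ (SS).T ∧ D.qv i ∉ S₀ := by
  let a := algebraMap (ResidueField O) (AlgebraicClosure (ResidueField O))
  refine (SS).exists_twSets (fun σ b hb => det_mapRep_curveRep W j σ b hb)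
    (curveSetup_unr W hp2 hpO ι j P hΔ hW Sig hSig hbad) a ?_ GW S₀
  have : mapRep a (SS).rb = mapRep (a.comp j) (curveRep p W) := rfl
  rw [this]
  exact isBig_curveRep W hΔ hW hp2 hirr (a.comp j)

omit [IsAdicComplete (maximalIdeal O) O] [Finite (ResidueField O)] in
/-- Characteristic polynomials split. -/
theorem exists_root_curveRep (hsplit : ∀ t d : ZMod p, ∃ a, a * a - j t * a + j d = 0) (σ : GQ) :
    ∃ a, a * a - (mapRep j (curveRep p W) σ).trace * a + (mapRep j (curveRep p W) σ).det = 0 := by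
  obtain ⟨a, ha⟩ := hsplit (curveRep p W σ).trace (curveRep p W σ).det
  refine ⟨a, ?_⟩
  rw [mapRep_eq, ← RingHom.map_det, RingHom.mapMatrix_apply,
    ← AddMonoidHom.map_trace j]
  exact ha

/-- **The point of a congruent curve.** -/
theorem exists_curvePoint (W' : WeierstrassCurve ℤ) [(ratCurve W').IsElliptic] (hΔ' : W'.Δ ≠ 0)
    (hW' : W'.IsSemistableModel) (hcong : ∃ U : M2 (ZMod p), IsUnit U ∧
      ∀ σ, U * curveRep p W σ = curveRep p W' σ * U)
    (hpp : (p : ℤ) ∣ W.Δ ↔ (p : ℤ) ∣ W'.Δ) :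
    ∃ r : GQ →* M2 O, mapRep (residue O) r = (SS).rb ∧ IsContRep r ∧
      (∀ σ, (r σ).det = (SS).cyc σ) ∧ AtWorld p W O r ∧
      (∀ q : ℕ, q.Prime → q ≠ p → W'.IsGoodPrimeFor q → ∀ A : ValuationSubring Qb,
        A.LiesOverPrime q → ∀ σ ∈ A.inertiaSubgroupIn ℚ, r σ = 1) ∧
      (∀ q : ℕ, q.Prime → q ≠ p → ∀ A : ValuationSubring Qb, A.LiesOverPrime q →
        ∀ σ ∈ A.inertiaSubgroupIn ℚ, (r σ).trace = 2) ∧
      ∀ q : ℕ, q.Prime → q ≠ p → W'.IsGoodPrimeFor q → ∀ A : ValuationSubring Qb,
        A.LiesOverPrime q → ∀ σ : GQ, A.IsFrobeniusAt σ q → (r σ).trace = (W'.apOfModel q : O) := by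
  classical
  obtain ⟨r₁, hr⟩ := exists_ellipticPoint hΔ' hW' hp2 ι hpO
  obtain ⟨U, hU, hUσ⟩ := hcong
  -- lift the conjugating matrix
  choose s hs using residue_surjective (R := O)
  let V : M2 O := (U.map j).map s
  have hV : V.map (residue O) = U.map j := Matrix.ext fun a b => hs _
  have hVu : IsUnit V.det := by
    have h1 := (hU.map (RingHom.mapMatrix j).toMonoidHom).map Matrix.detMonoidHom
    refine (isUnit_map_iff (residue O) V.det).mp ?_
    rw [RingHom.map_det, RingHom.mapMatrix_apply, hV]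
    exact h1
  obtain ⟨v, hv⟩ := (Matrix.isUnit_iff_isUnit_det V).mpr hVu
  let r : GQ →* M2 O :=
    { toFun := fun σ => (v⁻¹ : (M2 O)ˣ).1 * r₁ σ * v.1
      map_one' := by rw [map_one, mul_one, Units.inv_mul]
      map_mul' := fun x y => by simp only [map_mul, mul_assoc, Units.mul_inv_cancel_left] }
  have hlift : mapRep (residue O) r = mapRep j (curveRep p W) := by
    refine MonoidHom.ext fun σ => ?_
    rw [mapRep_eq, mapRep_eq]
    have h1 : (r₁ σ).map (residue O) = (curveRep p W' σ).map j := by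
      have := DFunLike.congr_fun (hr.residual j) σ
      rwa [mapRep_eq, mapRep_eq] at this
    have h2 : V * r σ = r₁ σ * V := by
      show V * ((v⁻¹ : (M2 O)ˣ).1 * r₁ σ * v.1) = _
      rw [← hv, mul_assoc, Units.mul_inv_cancel_left]
    have h3 := congrArg (fun M : M2 O => M.map (residue O)) h2
    simp only [Matrix.map_mul, hV, h1] at h3
    rw [← Matrix.map_mul, ← hUσ, Matrix.map_mul] at h3
    obtain ⟨u, hu⟩ := hU.map (RingHom.mapMatrix j).toMonoidHom
    change (u : M2 (ResidueField O)) = U.map j at hu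
    rw [← hu] at h3
    exact (Units.mul_right_inj u).mp h3
  have hcont : IsContRep r := isContRep_conj hr.cont v fun σ => rfl
  have htr : ∀ σ, (r σ).trace = (r₁ σ).trace := fun σ => Matrix.trace_units_conj' v _
  have hdet : ∀ σ, (r σ).det = (r₁ σ).det := fun σ => Matrix.det_units_conj' v _
  refine ⟨r, hlift, hcont, fun σ => (hdet σ).trans (hr.det σ), ?_, fun q hq hqp hg A hA σ hσ => ?_,
    fun q hq hqp A hA σ hσ => (htr σ).trans (hr.trace_inertia q hq hqp A hA σ hσ),
    fun q hq hqp hg A hA σ hσ => (htr σ).trans (hr.trace_good q hq hqp hg A hA σ hσ)⟩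
  · refine ⟨fun hb => ⟨hcont, ?_⟩, fun hg => ⟨hcont, ?_⟩⟩
    · exact isStrictOrdinaryAt_of_equiv (conjEquiv hr.cont hcont v fun σ => rfl)
        (hr.strictOrdinary (hpp.mp hb))
    · exact isFlatAt_of_equiv (conjEquiv hr.cont hcont v fun σ => rfl)
        (hr.flat fun h => hg (hpp.mpr h))
  · have h1 := hr.unramified q hq hqp hg A hA σ hσ
    have h1' : r₁ σ = 1 := by
      have := DFunLike.congr_fun (matrixOf_ofMatrix r₁ hr.cont) σ
      rw [← this]
      show LinearMap.toMatrix _ _ ((ofMatrix r₁ hr.cont).ρ σ) = 1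
      rw [h1]
      exact LinearMap.toMatrix_one _
    show (v⁻¹ : (M2 O)ˣ).1 * r₁ σ * v.1 = 1
    rw [h1', mul_one, Units.inv_mul]

end FA.RT
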