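import Fermat.Agent.JTorsion.Descend
import Mathlib.RingTheory.Ideal.MinimalPrime.Noetherian
import Mathlib.RingTheory.Ideal.MinimalPrime.Localization

/-!
# Points of reduced finite flat algebras

A reduced finite torsion free algebra over a complete discrete valuation ring of characteristic
zero embeds into finitely many finite extensions of the ring.
-/

set_option autoImplicit false

noncomputable section

open IsLocalRing

namespace FA.RT

/-- A point with values in a finite extension. -/
structure AlgPoint (O A : Type) [CommRing O] [IsLocalRing O] [CommRing A] [Algebra O A] where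
  /-- the extension -/
  B : Type
  [commRing : CommRing B]
  [isDomain : IsDomain B]
  [dvr : IsDiscreteValuationRing B]
  [complete : IsAdicComplete (maximalIdeal B) B]
  [finiteResidue : Finite (ResidueField B)]
  [charZero : CharZero B]
  [algebra : Algebra O B]
  [moduleFinite : Module.Finite O B]
  [moduleFree : Module.Free O B]
  [localHom : IsLocalHom (algebraMap O B)]
  /-- the homomorphism -/
  hom : A →ₐ[O] B

attribute [instance] AlgPoint.commRing AlgPoint.isDomain AlgPoint.dvr AlgPoint.complete
  AlgPoint.finiteResidue AlgPoint.charZero AlgPoint.algebra AlgPoint.moduleFinite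
  AlgPoint.moduleFree AlgPoint.localHom

variable {O : Type} [CommRing O] [IsDomain O] [IsDiscreteValuationRing O]
  [IsAdicComplete (maximalIdeal O) O] [Finite (ResidueField O)] [CharZero O]
  {A : Type} [CommRing A] [Algebra O A] [Module.Finite O A]

/-- A finite domain containing `O` has a point with trivial kernel. -/
theorem exists_algPoint_of_isDomain [IsDomain A] (hinj : Function.Injective (algebraMap O A)) :
    ∃ P : AlgPoint O A, Function.Injective P.hom := by
  classical
  let K := FractionRing O
  have : CharZero K := charZero_of_injective_algebraMap (IsFractionRing.injective O K)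
  let Kb := AlgebraicClosure K
  have : Module.IsTorsionFree O A := Module.isTorsionFree_iff_algebraMap_injective.mpr hinj
  have hKb : Function.Injective (algebraMap O Kb) := by
    rw [IsScalarTower.algebraMap_eq O K Kb]
    exact (algebraMap K Kb).injective.comp (IsFractionRing.injective O K)
  have : Module.IsTorsionFree O Kb := Module.isTorsionFree_iff_algebraMap_injective.mpr hKb
  let φ : A →ₐ[O] Kb := IsAlgClosed.lift
  have hφ : Function.Injective φ := by
    rw [injective_iff_map_eq_zero]
    intro x hx
    by_contra hx0
    obtain ⟨y, hy, hy0⟩ := Submodule.exists_mem_ne_zero_of_ne_bot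
      (p := (RingHom.ker φ.toRingHom).comap (algebraMap O A))
      (Ideal.comap_ne_bot_of_integral_mem hx0 hx (Algebra.IsIntegral.isIntegral x))
    refine hy0 (hKb ?_)
    rw [map_zero, ← φ.commutes]
    exact hy
  obtain ⟨m, b, hb⟩ := Module.Finite.exists_fin (R := O) (M := A)
  let F : IntermediateField K Kb := IntermediateField.adjoin K (Set.range fun i => φ (b i))
  have : FiniteDimensional K F := IntermediateField.finiteDimensional_adjoin
    fun x _ => (Algebra.IsAlgebraic.isAlgebraic x).isIntegral
  let O' := integralClosure O F
  have : IsIntegralClosure O' O F := inferInstance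
  have : IsFractionRing O' F := integralClosure.isFractionRing_of_finite_extension K F
  have : Module.Finite O O' := IsIntegralClosure.finite O K F O'
  have : IsDedekindDomain O' := integralClosure.isDedekindDomain O K F
  have hO' : Function.Injective (algebraMap O O') := by
    intro x y h
    have h' : algebraMap O F x = algebraMap O F y := congrArg Subtype.val h
    rw [IsScalarTower.algebraMap_apply O K F, IsScalarTower.algebraMap_apply O K F] at h'
    exact IsFractionRing.injective O K ((algebraMap K F).injective h')
  have : IsLocalRing O' := FA.JTorsion.isLocalRing_of_finite_complete (O := O) O'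
  have : IsLocalHom (algebraMap O O') :=
    (algebraMap_isIntegral_iff.2 (Algebra.IsIntegral.of_finite O O')).isLocalHom hO'
  have : IsDiscreteValuationRing O' := by
    refine ((IsDiscreteValuationRing.TFAE O' fun hf => IsDiscreteValuationRing.not_isField O
      (isField_of_isIntegral_of_isField hO' hf)).out 0 2).2 (inferInstance : IsDedekindDomain O')
  have : IsAdicComplete (maximalIdeal O') O' :=
    IsLocalRing.isAdicComplete_of_module_finite (𝒪 := O)
  have : Finite (ResidueField O') := Module.finite_of_finite (ResidueField O)
  have : CharZero O' := charZero_of_injective_algebraMap hO'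
  have : Module.IsTorsionFree O O' := Module.isTorsionFree_iff_algebraMap_injective.mpr hO'
  have hmem : ∀ x, φ x ∈ F := by
    intro x
    obtain ⟨c, rfl⟩ := (Submodule.mem_span_range_iff_exists_fun O).mp
      (hb.ge (Submodule.mem_top : x ∈ ⊤))
    rw [map_sum]
    refine sum_mem fun i _ => ?_
    rw [map_smul, ← IsScalarTower.algebraMap_smul K (c i) (φ (b i))]
    exact F.smul_mem (IntermediateField.subset_adjoin K _ ⟨i, rfl⟩)
  let φF : A →ₐ[O] F := φ.codRestrict (F.toSubalgebra.restrictScalars O) hmem
  have hint : ∀ x, φF x ∈ integralClosure O F := fun x =>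
    (Algebra.IsIntegral.isIntegral x).map φF
  refine ⟨{ B := O', hom := φF.codRestrict (integralClosure O F) hint }, fun x y h => hφ ?_⟩
  exact congrArg (fun z : F => (z : Kb)) (congrArg Subtype.val h)

/-- **Finitely many points separate a reduced torsion free finite algebra.** -/
theorem exists_algPoints [IsReduced A] [Module.IsTorsionFree O A] :
    ∃ (J : Type) (_ : Finite J) (P : J → AlgPoint O A),
      ∀ x : A, (∀ j, (P j).hom x = 0) → x = 0 := by
  classical
  have : IsNoetherianRing A := IsNoetherianRing.of_finite O A
  let J := {Q : Ideal A // Q ∈ minimalPrimes A}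
  have : Finite J := (minimalPrimes.finite_of_isNoetherianRing A).to_subtype
  have hpt : ∀ Q : J, ∃ P : AlgPoint O A, ∀ x, P.hom x = 0 → x ∈ Q.1 := by
    rintro ⟨Q, hQ⟩
    have : Q.IsPrime := hQ.1.1
    have hinj : Function.Injective (algebraMap O (A ⧸ Q)) := by
      rw [injective_iff_map_eq_zero]
      intro c hc
      by_contra hc0
      rw [show algebraMap O (A ⧸ Q) c = Ideal.Quotient.mk Q (algebraMap O A c) from rfl,
        Ideal.Quotient.eq_zero_iff_mem] at hc
      obtain ⟨y, hy, h0⟩ := Ideal.exists_mul_mem_of_mem_minimalPrimes (I := ⊥) hQ hc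
      rw [Ideal.mem_bot, ← Algebra.smul_def] at h0
      exact hy (Ideal.mem_bot.mpr ((smul_eq_zero.mp h0).resolve_left hc0))
    obtain ⟨P, hP⟩ := exists_algPoint_of_isDomain (O := O) (A := A ⧸ Q) hinj
    exact ⟨{ B := P.B, hom := P.hom.comp (Ideal.Quotient.mkₐ O Q) }, fun x hx =>
      Ideal.Quotient.eq_zero_iff_mem.mp (hP (hx.trans (map_zero P.hom).symm))⟩
  choose P hP using hpt
  refine ⟨J, inferInstance, P, fun x hx => ?_⟩
  have : x ∈ sInf (minimalPrimes A) :=
    Ideal.mem_sInf.mpr fun {Q} hQ => hP ⟨Q, hQ⟩ x (hx ⟨Q, hQ⟩)
  exact IsReduced.eq_zero _ (by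
    rw [show minimalPrimes A = (⊥ : Ideal A).minimalPrimes from rfl, Ideal.sInf_minimalPrimes] at this
    exact this)

end FA.RT
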