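import Fermat.Agent.Patch.LevelData
import Mathlib.Data.ZMod.Basic
import Mathlib.Algebra.BigOperators.Pi

/-!
# The diamond group of a level

A product of cyclic groups of `p`-power order and its characters.
-/

set_option autoImplicit false

noncomputable section

open IsLocalRing FA.Patch

namespace FA.RT

/-- A character of a cyclic group. -/
def cycHom (N : ℕ) [NeZero N] {M : Type*} [CommMonoid M] (x : M) (hx : x ^ N = 1) :
    Multiplicative (ZMod N) →* M where
  toFun g := x ^ (Multiplicative.toAdd g).val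
  map_one' := by simp
  map_mul' g h := by
    rw [toAdd_mul, ZMod.val_add, ← pow_add, ← pow_eq_pow_mod _ hx]

theorem cycHom_ofAdd_one (N : ℕ) [NeZero N] {M : Type*} [CommMonoid M] (x : M) (hx : x ^ N = 1) :
    cycHom N x hx (Multiplicative.ofAdd 1) = x := by
  show x ^ (1 : ZMod N).val = x
  rcases N with _ | _ | N
  · exact absurd rfl (NeZero.ne 0)
  · rw [pow_one] at hx
    simp [hx]
  · have : Fact (1 < N + 1 + 1) := ⟨by omega⟩
    rw [ZMod.val_one, pow_one]

variable (p : ℕ) [NeZero p] {Y : Type} [Fintype Y] (e : Y → ℕ)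

/-- The group. -/
abbrev DGroup : Type := (i : Y) → Multiplicative (ZMod (p ^ e i))

/-- Its generators. -/
def dGen [DecidableEq Y] (i : Y) : DGroup p e := Pi.mulSingle i (Multiplicative.ofAdd 1)

/-- Its characters. -/
def dHom {M : Type*} [CommMonoid M] (x : Y → M) (hx : ∀ i, x i ^ p ^ e i = 1) : DGroup p e →* M where
  toFun g := ∏ i, cycHom (p ^ e i) (x i) (hx i) (g i)
  map_one' := by simp
  map_mul' g h := by simp [Finset.prod_mul_distrib]

theorem dHom_gen [DecidableEq Y] {M : Type*} [CommMonoid M] (x : Y → M)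
    (hx : ∀ i, x i ^ p ^ e i = 1) (i : Y) : dHom p e x hx (dGen p e i) = x i := by
  show ∏ j, cycHom (p ^ e j) (x j) (hx j) (dGen p e i j) = x i
  rw [Fintype.prod_eq_single i fun j hj => by
    rw [dGen, Pi.mulSingle_eq_of_ne hj, map_one]]
  rw [dGen, Pi.mulSingle_eq_same, cycHom_ofAdd_one]

omit [NeZero p] in
/-- Congruences to `1` improve under `p`th powers. -/
theorem pow_sub_one_mem_pow {A : Type*} [CommRing A] {I : Ideal A} (hpI : (p : A) ∈ I) {x : A}
    (hx : x - 1 ∈ I) : ∀ n : ℕ, x ^ p ^ n - 1 ∈ I ^ (n + 1)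
  | 0 => by simpa using hx
  | n + 1 => by
    have h := pow_sub_one_mem_pow hpI hx n
    have h1 : x ^ p ^ n - 1 ∈ I := Ideal.pow_le_self n.succ_ne_zero h
    have h2 : ∑ a ∈ Finset.range p, (x ^ p ^ n) ^ a ∈ I := by
      rw [← Ideal.Quotient.eq_zero_iff_mem, map_sum]
      have h3 : Ideal.Quotient.mk I (x ^ p ^ n) = 1 := by
        rw [← sub_eq_zero, ← map_one (Ideal.Quotient.mk I), ← map_sub, Ideal.Quotient.eq_zero_iff_mem]
        exact h1
      simp only [map_pow] at h3
      simp only [map_pow, h3, one_pow, Finset.sum_const, Finset.card_range, nsmul_eq_mul, mul_one]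
      rw [← map_natCast (Ideal.Quotient.mk I), Ideal.Quotient.eq_zero_iff_mem]
      exact hpI
    rw [pow_succ p, pow_mul, ← mul_geom_sum, pow_succ I]
    exact Ideal.mul_mem_mul h h2

variable (O : Type) [CommRing O] [IsLocalRing O] (Z : Type) [Finite Z] (n : ℕ)

/-- The character to the auxiliary variables. -/
def dChi (hp : (p : O) ∈ maximalIdeal O) (he : ∀ i, n ≤ e i) :
    DGroup p e →* Aux O Z Y ⧸ maximalIdeal (Aux O Z Y) ^ n :=
  dHom p e (fun i => Ideal.Quotient.mk _ (1 + MvPowerSeries.X (Sum.inr i))) fun i => by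
    rw [← map_pow, ← map_one (Ideal.Quotient.mk (maximalIdeal (Aux O Z Y) ^ n)),
      Ideal.Quotient.mk_eq_mk_iff_sub_mem]
    refine Ideal.pow_le_pow_right ((he i).trans (Nat.le_succ _))
      (pow_sub_one_mem_pow p ?_ ?_ (e i))
    · rw [← map_natCast (MvPowerSeries.C (σ := Z ⊕ Y) (R := O)), mem_maximalIdeal_iff_coeff]
      simpa using hp
    · rw [add_sub_cancel_left]
      exact mem_maximalIdeal_iff_coeff.mpr (by simp)

omit [Finite Z] in
theorem dChi_gen [DecidableEq Y] (hp : (p : O) ∈ maximalIdeal O) (he : ∀ i, n ≤ e i) (i : Y) :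
    dChi p e O Z n hp he (dGen p e i) =
      1 + Ideal.Quotient.mk _ (MvPowerSeries.X (Sum.inr i)) := by
  rw [dChi, dHom_gen, map_add, map_one]

omit [Finite Z] in
theorem dChi_aug (hp : (p : O) ∈ maximalIdeal O) (he : ∀ i, n ≤ e i) (g : DGroup p e)
    (s : Aux O Z Y) (hs : Ideal.Quotient.mk _ s = dChi p e O Z n hp he g) :
    Ideal.Quotient.mk (augIdeal O Z Y) s - 1 ∈
      (maximalIdeal (Aux O Z Y) ^ n).map (Ideal.Quotient.mk (augIdeal O Z Y)) := by
  let t : Aux O Z Y := ∏ i, (1 + MvPowerSeries.X (Sum.inr i)) ^ (Multiplicative.toAdd (g i)).val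
  have ht : Ideal.Quotient.mk _ t = dChi p e O Z n hp he g := by
    simp only [t, map_prod, map_pow]
    rfl
  have h1 : Ideal.Quotient.mk (augIdeal O Z Y) t = 1 := by
    simp only [t, map_prod, map_pow, map_add, map_one]
    refine Finset.prod_eq_one fun i _ => ?_
    rw [show Ideal.Quotient.mk (augIdeal O Z Y) (MvPowerSeries.X (Sum.inr i)) = 0 from
      Ideal.Quotient.eq_zero_iff_mem.mpr (MvPowerSeries.constantCoeff_X _), add_zero, one_pow]
  rw [← h1, ← map_sub]
  exact Ideal.mem_map_of_mem _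
    ((Ideal.Quotient.mk_eq_mk_iff_sub_mem _ _).mp (hs.trans ht.symm))

end FA.RT
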