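import Fermat.Agent.TW.Selmer

/-!
# Taylor–Wiles primes for the framed problem

With frames at the primes of `T` the relevant Selmer group has trivial conditions on `T`, its dual
has none there, and killing the dual by auxiliary primes bounds the former.
-/

set_option autoImplicit false

noncomputable section

open FA.Deform FA.LocalDef FA.GalCoh FA.TW

namespace FA.RT

local notation "Qb" => AlgebraicClosure ℚ
local notation "GQ" => AlgebraicClosure ℚ ≃ₐ[ℚ] AlgebraicClosure ℚ

variable {k : Type} [Field k] [Finite k] {p : ℕ} [Fact p.Prime] [CharP k p]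

/-- Cocycles unramified outside `S` which are coboundaries on the decomposition groups in `T`. -/
structure IsLocallyTrivial (r : GQ →* Matrix (Fin 2) (Fin 2) k) (P : Places) (T S : Finset ℕ)
    (c : GQ → ↥(sl2 k)) : Prop where
  cocycle : ∀ g h, c (g * h) = adRep r g (c h) + c g
  lc : ∃ N : Subgroup GQ, IsOpen (N : Set GQ) ∧ ∀ g s, s ∈ N → c (g * s) = c g
  unramified : ∀ q : ℕ, q.Prime → q ∉ S → ∀ A : ValuationSubring Qb, A.LiesOverPrime q →
    ∀ σ ∈ A.inertiaSubgroupIn ℚ, c σ = 0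
  trivial_at : ∀ q ∈ T, ∃ v : ↥(sl2 k), ∀ σ ∈ P.dec q, c σ = adRep r σ v - v

omit [Finite k] in
theorem term_bot {V : Type} [AddCommGroup V] [Module k V] (L : Submodule k V) (hL : L = ⊥) (a : ℕ) :
    FiniteDimensional k ↥L ∧ Module.finrank k ↥L + a ≤ a := by
  subst hL
  exact ⟨inferInstance, by rw [finrank_bot, zero_add]⟩

omit [Finite k] in
theorem term_le {V : Type} [AddCommGroup V] [Module k V] (L : Submodule k V) (a : ℕ)
    (h : FiniteDimensional k ↥(⊤ : Submodule k V)) (ha : Module.finrank k V ≤ a) :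
    FiniteDimensional k ↥L ∧ Module.finrank k ↥L ≤ a := by
  have : FiniteDimensional k V := Module.Finite.equiv (Submodule.topEquiv (R := k) (M := V))
  exact ⟨inferInstance, (Submodule.finrank_le L).trans ha⟩

variable (r : GQ →* Matrix (Fin 2) (Fin 2) k) (P : Places) (T : Finset ℕ)

/-- Trivial conditions on `T`, none elsewhere. -/
def framedConds (q : ℕ) : Submodule k (P.H1At (adRep r) q) := if q ∈ T then ⊥ else ⊤

variable (hker : IsOpen (r.ker : Set GQ))
  (hdet : ∀ (σ : GQ) (a : ℕ), (∀ μ : Qb, μ ^ p = 1 → σ μ = μ ^ a) → (r σ).det = (a : k))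
  (hprime : ∀ q ∈ T, q.Prime)
  (hunr : ∀ q : ℕ, q.Prime → q ∉ T → ∀ A : ValuationSubring Qb, A.LiesOverPrime q →
    ∀ σ ∈ A.inertiaSubgroupIn ℚ, r σ = 1)
  (hp2 : p ≠ 2) {L : Type} [Field L] [IsAlgClosed L] (j : k →+* L)
  (hbig : IsBig (mapRep j r))
  (GW : GreenbergWiles P T (adRep r) (twRep r) complexConjugation)

include hp2 hker hdet hbig hprime hunr GW in
set_option maxHeartbeats 6000000 in
-- long proof
/-- **Taylor–Wiles primes for the framed problem.** -/
theorem exists_framedTWData (S : Finset ℕ) (hTS : T ⊆ S) :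
    ∃ d : ℕ, ∀ n : ℕ, ∃ qv : Fin d → ℕ, Function.Injective qv ∧
      (∀ i, (qv i).Prime ∧ qv i ∉ S ∧ qv i ≠ p ∧ p ^ (n + 1) ∣ qv i - 1) ∧
      (∀ i, ∀ A : ValuationSubring Qb, A.LiesOverPrime (qv i) → ∀ φ : GQ,
        A.IsFrobeniusAt φ (qv i) → (r φ).trace ^ 2 ≠ 4 * (r φ).det) ∧
      ∀ (W : Type) [AddCommGroup W] [Module k W] (κ : W →ₗ[k] (GQ → ↥(sl2 k))),
        (∀ t, IsLocallyTrivial r P T (T ∪ Finset.univ.image qv) (κ t)) →
        (∀ t v, (∀ g, κ t g = adRep r g v - v) → t = 0) →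
        FiniteDimensional k W ∧ Module.finrank k W + 1 +
          ∑ q ∈ T, Module.finrank k
            ↥(Representation.invariants ((adRep r).comp (P.dec q).subtype)) ≤ d := by
  classical
  have hp : p.Prime := Fact.out
  have h2 : (2 : k) ≠ 0 := fun h0 => hp2 ((Nat.prime_dvd_prime_iff_eq hp Nat.prime_two).mp
    ((CharP.cast_eq_zero_iff k p 2).mp (by exact_mod_cast h0)))
  obtain ⟨Lc, hLin, hLout⟩ : ∃ Lc : ∀ q, Submodule k (P.H1At (adRep r) q),
      (∀ q ∈ T, Lc q = ⊥) ∧ ∀ q, q ∉ T → Lc q = ⊤ :=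
    ⟨framedConds r P T, fun q h => if_pos h, fun q h => if_neg h⟩
  obtain ⟨oc, hoc⟩ : ∃ oc : ∀ q : ℕ, Submodule k (P.H1At (twRep r) q),
      oc = fun q => GW.orth q (Lc q) := ⟨_, rfl⟩
  have hWfin : FiniteDimensional k ↥(selmerGroup P T (twRep r) oc) :=
    hoc ▸ (GW.finite T subset_rfl hprime Lc).1
  obtain ⟨sec, hsec⟩ := (mk1 (levelsOutside T) (twRep r)).exists_rightInverse_of_surjective
    (LinearMap.range_eq_top.mpr mk1_surjective)
  have hsec' : ∀ x, mk1 (levelsOutside T) (twRep r) (sec x) = x :=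
    fun x => LinearMap.congr_fun hsec x
  let ι : ↥(selmerGroup P T (twRep r) oc) →ₗ[k] (GQ → Matrix (Fin 2) (Fin 2) k) :=
    (((sl2 k).subtype.compLeft GQ).comp (Submodule.subtype _)).comp
      (sec.comp (Submodule.subtype _))
  refine ⟨Module.finrank k ↥(selmerGroup P T (twRep r) oc), fun n => ?_⟩
  obtain ⟨qv, A, φ, hinj, hqv, hdetect⟩ := exists_twPrimes (p := p) hp2 r hker hdet j hbig n _ _
    rfl ι (fun v => isAdCocycle_of_mem r (sec v.1).2)
    (fun v => by
      obtain ⟨N, hN, h⟩ := (sec v.1).2.1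
      exact ⟨N, hN.1, fun g s hs => congrArg Subtype.val (h g s hs)⟩)
    (fun v hv => by
      obtain ⟨m, hm, hv⟩ := hv
      refine Subtype.ext ?_
      rw [ZeroMemClass.coe_zero, ← hsec' v.1, mk1_eq_zero]
      exact ⟨⟨m, hm⟩, funext fun g => Subtype.ext ((hv g).symm)⟩)
    (S ∪ {p})
  have hqS : ∀ i, qv i ∉ S := fun i h => (hqv i).2.1 (Finset.mem_union_left _ h)
  have hqT : ∀ i, qv i ∉ T := fun i h => hqS i (hTS h)
  have hqv' : ∀ i, (qv i).Prime ∧ qv i ∉ T ∧ p ≠ qv i ∧ p ∣ qv i - 1 := fun i =>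
    ⟨(hqv i).1, hqT i, fun h => (hqv i).2.2.1 h.symm,
      (dvd_pow_self p n.succ_ne_zero).trans (hqv i).2.2.2.2.2.1⟩
  have hregAll : ∀ i, ∀ B : ValuationSubring Qb, B.LiesOverPrime (qv i) → ∀ ψ : GQ,
      B.IsFrobeniusAt ψ (qv i) → (r ψ).trace ^ 2 ≠ 4 * (r ψ).det := by
    intro i B hB ψ hψ
    obtain ⟨τ, hτ⟩ := exists_conj_frobenius r (hqv i).1 (hunr _ (hqv' i).1 (hqv' i).2.1)
      (hqv i).2.2.2.1 hB (hqv i).2.2.2.2.1 hψ
    have hd : (r τ).det * (r τ⁻¹).det = 1 := by
      rw [← Matrix.det_mul, map_mul_map_inv, Matrix.det_one]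
    rw [hτ, trace_conj, Matrix.det_mul, Matrix.det_mul, mul_right_comm (r τ).det, hd, one_mul]
    exact (hqv i).2.2.2.2.2.2
  refine ⟨qv, hinj, fun i => ⟨(hqv i).1, hqS i, (hqv i).2.2.1, (hqv i).2.2.2.2.2.1⟩, hregAll, ?_⟩
  have hQprime : ∀ q ∈ T ∪ Finset.univ.image qv, q.Prime := by
    intro q hq
    rcases Finset.mem_union.mp hq with hq | hq
    · exact hprime q hq
    · obtain ⟨i, -, rfl⟩ := Finset.mem_image.mp hq
      exact (hqv i).1
  have hdual := selmerGroup_dual_eq_bot r P hdet hunr hqv' (fun i => (hqv i).2.2.2.1)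
    (fun i => (hqv i).2.2.2.2.1) oc
    (fun i => by
      rw [hoc]
      show GW.orth _ (Lc (qv i)) = ⊥
      rw [hLout _ (hqT i)]
      exact GW.orth_top _ (hqv i).1)
    sec hsec' hdetect
  intro W _ _ κ hκ hinjκ
  have hmem : ∀ t, κ t ∈ Z1 (levelsOutside (T ∪ Finset.univ.image qv)) (adRep r) := fun t => by
    obtain ⟨N₀, hN₀, hlc⟩ := (hκ t).lc
    exact mem_Z1_levelsOutside _ (hκ t).cocycle hN₀ hlc (hκ t).unramified
      fun q hq hq' => absurd hq hq'
  let cl : W →ₗ[k] H1 (levelsOutside (T ∪ Finset.univ.image qv)) (adRep r) :=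
    (mk1 _ _).comp (κ.codRestrict _ hmem)
  have hclinj : Function.Injective cl := by
    rw [injective_iff_map_eq_zero]
    intro t ht
    obtain ⟨v, hv⟩ := (mk1_eq_zero _ _ _).mp ht
    exact hinjκ t v fun g => (congrFun hv g).symm
  obtain ⟨hfd, hfs⟩ := GW.finite (T ∪ Finset.univ.image qv) Finset.subset_union_left hQprime Lc
  let cl' := cl.codRestrict (selmerGroup P (T ∪ Finset.univ.image qv) (adRep r) Lc) fun t => by
    show mk1 (levelsOutside (T ∪ Finset.univ.image qv)) (adRep r) ⟨κ t, hmem t⟩ ∈ _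
    rw [mem_selmerGroup]
    intro q hq
    rw [locMap_mk1]
    by_cases hqT' : q ∈ T
    · rw [hLin q hqT', Submodule.mem_bot]
      obtain ⟨v, hv⟩ := (hκ t).trivial_at q hqT'
      exact (mk1_eq_zero _ _ _).mpr ⟨v, funext fun σ => (hv σ.1 σ.2).symm⟩
    · rw [hLout q hqT']
      exact Submodule.mem_top
  have hcl'inj : Function.Injective cl' := fun a b h => hclinj (congrArg Subtype.val h)
  refine ⟨Module.Finite.of_injective cl' hcl'inj, ?_⟩
  have hW := LinearMap.finrank_le_finrank_of_injective hcl'inj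
  have hlocal : ∀ q ∈ T ∪ Finset.univ.image qv, FiniteDimensional k ↥(Lc q) ∧
      Module.finrank k ↥(Lc q) +
        (if q ∈ T then Module.finrank k
          ↥(Representation.invariants ((adRep r).comp (P.dec q).subtype)) else 0) ≤
      Module.finrank k ↥(Representation.invariants ((adRep r).comp (P.dec q).subtype)) +
        (if q ∈ Finset.univ.image qv then 1 else 0) := by
    intro q hq
    by_cases hqT' : q ∈ T
    · have h := term_bot (Lc q) (hLin q hqT')
        (Module.finrank k ↥(Representation.invariants ((adRep r).comp (P.dec q).subtype)))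
      simp only [if_pos hqT']
      exact ⟨h.1, h.2.trans (Nat.le_add_right _ _)⟩
    · have hqQ := (Finset.mem_union.mp hq).resolve_left hqT'
      simp only [if_neg hqT', if_pos hqQ, add_zero]
      obtain ⟨i, -, rfl⟩ := Finset.mem_image.mp hqQ
      have hA := P.liesOver _ (hqv i).1
      obtain ⟨ψ, hψ⟩ := Deform.exists_isFrobeniusAt (hqv i).1 hA
      have h := finrank_H1_twPrime (p := p) r (hqv i).1 (hqv' i).2.2.1 hA (hqv' i).2.2.2
        (hunr _ (hqv i).1 hqT' _ hA) hψ hker (hregAll i _ hA ψ hψ)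
      exact term_le (Lc (qv i)) _ (Module.Finite.iff_fg.mpr h.1.fg_top) h.2
  have hbound := GW.bound (T ∪ Finset.univ.image qv) Finset.subset_union_left hQprime Lc
    fun q hq => (hlocal q hq).1
  have hdual0 : Module.finrank k ↥(selmerGroup P (T ∪ Finset.univ.image qv) (twRep r)
      fun q => GW.orth q (Lc q)) = 0 := Submodule.finrank_eq_zero.mpr (hoc ▸ hdual)
  have hinv0 : Module.finrank k ↥(adRep r).invariants = 0 :=
    Submodule.finrank_eq_zero.mpr (invariants_adRep j (fun g => rfl) hbig h2)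
  have hsum := Finset.sum_le_sum fun q hq => (hlocal q hq).2
  rw [Finset.sum_add_distrib, Finset.sum_add_distrib, Finset.sum_boole,
    Finset.filter_mem_eq_inter, Finset.inter_eq_right.mpr Finset.subset_union_right,
    Finset.card_image_of_injective _ hinj, Finset.card_univ, Fintype.card_fin] at hsum
  rw [← Finset.sum_filter, Finset.filter_mem_eq_inter,
    Finset.inter_eq_right.mpr Finset.subset_union_left] at hsum
  have hc1 := one_le_finrank_fixed (p := p) r hdet
  simp only [Nat.cast_id] at hsum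
  omega

end FA.RT
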