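import Fermat.Agent.RT.LevelBuild
import Fermat.Agent.RT.Selmer

/-!
# Existence of local coordinates and of Taylor–Wiles sets
-/

set_option autoImplicit false

noncomputable section

open IsLocalRing Matrix FA.Deform FA.TW FA.LocalDef FA.GalCoh

namespace FA.RT

local notation "Qb" => AlgebraicClosure ℚ
local notation "GQ" => AlgebraicClosure ℚ ≃ₐ[ℚ] AlgebraicClosure ℚ

variable {O : Type} [CommRing O] [IsDomain O] [IsDiscreteValuationRing O]
  [IsAdicComplete (maximalIdeal O) O]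

section

variable [Finite (ResidueField O)] {p : ℕ} (hp : p.Prime) (hp2 : p ≠ 2) (hpO : (p : O) ∈ maximalIdeal O)

include hp hp2 hpO in
omit [IsAdicComplete (maximalIdeal O) O] [Finite (ResidueField O)] in
theorem two_ne_zero_residue : (2 : ResidueField O) ≠ 0 := by
  intro h0
  have hp0 : ((p : ℕ) : ResidueField O) = 0 := by
    rw [← map_natCast (residue O), residue_eq_zero_iff]
    exact hpO
  have : CharP (ResidueField O) p := (CharP.charP_iff_prime_eq_zero hp).mpr hp0
  exact hp2 ((Nat.prime_dvd_prime_iff_eq hp Nat.prime_two).mp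
    ((CharP.cast_eq_zero_iff (ResidueField O) p 2).mp (by exact_mod_cast h0)))

variable (rb : GQ →* Matrix (Fin 2) (Fin 2) (ResidueField O)) (rb_open : IsOpen (rb.ker : Set GQ))
  (cyc : GQ → O) (cyc_spec : ∀ σ, ∃ (a : ℕ) (y : O), cyc σ = a + p * y)
  (P : Places) (Sig : Finset ℕ) (prime_Sig : ∀ q ∈ Sig, q.Prime ∧ q ≠ p)
  (unipotent : ∀ q ∈ Sig, ∀ σ ∈ (P.place q).inertiaSubgroupIn ℚ, ∃ m : ℕ, rb σ ^ p ^ m = 1)
  (Cp : (GQ → Matrix (Fin 2) (Fin 2) (ResidueField O)) → Prop)
  (htb : TangentBound (P.place p) rb Cp)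

/-- The data of a lifting problem from a tangent bound at `p`. -/
def Setup.ofBound : Setup O where
  p := p
  hp := hp
  hp2 := hp2
  hpO := hpO
  rb := rb
  rb_open := rb_open
  cyc := cyc
  cyc_spec := cyc_spec
  P := P
  Sig := Sig
  prime_Sig := prime_Sig
  unipotent := unipotent
  Φ q := Classical.choose (Deform.exists_isFrobeniusAt (prime_Sig q.1 q.2).1
    (P.liesOver q.1 (prime_Sig q.1 q.2).1))
  Φ_spec q := Classical.choose_spec (Deform.exists_isFrobeniusAt (prime_Sig q.1 q.2).1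
    (P.liesOver q.1 (prime_Sig q.1 q.2).1))
  tame q := Classical.choose (exists_tame_gen hp (prime_Sig q.1 q.2).1 (prime_Sig q.1 q.2).2.symm
    (P.liesOver q.1 (prime_Sig q.1 q.2).1))
  tame_mem q := (Classical.choose_spec (exists_tame_gen hp (prime_Sig q.1 q.2).1
    (prime_Sig q.1 q.2).2.symm (P.liesOver q.1 (prime_Sig q.1 q.2).1))).1
  tame_gen q := (Classical.choose_spec (exists_tame_gen hp (prime_Sig q.1 q.2).1
    (prime_Sig q.1 q.2).2.symm (P.liesOver q.1 (prime_Sig q.1 q.2).1))).2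
  Cp := Cp
  m := 4
  e := Classical.choose (exists_entries rb (two_ne_zero_residue hp hp2 hpO) htb)
  e_mem := (Classical.choose_spec (exists_entries rb (two_ne_zero_residue hp hp2 hpO) htb)).1
  detect := (Classical.choose_spec (exists_entries rb (two_ne_zero_residue hp hp2 hpO) htb)).2

instance : Fact ((Setup.ofBound hp hp2 hpO rb rb_open cyc cyc_spec P Sig prime_Sig unipotent Cp htb).m = 4) :=
  ⟨rfl⟩

end

variable (S : Setup O) [Finite (ResidueField O)]

omit [IsAdicComplete (maximalIdeal O) O] in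
/-- **Taylor–Wiles sets of every depth exist.** -/
theorem Setup.exists_twSets
    (hdet : ∀ (σ : GQ) (a : ℕ), (∀ μ : Qb, μ ^ S.p = 1 → σ μ = μ ^ a) →
      (S.rb σ).det = (a : ResidueField O))
    (hunr : ∀ q : ℕ, q.Prime → q ∉ S.T → ∀ A : ValuationSubring Qb, A.LiesOverPrime q →
      ∀ σ ∈ A.inertiaSubgroupIn ℚ, S.rb σ = 1)
    {L : Type} [Field L] [IsAlgClosed L] (j : ResidueField O →+* L) (hbig : IsBig (mapRep j S.rb))
    (GW : GreenbergWiles S.P S.T (adRep S.rb) (twRep S.rb) complexConjugation)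
    (S₀ : Finset ℕ) :
    ∃ r : ℕ, ∀ n : ℕ, ∃ D : S.TWSet r n,
      Function.Injective D.qv ∧ ∀ i, D.qv i ∉ S.T ∧ D.qv i ∉ S₀ := by
  have : Fact S.p.Prime := ⟨S.hp⟩
  have hp0 : ((S.p : ℕ) : ResidueField O) = 0 := by
    rw [← map_natCast (residue O), residue_eq_zero_iff]
    exact S.hpO
  have : CharP (ResidueField O) S.p := (CharP.charP_iff_prime_eq_zero S.hp).mpr hp0
  have hprime : ∀ q ∈ S.T, q.Prime := fun q hq => by
    rcases Finset.mem_insert.mp hq with rfl | hq
    · exact S.hp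
    · exact (S.prime_Sig q hq).1
  obtain ⟨r, hr⟩ := exists_framedTWData S.rb S.P S.T S.rb_open hdet hprime hunr S.hp2 j hbig GW
    (S.T ∪ S₀) Finset.subset_union_left
  refine ⟨r, fun n => ?_⟩
  obtain ⟨qv, hinj, hqv, hreg, hW⟩ := hr n
  have hA : ∀ i, (S.P.place (qv i)).LiesOverPrime (qv i) := fun i => S.P.liesOver _ (hqv i).1
  choose φ hφ using fun i => Deform.exists_isFrobeniusAt (hqv i).1 (hA i)
  exact ⟨{
    qv := qv
    prime := fun i => ⟨(hqv i).1, (hqv i).2.2.1⟩
    dvd := fun i => (hqv i).2.2.2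
    unramified := fun i σ hσ => hunr _ (hqv i).1
      (fun h => (hqv i).2.1 (Finset.mem_union_left _ h)) _ (hA i) σ hσ
    φ := φ
    φ_spec := hφ
    regular := fun i => hreg i _ (hA i) _ (hφ i)
    s := fun i => ⟨Classical.choose (exists_tame_gen S.hp (hqv i).1 (hqv i).2.2.1.symm (hA i)),
      (Classical.choose_spec (exists_tame_gen S.hp (hqv i).1 (hqv i).2.2.1.symm (hA i))).1⟩
    bound := hW }, hinj,
    fun i => ⟨fun h => (hqv i).2.1 (Finset.mem_union_left _ h),
      fun h => (hqv i).2.1 (Finset.mem_union_right _ h)⟩⟩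

end FA.RT
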