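import Fermat.Agent.RT.Tame
import Fermat.Agent.Deform.MatrixRep
import Mathlib.LinearAlgebra.Matrix.Trace
import Mathlib.LinearAlgebra.Matrix.Charpoly.Coeff

/-!
# Inertia at a Taylor–Wiles prime

If `ρ(Φ)` has distinct residual eigenvalues and `q ≡ 1` modulo the residue characteristic, inertia
at `q` acts on the `α`-line of `ρ(Φ)` by a character killed by `q - 1`.
-/

set_option autoImplicit false

noncomputable section

open IsLocalRing Matrix FA.Deform

namespace FA.RT

local notation "Qb" => AlgebraicClosure ℚ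
local notation "GQ" => AlgebraicClosure ℚ ≃ₐ[ℚ] AlgebraicClosure ℚ

variable {R : Type} [CommRing R]

/-- Compression by a rank one idempotent is a scalar. -/
theorem mul_mul_eq_trace_smul {e : (Matrix (Fin 2) (Fin 2) R)} (he : e.det = 0) (X : (Matrix (Fin 2) (Fin 2) R)) :
    e * X * e = (e * X).trace • e := by
  rw [Matrix.det_fin_two] at he
  refine Matrix.ext fun i j => ?_
  fin_cases i <;> fin_cases j <;>
    simp [Matrix.mul_apply, Fin.sum_univ_two, Matrix.trace_fin_two]
  · linear_combination (-(X 1 1)) * he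
  · linear_combination (X 0 1) * he
  · linear_combination (X 1 0) * he
  · linear_combination (-(X 0 0)) * he

variable [IsLocalRing R]

/-- Entrywise congruence to `1` improves under `p`th powers. -/
theorem pow_sub_one_mem {p : ℕ} (hpR : (p : R) ∈ maximalIdeal R) {B : (Matrix (Fin 2) (Fin 2) R)}
    (hB : ∀ i j, (B - 1) i j ∈ maximalIdeal R) (n : ℕ) :
    ∀ i j, (B ^ p ^ n - 1) i j ∈ maximalIdeal R ^ (n + 1) := by
  induction n with
  | zero => simpa using hB
  | succ n ih =>
    set C := B ^ p ^ n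
    have hC : ∀ i j, (C - 1) i j ∈ maximalIdeal R := fun i j =>
      Ideal.pow_le_self n.succ_ne_zero (ih i j)
    have hsum : ∀ m : ℕ, ∀ i j, (∑ a ∈ Finset.range m, C ^ a - (m : (Matrix (Fin 2) (Fin 2) R))) i j ∈ maximalIdeal R := by
      let f := (Ideal.Quotient.mk (maximalIdeal R)).mapMatrix (m := Fin 2)
      intro m i j
      have h1 : f C = 1 := by
        ext a b
        have := Ideal.Quotient.eq_zero_iff_mem.mpr (hC a b)
        simp only [Matrix.sub_apply, map_sub, sub_eq_zero] at this
        simp only [f, RingHom.mapMatrix_apply, Matrix.map_apply, this]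
        rcases eq_or_ne a b with rfl | hne <;> simp [*]
      have h2 : f (∑ a ∈ Finset.range m, C ^ a - (m : (Matrix (Fin 2) (Fin 2) R))) = 0 := by
        simp [map_sum, map_pow, h1]
      exact Ideal.Quotient.eq_zero_iff_mem.mp (congrFun (congrFun h2 i) j)
    intro i j
    rw [show B ^ p ^ (n + 1) = C ^ p by rw [pow_succ p, pow_mul],
      show C ^ p - 1 = (C - 1) * ∑ a ∈ Finset.range p, C ^ a from
      (mul_geom_sum C p).symm, Matrix.mul_apply, pow_succ (maximalIdeal R)]
    refine Ideal.sum_mem _ fun a _ => Ideal.mul_mem_mul (ih i a) ?_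
    have h := hsum p a j
    rw [Matrix.sub_apply] at h
    have hp' : (p : (Matrix (Fin 2) (Fin 2) R)) a j ∈ maximalIdeal R := by
      rw [← Matrix.diagonal_natCast, Matrix.diagonal_apply]
      split_ifs
      · exact hpR
      · exact zero_mem _
    simpa using add_mem h hp'

variable [IsAdicComplete (maximalIdeal R) R] (rR : GQ →* (Matrix (Fin 2) (Fin 2) R)) (hcont : IsContRep rR)
  {p q : ℕ} (hpR : (p : R) ∈ maximalIdeal R) {A : ValuationSubring Qb}
  (hres : ∀ σ ∈ A.inertiaSubgroupIn ℚ, ∀ i j, (rR σ - 1) i j ∈ maximalIdeal R)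

include hcont hpR hres in
/-- The tame relation over the deformation ring. -/
theorem rep_tame_relation (hp : p.Prime) (hq : q.Prime) (hpq : p ≠ q) (hA : A.LiesOverPrime q)
    {φ : GQ} (hφ : A.IsFrobeniusAt φ q) {s : GQ} (hs : s ∈ A.inertiaSubgroupIn ℚ) :
    rR φ * rR s = rR s ^ q * rR φ := by
  refine Matrix.ext fun i j => ?_
  rw [← sub_eq_zero]
  refine IsHausdorff.haus (inferInstance : IsHausdorff (maximalIdeal R) R) _ fun n => ?_
  rw [SModEq.zero, smul_eq_mul, Ideal.mul_top]
  let f := mapRep (Ideal.Quotient.mk (maximalIdeal R ^ n)) rR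
  have hfo : IsOpen (f.ker : Set GQ) := by
    obtain ⟨L, hL, hn⟩ := hcont n
    refine Subgroup.isOpen_mono (H₁ := L.fixingSubgroup) (fun σ hσ => ?_)
      (IntermediateField.fixingSubgroup_isOpen L)
    refine MonoidHom.mem_ker.mpr (Matrix.ext fun a b => ?_)
    have h := Ideal.Quotient.eq_zero_iff_mem.mpr
      (hn σ ((IntermediateField.mem_fixingSubgroup_iff L σ).mp hσ) a b)
    rw [Matrix.sub_apply, map_sub, sub_eq_zero] at h
    show Ideal.Quotient.mk _ (rR σ a b) = _
    rw [h]
    rcases eq_or_ne a b with rfl | hne <;> simp [*]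
  have hfP : ∀ σ ∈ A.inertiaSubgroupIn ℚ, ∃ m : ℕ, f σ ^ p ^ m = 1 := fun σ hσ => ⟨n, by
    show (Ideal.Quotient.mk (maximalIdeal R ^ n)).mapMatrix (rR σ) ^ p ^ n = 1
    rw [← map_pow]
    refine Matrix.ext fun a b => ?_
    have h := Ideal.Quotient.eq_zero_iff_mem.mpr (Ideal.pow_le_pow_right n.le_succ
      (pow_sub_one_mem hpR (hres σ hσ) n a b))
    rw [Matrix.sub_apply, map_sub, sub_eq_zero] at h
    rw [RingHom.mapMatrix_apply, Matrix.map_apply, h]
    rcases eq_or_ne a b with rfl | hne <;> simp [*]⟩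
  have h := tame_relation f hp hq hpq hA hfo hfP hφ hs
  have h' : (Ideal.Quotient.mk (maximalIdeal R ^ n)).mapMatrix (rR φ * rR s) =
      (Ideal.Quotient.mk (maximalIdeal R ^ n)).mapMatrix (rR s ^ q * rR φ) := by
    rw [map_mul, map_mul, map_pow]
    exact h
  rw [← Ideal.Quotient.eq_zero_iff_mem, map_sub, sub_eq_zero]
  exact congrFun (congrFun h' i) j

omit [IsAdicComplete (maximalIdeal R) R] in
/-- A matrix near `1` with `A B = B ^ q A` has no off-diagonal part. -/
theorem offdiag_eq_zero {e A' B : (Matrix (Fin 2) (Fin 2) R)} (he : e.det = 0) (hf : (1 - e).det = 0) {α β : R}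
    (hAe : e * A' = α • e) (hAf : A' * (1 - e) = β • (1 - e)) (hee : e * e = e)
    (hαβ : IsUnit (α - β))
    (hte : e.trace = 1) (hB : ∀ i j, (B - 1) i j ∈ maximalIdeal R)
    (hq1 : (q : R) - 1 ∈ maximalIdeal R) (hrel : A' * B = B ^ q * A') :
    e * B * (1 - e) = 0 := by
  let f := (Ideal.Quotient.mk (maximalIdeal R)).mapMatrix (m := Fin 2)
  have hfB : f B = 1 := by
    ext a b
    have := Ideal.Quotient.eq_zero_iff_mem.mpr (hB a b)
    simp only [Matrix.sub_apply, map_sub, sub_eq_zero] at this
    simp only [f, RingHom.mapMatrix_apply, Matrix.map_apply, this]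
    rcases eq_or_ne a b with rfl | hne <;> simp [*]
  have htr : ∀ (g : (Matrix (Fin 2) (Fin 2) R)) (m : ℕ), Ideal.Quotient.mk (maximalIdeal R) (g * B ^ m).trace =
      Ideal.Quotient.mk (maximalIdeal R) g.trace := by
    intro g m
    rw [AddMonoidHom.map_trace, AddMonoidHom.map_trace,
      show (g * B ^ m).map (Ideal.Quotient.mk (maximalIdeal R)) = f (g * B ^ m) from rfl, map_mul,
      map_pow, hfB, one_pow, mul_one]
    rfl
  have hstep : ∀ n : ℕ, ∃ s : R, e * B ^ n * (1 - e) = s • (e * B * (1 - e)) ∧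
      s - n ∈ maximalIdeal R := by
    intro n
    induction n with
    | zero =>
      refine ⟨0, ?_, by simp⟩
      rw [pow_zero, mul_one, mul_sub, mul_one, hee, sub_self, zero_smul]
    | succ n ih =>
      obtain ⟨s, hs, hsn⟩ := ih
      refine ⟨(e * B ^ n).trace + s * ((1 - e) * B).trace, ?_, ?_⟩
      · have h1 : e * B ^ (n + 1) * (1 - e) =
            e * B ^ n * e * B * (1 - e) + e * B ^ n * (1 - e) * B * (1 - e) := by
          rw [pow_succ]
          noncomm_ring
        have h2 : e * B * (1 - e) * (B * (1 - e)) =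
            ((1 - e) * B).trace • (e * B * (1 - e)) := by
          have h3 := mul_mul_eq_trace_smul hf B
          calc e * B * (1 - e) * (B * (1 - e)) = e * B * ((1 - e) * B * (1 - e)) := by noncomm_ring
            _ = _ := by rw [h3, mul_smul_comm]
        rw [h1, mul_mul_eq_trace_smul he, smul_mul_assoc, smul_mul_assoc, hs,
          mul_assoc (s • (e * B * (1 - e))), smul_mul_assoc s, h2, smul_smul, ← add_smul]
      · rw [← Ideal.Quotient.eq_zero_iff_mem] at hsn ⊢
        have hn' : Ideal.Quotient.mk (maximalIdeal R) s = n := by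
          rwa [map_sub, sub_eq_zero, map_natCast] at hsn
        have h1 := htr e n
        have h2 : Ideal.Quotient.mk (maximalIdeal R) ((1 - e) * B).trace = 1 := by
          rw [← pow_one B, htr, Matrix.trace_sub, Matrix.trace_one, hte, Fintype.card_fin]
          push_cast
          norm_num
        simp only [map_sub, map_add, map_mul, map_natCast, h1, h2, hte, map_one, hn']
        push_cast
        ring
  obtain ⟨s, hs, hsq⟩ := hstep q
  have h1 : e * (A' * B) * (1 - e) = α • (e * B * (1 - e)) := by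
    rw [← mul_assoc, hAe, smul_mul_assoc, smul_mul_assoc]
  have h2 : e * (B ^ q * A') * (1 - e) = (β * s) • (e * B * (1 - e)) := by
    rw [mul_assoc, mul_assoc (B ^ q), hAf, mul_smul_comm, mul_smul_comm, ← mul_assoc, hs, smul_smul]
  rw [hrel, h2] at h1
  have hu : IsUnit (α - β * s) := by
    have hm : β * (s - 1) ∈ maximalIdeal R := Ideal.mul_mem_left _ _ (by
      have := add_mem hsq hq1
      rwa [sub_add_sub_cancel] at this)
    refine (IsLocalRing.notMem_maximalIdeal.mp fun hmem => ?_)
    have := add_mem hmem hm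
    rw [show α - β * s + β * (s - 1) = α - β by ring] at this
    exact (IsLocalRing.mem_maximalIdeal _).mp this hαβ
  have : (α - β * s) • (e * B * (1 - e)) = 0 := by rw [sub_smul, ← h1, sub_self]
  rwa [hu.smul_eq_zero] at this

/-- The data at a Taylor–Wiles prime. -/
structure TWLine (φ : GQ) (I : Subgroup GQ) (q : ℕ) where
  /-- the projector onto the `α`-line -/
  e : (Matrix (Fin 2) (Fin 2) R)
  /-- the eigenvalue of Frobenius -/
  α : R
  /-- the inertia character -/
  ξ : ↥I →* R
  idem : e * e = e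
  trace_e : e.trace = 1
  det_e : e.det = 0
  frob : rR φ * e = α • e
  inertia : ∀ s : ↥I, rR s * e = ξ s • e
  inertia_left : ∀ s : ↥I, e * rR s = ξ s • e
  pow_eq_one : ∀ s, ξ s ^ (q - 1) = 1
  sub_one_mem : ∀ s, ξ s - 1 ∈ maximalIdeal R

include hcont hpR hres in
/-- **Inertia at a Taylor–Wiles prime.** -/
theorem exists_twLine (hp : p.Prime) (hq : q.Prime) (hpq : p ≠ q) (hA : A.LiesOverPrime q)
    (hq1 : p ∣ q - 1) {φ : GQ} (hφ : A.IsFrobeniusAt φ q) {α β : R}
    (hαβ : IsUnit (α - β)) (htr : (rR φ).trace = α + β) (hdet : (rR φ).det = α * β) :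
    ∃ L : TWLine rR φ (A.inertiaSubgroupIn ℚ) q, L.α = α := by
  obtain ⟨u, hu⟩ := hαβ.exists_right_inv
  set A' := rR φ
  rw [Matrix.trace_fin_two] at htr
  rw [Matrix.det_fin_two] at hdet
  let e : (Matrix (Fin 2) (Fin 2) R) := u • (A' - β • 1)
  have hte : e.trace = 1 := by
    simp only [e, Matrix.trace_smul, Matrix.trace_sub, Matrix.trace_one, Fintype.card_fin,
      smul_eq_mul, Matrix.trace_fin_two]
    push_cast
    linear_combination u * htr + hu
  have hde : e.det = 0 := by
    simp [e, Matrix.det_fin_two]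
    linear_combination u * u * hdet - u * u * β * htr
  have hdf : (1 - e).det = 0 := by
    rw [Matrix.det_fin_two] at hde ⊢
    rw [Matrix.trace_fin_two] at hte
    simp only [Matrix.sub_apply, Matrix.one_apply_eq, Matrix.one_apply_ne zero_ne_one,
      Matrix.one_apply_ne one_ne_zero]
    linear_combination hde - hte
  have hee : e * e = e := by
    have := mul_mul_eq_trace_smul hde (1 : (Matrix (Fin 2) (Fin 2) R))
    rwa [mul_one, hte, one_smul] at this
  have hCH : (A' - β • 1) * (A' - α • 1) = 0 := by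
    refine Matrix.ext fun i j => ?_
    fin_cases i <;> fin_cases j <;> simp [Matrix.mul_apply, Fin.sum_univ_two, Matrix.one_apply]
    · linear_combination (A' 0 0) * htr - hdet
    · linear_combination (A' 0 1) * htr
    · linear_combination (A' 1 0) * htr
    · linear_combination (A' 1 1) * htr - hdet
  have hCH' : (A' - α • 1) * (A' - β • 1) = 0 := by
    rw [← hCH]
    simp [sub_mul, mul_sub, smul_sub, smul_smul, mul_comm α β]
    abel
  have hAe : A' * e = α • e := by
    rw [← sub_eq_zero, show A' * e - α • e = (A' - α • 1) * e by simp [sub_mul],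
      show e = u • (A' - β • 1) from rfl, mul_smul_comm, hCH', smul_zero]
  have hAe' : e * A' = α • e := by
    rw [← sub_eq_zero, show e * A' - α • e = e * (A' - α • 1) by simp [mul_sub],
      show e = u • (A' - β • 1) from rfl, smul_mul_assoc, hCH, smul_zero]
  have hf : (1 : (Matrix (Fin 2) (Fin 2) R)) - e = u • (α • 1 - A') := by
    refine Matrix.ext fun i j => ?_
    fin_cases i <;> fin_cases j <;> simp [e]
    · linear_combination -hu
    · linear_combination -hu
  have hAf : A' * (1 - e) = β • (1 - e) := by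
    rw [← sub_eq_zero, show A' * (1 - e) - β • (1 - e) = (A' - β • 1) * (1 - e) by simp [sub_mul],
      hf, mul_smul_comm, show α • (1 : (Matrix (Fin 2) (Fin 2) R)) - A' = -(A' - α • 1) by abel, mul_neg, hCH, neg_zero,
      smul_zero]
  have hAf' : (1 - e) * A' = β • (1 - e) := by
    rw [← sub_eq_zero, show (1 - e) * A' - β • (1 - e) = (1 - e) * (A' - β • 1) by simp [mul_sub],
      hf, smul_mul_assoc, show α • (1 : (Matrix (Fin 2) (Fin 2) R)) - A' = -(A' - α • 1) by abel, neg_mul, hCH', neg_zero,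
      smul_zero]
  have hq1' : (q : R) - 1 ∈ maximalIdeal R := by
    obtain ⟨t, ht⟩ := hq1
    rw [show q = p * t + 1 by have := hq.one_le; omega]
    push_cast
    rw [add_sub_cancel_right]
    exact Ideal.mul_mem_right _ _ hpR
  have hrel := fun s : ↥(A.inertiaSubgroupIn ℚ) =>
    rep_tame_relation rR hcont hpR hres hp hq hpq hA hφ s.2
  have hoff : ∀ s : ↥(A.inertiaSubgroupIn ℚ), rR s * e = e * rR s * e ∧ e * rR s = e * rR s * e := by
    intro s
    have h1 := offdiag_eq_zero hde hdf hAe' hAf hee hαβ hte (hres s s.2) hq1' (hrel s)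
    have htf : (1 - e).trace = 1 := by
      rw [Matrix.trace_sub, Matrix.trace_one, hte, Fintype.card_fin]; norm_num
    have h2 := offdiag_eq_zero hdf (by rwa [sub_sub_cancel]) hAf'
      (α := β) (β := α) (by rwa [sub_sub_cancel])
      (by rw [mul_sub, sub_mul, sub_mul, hee]; simp)
      (by rw [show β - α = -(α - β) by ring]; exact hαβ.neg) htf (hres s s.2) hq1' (hrel s)
    rw [sub_sub_cancel, sub_mul, one_mul, sub_mul, sub_eq_zero] at h2
    rw [mul_sub, mul_one, sub_eq_zero] at h1
    exact ⟨h2, h1⟩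
  have hξ : ∀ s : ↥(A.inertiaSubgroupIn ℚ),
      rR s * e = (e * rR s).trace • e ∧ e * rR s = (e * rR s).trace • e := fun s =>
    ⟨(hoff s).1.trans (mul_mul_eq_trace_smul hde _), (hoff s).2.trans (mul_mul_eq_trace_smul hde _)⟩
  have hcancel : ∀ a b : R, a • e = b • e → a = b := fun a b h => by
    have := congrArg Matrix.trace h
    simpa [Matrix.trace_smul, hte] using this
  let ξ : ↥(A.inertiaSubgroupIn ℚ) →* R :=
    { toFun := fun s => (e * rR s).trace
      map_one' := by simp [hte]
      map_mul' := fun s t => hcancel _ _ (by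
        rw [← (hξ (s * t)).1, Subgroup.coe_mul, map_mul, mul_assoc, (hξ t).1, mul_smul_comm,
          (hξ s).1, smul_smul, mul_comm]) }
  have hξm : ∀ s, ξ s - 1 ∈ maximalIdeal R := fun s => by
    rw [show ξ s - 1 = (e * (rR s - 1)).trace by
      simp [ξ, mul_sub, Matrix.trace_sub, hte], Matrix.trace]
    refine Ideal.sum_mem _ fun i _ => ?_
    rw [Matrix.diag_apply, Matrix.mul_apply]
    exact Ideal.sum_mem _ fun j _ => Ideal.mul_mem_left _ _ (hres s s.2 j i)
  have hξu : ∀ s, IsUnit (ξ s) := fun s => IsLocalRing.notMem_maximalIdeal.mp fun h => by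
    have := sub_mem h (hξm s)
    rw [sub_sub_cancel] at this
    exact (IsLocalRing.mem_maximalIdeal _).mp this isUnit_one
  have hαu : IsUnit α ∨ IsUnit β := by
    by_contra h
    obtain ⟨h1, h2⟩ := not_or.mp h
    exact (IsLocalRing.mem_maximalIdeal _).mp
      (sub_mem ((IsLocalRing.mem_maximalIdeal _).mpr h1) ((IsLocalRing.mem_maximalIdeal _).mpr h2)) hαβ
  refine ⟨⟨e, α, ξ, hee, hte, hde, hAe, fun s => (hξ s).1, fun s => (hξ s).2, fun s => ?_, hξm⟩, rfl⟩
  have hpow : ∀ n : ℕ, rR (s : GQ) ^ n * e = ξ s ^ n • e := fun n => by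
    rw [← map_pow]
    have := (hξ (s ^ n)).1
    rw [Subgroup.coe_pow] at this
    rw [this]
    exact congrArg (· • e) (map_pow ξ s n)
  have hAu : IsUnit A' := (Group.isUnit φ).map rR
  have hαu' : IsUnit α := by
    have hd : IsUnit (α * β) := by
      rw [← hdet, ← Matrix.det_fin_two]
      exact hAu.map Matrix.detMonoidHom
    exact isUnit_of_mul_isUnit_left hd
  have hl : A' * rR s * e = (ξ s * α) • e := by
    rw [mul_assoc, (hξ s).1, mul_smul_comm, hAe, smul_smul]
    rfl
  have hr : rR s ^ q * A' * e = (α * ξ s ^ q) • e := by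
    rw [mul_assoc, hAe, mul_smul_comm, hpow, smul_smul]
  have h3 : α * ξ s = ξ s ^ q * α := by
    have h := hcancel _ _ (hl.symm.trans ((congrArg (· * e) (hrel s)).trans hr))
    linear_combination h
  have h4 : ξ s * 1 = ξ s * ξ s ^ (q - 1) := by
    rw [mul_one, ← pow_succ', Nat.sub_add_cancel hq.one_le]
    exact hαu'.mul_left_cancel (h3.trans (mul_comm _ _))
  exact ((hξu s).mul_left_cancel h4).symm

include hcont hpR hres in
/-- Lines at Taylor–Wiles primes exist. -/
theorem nonempty_twLine (hp : p.Prime) (hq : q.Prime) (hpq : p ≠ q) (hA : A.LiesOverPrime q)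
    (hq1 : p ∣ q - 1) {φ : GQ} (hφ : A.IsFrobeniusAt φ q) {α β : R}
    (hαβ : IsUnit (α - β)) (htr : (rR φ).trace = α + β) (hdet : (rR φ).det = α * β) :
    Nonempty (TWLine rR φ (A.inertiaSubgroupIn ℚ) q) :=
  (exists_twLine rR hcont hpR hres hp hq hpq hA hq1 hφ hαβ htr hdet).elim fun L _ => ⟨L⟩

end FA.RT
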