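import Fermat.Agent.RT.Setup
import Fermat.Agent.RT.Diamond
import Fermat.Agent.RT.DiamondGroup

/-!
# The level attached to a set of Taylor–Wiles primes

The diamond elements of a carried algebra come from inertia at the Taylor–Wiles primes. Together
with an action on free modules over the group algebra and the presentation by the coordinates of a
`Setup`, they give a level of a patching system.
-/

set_option autoImplicit false

noncomputable section

open IsLocalRing Matrix FA.Deform FA.TW FA.LocalDef FA.Patch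

namespace FA.RT

local notation "Qb" => AlgebraicClosure ℚ
local notation "GQ" => AlgebraicClosure ℚ ≃ₐ[ℚ] AlgebraicClosure ℚ

variable {O : Type} [CommRing O] [IsDomain O] [IsDiscreteValuationRing O]
  [IsAdicComplete (maximalIdeal O) O]

section TWLine

variable {R : Type} [CommRing R] [IsLocalRing R] {rR : GQ →* Matrix (Fin 2) (Fin 2) R} {φ : GQ}
  {I : Subgroup GQ} {q : ℕ} (L : TWLine rR φ I q)

/-- The eigenvalue is a root of the characteristic polynomial. -/
theorem TWLine.eval_charpoly :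
    L.α * L.α - (rR φ).trace * L.α + (rR φ).det = 0 := by
  have hCH : rR φ * rR φ - (rR φ).trace • rR φ +
      (rR φ).det • (1 : Matrix (Fin 2) (Fin 2) R) = 0 := by
    refine Matrix.ext fun i j => ?_
    fin_cases i <;> fin_cases j <;>
      simp [Matrix.mul_apply, Fin.sum_univ_two, Matrix.trace_fin_two, Matrix.det_fin_two] <;> ring
  have h := congrArg (fun M => Matrix.trace (M * L.e)) hCH
  simp only [add_mul, sub_mul, smul_mul_assoc, one_mul, zero_mul, mul_assoc, L.frob,
    mul_smul_comm, smul_smul, Matrix.trace_add, Matrix.trace_sub, Matrix.trace_smul,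
    Matrix.trace_zero, L.trace_e, smul_eq_mul, mul_one] at h
  linear_combination h

/-- The trace of Frobenius times inertia. -/
theorem TWLine.trace_mul (s : ↥I) : (rR φ * rR s).trace =
    L.α * L.ξ s + ((rR φ).trace - L.α) * ((rR s).trace - L.ξ s) := by
  set f : Matrix (Fin 2) (Fin 2) R := 1 - L.e with hf
  have hdf : f.det = 0 := by
    have h1 := L.det_e
    have h2 := L.trace_e
    rw [Matrix.det_fin_two] at h1 ⊢
    rw [Matrix.trace_fin_two] at h2
    simp only [hf, Matrix.sub_apply, Matrix.one_apply_eq, Matrix.one_apply_ne zero_ne_one,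
      Matrix.one_apply_ne one_ne_zero]
    linear_combination h1 - h2
  have hff : f * f = f := by rw [hf, sub_mul, one_mul, mul_sub, mul_one, L.idem, sub_self, sub_zero]
  have hcomm : f * rR s = rR s * f := by
    rw [hf, sub_mul, mul_sub, one_mul, mul_one, L.inertia, L.inertia_left]
  have he : (L.e * rR φ * rR s).trace = L.α * L.ξ s := by
    rw [Matrix.trace_mul_cycle, Matrix.trace_mul_cycle, mul_assoc, L.inertia, mul_smul_comm,
      L.frob, smul_smul, Matrix.trace_smul, L.trace_e, smul_eq_mul, mul_one, mul_comm]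
  have h2 : (f * rR φ * rR s).trace = ((rR φ).trace - L.α) * ((rR s).trace - L.ξ s) := by
    have e1 : (f * rR φ * rR s).trace = (f * rR φ * f * rR s).trace := by
      calc (f * rR φ * rR s).trace = (f * (f * rR φ * rR s)).trace := by
            rw [← mul_assoc, ← mul_assoc, hff]
        _ = (f * rR φ * rR s * f).trace := Matrix.trace_mul_comm _ _
        _ = _ := by rw [mul_assoc _ (rR s), ← hcomm, ← mul_assoc]
    have e2 : (f * rR φ).trace = (rR φ).trace - L.α := by
      rw [hf, sub_mul, one_mul, Matrix.trace_sub, Matrix.trace_mul_comm, L.frob,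
        Matrix.trace_smul, L.trace_e, smul_eq_mul, mul_one]
    have e3 : (f * rR s).trace = (rR s).trace - L.ξ s := by
      rw [hf, sub_mul, one_mul, Matrix.trace_sub, L.inertia_left, Matrix.trace_smul, L.trace_e,
        smul_eq_mul, mul_one]
    rw [e1, mul_mul_eq_trace_smul hdf, smul_mul_assoc, Matrix.trace_smul, smul_eq_mul, e2, e3]
  rw [← he, ← h2, ← Matrix.trace_add, hf, ← add_mul, ← add_mul, add_sub_cancel, one_mul]

/-- A homomorphism killing the traces of inertia kills the inertia character. -/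
theorem TWLine.map_xi_eq_one {R' : Type} [CommRing R'] (π : R →+* R') (s : ↥I)
    (hs : π (rR s).trace = 2) (hφs : π (rR φ * rR s).trace = π (rR φ).trace)
    (hreg : IsUnit ((rR φ).trace ^ 2 - 4 * (rR φ).det)) : π (L.ξ s) = 1 := by
  have hsq : (2 * L.α - (rR φ).trace) ^ 2 = (rR φ).trace ^ 2 - 4 * (rR φ).det := by
    linear_combination 4 * L.eval_charpoly
  rw [← hsq, isUnit_pow_iff two_ne_zero] at hreg
  rw [L.trace_mul, map_add, map_mul, map_mul, map_sub, map_sub, hs] at hφs
  have h : π (2 * L.α - (rR φ).trace) * (π (L.ξ s) - 1) = 0 := by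
    rw [map_sub, map_mul, map_ofNat]
    linear_combination hφs
  exact sub_eq_zero.mp ((hreg.map π).mul_right_eq_zero.mp h)

end TWLine

section Restrict

variable {rb : GQ →* Matrix (Fin 2) (Fin 2) (ResidueField O)} {cyc : GQ → O}
  {S₀ S₁ : PointSet rb cyc}

omit [IsAdicComplete (maximalIdeal O) O] in
/-- Projections know traces. -/
theorem PointSet.Model.proj_trace {S : PointSet rb cyc} (M : S.Model) (j : S.J) (σ : GQ) :
    M.proj j (M.rR σ).trace = (S.r j σ).trace := by
  obtain ⟨U, hU, hUσ⟩ := M.proj_rR j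
  obtain ⟨u, rfl⟩ := hU
  rw [AddMonoidHom.map_trace (M.proj j) (M.rR σ),
    show (M.rR σ).map (M.proj j) = (u : Matrix (Fin 2) (Fin 2) (S.B j)) * S.r j σ *
      ((u⁻¹ : (Matrix (Fin 2) (Fin 2) (S.B j))ˣ) : Matrix (Fin 2) (Fin 2) (S.B j)) by
    rw [hUσ σ, mul_assoc, Units.mul_inv, mul_one], Matrix.trace_mul_cycle, Units.inv_mul, one_mul]

omit [IsAdicComplete (maximalIdeal O) O] in
/-- **Restriction to a subfamily of points.** -/
theorem PointSet.Model.exists_restrict (M₁ : S₁.Model) (M₀ : S₀.Model) (ι : S₀.J → S₁.J)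
    (f : ∀ j, S₁.B (ι j) →ₐ[O] S₀.B j)
    (hf : ∀ j σ, f j (S₁.r (ι j) σ).trace = (S₀.r j σ).trace) :
    ∃ π : M₁.R →ₐ[O] M₀.R, Function.Surjective π ∧
      ∀ σ, π (M₁.rR σ).trace = (M₀.rR σ).trace := by
  classical
  let G₀ : M₀.R →ₐ[O] ∀ j, S₀.B j := AlgHom.pi fun j => M₀.proj j
  let G₁ : M₁.R →ₐ[O] ∀ j, S₀.B j := AlgHom.pi fun j => (f j).comp (M₁.proj (ι j))
  have hG₀ : Function.Injective G₀ := (injective_iff_map_eq_zero G₀).mpr fun x hx =>
    M₀.proj_injective x fun j => congrFun hx j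
  have htr : ∀ σ, G₁ (M₁.rR σ).trace = G₀ (M₀.rR σ).trace := fun σ => funext fun j => by
    show f j (M₁.proj (ι j) (M₁.rR σ).trace) = M₀.proj j (M₀.rR σ).trace
    rw [M₁.proj_trace, M₀.proj_trace, hf]
  have hsub : ∀ x, G₁ x ∈ G₀.range := by
    intro x
    have hx : x ∈ Algebra.adjoin O (Set.range fun σ => (M₁.rR σ).trace) := by
      rw [M₁.generated]; exact Algebra.mem_top
    induction hx using Algebra.adjoin_induction with
    | mem y hy => obtain ⟨σ, rfl⟩ := hy; exact ⟨_, (htr σ).symm⟩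
    | algebraMap c => exact ⟨algebraMap O _ c, by simp⟩
    | add y z _ _ hy hz => rw [map_add]; exact add_mem hy hz
    | mul y z _ _ hy hz => rw [map_mul]; exact mul_mem hy hz
  let e := AlgEquiv.ofInjective G₀ hG₀
  let π : M₁.R →ₐ[O] M₀.R := (e.symm : G₀.range →ₐ[O] M₀.R).comp (G₁.codRestrict G₀.range hsub)
  have hπ : ∀ x, G₀ (π x) = G₁ x := fun x =>
    congrArg Subtype.val (e.apply_symm_apply ⟨G₁ x, hsub x⟩)
  have hπtr : ∀ σ, π (M₁.rR σ).trace = (M₀.rR σ).trace := fun σ => hG₀ ((hπ _).trans (htr σ))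
  refine ⟨π, fun y => ?_, hπtr⟩
  have hy : y ∈ Algebra.adjoin O (Set.range fun σ => (M₀.rR σ).trace) := by
    rw [M₀.generated]; exact Algebra.mem_top
  suffices y ∈ π.range from this
  induction hy using Algebra.adjoin_induction with
  | mem z hz => obtain ⟨σ, rfl⟩ := hz; exact ⟨_, hπtr σ⟩
  | algebraMap c => exact π.range.algebraMap_mem c
  | add y z _ _ hy hz => exact add_mem hy hz
  | mul y z _ _ hy hz => exact mul_mem hy hz

end Restrict

namespace Setup

variable (S : Setup O)

/-- A set of Taylor–Wiles primes of depth `n` with Frobenius and inertia elements. -/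
structure TWSet (r n : ℕ) where
  /-- the primes -/
  qv : Fin r → ℕ
  prime : ∀ i, (qv i).Prime ∧ qv i ≠ S.p
  dvd : ∀ i, S.p ^ (n + 1) ∣ qv i - 1
  unramified : ∀ i, ∀ σ ∈ (S.P.place (qv i)).inertiaSubgroupIn ℚ, S.rb σ = 1
  /-- Frobenius elements -/
  φ : Fin r → GQ
  φ_spec : ∀ i, (S.P.place (qv i)).IsFrobeniusAt (φ i) (qv i)
  regular : ∀ i, (S.rb (φ i)).trace ^ 2 ≠ 4 * (S.rb (φ i)).det
  /-- inertia elements -/
  s : ∀ i, ↥((S.P.place (qv i)).inertiaSubgroupIn ℚ)
  bound : ∀ (W : Type) [AddCommGroup W] [Module (ResidueField O) W]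
      (κ : W →ₗ[ResidueField O] (GQ → ↥(sl2 (ResidueField O)))),
    (∀ t, IsLocallyTrivial S.rb S.P S.T (S.T ∪ Finset.univ.image qv) (κ t)) →
    (∀ t v, (∀ g, κ t g = adRep S.rb g v - v) → t = 0) →
    FiniteDimensional (ResidueField O) W ∧ Module.finrank (ResidueField O) W + 1 +
      ∑ q ∈ S.T, Module.finrank (ResidueField O)
        ↥(Representation.invariants ((adRep S.rb).comp (S.P.dec q).subtype)) ≤ r

variable {S}

/-- The orders of the diamond group. -/
def TWSet.expo {r n : ℕ} (D : S.TWSet r n) (i : Fin r) : ℕ := (D.qv i - 1).factorization S.p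

omit [IsAdicComplete (maximalIdeal O) O] in
theorem TWSet.le_expo {r n : ℕ} (D : S.TWSet r n) (i : Fin r) : n ≤ D.expo i :=
  n.le_succ.trans ((S.hp.pow_dvd_iff_le_factorization
    (Nat.sub_ne_zero_of_lt (D.prime i).1.one_lt)).mp (D.dvd i))

/-- The eigenvalue lines at the Taylor–Wiles primes of a carried algebra. -/
abbrev TWSet.Line {r n : ℕ} (D : S.TWSet r n) (C : Carried S.rb S.cyc) : Type :=
  ∀ i, TWLine C.rR (D.φ i) ((S.P.place (D.qv i)).inertiaSubgroupIn ℚ) (D.qv i)

omit [IsAdicComplete (maximalIdeal O) O] in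
theorem TWSet.isUnit_disc {r n : ℕ} (D : S.TWSet r n) (C : Carried S.rb S.cyc) (i : Fin r) :
    IsUnit ((C.rR (D.φ i)).trace ^ 2 - 4 * (C.rR (D.φ i)).det) := by
  have : IsLocalHom C.π := IsLocalHom.of_surjective _ C.π_surjective
  refine isUnit_of_map_unit C.π _ (isUnit_iff_ne_zero.mpr ?_)
  have hφ : (C.rR (D.φ i)).map C.π = S.rb (D.φ i) := DFunLike.congr_fun C.lift (D.φ i)
  rw [map_sub, map_pow, map_mul, map_ofNat, AddMonoidHom.map_trace C.π, RingHom.map_det,
    RingHom.mapMatrix_apply, hφ, sub_ne_zero]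
  exact D.regular i

omit [IsAdicComplete (maximalIdeal O) O] in
theorem TWSet.pow_eq_one {r n : ℕ} {D : S.TWSet r n} {C : Carried S.rb S.cyc} (L : D.Line C)
    (i : Fin r) : (L i).ξ (D.s i) ^ S.p ^ D.expo i = 1 := by
  have hqn : D.qv i - 1 ≠ 0 := Nat.sub_ne_zero_of_lt (D.prime i).1.one_lt
  have hm : ¬ S.p ∣ (D.qv i - 1) / S.p ^ D.expo i :=
    Nat.not_dvd_ordCompl S.hp hqn
  set m := (D.qv i - 1) / S.p ^ D.expo i
  set x := (L i).ξ (D.s i) ^ S.p ^ D.expo i
  have hx1 : x - 1 ∈ maximalIdeal C.R := by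
    obtain ⟨y, hy⟩ := sub_one_dvd_pow_sub_one ((L i).ξ (D.s i)) (S.p ^ D.expo i)
    rw [show x - 1 = ((L i).ξ (D.s i) - 1) * y from hy]
    exact Ideal.mul_mem_right _ _ ((L i).sub_one_mem _)
  have hxm : x ^ m = 1 := by
    rw [← pow_mul, show S.p ^ D.expo i * m = D.qv i - 1 from Nat.ordProj_mul_ordCompl_eq_self _ _,
      (L i).pow_eq_one]
  have hgs : (x - 1) * ∑ k ∈ Finset.range m, x ^ k = 0 := by
    rw [mul_geom_sum, hxm, sub_self]
  have hu : IsUnit (∑ k ∈ Finset.range m, x ^ k) := by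
    have : IsLocalHom C.π := IsLocalHom.of_surjective _ C.π_surjective
    refine isUnit_of_map_unit C.π _ (isUnit_iff_ne_zero.mpr ?_)
    have hπx : C.π x = 1 := by
      rw [← sub_eq_zero, ← map_one C.π, ← map_sub]
      by_contra hne
      exact (IsLocalRing.mem_maximalIdeal _).mp hx1 (isUnit_of_map_unit C.π _
        (isUnit_iff_ne_zero.mpr hne))
    have hp0 : ((S.p : ℕ) : ResidueField O) = 0 := by
      rw [← map_natCast (residue O), residue_eq_zero_iff]
      exact S.hpO
    have : CharP (ResidueField O) S.p := (CharP.charP_iff_prime_eq_zero S.hp).mpr hp0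
    simp only [map_sum, map_pow, hπx, one_pow, Finset.sum_const, Finset.card_range,
      nsmul_eq_mul, mul_one, ne_eq, CharP.cast_eq_zero_iff (ResidueField O) S.p]
    exact hm
  exact sub_eq_zero.mp (hu.mul_left_eq_zero.mp hgs)

/-- **The diamond elements.** -/
def TWSet.delta {r n : ℕ} {D : S.TWSet r n} {C : Carried S.rb S.cyc} (L : D.Line C) :
    haveI : NeZero S.p := ⟨S.hp.ne_zero⟩
    DGroup S.p D.expo →* C.R :=
  haveI : NeZero S.p := ⟨S.hp.ne_zero⟩
  dHom S.p D.expo (fun i => (L i).ξ (D.s i)) (TWSet.pow_eq_one L)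

omit [IsAdicComplete (maximalIdeal O) O] in
/-- The eigenvalue lines exist. -/
theorem TWSet.nonempty_line {r n : ℕ} (D : S.TWSet r n) (C : Carried S.rb S.cyc)
    (hsplit : ∀ i, ∃ α β : C.R, (C.rR (D.φ i)).trace = α + β ∧
      (C.rR (D.φ i)).det = α * β) : Nonempty (D.Line C) := by
  have hπp : C.π (S.p : C.R) = 0 := by
    rw [map_natCast, ← map_natCast (residue O), residue_eq_zero_iff]
    exact S.hpO
  have : IsLocalHom C.π := IsLocalHom.of_surjective _ C.π_surjective
  have hmem : ∀ x : C.R, C.π x = 0 → x ∈ maximalIdeal C.R := fun x hx =>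
    (IsLocalRing.mem_maximalIdeal x).mpr fun hu => not_isUnit_zero (hx ▸ hu.map C.π)
  refine ⟨fun i => Classical.choice ?_⟩
  obtain ⟨α, β, htr, hdet⟩ := hsplit i
  refine nonempty_twLine C.rR C.cont (hmem _ hπp) (A := S.P.place (D.qv i))
    (fun σ hσ a b => hmem _ ?_) S.hp (D.prime i).1 (D.prime i).2.symm
    (S.P.liesOver _ (D.prime i).1) ((dvd_pow_self S.p n.succ_ne_zero).trans (D.dvd i))
    (D.φ_spec i) ?_ htr hdet
  · have h := congrFun (congrFun (DFunLike.congr_fun C.lift σ) a) b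
    simp only [mapRep, MonoidHom.coe_comp, Function.comp_apply, RingHom.toMonoidHom_eq_coe,
      MonoidHom.coe_coe, RingHom.mapMatrix_apply, Matrix.map_apply] at h
    rw [Matrix.sub_apply, map_sub, h, D.unramified i σ hσ]
    rcases eq_or_ne a b with rfl | hne <;> simp [*]
  · have hd := D.isUnit_disc C i
    rw [htr, hdet, show (α + β) ^ 2 - 4 * (α * β) = (α - β) ^ 2 by ring,
      isUnit_pow_iff two_ne_zero] at hd
    exact hd

/-- **The level of a set of Taylor–Wiles primes.** -/
def TWSet.level {r n : ℕ} (D : S.TWSet r n) {C : Carried S.rb S.cyc} (L : D.Line C) {g : ℕ}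
    (x : Fin g → MvPowerSeries (FrameVar S.T S.p) C.R)
    (hx : ∀ l, S.vals C x l ∈ maximalIdeal (MvPowerSeries (FrameVar S.T S.p) C.R))
    (hsurj : Function.Surjective (evalHom (maximalIdeal (MvPowerSeries (FrameVar S.T S.p) C.R))
      ((MvPowerSeries.C (σ := FrameVar S.T S.p)).comp (algebraMap O C.R)) (S.vals C x) hx
      (σ := S.Var g)))
    {R₀ : Type} [CommRing R₀] [Algebra O R₀] {ι κ : Type} {d : ι → ℕ} {src tgt : κ → ι}
    {act₀ : ∀ i, R₀ →+* Matrix (Fin (d i)) (Fin (d i)) O}
    (π : C.R →ₐ[O] R₀) (hπ : Function.Surjective π)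
    (hπs : ∀ i, π (C.rR (D.s i)).trace = 2 ∧
      π (C.rR (D.φ i) * C.rR (D.s i)).trace = π (C.rR (D.φ i)).trace)
    (act : haveI : NeZero S.p := ⟨S.hp.ne_zero⟩
      ∀ i, C.R →ₐ[O] Matrix (Fin (d i)) (Fin (d i)) (MonoidAlgebra O (DGroup S.p D.expo)))
    (hact : haveI : NeZero S.p := ⟨S.hp.ne_zero⟩
      ∀ i a, act i (TWSet.delta L a) = Matrix.scalar _ (MonoidAlgebra.single a 1))
    (maps : haveI : NeZero S.p := ⟨S.hp.ne_zero⟩
      ∀ t, Matrix (Fin (d (tgt t))) (Fin (d (src t))) (MonoidAlgebra O (DGroup S.p D.expo)))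
    (hmaps : haveI : NeZero S.p := ⟨S.hp.ne_zero⟩
      ∀ t x, maps t * act (src t) x = act (tgt t) x * maps t)
    (hact₀ : haveI : NeZero S.p := ⟨S.hp.ne_zero⟩
      ∀ i x, (act i x).map (MonoidAlgebra.lift O O (DGroup S.p D.expo) 1) = act₀ i (π x)) :
    Level O (S.Var g) (FrameVar S.T S.p) (Fin r) R₀ ι κ d src tgt act₀ n :=
  haveI : NeZero S.p := ⟨S.hp.ne_zero⟩
  { R := C.R
    complete := inferInstance
    localHom := fun c hc => by
      have : IsLocalHom C.π := IsLocalHom.of_surjective _ C.π_surjective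
      refine (IsLocalRing.mem_maximalIdeal _).mpr fun hu => not_isUnit_zero (M₀ := ResidueField O) ?_
      have h := hu.map C.π
      rwa [show C.π (algebraMap O C.R c) = residue O c from RingHom.congr_fun C.π_algebraMap c,
        (residue_eq_zero_iff c).mpr hc] at h
    G := DGroup S.p D.expo
    gen := dGen S.p D.expo
    χ := dChi S.p D.expo O (FrameVar S.T S.p) n S.hpO D.le_expo
    χ_gen := dChi_gen S.p D.expo O _ n S.hpO D.le_expo
    χ_aug := dChi_aug S.p D.expo O _ n S.hpO D.le_expo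
    δ := TWSet.delta L
    δ_gen_mem := fun i => by
      rw [TWSet.delta, dHom_gen]
      exact (L i).sub_one_mem _
    act := fun i => (act i).toRingHom
    act_const := fun i c => by
      show act i (algebraMap O C.R c) = _
      rw [AlgHom.commutes, Matrix.algebraMap_eq_diagonal, Matrix.scalar_apply]
      rfl
    act_δ := hact
    maps := maps
    intertwine := hmaps
    x := S.vals C x
    x_mem := hx
    surj := hsurj
    π := π
    π_surjective := hπ
    π_δ := fun a => by
      show π (TWSet.delta L a) = 1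
      simp only [TWSet.delta, dHom, cycHom, MonoidHom.coe_mk, OneHom.coe_mk, map_prod, map_pow]
      refine Finset.prod_eq_one fun i _ => ?_
      rw [show π ((L i).ξ (D.s i)) = 1 from (L i).map_xi_eq_one π.toRingHom (D.s i) (hπs i).1
        (hπs i).2 (D.isUnit_disc C i), one_pow]
    act_π := hact₀ }

end Setup

end FA.RT
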