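import Fermat.Agent.RT.PointOf
import Fermat.Agent.FlatModel.Hecke
import Mathlib.RingTheory.Nakayama
import Mathlib.LinearAlgebra.Basis.VectorSpace

/-!
# Points from eigen systems of level prime to `p` are flat at `p`

A lift of an absolutely irreducible residual representation over a finite free local algebra whose
Frobenius traces and determinants are those of a point of the Hecke algebra of level prime to `p`,
up to a character unramified at `p`, is flat at `p`.
-/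

set_option autoImplicit false
set_option linter.unusedSectionVars false

noncomputable section

open IsLocalRing Matrix FA.Deform

namespace FA.RT

local notation "Qb" => AlgebraicClosure ℚ
local notation "GQ" => AlgebraicClosure ℚ ≃ₐ[ℚ] AlgebraicClosure ℚ

variable {O : Type} [CommRing O] [IsDomain O] [IsDiscreteValuationRing O]
  {B : Type} [CommRing B] [IsLocalRing B] [Algebra O B] [Module.Finite O B]

omit [Module.Finite O B] in
/-- A lift of a spanning residual representation spans. -/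
theorem span_eq_top_of_lift (ε : B →+* ResidueField O)
    (hε : ∀ c, ε (algebraMap O B c) = residue O c)
    {rb : GQ →* Matrix (Fin 2) (Fin 2) (ResidueField O)}
    (hspan : Submodule.span (ResidueField O) (Set.range rb) = ⊤)
    {r : GQ →* Matrix (Fin 2) (Fin 2) B} (hr : mapRep ε r = rb) :
    Submodule.span B (Set.range r) = ⊤ := by
  classical
  have hεs : Function.Surjective ε := fun y => by
    obtain ⟨c, rfl⟩ := residue_surjective y
    exact ⟨algebraMap O B c, hε c⟩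
  have hker : ∀ x, ε x = 0 → x ∈ maximalIdeal B := fun x hx =>
    (IsLocalRing.mem_maximalIdeal _).mpr fun hu => not_isUnit_zero (hx ▸ hu.map ε)
  set N := Submodule.span B (Set.range r)
  refine top_unique (Submodule.le_of_le_smul_of_le_jacobson_bot Module.Finite.fg_top
    (maximalIdeal_le_jacobson ⊥) fun X _ => ?_)
  have hlift : ∀ Y ∈ Submodule.span (ResidueField O) (Set.range rb),
      ∃ Z ∈ N, Z.map ε = Y := by
    intro Y hY
    induction hY using Submodule.span_induction with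
    | mem Y hY =>
      obtain ⟨g, rfl⟩ := hY
      exact ⟨r g, Submodule.subset_span ⟨g, rfl⟩, DFunLike.congr_fun hr g⟩
    | zero => exact ⟨0, zero_mem _, Matrix.map_zero _ (map_zero ε)⟩
    | add a b _ _ ha hb =>
      obtain ⟨z, hz, rfl⟩ := ha
      obtain ⟨w, hw, rfl⟩ := hb
      exact ⟨z + w, add_mem hz hw, Matrix.map_add _ (map_add ε) _ _⟩
    | smul c a _ ha =>
      obtain ⟨z, hz, rfl⟩ := ha
      obtain ⟨c, rfl⟩ := hεs c
      exact ⟨c • z, Submodule.smul_mem _ _ hz, Matrix.map_smul' _ _ _ (map_mul ε)⟩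
  obtain ⟨Z, hZ, hZX⟩ := hlift (X.map ε) (hspan ▸ Submodule.mem_top)
  refine Submodule.mem_sup.mpr ⟨Z, hZ, X - Z, ?_, add_sub_cancel _ _⟩
  have hent : ∀ i j, (X - Z) i j ∈ maximalIdeal B := fun i j => hker _ (by
    rw [Matrix.sub_apply, map_sub, sub_eq_zero]
    exact (congrFun (congrFun hZX i) j).symm)
  rw [Matrix.matrix_eq_sum_single (X - Z)]
  refine Submodule.sum_mem _ fun i _ => Submodule.sum_mem _ fun j _ => ?_
  rw [show Matrix.single i j ((X - Z) i j) = (X - Z) i j • Matrix.single i j (1 : B) by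
    rw [Matrix.smul_single, smul_eq_mul, mul_one]]
  exact Submodule.smul_mem_smul (hent i j) Submodule.mem_top

/-- **Lifts with Hecke traces are flat.** The traces may be twisted by a character of finite level
unramified at `p`. -/
theorem isFlatAt_of_lift [CharZero O] [Finite (ResidueField O)] [Module.Free O B]
    {p : ℕ} (hp : p.Prime) (hp2 : p ≠ 2) (hpO : (p : O) ∈ maximalIdeal O)
    (ε : B →+* ResidueField O) (hε : ∀ c, ε (algebraMap O B c) = residue O c)
    {rb : GQ →* Matrix (Fin 2) (Fin 2) (ResidueField O)}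
    (hspan : Submodule.span (ResidueField O) (Set.range rb) = ⊤)
    (r : GQ →* Matrix (Fin 2) (Fin 2) B) (hr : mapRep ε r = rb) (hcont : IsContRep r)
    (N : ℕ) [NeZero N] (hpN : ¬ p ∣ N) (S : Finset ℕ)
    (hNS : ∀ q : ℕ, q.Prime → q ∣ N → q ∈ S)
    (χ : CuspForm.heckeAlgebra N 2 (↑S : Set ℕ) →+* O)
    (θ : GQ →* Oˣ)
    (hθfin : ∃ L : IntermediateField ℚ Qb, FiniteDimensional ℚ L ∧
      ∀ σ : GQ, (∀ a ∈ L, σ a = a) → θ σ = 1)
    (hθI : ∀ A : ValuationSubring Qb, A.LiesOverPrime p → ∀ σ ∈ A.inertiaSubgroupIn ℚ, θ σ = 1)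
    (bad : Finset ℕ)
    (hfrob : ∀ (ℓ : ℕ) (hℓ : ℓ.Prime) (hℓN : ¬ ℓ ∣ N) (hℓS : ℓ ∉ (↑S : Set ℕ)), ℓ ∉ bad →
      ∀ P : ValuationSubring Qb, P.LiesOverPrime ℓ → ∀ τ : GQ, P.IsFrobeniusAt τ ℓ →
        (r τ).trace = algebraMap O B
            ((θ τ : O) * χ (CuspForm.heckeAlgebra.T (k := 2) hℓ hℓN hℓS)) ∧
          (r τ).det = algebraMap O B ((θ τ : O) ^ 2 * (ℓ : O))) :
    (ofMatrix r hcont).IsFlatAt p := by
  classical
  let θB : GQ →* Bˣ := (Units.map (algebraMap O B).toMonoidHom).comp θ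
  have hθB : ∀ σ, (θB σ : B) = algebraMap O B (θ σ : O) := fun σ => rfl
  -- the untwisted representation
  let r₀ : GQ →* Matrix (Fin 2) (Fin 2) B :=
    { toFun := fun σ => ((θB σ)⁻¹ : Bˣ).1 • r σ
      map_one' := by simp
      map_mul' := fun a b => by
        rw [map_mul, map_mul, mul_inv, Units.val_mul, Matrix.smul_mul, Matrix.mul_smul, smul_smul] }
  have hr₀ : ∀ σ, r₀ σ = ((θB σ)⁻¹ : Bˣ).1 • r σ := fun σ => rfl
  obtain ⟨Lθ, hLθ, hθ1⟩ := hθfin
  have hB1 : ∀ σ : GQ, θ σ = 1 → θB σ = 1 := fun σ h => by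
    rw [MonoidHom.comp_apply, h, map_one]
  have hcont₀ : IsContRep r₀ := fun n => by
    obtain ⟨L, hL, h⟩ := hcont n
    refine ⟨L ⊔ Lθ, inferInstance, fun σ hσ i j => ?_⟩
    rw [hr₀, hB1 σ (hθ1 σ fun a ha => hσ a ((le_sup_right : Lθ ≤ L ⊔ Lθ) ha)), inv_one,
      Units.val_one, one_smul]
    exact h σ (fun a ha => hσ a ((le_sup_left : L ≤ L ⊔ Lθ) ha)) i j
  have hspan₀ : Submodule.span B (Set.range r₀) = ⊤ := by
    refine top_unique ((span_eq_top_of_lift ε hε hspan hr).ge.trans (Submodule.span_le.mpr ?_))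
    rintro _ ⟨σ, rfl⟩
    have : r σ = (θB σ : B) • r₀ σ := by rw [hr₀, smul_smul, Units.mul_inv, one_smul]
    rw [this]
    exact Submodule.smul_mem _ _ (Submodule.subset_span ⟨σ, rfl⟩)
  refine FA.FlatModel.isFlatAt_ofMatrix_of_inertia hp hcont₀ hcont (fun A hA σ hσ => ?_) ?_
  · rw [hr₀, hB1 σ (hθI A hA σ hσ), inv_one, Units.val_one, one_smul]
  · have hpB : (p : B) ∈ maximalIdeal B := by
      refine (IsLocalRing.mem_maximalIdeal _).mpr fun hu => not_isUnit_zero (M₀ := ResidueField O) ?_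
      rw [← (residue_eq_zero_iff _).mpr hpO, map_natCast, ← map_natCast ε]
      exact hu.map ε
    refine FA.FlatModel.isFlatAt_of_hecke hp hp2 hpN hNS hpB
      (FA.FlatModel.natCast_mem_nonZeroDivisors (O := O) hp)
      (FA.FlatModel.finite_quotient_prime_pow (O := O) hp) ((algebraMap O B).comp χ)
      (ofMatrix r₀ hcont₀) (Pi.basisFun B (Fin 2)) (by rw [matrixOf_ofMatrix]; exact hspan₀) bad
      fun ℓ hℓ hℓN hℓS hbad P hP τ hτ => ?_
    obtain ⟨ht, hd⟩ := hfrob ℓ hℓ hℓN hℓS hbad P hP τ hτ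
    rw [matrixOf_ofMatrix, hr₀, Matrix.trace_smul, Matrix.det_smul, Fintype.card_fin, ht, hd,
      smul_eq_mul, map_mul, map_mul, map_pow, map_natCast, ← hθB, RingHom.comp_apply, ← mul_assoc,
      ← mul_assoc, ← mul_pow, Units.inv_mul, one_mul, one_pow, one_mul]
    exact ⟨rfl, rfl⟩

section Point

variable {O' : Type} [CommRing O'] [IsLocalRing O'] [Algebra O O'] [IsLocalHom (algebraMap O O')]
  [IsDomain O'] [Module.Finite O O'] [Module.Free O O'] [CharZero O] [Finite (ResidueField O)]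

/-- **A point attached to an eigen system of level prime to `p` is flat at `p`.** Here `m` is the
representation over the extension and `r` its conjugate over the point ring. -/
theorem isFlatAt_point {p : ℕ} (hp : p.Prime) (hp2 : p ≠ 2) (hpO : (p : O) ∈ maximalIdeal O)
    {rb : GQ →* Matrix (Fin 2) (Fin 2) (ResidueField O)}
    (hspan : Submodule.span (ResidueField O) (Set.range rb) = ⊤)
    (m : GQ →* Matrix (Fin 2) (Fin 2) O')
    (r : GQ →* Matrix (Fin 2) (Fin 2) (pointRing O O')) (hr : mapRep (pointRes O O') r = rb)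
    (hcont : IsContRep r) (htrace : ∀ σ, ((r σ).trace).1 = (m σ).trace)
    (hdet : ∀ σ, ((r σ).det).1 = (m σ).det)
    (N : ℕ) [NeZero N] (hpN : ¬ p ∣ N) (S : Finset ℕ)
    (hNS : ∀ q : ℕ, q.Prime → q ∣ N → q ∈ S)
    (χ : CuspForm.heckeAlgebra N 2 (↑S : Set ℕ) →+* O)
    (bad : Finset ℕ)
    (hfrob : ∀ (ℓ : ℕ) (hℓ : ℓ.Prime) (hℓN : ¬ ℓ ∣ N) (hℓS : ℓ ∉ (↑S : Set ℕ)), ℓ ∉ bad →
      ∀ P : ValuationSubring Qb, P.LiesOverPrime ℓ → ∀ τ : GQ, P.IsFrobeniusAt τ ℓ →
        (m τ).trace = algebraMap O O' (χ (CuspForm.heckeAlgebra.T (k := 2) hℓ hℓN hℓS)) ∧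
          (m τ).det = (ℓ : O')) :
    (ofMatrix r hcont).IsFlatAt p :=
  isFlatAt_of_lift hp hp2 hpO (pointRes O O') pointRes_algebraMap hspan r hr hcont N hpN S hNS χ 1
    ⟨⊥, inferInstance, fun _ _ => rfl⟩ (fun _ _ _ _ => rfl) bad fun ℓ hℓ hℓN hℓS hbad P hP τ hτ => by
      obtain ⟨ht, hd⟩ := hfrob ℓ hℓ hℓN hℓS hbad P hP τ hτ
      refine ⟨Subtype.ext ?_, Subtype.ext ?_⟩
      · rw [htrace, ht, MonoidHom.one_apply, Units.val_one, one_mul]
        rfl
      · rw [hdet, hd, MonoidHom.one_apply, Units.val_one, one_pow, one_mul, ← map_natCast (algebraMap O O')]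
        rfl

/-- A character unramified at `p` does not disturb the flatness of a point. -/
theorem isFlatAt_point_twist {p : ℕ} (hp : p.Prime) (hp2 : p ≠ 2)
    (hpO : (p : O) ∈ maximalIdeal O)
    {rb : GQ →* Matrix (Fin 2) (Fin 2) (ResidueField O)}
    (hspan : Submodule.span (ResidueField O) (Set.range rb) = ⊤)
    (r : GQ →* Matrix (Fin 2) (Fin 2) (pointRing O O')) (hr : mapRep (pointRes O O') r = rb)
    (hcont : IsContRep r)
    (N : ℕ) [NeZero N] (hpN : ¬ p ∣ N) (S : Finset ℕ)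
    (hNS : ∀ q : ℕ, q.Prime → q ∣ N → q ∈ S)
    (χ : CuspForm.heckeAlgebra N 2 (↑S : Set ℕ) →+* O)
    (θ : GQ →* Oˣ)
    (hθfin : ∃ L : IntermediateField ℚ Qb, FiniteDimensional ℚ L ∧
      ∀ σ : GQ, (∀ a ∈ L, σ a = a) → θ σ = 1)
    (hθI : ∀ A : ValuationSubring Qb, A.LiesOverPrime p → ∀ σ ∈ A.inertiaSubgroupIn ℚ, θ σ = 1)
    (bad : Finset ℕ)
    (hfrob : ∀ (ℓ : ℕ) (hℓ : ℓ.Prime) (hℓN : ¬ ℓ ∣ N) (hℓS : ℓ ∉ (↑S : Set ℕ)), ℓ ∉ bad →
      ∀ P : ValuationSubring Qb, P.LiesOverPrime ℓ → ∀ τ : GQ, P.IsFrobeniusAt τ ℓ →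
        ((r τ).trace).1 = algebraMap O O'
            ((θ τ : O) * χ (CuspForm.heckeAlgebra.T (k := 2) hℓ hℓN hℓS)) ∧
          ((r τ).det).1 = algebraMap O O' ((θ τ : O) ^ 2 * (ℓ : O))) :
    (ofMatrix r hcont).IsFlatAt p :=
  isFlatAt_of_lift hp hp2 hpO (pointRes O O') pointRes_algebraMap hspan r hr hcont N hpN S hNS χ θ
    hθfin hθI bad fun ℓ hℓ hℓN hℓS hbad P hP τ hτ => by
      obtain ⟨ht, hd⟩ := hfrob ℓ hℓ hℓN hℓS hbad P hP τ hτ
      exact ⟨Subtype.ext ht, Subtype.ext hd⟩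

end Point

end FA.RT
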