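import Fermat.Agent.RT.Points
import Fermat.Agent.Density.BrauerNesbitt
import Mathlib.RingTheory.LocalRing.ResidueField.Basic

/-!
# Points from representations over extensions

A representation over a finite extension of the coefficients whose residual traces are those of the
absolutely irreducible residual representation is conjugate to one over the subring of elements
with residues in the residue field of the coefficients.
-/

set_option autoImplicit false

noncomputable section

open IsLocalRing Matrix FA.Deform

namespace FA.RT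

local notation "Qb" => AlgebraicClosure ℚ
local notation "GQ" => AlgebraicClosure ℚ ≃ₐ[ℚ] AlgebraicClosure ℚ

variable {O O' : Type} [CommRing O] [IsDomain O] [IsDiscreteValuationRing O] [CommRing O']
  [IsLocalRing O'] [Algebra O O'] [IsLocalHom (algebraMap O O')]

variable (O O') in
/-- The elements with residue in the residue field of `O`. -/
def pointRing : Subalgebra O O' where
  carrier := {x | ∃ a : ResidueField O,
    residue O' x = ResidueField.map (algebraMap O O') a}
  mul_mem' := by
    rintro x y ⟨a, ha⟩ ⟨b, hb⟩
    exact ⟨a * b, by rw [map_mul, map_mul, ha, hb]⟩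
  add_mem' := by
    rintro x y ⟨a, ha⟩ ⟨b, hb⟩
    exact ⟨a + b, by rw [map_add, map_add, ha, hb]⟩
  algebraMap_mem' c := ⟨residue O c, rfl⟩

theorem mem_pointRing_of_mem_maximalIdeal {x : O'} (hx : x ∈ maximalIdeal O') :
    x ∈ pointRing O O' :=
  ⟨0, by rw [map_zero, (residue_eq_zero_iff x).mpr hx]⟩

variable (O O') in
/-- The residue of an element of the point ring. -/
def pointRes : pointRing O O' →+* ResidueField O where
  toFun x := Classical.choose x.2
  map_one' := (ResidueField.map (algebraMap O O')).injective (by
    rw [← Classical.choose_spec (1 : pointRing O O').2, map_one, OneMemClass.coe_one, map_one])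
  map_zero' := (ResidueField.map (algebraMap O O')).injective (by
    rw [← Classical.choose_spec (0 : pointRing O O').2, map_zero, ZeroMemClass.coe_zero, map_zero])
  map_mul' x y := (ResidueField.map (algebraMap O O')).injective (by
    rw [← Classical.choose_spec (x * y).2, map_mul, MulMemClass.coe_mul, map_mul,
      ← Classical.choose_spec x.2, ← Classical.choose_spec y.2])
  map_add' x y := (ResidueField.map (algebraMap O O')).injective (by
    rw [← Classical.choose_spec (x + y).2, map_add, AddMemClass.coe_add, map_add,
      ← Classical.choose_spec x.2, ← Classical.choose_spec y.2])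

theorem map_pointRes (x : pointRing O O') :
    ResidueField.map (algebraMap O O') (pointRes O O' x) = residue O' x.1 :=
  (Classical.choose_spec x.2).symm

theorem pointRes_algebraMap (c : O) : pointRes O O' (algebraMap O _ c) = residue O c :=
  (ResidueField.map (algebraMap O O')).injective ((map_pointRes _).trans rfl)

theorem isUnit_pointRing {x : pointRing O O'} (hx : x.1 ∉ maximalIdeal O') : IsUnit x := by
  obtain ⟨y, hy⟩ := isUnit_iff_exists_inv.mp (IsLocalRing.notMem_maximalIdeal.mp hx)
  have hy' : y ∈ pointRing O O' := by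
    refine ⟨(pointRes O O' x)⁻¹, ?_⟩
    rw [map_inv₀, map_pointRes, eq_inv_of_mul_eq_one_right (b := residue O' y)
      (by rw [← map_mul, hy, map_one])]
  exact isUnit_iff_exists_inv.mpr ⟨⟨y, hy'⟩, Subtype.ext hy⟩

instance isLocalRing_pointRing : IsLocalRing (pointRing O O') := by
  refine IsLocalRing.of_nonunits_add fun a b ha hb => ?_
  have h : ∀ x : pointRing O O', x ∈ nonunits (pointRing O O') → x.1 ∈ maximalIdeal O' :=
    fun x hx => by_contra fun hc => hx (isUnit_pointRing hc)
  intro hu
  exact (IsLocalRing.mem_maximalIdeal _).mp (add_mem (h a ha) (h b hb))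
    (hu.map (pointRing O O').val)

theorem mem_maximalIdeal_pointRing {x : pointRing O O'} (hx : x.1 ∈ maximalIdeal O') :
    x ∈ maximalIdeal (pointRing O O') :=
  (IsLocalRing.mem_maximalIdeal _).mpr fun hu =>
    (IsLocalRing.mem_maximalIdeal _).mp hx (hu.map (pointRing O O').val)

variable [IsDomain O'] [Module.Finite O O'] [Module.Free O O']

instance finite_pointRing : Module.Finite O (pointRing O O') :=
  Module.Finite.of_injective (pointRing O O').val.toLinearMap Subtype.val_injective

instance free_pointRing : Module.Free O (pointRing O O') := by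
  have : Module.Finite O ↥(pointRing O O').toSubmodule :=
    inferInstanceAs (Module.Finite O (pointRing O O'))
  exact (inferInstanceAs (Module.Free O ↥(pointRing O O').toSubmodule))

omit [IsDomain O'] [Module.Finite O O'] [Module.Free O O'] in
/-- **A point from a representation over an extension.** -/
theorem exists_point {rb : GQ →* Matrix (Fin 2) (Fin 2) (ResidueField O)} {cyc : GQ → O}
    (hspan : Submodule.span (ResidueField O') (Set.range fun g =>
      (rb g).map (ResidueField.map (algebraMap O O'))) = ⊤)
    (m : GQ →* Matrix (Fin 2) (Fin 2) O') (hm : IsContRep m)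
    (hdet : ∀ σ, (m σ).det = algebraMap O O' (cyc σ))
    (htr : ∀ σ, residue O' (m σ).trace = ResidueField.map (algebraMap O O') (rb σ).trace) :
    ∃ (r : GQ →* Matrix (Fin 2) (Fin 2) (pointRing O O')),
      mapRep (pointRes O O') r = rb ∧ IsContRep r ∧
      (∀ σ, (r σ).det = algebraMap O _ (cyc σ)) ∧
      (∀ σ, ((r σ).trace).1 = (m σ).trace) ∧
      ∃ U : Matrix (Fin 2) (Fin 2) O', IsUnit U ∧
        ∀ σ, U * m σ = (r σ).map (pointRing O O').val * U := by
  classical
  let ρ₁ : GQ →* Matrix (Fin 2) (Fin 2) (ResidueField O') :=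
    mapRep (ResidueField.map (algebraMap O O')) rb
  let ρ₂ : GQ →* Matrix (Fin 2) (Fin 2) (ResidueField O') := mapRep (residue O') m
  obtain ⟨P, hP, hPc⟩ := FA.Density.exists_conj_of_trace_eq ρ₁ ρ₂ hspan fun σ => by
    exact ((AddMonoidHom.map_trace (ResidueField.map (algebraMap O O')).toAddMonoidHom _).symm.trans
      (htr σ).symm).trans (AddMonoidHom.map_trace (residue O').toAddMonoidHom _)
  let P' : Matrix (Fin 2) (Fin 2) O' := P.map (Function.surjInv residue_surjective)
  have hP' : P'.map (residue O') = P := Matrix.ext fun i j => by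
    simp [P', Function.surjInv_eq residue_surjective]
  have hu : IsUnit P'.det := by
    refine IsLocalRing.notMem_maximalIdeal.mp fun h => not_isUnit_zero (M₀ := ResidueField O') ?_
    rw [← (residue_eq_zero_iff _).mpr h, RingHom.map_det, RingHom.mapMatrix_apply, hP']
    exact hP
  let r' : GQ →* Matrix (Fin 2) (Fin 2) O' :=
    { toFun := fun σ => P'⁻¹ * m σ * P'
      map_one' := by rw [map_one, Matrix.mul_one, Matrix.nonsing_inv_mul _ hu]
      map_mul' := fun a b => by
        simp only [map_mul, Matrix.mul_assoc]
        rw [Matrix.mul_nonsing_inv_cancel_left _ _ hu] }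
  have hres : ∀ σ, (r' σ).map (residue O') = (rb σ).map (ResidueField.map (algebraMap O O')) := by
    intro σ
    show (P'⁻¹ * m σ * P').map (residue O') = _
    have hinv : (P'⁻¹).map (residue O') = P⁻¹ := by
      refine (Matrix.inv_eq_left_inv ?_).symm
      rw [← hP', ← Matrix.map_mul, Matrix.nonsing_inv_mul _ hu]
      exact Matrix.map_one _ (map_zero _) (map_one _)
    rw [Matrix.map_mul, Matrix.map_mul, hP', hinv, Matrix.mul_assoc]
    show P⁻¹ * (ρ₂ σ * P) = _
    rw [hPc σ, Matrix.nonsing_inv_mul_cancel_left _ _ hP]
    rfl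
  have hmem : ∀ σ i j, r' σ i j ∈ pointRing O O' := fun σ i j =>
    ⟨rb σ i j, congrFun (congrFun (hres σ) i) j⟩
  let r : GQ →* Matrix (Fin 2) (Fin 2) (pointRing O O') :=
    { toFun := fun σ => Matrix.of fun i j => ⟨r' σ i j, hmem σ i j⟩
      map_one' := Matrix.ext fun i j => Subtype.ext (by
        show r' 1 i j = _
        rw [map_one]
        rcases eq_or_ne i j with rfl | hne <;> simp [*])
      map_mul' := fun a b => Matrix.ext fun i j => Subtype.ext (by
        show r' (a * b) i j = _
        rw [map_mul]
        simp [Matrix.mul_apply, Fin.sum_univ_two]) }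
  have hval : ∀ σ, (r σ).map (pointRing O O').val = r' σ := fun σ => rfl
  refine ⟨r, ?_, ?_, ?_, ?_, P'⁻¹, ?_, ?_⟩
  · refine MonoidHom.ext fun σ => Matrix.ext fun i j =>
      (ResidueField.map (algebraMap O O')).injective ?_
    show ResidueField.map (algebraMap O O') (pointRes O O' (r σ i j)) = _
    rw [map_pointRes]
    exact congrFun (congrFun (hres σ) i) j
  · intro n
    obtain ⟨L, hL, hLn⟩ := hm (n + 1)
    refine ⟨L, hL, fun σ hσ i j => ?_⟩
    have h1 : (r' σ - 1) i j ∈ maximalIdeal O' ^ (n + 1) := by
      rw [show r' σ - 1 = P'⁻¹ * (m σ - 1) * P' by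
        show P'⁻¹ * m σ * P' - 1 = _
        rw [Matrix.mul_sub, Matrix.mul_one, Matrix.sub_mul, Matrix.nonsing_inv_mul _ hu]]
      simp only [Matrix.mul_apply, Fin.sum_univ_two]
      refine add_mem (Ideal.mul_mem_right _ _ (add_mem ?_ ?_))
        (Ideal.mul_mem_right _ _ (add_mem ?_ ?_)) <;>
      exact Ideal.mul_mem_left _ _ (hLn σ hσ _ _)
    -- powers of the maximal ideal of `O'` lie in those of the point ring
    have key : ∀ (n : ℕ) (x : O'), x ∈ maximalIdeal O' ^ (n + 1) →
        ∃ hx : x ∈ pointRing O O', (⟨x, hx⟩ : pointRing O O') ∈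
          maximalIdeal (pointRing O O') ^ (n + 1) := by
      intro n
      induction n with
      | zero =>
        intro x hx
        rw [pow_one] at hx
        exact ⟨mem_pointRing_of_mem_maximalIdeal hx, by
          rw [pow_one]; exact mem_maximalIdeal_pointRing hx⟩
      | succ n ih =>
        intro x hx
        rw [pow_succ] at hx
        refine Submodule.mul_induction_on hx (fun a ha b hb => ?_) fun a b ha hb => ?_
        · obtain ⟨ha', ha''⟩ := ih a ha
          have hb' := mem_pointRing_of_mem_maximalIdeal (O := O) hb
          refine ⟨mul_mem ha' hb', ?_⟩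
          rw [pow_succ]
          exact Ideal.mul_mem_mul ha'' (mem_maximalIdeal_pointRing (x := ⟨b, hb'⟩) hb)
        · obtain ⟨ha', ha''⟩ := ha
          obtain ⟨hb', hb''⟩ := hb
          exact ⟨add_mem ha' hb', add_mem ha'' hb''⟩
    obtain ⟨hx, hx'⟩ := key n _ h1
    refine Ideal.pow_le_pow_right n.le_succ ?_
    convert hx' using 1
    refine Subtype.ext ?_
    rcases eq_or_ne i j with rfl | hne <;> simp [r, *]
  · intro σ
    refine Subtype.ext ?_
    rw [show ((r σ).det).1 = (r' σ).det from (RingHom.map_det (pointRing O O').val.toRingHom (r σ))]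
    show (P'⁻¹ * m σ * P').det = _
    rw [Matrix.det_mul, Matrix.det_mul, mul_right_comm, ← Matrix.det_mul,
      Matrix.nonsing_inv_mul _ hu, Matrix.det_one, one_mul, hdet]
    rfl
  · intro σ
    rw [show ((r σ).trace).1 = (r' σ).trace from
      AddMonoidHom.map_trace (pointRing O O').val.toRingHom.toAddMonoidHom (r σ)]
    show (P'⁻¹ * m σ * P').trace = _
    rw [Matrix.trace_mul_cycle, Matrix.mul_nonsing_inv _ hu, Matrix.one_mul]
  · exact (Matrix.isUnit_nonsing_inv_iff (A := P')).mpr ((Matrix.isUnit_iff_isUnit_det _).mpr hu)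
  · intro σ
    rw [hval]
    show P'⁻¹ * m σ = P'⁻¹ * m σ * P' * P'⁻¹
    rw [Matrix.mul_nonsing_inv_cancel_right _ _ hu]

end FA.RT
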