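import Fermat.Agent.TW.TameImage
import Fermat.Agent.TW.LocalQ
import Fermat.Agent.Local.Minkowski
import Fermat.Agent.Local.Inertia

/-!
# A fixed tame generator of the `p`-part of inertia

One element `Σ` of inertia at `q ≠ p` generates the image of inertia in every finite quotient in
which this image is a `p`-group. With a Frobenius element `Φ` it generates the image of the
decomposition group, and `Φ Σ = Σ ^ q Φ` there.
-/

set_option autoImplicit false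

noncomputable section

open FA.Local FA.TW
open scoped Pointwise

namespace FA.RT

local notation "Qb" => AlgebraicClosure ℚ
local notation "GQ" => AlgebraicClosure ℚ ≃ₐ[ℚ] AlgebraicClosure ℚ

variable {q : ℕ} {A : ValuationSubring Qb}

theorem isOpen_setOf_apply (x : Qb) (P : Qb → Prop) : IsOpen {σ : GQ | P (σ x)} := by
  have hx : IsIntegral ℚ x := ((AlgebraicClosure.isAlgebraic ℚ).isAlgebraic x).isIntegral
  rw [isOpen_iff_forall_mem_open]
  intro σ hσ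
  refine ⟨(fun τ => σ * τ) '' (MulAction.stabilizer GQ x : Set GQ), ?_, ?_, 1,
    MulAction.mem_stabilizer_iff.mpr (one_smul _ _), mul_one σ⟩
  · rintro _ ⟨τ, hτ, rfl⟩
    have : τ x = x := hτ
    simp only [Set.mem_ofPred_eq, AlgEquiv.mul_apply, this]
    exact hσ
  · exact (Homeomorph.mulLeft σ).isOpenMap _ (stabilizer_isOpen_of_isIntegral (K := ℚ) x)

/-- Inertia groups are closed. -/
theorem isClosed_inertia (hq : q.Prime) (hA : A.LiesOverPrime q) :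
    IsClosed (A.inertiaSubgroupIn ℚ : Set GQ) := by
  have heq : (A.inertiaSubgroupIn ℚ : Set GQ) =
      ⋂ b : integralClosure ℤ Qb, {σ : GQ | A.valuation (σ (b : Qb) - b) < 1} := by
    ext σ
    simp only [Set.mem_iInter, Set.mem_ofPred_eq, SetLike.mem_coe]
    refine ⟨fun hσ b => (inert_of_mem_inertiaSubgroupIn A hσ).sub_lt _
      ((A.valuation_le_one_iff _).mpr (FA.Deform.zbar_mem_valuationSubring A b)), fun h => ?_⟩
    refine mem_inertiaSubgroupIn_of_forall hq hA fun b => FA.Deform.mem_primeAt.mpr ?_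
    rw [A.mem_nonunits_iff, AddSubgroupClass.coe_sub, integralClosure.coe_smul, AlgEquiv.smul_def]
    exact h b
  rw [heq]
  refine isClosed_iInter fun b => ⟨?_⟩
  exact isOpen_setOf_apply (b : Qb) fun y => ¬ A.valuation (y - (b : Qb)) < 1

variable {p : ℕ}

/-- **The fixed tame generator.** -/
theorem exists_tame_gen (hp : p.Prime) (hq : q.Prime) (hpq : p ≠ q) (hA : A.LiesOverPrime q) :
    ∃ s ∈ A.inertiaSubgroupIn ℚ, ∀ (X : Type) [Monoid X] (f : GQ →* X),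
      IsOpen (f.ker : Set GQ) → (∀ σ ∈ A.inertiaSubgroupIn ℚ, ∃ m : ℕ, f σ ^ p ^ m = 1) →
      ∀ σ ∈ A.inertiaSubgroupIn ℚ, ∃ i : ℕ, f σ = f s ^ i := by
  classical
  let ι := {U : Subgroup GQ // U.Normal ∧ IsOpen (U : Set GQ) ∧
    ∀ σ ∈ A.inertiaSubgroupIn ℚ, ∃ m : ℕ, σ ^ p ^ m ∈ U}
  let C : ι → Set GQ := fun U => {s | s ∈ A.inertiaSubgroupIn ℚ ∧
    ∀ σ ∈ A.inertiaSubgroupIn ℚ, ∃ i : ℕ, (s ^ i)⁻¹ * σ ∈ U.1}
  have hclosed : ∀ U, IsClosed (C U) := fun U => by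
    have hopen : ∀ S : Set (GQ ⧸ U.1), IsClosed (((↑) : GQ → GQ ⧸ U.1) ⁻¹' S) := fun S => by
      have : DiscreteTopology (GQ ⧸ U.1) := QuotientGroup.discreteTopology U.2.2.1
      exact (isClosed_discrete S).preimage QuotientGroup.continuous_mk
    have e : C U = (A.inertiaSubgroupIn ℚ : Set GQ) ∩
        (((↑) : GQ → GQ ⧸ U.1) ⁻¹' ((↑) '' C U)) := by
      refine Set.Subset.antisymm (fun s hs => ⟨hs.1, s, hs, rfl⟩) ?_
      rintro s ⟨hs, t, ht, hts⟩
      refine ⟨hs, fun σ hσ => ?_⟩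
      obtain ⟨i, hi⟩ := ht.2 σ hσ
      refine ⟨i, ?_⟩
      have := U.2.1
      rw [← QuotientGroup.eq_one_iff] at hi ⊢
      rwa [QuotientGroup.mk_mul, QuotientGroup.mk_inv, QuotientGroup.mk_pow, ← hts,
        ← QuotientGroup.mk_pow, ← QuotientGroup.mk_inv, ← QuotientGroup.mk_mul]
    rw [e]
    exact (isClosed_inertia hq hA).inter (hopen _)
  have hfin : ∀ F : Finset ι, (Set.univ ∩ ⋂ U ∈ F, C U).Nonempty := fun F => by
    have hnorm : ∀ U : ↥F, (U.1.1).Normal := fun U => U.1.2.1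
    let f : GQ →* ((U : ↥F) → GQ ⧸ U.1.1) :=
      MonoidHom.pi fun U : ↥F => QuotientGroup.mk' U.1.1
    have hker : (f.ker : Set GQ) = ⋂ U : ↥F, (U.1.1 : Set GQ) := by
      ext x
      simp [f, funext_iff, QuotientGroup.eq_one_iff]
    obtain ⟨s, hs, hgen⟩ := exists_gen_inertia_image hp hq hpq hA f
      (hker ▸ isOpen_iInter_of_finite fun U => U.1.2.2.1) fun σ hσ => by
        choose m hm using fun U : ↥F => U.1.2.2.2 σ hσ
        refine ⟨Finset.univ.sup m, funext fun U => ?_⟩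
        show ((σ : GQ) : GQ ⧸ U.1.1) ^ _ = 1
        rw [← Nat.add_sub_of_le (Finset.le_sup (Finset.mem_univ U)), pow_add, pow_mul,
          ← QuotientGroup.mk_pow, (QuotientGroup.eq_one_iff _).mpr (hm U), one_pow]
    refine ⟨s, trivial, Set.mem_iInter₂.mpr fun U hU => ⟨hs, fun σ hσ => ?_⟩⟩
    obtain ⟨i, hi⟩ := hgen σ hσ
    refine ⟨i, ?_⟩
    have h := congrFun hi ⟨U, hU⟩
    have := U.2.1
    rw [← QuotientGroup.eq_one_iff, QuotientGroup.mk_mul, QuotientGroup.mk_inv,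
      QuotientGroup.mk_pow, inv_mul_eq_one]
    exact h.symm
  obtain ⟨s, -, hs⟩ := isCompact_univ.inter_iInter_nonempty C hclosed hfin
  have hsI : s ∈ A.inertiaSubgroupIn ℚ :=
    (Set.mem_iInter.mp hs ⟨⊤, inferInstance, isOpen_univ, fun σ _ => ⟨0, trivial⟩⟩).1
  refine ⟨s, hsI, fun X _ f hf hP σ hσ => ?_⟩
  obtain ⟨i, hi⟩ := (Set.mem_iInter.mp hs ⟨f.ker, inferInstance, hf, fun τ hτ => by
    obtain ⟨m, hm⟩ := hP τ hτ
    exact ⟨m, MonoidHom.mem_ker.mpr (by rw [map_pow, hm])⟩⟩).2 σ hσ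
  refine ⟨i, ?_⟩
  rw [MonoidHom.mem_ker] at hi
  calc f σ = f (s ^ i * ((s ^ i)⁻¹ * σ)) := by rw [mul_inv_cancel_left]
    _ = f s ^ i := by rw [map_mul, hi, mul_one, map_pow]

variable {X : Type} [Monoid X] (f : GQ →* X)

/-- The tame relation. -/
theorem tame_relation (hp : p.Prime) (hq : q.Prime) (hpq : p ≠ q) (hA : A.LiesOverPrime q)
    (hf : IsOpen (f.ker : Set GQ))
    (hP : ∀ σ ∈ A.inertiaSubgroupIn ℚ, ∃ m : ℕ, f σ ^ p ^ m = 1) {φ : GQ}
    (hφ : A.IsFrobeniusAt φ q) {s : GQ} (hs : s ∈ A.inertiaSubgroupIn ℚ) :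
    f φ * f s = f s ^ q * f φ := by
  obtain ⟨ψ, -, hker, -, hconj⟩ := exists_tame_character hp hq hpq hA
    (f.comp (A.inertiaSubgroupIn ℚ).subtype) hf (fun σ hσ => hσ) fun σ => hP σ σ.2
  let σ : A.inertiaSubgroupIn ℚ := ⟨s, hs⟩
  let σ' : A.inertiaSubgroupIn ℚ :=
    ⟨φ * s * φ⁻¹, conj_mem_inertia_of_mem hφ.mem_decompositionSubgroup hs⟩
  have hψ' : ψ σ' = ψ σ ^ q := hconj φ hφ (fun a b hb ha => by
    have ha' : f a = 1 := ha
    show f b = 1
    rw [hb, map_mul, map_mul, ha', mul_one, ← map_mul, mul_inv_cancel, map_one]) σ σ' rfl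
  have h3 : ψ ((σ ^ q)⁻¹ * σ') = 1 := by
    rw [map_mul, hψ', ← map_pow, ← map_mul, inv_mul_cancel, map_one]
  have h4 : f ((s ^ q)⁻¹ * (φ * s * φ⁻¹)) = 1 := hker _ h3
  calc f φ * f s = f (s ^ q * ((s ^ q)⁻¹ * (φ * s * φ⁻¹)) * φ) := by
        rw [mul_inv_cancel_left, inv_mul_cancel_right, map_mul]
    _ = f s ^ q * f φ := by rw [map_mul, map_mul, h4, mul_one, map_pow]

/-- `Φ` and `Σ` generate the image of the decomposition group. -/
theorem exists_eq_pow_mul_pow (hq : q.Prime) (hA : A.LiesOverPrime q)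
    (hf : IsOpen (f.ker : Set GQ)) {φ : GQ} (hφ : A.IsFrobeniusAt φ q) {s : GQ}
    (hgen : ∀ σ ∈ A.inertiaSubgroupIn ℚ, ∃ i : ℕ, f σ = f s ^ i) {σ : GQ}
    (hσ : σ ∈ A.decompositionSubgroup ℚ) : ∃ i j : ℕ, f σ = f φ ^ i * f s ^ j := by
  obtain ⟨i, ι, hι, n, hn, rfl⟩ := exists_frobenius_decomp hq hA hφ f.ker hf hσ
  obtain ⟨j, hj⟩ := hgen ι hι
  exact ⟨i, j, by rw [map_mul, map_mul, map_pow, hj, MonoidHom.mem_ker.mp hn, mul_one]⟩

end FA.RT
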