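import Fermat.Agent.RT.Points
import Fermat.Agent.Density.Traces

/-!
# Actions of carried algebras through Frobenius traces

An algebra injecting into the points and containing the Frobenius traces contains all traces: so
the carried algebra maps to it.
-/

set_option autoImplicit false

noncomputable section

open IsLocalRing Matrix FA.Deform

namespace FA.RT

local notation "Qb" => AlgebraicClosure ℚ
local notation "GQ" => AlgebraicClosure ℚ ≃ₐ[ℚ] AlgebraicClosure ℚ

variable {O : Type} [CommRing O] [IsDomain O] [IsDiscreteValuationRing O]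
  [IsAdicComplete (maximalIdeal O) O] [Finite (ResidueField O)]
  {rb : GQ →* Matrix (Fin 2) (Fin 2) (ResidueField O)} {cyc : GQ → O} {S : PointSet rb cyc}

omit [IsDomain O] [IsDiscreteValuationRing O] [IsAdicComplete (maximalIdeal O) O]
  [Finite (ResidueField O)] in
/-- The trace of a power is a polynomial in trace and determinant. -/
theorem trace_pow_mem {R : Type} [CommRing R] [Algebra O R] (N : Subalgebra O R)
    (M : Matrix (Fin 2) (Fin 2) R) (ht : M.trace ∈ N) (hd : M.det ∈ N) (k : ℕ) :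
    (M ^ k).trace ∈ N := by
  induction k using Nat.twoStepInduction with
  | zero =>
    rw [pow_zero, Matrix.trace_one, Fintype.card_fin]
    exact natCast_mem N 2
  | one => rwa [pow_one]
  | more n ih1 ih2 =>
    have hsq : M * M = M.trace • M - M.det • (1 : Matrix (Fin 2) (Fin 2) R) := by
      ext i j
      fin_cases i <;> fin_cases j <;>
        simp [Matrix.mul_apply, Fin.sum_univ_two, Matrix.trace_fin_two, Matrix.det_fin_two] <;>
        ring
    rw [pow_add, pow_two, hsq, mul_sub, mul_smul_comm, mul_smul_comm, mul_one, ← pow_succ,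
      Matrix.trace_sub, Matrix.trace_smul, Matrix.trace_smul, smul_eq_mul, smul_eq_mul]
    exact sub_mem (mul_mem ht ih2) (mul_mem hd ih1)

omit [IsAdicComplete (maximalIdeal O) O] [Finite (ResidueField O)] in
/-- The carried algebra is a finite module. -/
theorem PointSet.Model.finite (M : S.Model) : Module.Finite O M.R := by
  have : Fintype S.J := Fintype.ofFinite _
  refine Module.Finite.of_injective (LinearMap.pi fun j => (M.proj j).toLinearMap) ?_
  exact (injective_iff_map_eq_zero _).mpr fun x hx => M.proj_injective x fun j => congrFun hx j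

omit [IsAdicComplete (maximalIdeal O) O] in
/-- A power of the maximal ideal lies in a given power of the ideal of a uniformiser. -/
theorem exists_pow_le_span_pow {R : Type} [CommRing R] [IsLocalRing R] [Algebra O R]
    [Module.Finite O R] [IsNoetherianRing R] (hloc : ∀ c ∈ maximalIdeal O,
      algebraMap O R c ∈ maximalIdeal R) (n : ℕ) :
    ∃ c : ℕ, maximalIdeal R ^ c ≤ (maximalIdeal O ^ n).map (algebraMap O R) := by
  set J := (maximalIdeal O ^ n).map (algebraMap O R)
  by_cases hn : n = 0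
  · exact ⟨0, by simp [J, hn, Ideal.map_top]⟩
  have hJ : J ≤ maximalIdeal R := by
    rw [Ideal.map_le_iff_le_comap]
    exact fun c hc => hloc c (Ideal.pow_le_self hn hc)
  have : Nontrivial (R ⧸ J) := Ideal.Quotient.nontrivial_iff.mpr fun h =>
    (maximalIdeal.isMaximal R).ne_top (top_le_iff.mp (h.ge.trans hJ))
  have : IsLocalRing (R ⧸ J) :=
    IsLocalRing.of_surjective' (Ideal.Quotient.mk J) Ideal.Quotient.mk_surjective
  have : Finite (R ⧸ J) := by
    obtain ⟨m, b, hb⟩ := Module.Finite.exists_fin (R := O) (M := R)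
    have : Finite (O ⧸ maximalIdeal O ^ n) :=
      IsLocalRing.finite_quotient_iff.mpr ⟨n, le_rfl⟩
    let f : (Fin m → O ⧸ maximalIdeal O ^ n) → R ⧸ J := fun a =>
      Ideal.Quotient.mk J (∑ i, Function.surjInv Ideal.Quotient.mk_surjective (a i) • b i)
    refine Finite.of_surjective f fun y => ?_
    obtain ⟨x, rfl⟩ := Ideal.Quotient.mk_surjective y
    obtain ⟨c, rfl⟩ := (Submodule.mem_span_range_iff_exists_fun O).mp
      (hb.ge (Submodule.mem_top : x ∈ ⊤))
    refine ⟨fun i => Ideal.Quotient.mk _ (c i), ?_⟩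
    rw [Ideal.Quotient.mk_eq_mk_iff_sub_mem, ← Finset.sum_sub_distrib]
    refine Ideal.sum_mem _ fun i _ => ?_
    rw [← sub_smul, Algebra.smul_def]
    refine Ideal.mul_mem_right _ _ (Ideal.mem_map_of_mem _ ?_)
    rw [← Ideal.Quotient.mk_eq_mk_iff_sub_mem]
    exact Function.surjInv_eq Ideal.Quotient.mk_surjective _
  have : IsArtinianRing (R ⧸ J) := isArtinian_of_finite
  obtain ⟨c, hc⟩ := exists_pow_map_eq_zero (Ideal.Quotient.mk J) Ideal.Quotient.mk_surjective
  exact ⟨c, fun x hx => Ideal.Quotient.eq_zero_iff_mem.mp (hc x hx)⟩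

omit [IsAdicComplete (maximalIdeal O) O] in
/-- A subalgebra containing the traces of the powers of almost all Frobenius elements is
everything. -/
theorem PointSet.Model.eq_top_of_frobenius (M : S.Model) (N : Subalgebra O M.R) (S₀ : Finset ℕ)
    (hfrob : ∀ q : ℕ, q.Prime → q ∉ S₀ → ∀ P : ValuationSubring Qb, P.LiesOverPrime q →
      ∀ σ : GQ, P.IsFrobeniusAt σ q → ∀ k : ℕ, (M.rR (σ ^ k)).trace ∈ N) : N = ⊤ := by
  classical
  have := M.finite
  have hloc : ∀ c ∈ maximalIdeal O, algebraMap O M.R c ∈ maximalIdeal M.R := fun c hc => by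
    refine (IsLocalRing.mem_maximalIdeal _).mpr fun hu => not_isUnit_zero (M₀ := ResidueField O) ?_
    have h := hu.map M.π
    rwa [show M.π (algebraMap O M.R c) = residue O c from RingHom.congr_fun M.π_algebraMap c,
      (residue_eq_zero_iff c).mpr hc] at h
  have hall : ∀ σ, (M.rR σ).trace ∈ N := by
    intro σ
    suffices hQ : Submodule.Quotient.mk (p := N.toSubmodule) (M.rR σ).trace = 0 from
      (Submodule.Quotient.mk_eq_zero _).mp hQ
    rw [← Submodule.mem_bot O, ← Ideal.iInf_pow_smul_eq_bot_of_isLocalRing (M := M.R ⧸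
      N.toSubmodule) (maximalIdeal O) (maximalIdeal.isMaximal O).ne_top, Submodule.mem_iInf]
    intro n
    obtain ⟨c, hc⟩ := exists_pow_le_span_pow hloc n
    obtain ⟨L, hL, hLc⟩ := M.cont c
    let f := mapRep (Ideal.Quotient.mk (maximalIdeal M.R ^ c)) M.rR
    have hfo : IsOpen (f.ker : Set GQ) := by
      refine Subgroup.isOpen_mono (H₁ := L.fixingSubgroup) (fun τ hτ => ?_)
        (IntermediateField.fixingSubgroup_isOpen L)
      refine MonoidHom.mem_ker.mpr (Matrix.ext fun a b => ?_)
      have h1 := Ideal.Quotient.eq_zero_iff_mem.mpr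
        (hLc τ ((IntermediateField.mem_fixingSubgroup_iff L τ).mp hτ) a b)
      rw [Matrix.sub_apply, map_sub, sub_eq_zero] at h1
      show Ideal.Quotient.mk _ (M.rR τ a b) = _
      rw [h1]
      rcases eq_or_ne a b with rfl | hne <;> simp [*]
    have key : ∃ y ∈ N, (M.rR σ).trace - y ∈ maximalIdeal M.R ^ c := by
      refine FA.Density.forall_of_frobenius_pow f.ker hfo
        (fun τ => ∃ y ∈ N, (M.rR τ).trace - y ∈ maximalIdeal M.R ^ c) ?_ S₀
        (fun q hq hq0 P hP τ hτ k => ⟨_, hfrob q hq hq0 P hP τ hτ k, by simp⟩) σ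
      rintro τ ν hν ⟨y, hy, hyc⟩
      refine ⟨y, hy, ?_⟩
      rw [← Ideal.Quotient.eq_zero_iff_mem, map_sub, sub_eq_zero] at hyc ⊢
      rw [← hyc, AddMonoidHom.map_trace (Ideal.Quotient.mk (maximalIdeal M.R ^ c)),
        AddMonoidHom.map_trace (Ideal.Quotient.mk (maximalIdeal M.R ^ c))]
      show (f (τ * ν)).trace = (f τ).trace
      rw [map_mul, MonoidHom.mem_ker.mp hν, mul_one]
    obtain ⟨y, hy, hyc⟩ := key
    have h0 : Submodule.Quotient.mk (p := N.toSubmodule) (M.rR σ).trace =
        Submodule.Quotient.mk ((M.rR σ).trace - y) := by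
      rw [Submodule.Quotient.mk_sub, (Submodule.Quotient.mk_eq_zero N.toSubmodule).mpr hy,
        sub_zero]
    rw [h0]
    have h1 : (M.rR σ).trace - y ∈ maximalIdeal O ^ n • (⊤ : Submodule O M.R) := by
      rw [Ideal.smul_top_eq_map]
      exact hc hyc
    have h2 := Submodule.mem_map_of_mem (f := N.toSubmodule.mkQ) h1
    rw [Submodule.map_smul'', Submodule.map_top, Submodule.range_mkQ] at h2
    exact h2
  refine eq_top_iff.mpr fun x _ => ?_
  have hx : x ∈ Algebra.adjoin O (Set.range fun σ => (M.rR σ).trace) := by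
    rw [M.generated]; exact Algebra.mem_top
  exact (Algebra.adjoin_le (S := N) (by rintro _ ⟨σ, rfl⟩; exact hall σ)) hx

omit [IsAdicComplete (maximalIdeal O) O] in
/-- The action of the carried algebra through some of the lifts. -/
theorem PointSet.Model.exists_hom_sub (M : S.Model) {J' : Type} (ι : J' → S.J) {A : Type}
    [CommRing A] [Algebra O A] (ev : A →ₐ[O] ∀ j, S.B (ι j)) (hev : Function.Injective ev)
    (S₀ : Finset ℕ)
    (h : ∀ q : ℕ, q.Prime → q ∉ S₀ → ∀ P : ValuationSubring Qb, P.LiesOverPrime q →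
      ∀ σ : GQ, P.IsFrobeniusAt σ q → ∃ a, ∀ j, ev a j = (S.r (ι j) σ).trace) :
    ∃ f : M.R →ₐ[O] A, ∀ x j, ev (f x) j = M.proj (ι j) x := by
  classical
  have := M.finite
  let G : M.R →ₐ[O] ∀ j, S.B (ι j) := AlgHom.pi fun j => M.proj (ι j)
  let N : Subalgebra O M.R := ev.range.comap G
  have hfrob : ∀ q : ℕ, q.Prime → q ∉ S₀ → ∀ P : ValuationSubring Qb, P.LiesOverPrime q →
      ∀ σ : GQ, P.IsFrobeniusAt σ q → ∀ k : ℕ, (M.rR (σ ^ k)).trace ∈ N := by
    intro q hq hq0 P hP σ hσ k
    rw [map_pow]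
    refine trace_pow_mem N _ ?_ ?_ k
    · obtain ⟨a, ha⟩ := h q hq hq0 P hP σ hσ
      refine ⟨a, funext fun j => ?_⟩
      show ev a j = M.proj (ι j) (M.rR σ).trace
      rw [ha]
      obtain ⟨U, ⟨u, rfl⟩, hUσ⟩ := M.proj_rR (ι j)
      rw [AddMonoidHom.map_trace (M.proj (ι j)) (M.rR σ),
        show (M.rR σ).map (M.proj (ι j)) = (u : Matrix (Fin 2) (Fin 2) (S.B (ι j))) * S.r (ι j) σ *
          ((u⁻¹ : (Matrix (Fin 2) (Fin 2) (S.B (ι j)))ˣ) : Matrix (Fin 2) (Fin 2) (S.B (ι j))) by
        rw [hUσ σ, mul_assoc, Units.mul_inv, mul_one], Matrix.trace_mul_cycle, Units.inv_mul,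
        one_mul]
    · rw [M.det]
      exact N.algebraMap_mem _
  have hN := M.eq_top_of_frobenius N S₀ hfrob
  have htop : ∀ x, G x ∈ ev.range := fun x => by
    have hx : x ∈ N := hN ▸ Algebra.mem_top
    exact hx
  let e := AlgEquiv.ofInjective ev hev
  refine ⟨(e.symm : ev.range →ₐ[O] A).comp (G.codRestrict ev.range htop), fun x j => ?_⟩
  exact congrFun (congrArg Subtype.val (e.apply_symm_apply ⟨G x, htop x⟩)) j

omit [IsAdicComplete (maximalIdeal O) O] in
/-- **The action of the carried algebra.** -/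
theorem PointSet.Model.exists_hom (M : S.Model) {A : Type} [CommRing A] [Algebra O A]
    (ev : A →ₐ[O] ∀ j, S.B j) (hev : Function.Injective ev) (S₀ : Finset ℕ)
    (h : ∀ q : ℕ, q.Prime → q ∉ S₀ → ∀ P : ValuationSubring Qb, P.LiesOverPrime q →
      ∀ σ : GQ, P.IsFrobeniusAt σ q → ∃ a, ∀ j, ev a j = (S.r j σ).trace) :
    ∃ f : M.R →ₐ[O] A, ∀ x j, ev (f x) j = M.proj j x :=
  M.exists_hom_sub id ev hev S₀ h

end FA.RT
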