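import Fermat.Agent.RT.Step

/-!
# Transfer of a point along the lattice of levels

From a point of the top level, supported components descend to the level of the residually
ramified primes and ascend to the types of a second point, which then lies in the base support.
-/

set_option autoImplicit false

noncomputable section

open IsLocalRing Matrix FA.Deform FA.TW FA.LocalDef FA.Patch FA.LocalComp

namespace FA.RT

local notation "M₂" => Matrix (Fin 2) (Fin 2)

section Types

variable {Q ρ : Type} [Fintype Q] [Fintype ρ] {O : Type} [CommRing O] [IsLocalRing O]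
  [IsAdicComplete (maximalIdeal O) O] [IsDomain O] [IsNoetherianRing O] {L : LocalData Q O}

omit [Fintype Q] [IsAdicComplete (maximalIdeal O) O] [IsDomain O] [IsNoetherianRing O] in
/-- At a residually ramified place only one type is possible. -/
theorem type_eq_of_ramified (h2 : (2 : ResidueField O) ≠ 0) (hqu : ∀ q, IsUnit (L.qv q : O))
    {t t' : Q → Ty} (ht : Valid L t) (ht' : Valid L t') {q : Q} (h : ¬ Cong (L.sig0 q) 1) :
    t q = t' q := by
  set F := (L.phi0 q).map (residue O)
  set N := (L.sig0 q - 1).map (residue O)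
  have key : ∀ {s : Q → Ty}, Valid L s →
      ∃ n, s q = .st n ∧ F * N = (sgn n * (L.qv q : ResidueField O)) • N := by
    intro s hs
    obtain ⟨B, hB⟩ := hs q
    rcases hsq : s q with _ | n
    · rw [hsq] at hB
      refine absurd ?_ h
      have hsig : (1 + nForm B.e Ty.unr B.v).map (residue O) = _ := hB.sig
      rw [show nForm B.e Ty.unr B.v = 0 from rfl, add_zero] at hsig
      exact hsig.symm
    · rw [hsq] at hB
      refine ⟨n, rfl, ?_⟩
      have h1 : F = (phiForm (RingHom.id O) (L.qv q) B.G B.e (.st n) B.v).map (residue O) :=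
        (hB.phi : _ = _).symm
      have hsig : (1 + nForm B.e (.st n) B.v).map (residue O) = _ := hB.sig
      rw [map_one_add] at hsig
      have h2' : N = (nForm B.e (.st n) B.v).map (residue O) := by
        show (L.sig0 q - 1).map (residue O) = _
        rw [map_sub_one, ← hsig, add_sub_cancel_left]
      rw [h1, h2', map_phiForm, map_nForm, phiForm, nForm, unflipB_mul, (flag2_mul _ _ _ _ _).1,
        unflipB_smul]
  obtain ⟨n, hn, h1⟩ := key ht
  obtain ⟨n', hn', h2'⟩ := key ht'
  rw [hn, hn']
  congr 1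
  by_contra hne
  refine h ?_
  have hN : N = 0 := by
    rw [h1] at h2'
    ext a b
    have e := congrFun (congrFun h2' a) b
    simp only [Matrix.smul_apply, smul_eq_mul] at e
    have hq : (L.qv q : ResidueField O) ≠ 0 := by
      rw [← map_natCast (residue O)]; exact ((hqu q).map _).ne_zero
    rw [Matrix.zero_apply]
    have e' : (sgn n - sgn n') * (L.qv q : ResidueField O) * N a b = 0 := by linear_combination e
    refine (mul_eq_zero.mp e').resolve_left (mul_ne_zero ?_ hq)
    cases n <;> cases n' <;> first | exact absurd rfl hne | simp [sgn]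
    all_goals intro h0
    all_goals first
      | exact h2 (by linear_combination h0)
      | exact h2 (by linear_combination -h0)
  have hN' : (L.sig0 q - 1).map (residue O) = 0 := hN
  show (L.sig0 q).map (residue O) = (1 : M₂ O).map (residue O)
  rw [map_sub_one, sub_eq_zero] at hN'
  rw [hN', Matrix.map_one _ (map_zero _) (map_one _)]

omit [Fintype Q] [IsAdicComplete (maximalIdeal O) O] [IsDomain O] [IsNoetherianRing O] in
/-- A Steinberg type needs the level raising congruence. -/
theorem type_eq_unr_of_trace {t : Q → Ty} (ht : Valid L t) {q : Q}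
    (h : residue O (L.phi0 q).trace * residue O (L.phi0 q).trace ≠
      ((L.qv q : ResidueField O) + 1) * ((L.qv q : ResidueField O) + 1)) : t q = .unr := by
  rcases htq : t q with _ | n
  · rfl
  obtain ⟨B, hB⟩ := ht q
  rw [htq] at hB
  refine absurd ?_ h
  have h1 := congrArg Matrix.trace (hB.phi : _ = _)
  rw [map_phiForm, phiForm, trace_unflipB, trace_flag2] at h1
  rw [AddMonoidHom.map_trace (residue O), ← h1]
  linear_combination (((L.qv q : ResidueField O) + 1) * ((L.qv q : ResidueField O) + 1)) *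
    sgn_mul_self (A := ResidueField O) n

/-- A type through a prime, unramified where the prime is. -/
theorem exists_type_comp_le_unr [DecidableEq Q] (hqu : ∀ q, IsUnit (L.qv q : O))
    {W : Ideal (MvPowerSeries (FA.LocalComp.Var Q ρ) O)} [W.IsPrime] (hW : L.relIdeal ≤ W) :
    ∃ (t : Q → Ty) (ht : Valid L t), comp L t ht ≤ W ∧
      ∀ q, (∀ a b, (L.sig (ρ := ρ) q - 1) a b ∈ W) → t q = .unr := by
  classical
  obtain ⟨t, ht⟩ := exists_type_le hqu hW
  let t' : Q → Ty := fun q =>
    if ∀ a b, (L.sig (ρ := ρ) q - 1) a b ∈ W then .unr else t q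
  have hle : L.typeIdeal (ρ := ρ) t' ≤ W := by
    refine Ideal.span_le.mpr (Set.iUnion_subset fun q => ?_)
    by_cases hq : ∀ a b, (L.sig (ρ := ρ) q - 1) a b ∈ W
    · simp only [t', if_pos hq]
      rintro _ ⟨⟨a, b⟩, rfl⟩
      exact hq a b
    · simp only [t', if_neg hq]
      exact fun x hx => ht (Ideal.subset_span (Set.mem_iUnion.mpr ⟨q, hx⟩))
  obtain ⟨hv, hc⟩ := exists_comp_le hqu (sup_le hW hle)
  exact ⟨t', hv, hc, fun q hq => if_pos hq⟩

end Types

namespace Setup

variable {O : Type} [CommRing O] [IsDomain O] [IsDiscreteValuationRing O]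
  [IsAdicComplete (maximalIdeal O) O] [Finite (ResidueField O)]
  {S : FA.RT.Setup O} {C₀ : Carried S.rb S.cyc} {ι κ : Type} {d : ι → ℕ} {src tgt : κ → ι}
  {act₀ : ∀ i, C₀.R →ₐ[O] Matrix (Fin (d i)) (Fin (d i)) O} {r g : ℕ}
  (hg : g + 1 = r + S.Sig.card)
  (inp : ∀ n, S.LevelInput C₀ d src tgt act₀ r n) (Pt : (system hg inp).Patched)
  (hcycΦ : ∀ q : ↥S.Sig, S.cyc (S.Φ q) = (q.1 : O))
  (hcycs : ∀ q : ↥S.Sig, S.cyc (S.tame q) = 1)

local notation "Sx" => Aux O (FrameVar S.T S.p) (Fin r)

section Point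

include hcycΦ hcycs in
/-- The relations die in the base. -/
theorem relIdeal_le_ker_phi :
    S.localData.relIdeal (ρ := Fin S.m ⊕ Fin g) ≤ RingHom.ker Pt.φ := fun y hy => by
  refine RingHom.mem_ker.mpr (eq_of_forall_sub_mem (maximalIdeal C₀.R) fun k => ?_)
  obtain ⟨n, hn, -, -, -, h4⟩ := Pt.approx k
  have h := h4 y
  rwa [show (system hg inp).φ n y = 0 from by
    show (inp n).π (MvPowerSeries.constantCoeff (S.evalVals (inp n).C ((inp n).extra hg)
      (Classical.choose ((inp n).extra_spec hg)) y)) = 0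
    rw [RingHom.mem_ker.mp (S.relIdeal_le_ker (inp n).C ((inp n).extra hg) _ hcycΦ hcycs
      (inp n).tame_trace hy), map_zero, map_zero]] at h

/-- Trivial inertia in a point of the base. -/
theorem sig_mem_ker_comp {O' : Type} [CommRing O'] (f : C₀.R →+* O') (q : ↥S.Sig)
    (h : ∀ a b, f ((C₀.rR (S.tame q) - 1) a b) = 0) (u v : Fin 2) :
    (S.localData.sig (ρ := Fin S.m ⊕ Fin g) q - 1) u v ∈ RingHom.ker (f.comp Pt.φ) := by
  let J : Ideal C₀.R := Ideal.span (Set.range fun x : Fin 2 × Fin 2 =>
    (C₀.rR (S.tame q) - 1) x.1 x.2)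
  have hJ : J ≤ RingHom.ker f := Ideal.span_le.mpr (by rintro _ ⟨⟨a, b⟩, rfl⟩; exact h a b)
  refine RingHom.mem_ker.mpr (RingHom.mem_ker.mp (hJ (FA.Patch.mem_of_forall_mem_sup_pow fun k => ?_)))
  obtain ⟨n, hn, -, -, -, h4⟩ := Pt.approx k
  have hφ : (system hg inp).φ n ((S.localData.sig (ρ := Fin S.m ⊕ Fin g) q - 1) u v) ∈ J := by
    obtain ⟨U, ⟨U, rfl⟩, hconj⟩ := (inp n).π_conj
    have h3 : (S.localData.sig (ρ := Fin S.m ⊕ Fin g) q - 1).map ((system hg inp).φ n) =
        ((inp n).C.rR (S.tame q)).map (inp n).π - 1 := by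
      rw [FA.LocalComp.map_sub_one]
      congr 1
      show (S.localData.sig q).map ((inp n).toLevel hg).toBase = _
      have hsig' := S.map_sig (inp n).C ((inp n).extra hg)
        (Classical.choose ((inp n).extra_spec hg)) q
      rw [show ⇑((inp n).toLevel hg).toBase = (fun z => (inp n).π (MvPowerSeries.constantCoeff z)) ∘
        S.evalVals (inp n).C ((inp n).extra hg) (Classical.choose ((inp n).extra_spec hg)) from rfl,
        ← Matrix.map_map, hsig']
      rw [show (fun z => (inp n).π (MvPowerSeries.constantCoeff (σ := FrameVar S.T S.p) z)) =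
        ⇑(inp n).π ∘ ⇑MvPowerSeries.constantCoeff from rfl, ← Matrix.map_map]
      congr 1
      rw [framed, Matrix.map_mul, Matrix.map_mul, constantCoeff_frame, one_mul, Matrix.map_map]
      have hinv : (frame (v₀ := S.p) (inp n).C.R (S.atT q))⁻¹.map
          (MvPowerSeries.constantCoeff) = 1 := by
        have h := congrArg (fun M => M.map (MvPowerSeries.constantCoeff))
          (Matrix.mul_nonsing_inv (frame (v₀ := S.p) (inp n).C.R (S.atT q)) (isUnit_det_frame _))
        simp only [Matrix.map_mul, constantCoeff_frame, one_mul] at h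
        rw [h]
        exact Matrix.map_one _ (map_zero _) (map_one _)
      rw [hinv, mul_one]
      exact Matrix.ext fun a b => by simp
    have hUN : ((inp n).C.rR (S.tame q)).map (inp n).π - 1 =
        ((U⁻¹ : (M₂ C₀.R)ˣ) : M₂ C₀.R) * (C₀.rR (S.tame q) - 1) * U.1 := by
      rw [mul_assoc, sub_mul, ← hconj, one_mul, mul_sub, ← mul_assoc, Units.inv_mul, one_mul]
    have e := congrFun (congrFun (h3.trans hUN) u) v
    rw [Matrix.map_apply] at e
    rw [e, ← Ideal.Quotient.eq_zero_iff_mem]
    exact map_mul_mul_apply_eq_zero (Ideal.Quotient.mk J) _ _ _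
      (fun a b => Ideal.Quotient.eq_zero_iff_mem.mpr (Ideal.subset_span ⟨(a, b), rfl⟩)) u v
  have := Submodule.add_mem_sup hφ (h4 ((S.localData.sig (ρ := Fin S.m ⊕ Fin g) q - 1) u v))
  rwa [add_sub_cancel] at this

/-- A base point of the support gives a patched point of the support. -/
theorem ker_act_le_comp_phi {O' : Type} [CommRing O'] (f : C₀.R →+* O') (i : ι)
    (h : RingHom.ker (act₀ i) ≤ RingHom.ker f) :
    RingHom.ker (Pt.act i) ≤ RingHom.ker (f.comp Pt.φ) := fun x hx => by
  refine RingHom.mem_ker.mpr (RingHom.mem_ker.mp (h (RingHom.mem_ker.mpr (Matrix.ext fun u v => ?_))))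
  have h1 := congrFun (congrFun (Pt.act_aug i x) u) v
  rw [RingHom.mem_ker.mp hx] at h1
  let cc : Sx ⧸ augIdeal O (FrameVar S.T S.p) (Fin r) →+* O :=
    Ideal.Quotient.lift _ MvPowerSeries.constantCoeff fun _ h => RingHom.mem_ker.mp h
  have h2 := congrArg cc h1
  refine (Eq.trans ?_ h2.symm).trans (map_zero cc)
  show act₀ i (Pt.φ x) u v = MvPowerSeries.constantCoeff
    ((MvPowerSeries.C : O →+* Sx) (act₀ i (Pt.φ x) u v))
  rw [MvPowerSeries.constantCoeff_C]

/-- A patched point of the support gives a base point of the support. -/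
theorem ker_act0_le_of_comp_phi {O' : Type} [CommRing O'] [IsDomain O'] (f : C₀.R →+* O') (i : ι)
    (h : RingHom.ker (Pt.act i) ≤ RingHom.ker (f.comp Pt.φ)) :
    RingHom.ker (act₀ i) ≤ RingHom.ker f := fun z hz => by
  have : (RingHom.ker f).IsPrime := RingHom.ker_isPrime f
  refine Pt.ker_act0_le (q := RingHom.ker f) (by rwa [RingHom.comap_ker]) ?_
  refine RingHom.mem_ker.mpr (Matrix.ext fun u v => ?_)
  show Ideal.Quotient.mk _ ((MvPowerSeries.C : O →+* Sx) (act₀ i z u v)) = 0
  have h0 : act₀ i z = 0 := hz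
  rw [show act₀ i z u v = 0 from congrFun (congrFun h0 u) v, map_zero, map_zero]

end Point

/-- A descending sequence of steps. -/
inductive Down : ι → ι → Finset ↥S.Sig → Prop
  | refl (i : ι) : Down i i ∅
  | step {q : ↥S.Sig} {t : κ} {iOld iNew j : ι} {U : Finset ↥S.Sig} (st : Step inp q t iOld iNew)
      (hd : Down iOld j U) (hq : q ∉ U) : Down (src t) j (insert q U)

include hcycΦ hcycs in
/-- Down along a sequence of steps. -/
theorem Down.descend [CharZero O] [Fact (S.m = 4)] {i j : ι} {U : Finset ↥S.Sig} (hd : Down inp i j U) :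
    ∀ {ty : ↥S.Sig → Ty} (hv : Valid S.localData ty),
      RingHom.ker (Pt.act i) ≤ comp (ρ := Fin S.m ⊕ Fin g) S.localData ty hv →
      ∃ (ty' : ↥S.Sig → Ty) (hv' : Valid S.localData ty'),
        (∀ q ∈ U, ty' q = .unr) ∧ (∀ q ∉ U, ty' q = ty q) ∧
          RingHom.ker (Pt.act j) ≤ comp (ρ := Fin S.m ⊕ Fin g) S.localData ty' hv' := by
  classical
  induction hd with
  | refl i => exact fun {ty} hv h => ⟨ty, hv, by simp, fun _ _ => rfl, h⟩
  | @step q t iOld iNew j U st _ hq ih =>
    intro ty hv h
    obtain ⟨hv₁, h₁⟩ := st.descend hg inp Pt hcycΦ hcycs hv h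
    obtain ⟨ty', hv', hU, hnU, h'⟩ := ih hv₁ h₁
    refine ⟨ty', hv', fun x hx => ?_, fun x hx => ?_, h'⟩
    · rcases Finset.mem_insert.mp hx with rfl | hx
      · rw [hnU x hq, Function.update_self]
      · exact hU x hx
    · rw [Finset.mem_insert, not_or] at hx
      rw [hnU x hx.2, Function.update_of_ne hx.1]

include hcycΦ hcycs in
/-- Up along a sequence of steps. -/
theorem Down.ascend [CharZero O] [Fact (S.m = 4)] {i j : ι} {U : Finset ↥S.Sig} (hd : Down inp i j U) :
    ∀ {ty₀ ty : ↥S.Sig → Ty} (hv₀ : Valid S.localData ty₀) (hv : Valid S.localData ty),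
      (∀ q ∈ U, ty₀ q = .unr) → (∀ q ∉ U, ty q = ty₀ q) →
      RingHom.ker (Pt.act j) ≤ comp (ρ := Fin S.m ⊕ Fin g) S.localData ty₀ hv₀ →
      RingHom.ker (Pt.act i) ≤ comp (ρ := Fin S.m ⊕ Fin g) S.localData ty hv := by
  classical
  induction hd with
  | refl i =>
    intro ty₀ ty hv₀ hv _ heq h
    obtain rfl : ty = ty₀ := funext fun q => heq q (Finset.notMem_empty q)
    exact h
  | @step q t iOld iNew j U st _ hq ih =>
    intro ty₀ ty hv₀ hv hU heq h
    have hq₀ : ty₀ q = .unr := hU q (Finset.mem_insert_self q U)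
    have hv₁ : Valid S.localData (Function.update ty q .unr) := fun x => by
      rcases eq_or_ne x q with rfl | hx
      · rw [Function.update_self, ← hq₀]; exact hv₀ x
      · rw [Function.update_of_ne hx]; exact hv x
    have h₁ := ih hv₀ hv₁ (fun x hx => hU x (Finset.mem_insert_of_mem hx)) (fun x hx => ?_) h
    · have he : Function.update (Function.update ty q .unr) q (ty q) = ty := by
        rw [Function.update_idem, Function.update_eq_self]
      have h2 := st.ascend hg inp Pt hcycΦ hcycs (Function.update_self q Ty.unr ty) hv₁ (ty q)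
        (by rw [he]; exact hv) h₁
      simpa only [he] using h2
    · rcases eq_or_ne x q with rfl | hxq
      · rw [Function.update_self, hq₀]
      · rw [Function.update_of_ne hxq]
        exact heq x (by simp [hxq, hx])

include hg hcycΦ hcycs in
/-- **Transfer.** A point of the support of `iTop` and a second point, which is unramified outside
the primes removed between `iTar` and the common lower level: the second is in the base support of
`iTar`. A residually unramified prime outside the sequences is either unramified in the levels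
(in the second point) or does not satisfy the level raising congruence. -/
theorem transfer [CharZero O] [Fact (S.m = 4)] [Finite ι] [Finite κ] {O' O'' : Type} [CommRing O'] [IsDomain O']
    [CommRing O''] [IsDomain O''] (f' : C₀.R →+* O') (f : C₀.R →+* O'') {iTop iMin iTar : ι}
    {U' U : Finset ↥S.Sig} (hd' : Down inp iTop iMin U') (hd : Down inp iTar iMin U)
    (hf' : RingHom.ker (act₀ iTop) ≤ RingHom.ker f')
    (h' : ∀ q, S.rb (S.tame q) = 1 → q ∉ U' →
      (∀ n a b, (inp n).act iTop (((inp n).C.rR (S.tame q) - 1) a b) = 0) ∨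
        (S.rb (S.Φ q)).trace * (S.rb (S.Φ q)).trace ≠
          ((q.1 : ResidueField O) + 1) * ((q.1 : ResidueField O) + 1))
    (h : ∀ q, S.rb (S.tame q) = 1 → q ∉ U →
      (∀ a b, f ((C₀.rR (S.tame q) - 1) a b) = 0) ∨
        (S.rb (S.Φ q)).trace * (S.rb (S.Φ q)).trace ≠
          ((q.1 : ResidueField O) + 1) * ((q.1 : ResidueField O) + 1))
    (hunr : ∀ q ∈ U ∪ U', S.rb (S.tame q) = 1) :
    RingHom.ker (act₀ iTar) ≤ RingHom.ker f := by
  classical
  have : IsDomain Sx := NoZeroDivisors.to_isDomain _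
  obtain ⟨Pt⟩ := nonempty_patched hg inp
  obtain ⟨ee⟩ := exists_paramEmbedding (S := S) hg
  have h2 : (2 : ResidueField O) ≠ 0 := two_ne_zero_residue S.hp S.hp2 S.hpO
  have hrel := relIdeal_le_ker_phi hg inp Pt hcycΦ hcycs
  have htrace : ∀ q : ↥S.Sig, residue O (S.localData.phi0 q).trace = (S.rb (S.Φ q)).trace :=
    fun q => by
      rw [AddMonoidHom.map_trace (residue O)]
      exact congrArg Matrix.trace (Matrix.ext fun a b => S.residue_lift (S.Φ q) a b)
  -- the component of the first point
  have hpt' := ker_act_le_comp_phi hg inp Pt f' iTop hf'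
  have : (RingHom.ker (f'.comp Pt.φ)).IsPrime := RingHom.ker_isPrime _
  obtain ⟨t₁, hv₁, hle₁, hsupp₁⟩ := exists_supported_comp_le (Pt.isScalarLift iTop)
    (isIntegral_paramHom isUnit_qv ee) (patched_relIdeal_le_ker hg inp Pt hcycΦ hcycs iTop)
    isUnit_qv (p := RingHom.ker (f'.comp Pt.φ)) hpt'
  have := FA.LocalComp.comp_isPrime (ρ := Fin S.m ⊕ Fin g) hv₁
  obtain ⟨t₂, hv₂, hU₂, hnU₂, hsupp₂⟩ := hd'.descend hg inp Pt hcycΦ hcycs hv₁ hsupp₁
  -- the component of the second point
  have : (RingHom.ker (f.comp Pt.φ)).IsPrime := RingHom.ker_isPrime _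
  obtain ⟨t, hv, hle, ht⟩ := exists_type_comp_le_unr (ρ := Fin S.m ⊕ Fin g) (L := S.localData)
    isUnit_qv (W := RingHom.ker (f.comp Pt.φ))
    (hrel.trans fun x hx => RingHom.mem_ker.mpr (by
      rw [RingHom.comp_apply, RingHom.mem_ker.mp hx, map_zero]))
  have hU0 : ∀ q, S.rb (S.tame q) = 1 → t₂ q = .unr := fun q hq => by
    by_cases hqU : q ∈ U'
    · exact hU₂ q hqU
    rw [hnU₂ q hqU]
    rcases h' q hq hqU with h0 | h0
    · exact type_eq_unr_of_mem isUnit_qv hv₁ fun a b =>
        hsupp₁ (patched_typeSet_unr_subset_ker hg inp Pt q h0 ⟨(a, b), rfl⟩)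
    · exact type_eq_unr_of_trace hv₁ (by rw [htrace]; exact h0)
  have heq : ∀ q ∉ U, t q = t₂ q := fun q hqU => by
    by_cases hq : S.rb (S.tame q) = 1
    · rw [hU0 q hq]
      rcases h q hq hqU with h0 | h0
      · exact ht q (sig_mem_ker_comp hg inp Pt f q h0)
      · exact type_eq_unr_of_trace hv (by rw [htrace]; exact h0)
    · refine type_eq_of_ramified h2 isUnit_qv hv hv₂ fun hc => hq (Matrix.ext fun a b => ?_)
      rw [← S.residue_lift (S.tame q) a b]
      refine (congrFun (congrFun (hc : _ = _) a) b).trans ?_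
      rcases eq_or_ne a b with rfl | hab <;> simp [*]
  have hsupp := hd.ascend hg inp Pt hcycΦ hcycs hv₂ hv
    (fun q hq => hU0 q (hunr q (Finset.mem_union_left _ hq))) heq hsupp₂
  exact ker_act0_le_of_comp_phi hg inp Pt f iTar (hsupp.trans hle)

end Setup

end FA.RT
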