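import Fermat.Agent.TW.Irreducible
import Fermat.Agent.Deform.MatrixRep
import Fermat.Agent.LocalDef.Residual
import Fermat.Agent.Local.Minkowski
import Mathlib.GroupTheory.PGroup

/-!
# Semistable residual representations are big

An absolutely irreducible representation over `ZMod p`, `p` odd, with cyclotomic determinant,
unipotent inertia away from `p`, ordinary or of level two at `p`, stays irreducible on the
subgroups of index two.
-/

set_option autoImplicit false

noncomputable section

open Matrix FA.Deform FA.TW FA.LocalDef FA.Local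

namespace FA.RT

local notation "Qb" => AlgebraicClosure ℚ
local notation "GQ" => AlgebraicClosure ℚ ≃ₐ[ℚ] AlgebraicClosure ℚ
local notation "M2" => Matrix (Fin 2) (Fin 2)

/-- A matrix moving every vector along one line has trace one more than its determinant. -/
theorem trace_eq_det_add_one {k : Type} [Field k] {M : M2 k} {l : Fin 2 → k}
    (h : ∀ w : Fin 2 → k, ∃ s : k, M *ᵥ w - w = s • l) : M.trace = M.det + 1 := by
  obtain ⟨a, ha⟩ := h ![1, 0]
  obtain ⟨b, hb⟩ := h ![0, 1]
  have a0 := congrFun ha 0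
  have a1 := congrFun ha 1
  have b0 := congrFun hb 0
  have b1 := congrFun hb 1
  simp at a0 a1 b0 b1
  have e11 : M 1 1 = b * l 1 + 1 := by linear_combination b1
  have e00 : M 0 0 = a * l 0 + 1 := by linear_combination a0
  rw [Matrix.trace_fin_two, Matrix.det_fin_two, e00, e11, a1, b0]
  ring

/-- The units of `2 × 2` matrices over `𝔽₃` form a group of order `48`. -/
theorem pow_fortyEight {p : ℕ} [Fact p.Prime] (hp3 : p = 3) {M : M2 (ZMod p)} (h : IsUnit M) :
    M ^ 48 = 1 := by
  obtain ⟨u, rfl⟩ := h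
  subst hp3
  have hc : Nat.card (M2 (ZMod 3))ˣ = 48 := by
    have := Matrix.card_GL_field (𝔽 := ZMod 3) 2
    simpa [Fin.prod_univ_two] using this
  rw [← Units.val_pow_eq_pow_val, ← hc, pow_card_eq_one', Units.val_one]

variable {p : ℕ} [hp : Fact p.Prime]

/-- **Semistable residual representations are big.** -/
theorem isBig_of_semistable (hp2 : p ≠ 2) (r : GQ →* M2 (ZMod p))
    (hopen : IsOpen (r.ker : Set GQ))
    (hdet : ∀ (σ : GQ) (a : ℕ), (∀ μ : Qb, μ ^ p = 1 → σ μ = μ ^ a) → (r σ).det = (a : ZMod p))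
    (hunip : ∀ q : ℕ, q.Prime → q ≠ p → ∃ A : ValuationSubring Qb, A.LiesOverPrime q ∧
      ∀ σ ∈ A.inertiaSubgroupIn ℚ, ∃ m : ℕ, r σ ^ p ^ m = 1)
    {A : ValuationSubring Qb} (hA : A.LiesOverPrime p)
    (hloc : IsOrdType A r ∨ IsSSType (p := p) A r)
    {L : Type} [Field L] [IsAlgClosed L] (j : ZMod p →+* L)
    (htop : NoLine (mapRep j r) ⊤) : IsBig (mapRep j r) := by
  classical
  refine ⟨htop, fun H hH v hv => ?_⟩
  by_contra hcon
  push Not at hcon
  set ρ := mapRep j r with hρ
  have hρr : ∀ σ, ρ σ = (r σ).map j := fun σ => mapRep_eq j r σ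
  have : CharP L p := charP_of_injective_ringHom j.injective p
  have hne2 : (2 : ZMod p) ≠ 0 := fun h => hp2 ((Nat.prime_dvd_prime_iff_eq hp.out Nat.prime_two).mp
    ((ZMod.natCast_eq_zero_iff 2 p).mp (by exact_mod_cast h)))
  have hHn : H.Normal := Subgroup.normal_of_index_eq_two hH
  obtain ⟨g₀, hg₀⟩ : ∃ g, g ∉ H := by
    by_contra h
    push Not at h
    rw [(Subgroup.eq_top_iff' H).mpr h, Subgroup.index_top] at hH
    omega
  have hmul : ∀ {a b : GQ}, a ∉ H → b ∉ H → a * b ∈ H := fun ha hb =>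
    (Subgroup.mul_mem_iff_of_index_two hH).mpr (iff_of_false ha hb)
  have hinv : ∀ {a : GQ}, a ∉ H → a⁻¹ ∉ H := fun ha h => ha (inv_mem_iff.mp h)
  set w := ρ g₀ *ᵥ v with hw
  have hindep : ∀ a b : L, a • v + b • w = 0 → a = 0 ∧ b = 0 := by
    intro a b hab
    by_cases hb : b = 0
    · rw [hb, zero_smul, add_zero, smul_eq_zero] at hab
      exact ⟨hab.resolve_right hv, hb⟩
    exfalso
    have hline : w = (-a / b) • v := by
      have h1 : b • w = (-a) • v := by rw [neg_smul]; exact eq_neg_of_add_eq_zero_right hab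
      rw [div_eq_inv_mul, mul_smul, ← h1, inv_smul_smul₀ hb]
    obtain ⟨g, -, hg⟩ := htop v hv
    by_cases hgH : g ∈ H
    · obtain ⟨c, hc⟩ := hcon g hgH
      exact hg c hc
    · obtain ⟨c, hc⟩ := hcon (g * g₀) (hmul hgH hg₀)
      rw [map_mul, ← mulVec_mulVec, ← hw, hline, mulVec_smul] at hc
      have hc0 : -a / b ≠ 0 := fun h0 => mulVec_ne_zero (ρ := ρ) g₀ hv (by rw [← hw, hline, h0, zero_smul])
      exact hg ((-a / b)⁻¹ * c) (by rw [mul_smul, ← hc, inv_smul_smul₀ hc0])
  -- outside `H` the trace vanishes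
  have htr : ∀ g, g ∉ H → (r g).trace = 0 := by
    intro g hg
    obtain ⟨d, hd⟩ := hcon _ (hmul (hinv hg₀) hg)
    obtain ⟨c, hc⟩ := hcon _ (hmul hg hg₀)
    rw [map_mul, ← mulVec_mulVec, ← hw] at hc
    have hd' : ρ g *ᵥ v = d • w := by
      rw [hw, ← mulVec_smul, ← hd, mulVec_mulVec, ← map_mul, mul_inv_cancel_left]
    have h2 : (ρ g * ρ g) *ᵥ v = (d * c) • v := by
      rw [← mulVec_mulVec, hd', mulVec_smul, hc, smul_smul]
    rw [LocalDef.mul_self_two, sub_mulVec, smul_mulVec, smul_mulVec, one_mulVec, hd', smul_smul]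
      at h2
    have := (hindep (-((ρ g).det) - d * c) ((ρ g).trace * d) (by
      rw [sub_smul, neg_smul, ← h2]; abel)).2
    have hd0 : d ≠ 0 := fun h0 => mulVec_ne_zero (ρ := ρ) g hv (by rw [hd', h0, zero_smul])
    have h3 : (ρ g).trace = 0 := (mul_eq_zero.mp this).resolve_right hd0
    rw [hρr, ← AddMonoidHom.map_trace j] at h3
    exact (map_eq_zero_iff j j.injective).mp h3
  -- elements of `p`-power order are trivial
  have htriv : ∀ (σ : GQ) (m : ℕ), r σ ^ p ^ m = 1 → r σ = 1 := by
    intro σ m hm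
    have hpow : ∀ n : ℕ, (r σ ^ p ^ n).trace = (r σ).trace := fun n => by
      induction n with
      | zero => rw [pow_zero, pow_one]
      | succ n ih => rw [pow_succ, pow_mul, LocalDef.trace_pow_char_two, ih, ZMod.pow_card]
    have hσ : σ ∈ H := by
      by_contra h
      have := hpow m
      rw [hm, htr σ h, Matrix.trace_one, Fintype.card_fin] at this
      exact hne2 (by exact_mod_cast this)
    obtain ⟨c, hc⟩ := hcon σ hσ
    obtain ⟨c', hc'⟩ := hcon _ (hHn.conj_mem σ hσ g₀⁻¹)
    have hw' : ρ σ *ᵥ w = c' • w := by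
      rw [hw, ← mulVec_smul, ← hc', mulVec_mulVec, mulVec_mulVec, ← map_mul, ← map_mul]
      simp [mul_assoc]
    have hone : ρ σ ^ p ^ m = 1 := by
      rw [hρr, show (r σ).map j = j.mapMatrix (r σ) from rfl, ← map_pow, hm, map_one]
    have heig : ∀ (u : Fin 2 → L) (e : L), u ≠ 0 → ρ σ *ᵥ u = e • u → e = 1 := by
      intro u e hu he
      have hn : ∀ n : ℕ, (ρ σ ^ n) *ᵥ u = e ^ n • u := fun n => by
        induction n with
        | zero => rw [pow_zero, pow_zero, one_mulVec, one_smul]
        | succ n ih => rw [pow_succ', ← mulVec_mulVec, ih, mulVec_smul, he, smul_smul, ← pow_succ]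
      have h1 : e ^ p ^ m = 1 := by
        by_contra h
        have := hn (p ^ m)
        rw [hone, one_mulVec] at this
        exact hu ((smul_eq_zero.mp (by rw [sub_smul, one_smul, ← this, sub_self] :
          (e ^ p ^ m - 1) • u = 0)).resolve_left (sub_ne_zero.mpr h))
      exact iterateFrobenius_inj L p m (by rw [iterateFrobenius_def, h1, map_one])
    rw [heig v c hv hc, one_smul] at hc
    rw [heig w c' (mulVec_ne_zero (ρ := ρ) g₀ hv) hw', one_smul] at hw'
    have hρ1 : ρ σ = 1 := by
      let P : M2 L := Matrix.of fun a b => ![v, w] b a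
      have hP : IsUnit P := by
        rw [← mulVec_injective_iff_isUnit]
        intro x y hxy
        have h0 : P *ᵥ (x - y) = 0 := by rw [mulVec_sub, hxy, sub_self]
        have : (x - y) 0 • v + (x - y) 1 • w = 0 := by
          rw [← h0]
          funext a
          simp [P, Matrix.mulVec, dotProduct, Fin.sum_univ_two, mul_comm]
        obtain ⟨e0, e1⟩ := hindep _ _ this
        funext i
        fin_cases i
        · exact sub_eq_zero.mp e0
        · exact sub_eq_zero.mp e1
      refine hP.mul_right_cancel ?_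
      rw [one_mul]
      ext a b
      fin_cases b
      · exact congrFun hc a
      · exact congrFun hw' a
    refine Matrix.map_injective j.injective ?_
    show (r σ).map j = (1 : M2 (ZMod p)).map j
    rw [← hρr, hρ1, Matrix.map_one j (map_zero j) (map_one j)]
  -- away from `p` the kernel contains inertia
  have hker : ∀ q : ℕ, q.Prime → q ≠ p → ∃ B : ValuationSubring Qb, B.LiesOverPrime q ∧
      B.inertiaSubgroupIn ℚ ≤ r.ker := fun q hq hqp => by
    obtain ⟨B, hB, h⟩ := hunip q hq hqp
    exact ⟨B, hB, fun σ hσ => (h σ hσ).elim fun m hm => htriv σ m hm⟩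
  have hkerH : r.ker ≤ H := fun σ hσ => by
    by_contra h
    have := htr σ h
    rw [MonoidHom.mem_ker.mp hσ, Matrix.trace_one, Fintype.card_fin] at this
    exact hne2 (by exact_mod_cast this)
  let E : IntermediateField ℚ Qb := IntermediateField.fixedField r.ker
  have hEker : E.fixingSubgroup = r.ker :=
    InfiniteGalois.fixingSubgroup_fixedField ⟨r.ker, Subgroup.isClosed_of_isOpen _ hopen⟩
  have : FiniteDimensional ℚ E :=
    (InfiniteGalois.isOpen_iff_finite E).mp (by rw [hEker]; exact hopen)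
  have htopN : ∀ M : Subgroup GQ, M.Normal → r.ker ≤ M → A.inertiaSubgroupIn ℚ ≤ M → M = ⊤ := by
    intro M hM hkM hAM
    refine eq_top_of_inertia_le M E (fun σ hσ => hkM ?_) fun q hq => ?_
    · rw [← hEker]
      exact fun x => hσ _ x.2
    · by_cases hqp : q = p
      · exact ⟨A, hqp ▸ hA, hAM⟩
      · obtain ⟨B, hB, hle⟩ := hker q hq hqp
        exact ⟨B, hB, hle.trans hkM⟩
  obtain ⟨τ, hτI, hτH⟩ : ∃ τ ∈ A.inertiaSubgroupIn ℚ, τ ∉ H := by
    by_contra h
    push Not at h
    exact hg₀ (htopN H hHn hkerH h ▸ Subgroup.mem_top _)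
  rcases hloc with ⟨l, -, -, hquot⟩ | ⟨Λ, hN, -, -, g₁, hg₁, hgen, hord, t, d, ht, -, hroot⟩
  swap
  · -- level two
    have := res_charP hp.out hA
    have hg₁H : g₁ ∉ H := fun h => by
      obtain ⟨i, hi⟩ := hgen τ hτI
      have := H.mul_mem (H.pow_mem h i) (hkerH ((hN _).mp hi).2)
      rw [mul_inv_cancel_left] at this
      exact hτH this
    rw [htr g₁ hg₁H] at ht
    have ht0 : (t : Res A) = 0 := (CharP.cast_eq_zero_iff (Res A) p t).mpr
      ((ZMod.natCast_eq_zero_iff t p).mp ht.symm)
    rw [ht0, zero_mul, sub_zero] at hroot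
    have hd : (d : ZMod p) ≠ 0 := fun h => by
      rw [(CharP.cast_eq_zero_iff (Res A) p d).mpr ((ZMod.natCast_eq_zero_iff d p).mp h),
        add_zero, mul_self_eq_zero] at hroot
      rw [hroot, orderOf_zero] at hord
      have := Nat.pow_le_pow_left hp.out.two_le 2
      omega
    have h1 : Λ.chi0 g₁ ^ (2 * (p - 1)) = 1 := by
      rw [pow_mul, sq, eq_neg_of_add_eq_zero_left hroot]
      have := congrArg (ZMod.castHom (dvd_refl p) (Res A))
        (ZMod.pow_card_sub_one_eq_one (neg_ne_zero.mpr hd))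
      simpa using this
    have h2 := Nat.le_of_dvd (by have := hp.out.two_le; omega) (hord ▸ orderOf_dvd_of_pow_eq_one h1)
    obtain ⟨e, he⟩ : ∃ e, p = e + 3 := ⟨p - 3, by have := hp.out.two_le; omega⟩
    subst he
    have : (e + 3) ^ 2 = e * e + 6 * e + 9 := by ring
    omega
  -- ordinary
  have htd : ∀ σ ∈ A.inertiaSubgroupIn ℚ, (r σ).trace = (r σ).det + 1 := fun σ hσ =>
    trace_eq_det_add_one (hquot σ hσ)
  have hout : ∀ σ ∈ A.inertiaSubgroupIn ℚ, σ ∉ H → (r σ).det = -1 := fun σ hσ hσH =>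
    eq_neg_of_add_eq_zero_left ((htd σ hσ).symm.trans (htr σ hσH))
  have hin : ∀ σ ∈ A.inertiaSubgroupIn ℚ, σ ∈ H → (r σ).det = 1 := fun σ hσ hσH => by
    have h := hout _ ((A.inertiaSubgroupIn ℚ).mul_mem hτI hσ) fun h => hτH
      (by simpa using H.mul_mem h (H.inv_mem hσH))
    rw [map_mul, Matrix.det_mul, hout τ hτI hτH, neg_one_mul, neg_inj] at h
    exact h
  by_cases hp3 : p = 3
  · -- the image is a two-group generated by the image of inertia
    have hunit : ∀ σ : GQ, IsUnit (r σ) := fun σ => (Group.isUnit σ).map r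
    have hI : ∀ σ ∈ A.inertiaSubgroupIn ℚ, σ ∈ H → r σ = 1 := fun σ hσ hσH => by
      refine htriv σ 1 ?_
      have hsq : r σ * r σ = (2 : ZMod p) • r σ - (1 : ZMod p) • 1 := by
        rw [LocalDef.mul_self_two, htd σ hσ, hin σ hσ hσH, one_add_one_eq_two]
      have h3 : (3 : ZMod p) = 0 := by
        exact_mod_cast (ZMod.natCast_eq_zero_iff 3 p).mpr hp3.dvd
      have h2 : (2 : ZMod p) = -1 := by linear_combination h3
      rw [one_smul, h2, neg_one_smul] at hsq
      rw [show p ^ 1 = 3 by rw [pow_one, hp3], pow_succ, pow_two, hsq, sub_mul, neg_mul, hsq,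
        one_mul]
      abel
    let ψ : GQ →* (M2 (ZMod p))ˣ := r.toHomUnits
    have hψ : ∀ σ, (ψ σ : M2 (ZMod p)) = r σ := fun σ => rfl
    have hψker : ψ.ker = r.ker := by
      ext σ
      rw [MonoidHom.mem_ker, MonoidHom.mem_ker, Units.ext_iff, hψ, Units.val_one]
    have h2grp : IsPGroup 2 ψ.range := by
      rintro ⟨x, σ, rfl⟩
      refine ⟨4, Subtype.ext (Units.ext ?_)⟩
      rw [SubmonoidClass.coe_pow, ← map_pow, hψ, OneMemClass.coe_one, Units.val_one]
      refine htriv _ 1 ?_
      rw [← map_pow, ← pow_mul, map_pow, show 2 ^ 4 * p ^ 1 = 48 by rw [pow_one, hp3]; rfl]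
      exact pow_fortyEight hp3 (hunit σ)
    have : Finite ψ.range := inferInstance
    let T : Subgroup ψ.range := Subgroup.zpowers (ψ.rangeRestrict τ)
    have hT : T = ⊤ := by
      refine ((eq_top_or_exists_le_coatom T).resolve_right fun ⟨K, hK, hTK⟩ => ?_)
      have : Group.IsNilpotent ψ.range := h2grp.isNilpotent
      have hKn : K.Normal := Subgroup.NormalizerCondition.normal_of_coatom K
        Group.normalizerCondition_of_isNilpotent hK
      have hM := htopN (K.comap ψ.rangeRestrict) inferInstance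
        (fun σ hσ => by
          rw [Subgroup.mem_comap, show ψ.rangeRestrict σ = 1 from Subtype.ext
            (MonoidHom.mem_ker.mp (hψker ▸ hσ))]
          exact K.one_mem)
        (fun σ hσ => by
          refine hTK ?_
          by_cases hσH : σ ∈ H
          · rw [show ψ.rangeRestrict σ = 1 from Subtype.ext (MonoidHom.mem_ker.mp
              (hψker ▸ (MonoidHom.mem_ker.mpr (hI σ hσ hσH))))]
            exact T.one_mem
          · have h := hI _ ((A.inertiaSubgroupIn ℚ).mul_mem
              ((A.inertiaSubgroupIn ℚ).inv_mem hτI) hσ) (hmul (hinv hτH) hσH)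
            refine ⟨1, (zpow_one _).trans ?_⟩
            refine Subtype.ext ?_
            show ψ τ = ψ σ
            refine Units.ext ?_
            rw [hψ, hψ]
            calc r τ = r τ * r (τ⁻¹ * σ) := by rw [h, mul_one]
              _ = r σ := by rw [← map_mul, mul_inv_cancel_left])
      refine hK.1 ((Subgroup.eq_top_iff' K).mpr fun x => ?_)
      obtain ⟨σ, rfl⟩ := ψ.rangeRestrict_surjective x
      exact Subgroup.mem_comap.mp (hM ▸ Subgroup.mem_top σ)
    obtain ⟨c, u, hu, hτu⟩ := exists_eigenvector (ρ τ)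
    obtain ⟨g, -, hg⟩ := htop u hu
    obtain ⟨i, hi⟩ := (mem_powers_iff_mem_zpowers).mpr
      (show ψ.rangeRestrict g ∈ Subgroup.zpowers (ψ.rangeRestrict τ) from
        (hT ▸ Subgroup.mem_top _ : ψ.rangeRestrict g ∈ T))
    refine hg (c ^ i) ?_
    have hgi : r g = r (τ ^ i) := by
      rw [← hψ, ← hψ, map_pow]
      exact congrArg Units.val (congrArg Subtype.val hi).symm
    rw [hρr, hgi, ← hρr, map_pow]
    clear hi hgi
    induction i with
    | zero => rw [pow_zero, pow_zero, one_mulVec, one_smul]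
    | succ n ih => rw [pow_succ', ← mulVec_mulVec, ih, mulVec_smul, hτu, smul_smul, ← pow_succ]
  · -- inertia has determinants other than `±1`
    obtain ⟨ζ, hζ⟩ := exists_zeta hp.out
    obtain ⟨σ, hσI, hσ⟩ := exists_inertia_zeta hp.out hA hζ (m := 2) fun h =>
      hp2 ((Nat.prime_dvd_prime_iff_eq hp.out Nat.prime_two).mp h)
    have h2 := hdet σ 2 (pow_roots_of_zeta hζ hσ)
    rw [Nat.cast_two] at h2
    by_cases hσH : σ ∈ H
    · rw [hin σ hσI hσH] at h2
      exact one_ne_zero (α := ZMod p) (by linear_combination -h2)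
    · rw [hout σ hσI hσH] at h2
      exact hp3 ((Nat.prime_dvd_prime_iff_eq hp.out Nat.prime_three).mp
        ((ZMod.natCast_eq_zero_iff 3 p).mp (by push_cast; linear_combination -h2)))

end FA.RT
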