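import Fermat.Agent.RT.TraceAlgebra

/-!
# The representation over a trace algebra
-/

set_option autoImplicit false

noncomputable section

open IsLocalRing Matrix FA.Deform

namespace FA.RT

local notation "Qb" => AlgebraicClosure ℚ
local notation "GQ" => AlgebraicClosure ℚ ≃ₐ[ℚ] AlgebraicClosure ℚ

variable {O : Type} [CommRing O] [IsDomain O] [IsDiscreteValuationRing O]
  [IsAdicComplete (maximalIdeal O) O] [Finite (ResidueField O)]
  {J : Type} [Finite J] [Nonempty J] {B : J → Type} [∀ j, CommRing (B j)] [∀ j, IsLocalRing (B j)]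
  [∀ j, Algebra O (B j)] [∀ j, Module.Finite O (B j)] [∀ j, Module.Free O (B j)]
  (r : ∀ j, GQ →* Matrix (Fin 2) (Fin 2) (B j))
  (ε : ∀ j, B j →+* ResidueField O) (hε : ∀ j c, ε j (algebraMap O (B j) c) = residue O c)
  {rb : GQ →* Matrix (Fin 2) (Fin 2) (ResidueField O)}

include hε in
omit [IsAdicComplete (maximalIdeal O) O] [Finite J] [Nonempty J] [∀ j, Module.Finite O (B j)]
  [∀ j, Module.Free O (B j)] [Finite (ResidueField O)] in
theorem ker_eps (j : J) : RingHom.ker (ε j) = maximalIdeal (B j) :=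
  eq_maximalIdeal (RingHom.ker_isMaximal_of_surjective (ε j) fun a => by
    obtain ⟨c, rfl⟩ := residue_surjective a
    exact ⟨algebraMap O (B j) c, hε j c⟩)

include hε in
omit [IsAdicComplete (maximalIdeal O) O] in
/-- Small elements of the product are small in the trace algebra. -/
theorem exists_pow_mem [IsLocalRing (traceAlg O r)] (n : ℕ) :
    ∃ N, ∀ x : traceAlg O r, (∀ j, trProj O r j x ∈ maximalIdeal (B j) ^ N) →
      x ∈ maximalIdeal (traceAlg O r) ^ n := by
  classical
  obtain ⟨ϖ, hϖ⟩ := IsDiscreteValuationRing.exists_irreducible O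
  have hϖB : ∀ j, algebraMap O (B j) ϖ ∈ maximalIdeal (B j) := fun j => by
    rw [← ker_eps ε hε j, RingHom.mem_ker, hε, residue_eq_zero_iff, hϖ.maximalIdeal_eq]
    exact Ideal.mem_span_singleton_self ϖ
  choose c hc0 hc using fun j => exists_pow_le_span (A := B j) hϖ (hϖB j)
  let W : Submodule O (∀ j, B j) := Subalgebra.toSubmodule (traceAlg O r)
  obtain ⟨k, hk⟩ := Ideal.exists_pow_inf_eq_pow_smul (maximalIdeal O) W
  have hϖA : algebraMap O (traceAlg O r) ϖ ∈ maximalIdeal (traceAlg O r) := by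
    rw [mem_maximalIdeal, mem_nonunits_iff]
    intro hu
    obtain ⟨j⟩ := (inferInstance : Nonempty J)
    exact (IsLocalRing.mem_maximalIdeal _).mp (hϖB j) (hu.map (trProj O r j))
  have : Fintype J := Fintype.ofFinite J
  refine ⟨(Finset.univ.sup c) * (k + n), fun x hx => ?_⟩
  choose y hy using fun j => show ∃ y, algebraMap O (B j) (ϖ ^ (k + n)) * y = trProj O r j x from by
    have h1 : trProj O r j x ∈ (Ideal.span {algebraMap O (B j) ϖ}) ^ (k + n) := by
      refine Ideal.pow_right_mono (hc j) _ ?_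
      rw [← pow_mul]
      exact Ideal.pow_le_pow_right (Nat.mul_le_mul_right _ (Finset.le_sup (Finset.mem_univ j))) (hx j)
    rw [Ideal.span_singleton_pow, Ideal.mem_span_singleton] at h1
    obtain ⟨y, hy⟩ := h1
    exact ⟨y, by rw [map_pow]; exact hy.symm⟩
  have h2 : (x : ∀ j, B j) ∈ maximalIdeal O ^ (k + n) • (⊤ : Submodule O (∀ j, B j)) ⊓ W := by
    refine ⟨?_, x.2⟩
    rw [show (x : ∀ j, B j) = ϖ ^ (k + n) • (fun j => y j) from funext fun j => by
      rw [Pi.smul_apply, Algebra.smul_def, hy]; rfl]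
    refine Submodule.smul_mem_smul (Ideal.pow_mem_pow ?_ _) Submodule.mem_top
    rw [hϖ.maximalIdeal_eq]
    exact Ideal.mem_span_singleton_self ϖ
  rw [hk (k + n) (Nat.le_add_right k n), Nat.add_sub_cancel_left] at h2
  have h3 : (x : ∀ j, B j) ∈ maximalIdeal O ^ n • W :=
    Submodule.smul_mono le_rfl inf_le_right h2
  rw [hϖ.maximalIdeal_eq, Ideal.span_singleton_pow, Submodule.ideal_span_singleton_smul] at h3
  obtain ⟨z, hz, hxz⟩ := Submodule.mem_smul_pointwise_iff_exists _ _ _ |>.mp h3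
  have hx' : x = algebraMap O (traceAlg O r) (ϖ ^ n) * ⟨z, hz⟩ := Subtype.ext (by
    rw [← hxz, Algebra.smul_def]
    rfl)
  rw [hx', map_pow]
  exact Ideal.mul_mem_right _ _ (Ideal.pow_mem_pow hϖA n)

variable (hr : ∀ j, mapRep (ε j) (r j) = rb) (hcont : ∀ j, IsContRep (r j)) (F : Frame O)
  (hF : F.Adapted rb) (hup : ∃ σ, rb σ 0 1 ≠ 0)

include hε hr hcont hF hup in
/-- **The representation over the trace algebra.** -/
theorem exists_carrier : ∃ (_ : IsLocalRing (traceAlg O r))
    (_ : IsAdicComplete (maximalIdeal (traceAlg O r)) (traceAlg O r))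
    (π : traceAlg O r →+* ResidueField O) (rA : GQ →* Matrix (Fin 2) (Fin 2) (traceAlg O r)),
      π.comp (algebraMap O (traceAlg O r)) = residue O ∧ Function.Surjective π ∧
      mapRep π rA = rb ∧ IsContRep rA ∧ (∀ σ, (rA σ).trace = trGen O r σ) ∧
      (∀ j, IsLocalHom (trProj O r j)) ∧
      ∀ j, ∃ U : Matrix (Fin 2) (Fin 2) (B j), IsUnit U ∧
        ∀ σ, U * r j σ = mapRep (trProj O r j) rA σ * U := by
  classical
  obtain ⟨hlocA, hnon⟩ := isLocalRing_traceAlg r ε hε hr
  have hcompl := isAdicComplete_traceAlg r ε hε hr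
  have hlh := isLocalHom_trProj r ε hε hr
  -- residual representations over the residue fields
  have hres : ∀ (j : J) (a : B j), residue (B j) a = 0 ↔ ε j a = 0 := fun j a => by
    rw [residue_eq_zero_iff, ← RingHom.mem_ker, ker_eps ε hε j]
  let g : ∀ j, ResidueField (B j) →+* ResidueField O := fun j =>
    Ideal.Quotient.lift (maximalIdeal (B j)) (ε j) fun a ha => (hres j a).mp
      ((residue_eq_zero_iff a).mpr ha)
  have hg : ∀ j a, g j (residue (B j) a) = ε j a := fun j a => rfl
  have hgalg : ∀ j, (g j).comp (algebraMap O (ResidueField (B j))) =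
      algebraMap O (ResidueField O) := fun j => RingHom.ext fun c => by
    show g j (residue (B j) (algebraMap O (B j) c)) = residue O c
    rw [hg, hε]
  have hadapt : ∀ (j : J) (r' : GQ →* Matrix (Fin 2) (Fin 2) (B j)), mapRep (ε j) r' = rb →
      F.Adapted (mapRep (residue (B j)) r') := by
    intro j r' hr'
    have hinj : Function.Injective (g j).mapMatrix (α := Matrix (Fin 2) (Fin 2) (ResidueField (B j))) :=
      fun a b h => Matrix.ext fun i l => (g j).injective (congrFun (congrFun h i) l)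
    have hrep : mapRep (g j) (mapRep (residue (B j)) r') = rb := by
      rw [← hr']
      exact MonoidHom.ext fun σ => Matrix.ext fun i l => rfl
    refine ⟨hinj ?_, hinj ?_⟩ <;> rw [← evalComb_map (g j) (hgalg j), hrep]
    · rw [hF.1]; ext i l; fin_cases i <;> fin_cases l <;> simp
    · rw [hF.2]; ext i l; fin_cases i <;> fin_cases l <;> simp
  -- normalised representatives
  have hnorm : ∀ j, ∃ r' : GQ →* Matrix (Fin 2) (Fin 2) (B j), IsContRep r' ∧
      mapRep (ε j) r' = rb ∧ F.IsNormal r' ∧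
      ∃ U : Matrix (Fin 2) (Fin 2) (B j), IsUnit U ∧ ∀ σ, U * r j σ = r' σ * U := by
    intro j
    obtain ⟨ϖ, hϖ⟩ := IsDiscreteValuationRing.exists_irreducible O
    have : IsAdicComplete (maximalIdeal (B j)) (B j) := isAdicComplete_of_finite_free' hϖ (by
      rw [← ker_eps ε hε j, RingHom.mem_ker, hε, residue_eq_zero_iff, hϖ.maximalIdeal_eq]
      exact Ideal.mem_span_singleton_self ϖ)
    obtain ⟨r', hc', he, hres', hn⟩ := exists_isNormal (hcont j) (hadapt j _ (hr j))
    refine ⟨r', hc', ?_, hn, (isEquiv_ofMatrix_iff (hcont j) hc').mp he⟩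
    rw [← hr j]
    exact MonoidHom.ext fun σ => Matrix.ext fun i l =>
      congrArg (g j) (congrFun (congrFun (DFunLike.congr_fun hres' σ) i) l)
  choose r' hc' hr' hn' U hU hUr using hnorm
  obtain ⟨σ₀, hσ₀⟩ := hup
  obtain ⟨rA, hrA⟩ := exists_rep_of_traces F (fun j => trProj O r j)
    (fun x => eq_zero_of_trProj r) (fun j c => trProj_algebraMap r j c) r' hn'
    (fun j => hadapt j _ (hr' j)) (fun σ => trGen O r σ) (fun j σ => by
      show (r j σ).trace = _
      obtain ⟨V, hV⟩ := hU j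
      have h := hUr j σ
      rw [← hV] at h
      rw [show r' j σ = (V : Matrix (Fin 2) (Fin 2) (B j)) * r j σ *
        ((V⁻¹ : (Matrix (Fin 2) (Fin 2) (B j))ˣ) : Matrix (Fin 2) (Fin 2) (B j)) by
        rw [h, Units.mul_inv_cancel_right], Matrix.trace_mul_cycle, Units.inv_mul, one_mul])
    (σ₀ := σ₀) (fun j => by
      by_contra h
      refine hσ₀ ?_
      rw [← hr' j]
      show ε j (r' j σ₀ 0 1) = 0
      exact (hres j _).mp ((residue_eq_zero_iff _).mpr ((IsLocalRing.mem_maximalIdeal _).mpr h)))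
  obtain ⟨j₀⟩ := (inferInstance : Nonempty J)
  refine ⟨hlocA, hcompl, (ε j₀).comp (trProj O r j₀), rA, ?_, ?_, ?_, ?_, fun σ => ?_, hlh,
    fun j => ⟨U j, hU j, fun σ => ?_⟩⟩
  · exact RingHom.ext fun c => hε j₀ c
  · intro a
    obtain ⟨c, rfl⟩ := residue_surjective a
    exact ⟨algebraMap O _ c, hε j₀ c⟩
  · rw [← hr' j₀, ← hrA j₀]
    exact MonoidHom.ext fun σ => Matrix.ext fun i l => rfl
  · intro n
    obtain ⟨N, hN⟩ := exists_pow_mem r ε hε n
    choose L hL hLn using fun j => hc' j N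
    have : ∀ j, FiniteDimensional ℚ (L j) := hL
    refine ⟨⨆ j, L j, IntermediateField.finiteDimensional_iSup_of_finite, fun σ hσ i l => hN _ fun j => ?_⟩
    have h := hLn j σ (fun x hx => hσ x (le_iSup L j hx)) i l
    rw [← hrA j] at h
    simp only [Matrix.sub_apply, mapRep_apply, map_sub] at h ⊢
    rcases eq_or_ne i l with rfl | hne <;> simp_all
  · refine Subtype.ext (funext fun j => ?_)
    show trProj O r j (rA σ).trace = (r j σ).trace
    obtain ⟨V, hV⟩ := hU j
    have h := hUr j σ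
    rw [← hV] at h
    rw [AddMonoidHom.map_trace, show (rA σ).map (trProj O r j) = r' j σ from
      DFunLike.congr_fun (hrA j) σ, show r' j σ = (V : Matrix (Fin 2) (Fin 2) (B j)) * r j σ *
        ((V⁻¹ : (Matrix (Fin 2) (Fin 2) (B j))ˣ) : Matrix (Fin 2) (Fin 2) (B j)) by
        rw [h, Units.mul_inv_cancel_right], Matrix.trace_mul_cycle, Units.inv_mul, one_mul]
  · rw [hrA j]
    exact hUr j σ

end FA.RT
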