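import Fermat.Agent.Patch.Crossing
import Mathlib.LinearAlgebra.Matrix.Rank
import Mathlib.LinearAlgebra.Matrix.Charpoly.LinearMap
import Mathlib.Data.Matrix.Composition

/-!
# The patched Mazur principle

For a patched module all of whose levels are Steinberg at `q`, with `N` (inertia minus one) of
residual rank one half, a prime of the support containing the entries of `N` contains the entries
of every `F` with `N F = 0`. So it cannot have Frobenius of non-scalar square.
-/

set_option autoImplicit false

noncomputable section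

open IsLocalRing

namespace FA.RT

section Kernel

variable {S : Type*} [CommRing S] [IsLocalRing S] {n : Type*} [Fintype n]

/-- A square zero matrix of maximal residual rank has its kernel equal to its image. -/
theorem exists_mulVec_eq_of_rank {B : Matrix n n S} {d : ℕ} (hsq : B * B = 0)
    (hcard : Fintype.card n = d + d) (hrk : (B.map (residue S)).rank = d)
    {x : n → S} (hx : B.mulVec x = 0) : ∃ y, B.mulVec y = x := by
  classical
  let Bb := (B.map (residue S)).mulVecLin
  have hrange : Module.finrank (ResidueField S) ↥(LinearMap.range Bb) = d := hrk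
  let b := Module.finBasisOfFinrankEq (ResidueField S) ↥(LinearMap.range Bb) hrange
  have hb : ∀ i, ∃ c : n → S, Bb (fun k => residue S (c k)) = (b i : n → ResidueField S) := fun i => by
    obtain ⟨w, hw⟩ := (b i).2
    choose c hc using fun k => residue_surjective (R := S) (w k)
    exact ⟨c, by rw [show (fun k => residue S (c k)) = w from funext hc, hw]⟩
  choose c hc using hb
  let Φ : Matrix n (Fin d ⊕ Fin d) S :=
    Matrix.of fun k e => Sum.elim (fun i => B.mulVec (c i) k) (fun i => c i k) e
  have hΦ : ∀ a a', Φ.mulVec (Sum.elim a a') = B.mulVec (∑ i, a i • c i) + ∑ i, a' i • c i := by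
    intro a a'
    ext k
    simp [Φ, Matrix.mulVec, dotProduct, Matrix.of_apply, Fintype.sum_sum_type, Finset.mul_sum,
      mul_comm, mul_left_comm]
    exact Finset.sum_comm
  have hres : ∀ v : n → S, (fun k => residue S (B.mulVec v k)) = Bb fun k => residue S (v k) := by
    intro v
    ext k
    simp [Bb, Matrix.mulVec, dotProduct, map_sum]
  have hBb2 : ∀ w, Bb (Bb w) = 0 := fun w => by
    show (B.map (residue S)).mulVec ((B.map (residue S)).mulVec w) = 0
    rw [Matrix.mulVec_mulVec, ← Matrix.map_mul, hsq]
    simp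
  have hker : LinearMap.ker Bb = LinearMap.range Bb := by
    refine (Submodule.eq_of_le_of_finrank_le ?_ ?_).symm
    · rintro _ ⟨w, rfl⟩
      exact hBb2 w
    · have := LinearMap.finrank_range_add_finrank_ker Bb
      rw [hrange, Module.finrank_pi, hcard] at this
      omega
  have hsurj : Function.Surjective Φ.mulVec := by
    refine FA.Patch.surjective_mulVec_of_residue Φ fun w => ?_
    obtain ⟨a', ha'⟩ : ∃ a' : Fin d → ResidueField S,
        Bb w = ∑ i, a' i • (b i : n → ResidueField S) := by
      have h := congrArg Subtype.val (b.sum_repr ⟨Bb w, w, rfl⟩)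
      simp only [Submodule.coe_sum, Submodule.coe_smul] at h
      exact ⟨fun i => b.repr ⟨Bb w, w, rfl⟩ i, h.symm⟩
    let w' : n → ResidueField S := w - ∑ i, a' i • fun k => residue S (c i k)
    have hw' : w' ∈ LinearMap.range Bb := by
      rw [← hker, LinearMap.mem_ker]
      simp only [w', map_sub, map_sum, map_smul, hc]
      rw [ha', sub_self]
    obtain ⟨a, ha⟩ : ∃ a : Fin d → ResidueField S,
        w' = ∑ i, a i • (b i : n → ResidueField S) := by
      have h := congrArg Subtype.val (b.sum_repr ⟨w', hw'⟩)
      simp only [Submodule.coe_sum, Submodule.coe_smul] at h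
      exact ⟨fun i => b.repr ⟨w', hw'⟩ i, h.symm⟩
    refine ⟨Sum.elim a a', funext fun k => ?_⟩
    have hk := congrFun ha k
    simp only [w', Pi.sub_apply, Finset.sum_apply, Pi.smul_apply, smul_eq_mul, sub_eq_iff_eq_add]
      at hk
    rw [hk]
    simp only [Matrix.mulVec, dotProduct, Fintype.sum_sum_type, Matrix.map_apply, Φ,
      Matrix.of_apply, Sum.elim_inl, Sum.elim_inr]
    congr 1 <;> refine Finset.sum_congr rfl fun i _ => ?_
    · rw [mul_comm, ← hc i]
      exact congrArg _ (congrFun (hres (c i)) k)
    · ring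
  have hinj : Function.Injective Φ.mulVec := by
    let e : (n → S) ≃ₗ[S] (Fin d ⊕ Fin d → S) :=
      LinearEquiv.funCongrLeft S S (Fintype.equivOfCardEq (by simp [hcard]))
    have h := OrzechProperty.injective_of_surjective_endomorphism
      (e.toLinearMap.comp Φ.mulVecLin) (e.surjective.comp hsurj)
    intro u v huv
    exact h (congrArg e huv)
  obtain ⟨a, ha⟩ := hsurj x
  obtain ⟨a1, a2, rfl⟩ : ∃ a1 a2, a = Sum.elim a1 a2 :=
    ⟨a ∘ Sum.inl, a ∘ Sum.inr, (Sum.elim_comp_inl_inr a).symm⟩
  rw [hΦ] at ha
  have h0 : Φ.mulVec (Sum.elim a2 0) = Φ.mulVec 0 := by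
    rw [hΦ, Matrix.mulVec_zero]
    rw [← ha, Matrix.mulVec_add, Matrix.mulVec_mulVec, hsq, Matrix.zero_mulVec, zero_add] at hx
    simp [hx]
  have ha2 : a2 = 0 := funext fun i => congrFun (hinj h0) (Sum.inl i)
  refine ⟨∑ i, a1 i • c i, ?_⟩
  rw [← ha, ha2]
  simp

end Kernel

variable {S P : Type*} [CommRing S] [IsLocalRing S] [CommRing P] {d : ℕ}
  (act : P →+* Matrix (Fin d) (Fin d) S)

/-- The block matrix of a `2 × 2` matrix over the acting ring. -/
def blockAct : Matrix (Fin 2) (Fin 2) P →+* Matrix (Fin 2 × Fin d) (Fin 2 × Fin d) S :=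
  (Matrix.compRingEquiv (Fin 2) (Fin d) S).toRingHom.comp act.mapMatrix

omit [IsLocalRing S] in
theorem blockAct_apply (X : Matrix (Fin 2) (Fin 2) P) (i j : Fin 2) (u v : Fin d) :
    blockAct act X (i, u) (j, v) = act (X i j) u v := rfl

/-- **The patched Mazur principle.** -/
theorem mem_of_half_rank {j : S →+* P} (hj : FA.Patch.IsScalarLift act j)
    (N F : Matrix (Fin 2) (Fin 2) P) (hN : blockAct act (N * N) = 0)
    (hNF : blockAct act (N * F) = 0)
    (hrk : ((blockAct act N).map (residue S)).rank = d)
    {W : Ideal P} [hWp : W.IsPrime] (hW : RingHom.ker act ≤ W) (hNW : ∀ i k, N i k ∈ W) :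
    ∀ i k, F i k ∈ W := by
  classical
  have := FA.Patch.ActMod.finite act hj
  intro i₀ k₀
  -- the columns of `F` lie in the image of `N`
  have hcol : ∀ u : Fin d, ∃ y, (blockAct act N).mulVec y =
      (blockAct act F).mulVec (Pi.single (k₀, u) 1) := fun u => by
    refine exists_mulVec_eq_of_rank (d := d) ?_ (by simp [two_mul]) hrk ?_
    · rw [← map_mul, hN]
    · rw [Matrix.mulVec_mulVec, ← map_mul, hNF, Matrix.zero_mulVec]
  choose y hy using hcol
  let of := FA.Patch.ActMod.of act
  have hmem : ∀ u : Fin d, F i₀ k₀ • of (Pi.single u 1) ∈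
      W • (⊤ : Submodule P (FA.Patch.ActMod act)) := fun u => by
    have e : F i₀ k₀ • of (Pi.single u 1) = ∑ k, N i₀ k • of (fun v => y u (k, v)) := by
      simp only [of, FA.Patch.ActMod.smul_of, ← map_sum]
      congr 1
      ext a
      have h := congrFun (hy u) (i₀, a)
      simp only [Matrix.mulVec_single_one, Matrix.col_apply, blockAct_apply] at h
      rw [Matrix.mulVec_single_one, Matrix.col_apply, ← h]
      simp [Matrix.mulVec, dotProduct, Fintype.sum_prod_type, blockAct_apply]
    rw [e]
    exact Submodule.sum_mem _ fun k _ => Submodule.smul_mem_smul (hNW i₀ k) Submodule.mem_top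
  let f : Module.End P (FA.Patch.ActMod act) := algebraMap P _ (F i₀ k₀)
  have hrange : LinearMap.range f ≤ W • ⊤ := by
    rintro _ ⟨m, rfl⟩
    obtain ⟨v, rfl⟩ := of.surjective m
    have hv : of v = ∑ u, j (v u) • of (Pi.single u 1) := by
      simp only [of, FA.Patch.ActMod.smul_of, hj (v _), ← map_sum]
      congr 1
      ext k
      simp [Matrix.algebraMap_eq_diagonal, Pi.single_apply]
    show F i₀ k₀ • of v ∈ _
    rw [hv, Finset.smul_sum]
    exact Submodule.sum_mem _ fun u _ => by
      rw [smul_comm]
      exact Submodule.smul_mem _ _ (hmem u)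
  obtain ⟨q, hmon, -, hcoeff, hq⟩ :=
    LinearMap.exists_monic_and_natDegree_eq_and_coeff_mem_pow_and_aeval_eq_zero P f W hrange
  have h0 : q.eval (F i₀ k₀) ∈ W := by
    refine hW ?_
    rw [← FA.Patch.ActMod.annihilator_eq, Module.mem_annihilator]
    intro m
    have h := LinearMap.congr_fun hq m
    rwa [Polynomial.aeval_algebraMap_apply, Module.algebraMap_end_apply, LinearMap.zero_apply,
      Polynomial.coe_aeval_eq_eval] at h
  have h1 : q.eval (F i₀ k₀) - (F i₀ k₀) ^ q.natDegree ∈ W := by
    rw [Polynomial.eval_eq_sum_range, Finset.sum_range_succ, hmon.coeff_natDegree, one_mul,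
      add_sub_cancel_right]
    refine W.sum_mem fun k hk => W.mul_mem_right _ ?_
    have hlt := Finset.mem_range.mp hk
    exact Ideal.pow_le_self (by omega : q.natDegree - k ≠ 0) (hcoeff k)
  have := sub_mem h0 h1
  rw [sub_sub_cancel] at this
  exact hWp.mem_of_pow_mem _ this

end FA.RT
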