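import Fermat.Agent.LocalComp.Facts
import Fermat.Agent.LocalComp.Params
import Fermat.Agent.RT.PatchedMazur
import Fermat.Agent.Patch.Crossing

/-!
# Supported components of a patched module

`P` is the ring of entries at the Steinberg places. A patched module killed by the relations is
supported on components; a patched module which is new at a residually unramified place with
inertia of half residual rank does not exist; and an unramified supported component forces the
neighbouring Steinberg component of the new part.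
-/

set_option autoImplicit false

noncomputable section

open MvPowerSeries IsLocalRing Matrix FA.LocalComp

namespace FA.RT

local notation "M₂" => Matrix (Fin 2) (Fin 2)

variable {Q ρ : Type} [Fintype Q] [Fintype ρ] {O : Type} [CommRing O] [IsLocalRing O]
  [IsAdicComplete (maximalIdeal O) O] [IsDomain O] [IsNoetherianRing O] {L : LocalData Q O}

local notation "Pr" => MvPowerSeries (Var Q ρ) O

section ParamHom

variable {σ : Type} [Finite σ]

/-- The parameters as a map from a power series ring. -/
def paramHom (L : LocalData Q O) (e : (Q × Fin 3) ⊕ ρ ↪ σ) : MvPowerSeries σ O →+* Pr :=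
  FA.Patch.evalHom (maximalIdeal Pr) C
    (Function.extend e (Sum.elim (fun x => par L x.1 x.2) fun z => X (Sum.inr z)) 0)
    (fun s => by
      classical
      rw [Function.extend_def]
      split_ifs with h
      · generalize Classical.choose h = w
        rcases w with x | z
        · exact par_mem_maximalIdeal L x.1 x.2
        · exact FA.Patch.mem_maximalIdeal_iff_coeff.mpr (by simp)
      · exact zero_mem _)

omit [IsDomain O] in
theorem isIntegral_paramHom [Finite (ResidueField O)] (hqu : ∀ q, IsUnit (L.qv q : O))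
    (e : (Q × Fin 3) ⊕ ρ ↪ σ) :
    ((Ideal.Quotient.mk L.relIdeal).comp (paramHom L e)).IsIntegral := by
  have hXm : ∀ s, (X s : MvPowerSeries σ O) ∈ maximalIdeal (MvPowerSeries σ O) := fun s =>
    FA.Patch.mem_maximalIdeal_iff_coeff.mpr (by simp)
  refine isIntegral_of_parIdeal_le L hqu _ (fun x hx => ?_)
    ((?_ : parIdeal L ≤ _).trans (le_sup_right.trans Ideal.le_radical))
  · by_contra hc
    simp only [IsLocalRing.mem_maximalIdeal, mem_nonunits_iff, not_not] at hc hx
    refine hx (MvPowerSeries.isUnit_iff_constantCoeff.mpr ?_)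
    have hd : paramHom L e x - C (constantCoeff x) ∈ maximalIdeal Pr := by
      have h1 : x - C (constantCoeff x) ∈
          Ideal.span (Set.range (X : σ → MvPowerSeries σ O)) ^ 1 := by
        refine FA.Patch.mem_span_X_pow fun y hy => ?_
        obtain rfl : y = 0 := (Finsupp.degree_eq_zero_iff y).mp (by omega)
        simp
      rw [pow_one] at h1
      have h2 := Ideal.mem_map_of_mem (paramHom L e) h1
      rw [map_sub, show paramHom L e (C (constantCoeff x)) = C (constantCoeff x) from
        FA.Patch.evalHom_C _ _ _ _] at h2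
      refine (?_ : Ideal.map (paramHom L e) _ ≤ maximalIdeal Pr) h2
      rw [Ideal.map_span, Ideal.span_le]
      rintro _ ⟨_, ⟨s, rfl⟩, rfl⟩
      classical
      rw [paramHom, FA.Patch.evalHom_X, Function.extend_def]
      split_ifs with h
      · generalize Classical.choose h = w
        rcases w with y | z
        · exact par_mem_maximalIdeal L y.1 y.2
        · exact FA.Patch.mem_maximalIdeal_iff_coeff.mpr (by simp)
      · exact zero_mem _
    have h3 : constantCoeff (paramHom L e x) - constantCoeff x ∈ maximalIdeal O := by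
      simpa using FA.Patch.mem_maximalIdeal_iff_coeff.mp hd
    by_contra hu
    have h4 := add_mem h3 ((mem_maximalIdeal _).mpr hu)
    rw [sub_add_cancel] at h4
    exact (mem_maximalIdeal _).mp h4 (MvPowerSeries.isUnit_iff_constantCoeff.mp hc)
  · refine sup_le (Ideal.map_le_iff_le_comap.mpr fun c hc => ?_) (Ideal.span_le.mpr ?_)
    · rw [Ideal.mem_comap, ← show paramHom L e (C c) = C c from FA.Patch.evalHom_C _ _ _ _]
      exact Ideal.mem_map_of_mem _ (FA.Patch.mem_maximalIdeal_iff_coeff.mpr (by simpa using hc))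
    · rintro _ (⟨y, rfl⟩ | ⟨z, rfl⟩)
      · have h := Ideal.mem_map_of_mem (paramHom L e) (hXm (e (Sum.inl y)))
        rwa [paramHom, FA.Patch.evalHom_X, e.injective.extend_apply] at h
      · have h := Ideal.mem_map_of_mem (paramHom L e) (hXm (e (Sum.inr z)))
        rwa [paramHom, FA.Patch.evalHom_X, e.injective.extend_apply] at h

end ParamHom

variable {S : Type} [CommRing S] [IsDomain S] {d : ℕ}
  {act : MvPowerSeries (Var Q ρ) O →+* Matrix (Fin d) (Fin d) S}
  {j g : S →+* MvPowerSeries (Var Q ρ) O}

omit [IsDomain S] [IsDomain O] [IsNoetherianRing O] [IsAdicComplete (maximalIdeal O) O]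
  [IsLocalRing O] [Fintype Q] [Fintype ρ] in
theorem relIdeal_le_of_typeSet_subset {J : Ideal Pr} {q : Q} {ty : Ty}
    (hrel : L.relIdeal ≤ J) (h : L.typeSet (ρ := ρ) q ty ⊆ (J : Set Pr)) :
    LocalData.Holds (L.qv q) ty ((L.phi q).map (Ideal.Quotient.mk J))
      ((L.sig q).map (Ideal.Quotient.mk J)) := by
  classical
  let π := Ideal.Quotient.mk J
  let L' : LocalData Unit O := ⟨fun _ => L.qv q, fun _ => L.phi0 q, fun _ => L.sig0 q⟩
  obtain ⟨hd, ht, hdN, hr⟩ : (((L.phi q).map π).det = (L.qv q : Pr ⧸ J)) ∧
      (((L.sig q).map π - 1).trace = 0) ∧ (((L.sig q).map π - 1).det = 0) ∧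
      (L.phi q).map π * ((L.sig q).map π - 1) =
        (L.qv q : Pr ⧸ J) • (((L.sig q).map π - 1) * (L.phi q).map π) := by
    have h0 : ∀ x ∈ L.relSet (ρ := ρ) q, π x = 0 := fun x hx =>
      Ideal.Quotient.eq_zero_iff_mem.mpr (hrel (Ideal.subset_span (Set.mem_iUnion.mpr ⟨q, hx⟩)))
    have e1 := h0 _ (.inl (.inl rfl))
    have e2 := h0 _ (.inl (.inr (.inl rfl)))
    have e3 := h0 _ (.inl (.inr (.inr rfl)))
    rw [map_sub, sub_eq_zero] at e1 e2 e3
    rw [map_natCast, RingHom.map_det, RingHom.mapMatrix_apply] at e1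
    rw [map_ofNat] at e2
    rw [map_one, RingHom.map_det, RingHom.mapMatrix_apply] at e3
    have e2' : ((L.sig q).map π).trace = 2 := by rw [← e2]; simp [Matrix.trace]
    refine ⟨e1, by rw [Matrix.trace_sub, e2', Matrix.trace_one]; simp, ?_, ?_⟩
    · rw [LocalData.det_sub_one, e2', e3]; ring
    · ext a b
      have e := h0 _ (.inr ⟨(a, b), rfl⟩)
      simp only [Matrix.sub_apply, Matrix.smul_apply, smul_eq_mul, Matrix.mul_apply,
        Fin.sum_univ_two, map_sub, map_add, map_mul, map_natCast, sub_eq_zero] at e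
      simpa [Matrix.mul_apply, Fin.sum_univ_two, Matrix.one_apply, apply_ite π] using e
  have hx : ∀ x ∈ L.typeSet (ρ := ρ) q ty, π x = 0 := fun x hx =>
    Ideal.Quotient.eq_zero_iff_mem.mpr (h hx)
  refine ⟨hd, ht, hdN, hr, fun hu => ?_, fun n hn => ?_⟩
  · subst hu
    ext a b
    simpa [Matrix.one_apply, apply_ite π] using hx _ ⟨(a, b), rfl⟩
  · subst hn
    constructor
    · have e := hx _ (.inl rfl)
      rw [map_sub, sub_eq_zero] at e
      simpa [Matrix.trace, map_sgn] using e
    · ext a b
      have e := hx _ (.inr ⟨(a, b), rfl⟩)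
      simp only [Matrix.sub_apply, Matrix.smul_apply, smul_eq_mul, Matrix.mul_apply,
        Fin.sum_univ_two, map_sub, map_add, map_mul, map_natCast, sub_eq_zero] at e
      simpa [Matrix.mul_apply, Fin.sum_univ_two, map_sgn, Matrix.one_apply, apply_ite π] using e

/-- A prime between the relations and a component is the component. -/
theorem eq_comp_of_le [CharZero O] (hqu : ∀ q, IsUnit (L.qv q : O)) {t : Q → Ty} (ht : Valid L t)
    {I : Ideal Pr} [I.IsPrime] (hI : L.relIdeal ≤ I) (hle : I ≤ comp L t ht) :
    I = comp L t ht := by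
  obtain ⟨t', ht', h'⟩ := exists_type_comp_le hqu hI
  obtain rfl := (typeIdeal_le_comp_iff hqu ht).mp
    ((le_sup_right.trans (le_comp ht')).trans (h'.trans hle))
  exact le_antisymm hle h'

variable [FiniteRingKrullDim S] (hj : FA.Patch.IsScalarLift act j)
  (hg : ((Ideal.Quotient.mk (L.relIdeal (ρ := ρ))).comp g).IsIntegral)
  (hI : (L.relIdeal : Ideal (MvPowerSeries (Var Q ρ) O)) ≤
    RingHom.ker (act : MvPowerSeries (Var Q ρ) O →+* Matrix (Fin d) (Fin d) S))
  (hqu : ∀ q, IsUnit (L.qv q : O))

include hj hg hI hqu in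
/-- **(i) The support consists of components.** -/
theorem eq_comp_of_mem_minimalPrimes {I : Ideal Pr} (hmin : I ∈ (RingHom.ker act).minimalPrimes) :
    ∃ (t : Q → Ty) (ht : Valid L t), I = comp L t ht := by
  have : I.IsPrime := hmin.1.1
  obtain ⟨t, ht, hle⟩ := exists_type_comp_le hqu (hI.trans hmin.1.2)
  have := comp_isPrime (ρ := ρ) ht
  exact ⟨t, ht, (hj.eq_of_mem_minimalPrimes hg (le_sup_left.trans (le_comp ht)) hmin hle).symm⟩

include hj hg hI hqu in
/-- Every prime of the support contains a supported component. -/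
theorem exists_supported_comp_le {p : Ideal Pr} [p.IsPrime] (hp : RingHom.ker act ≤ p) :
    ∃ (t : Q → Ty) (ht : Valid L t), comp L t ht ≤ p ∧ RingHom.ker act ≤ comp L t ht := by
  obtain ⟨I, hmin, hIp⟩ := Ideal.exists_minimalPrimes_le hp
  obtain ⟨t, ht, rfl⟩ := eq_comp_of_mem_minimalPrimes hj hg hI hqu hmin
  exact ⟨t, ht, hIp, hmin.1.2⟩

omit [FiniteRingKrullDim S] in
include hj hI hqu in
/-- A supported component maps onto the auxiliary variables. -/
theorem comap_comp_eq_bot [CharZero O] {t : Q → Ty} (ht : Valid L t)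
    (hsupp : RingHom.ker act ≤ comp L t ht) : (comp (ρ := ρ) L t ht).comap j = ⊥ :=
  have := comp_isPrime (ρ := ρ) ht
  hj.comap_eq_bot_of_component hsupp (fun _ _ h1 h2 => eq_comp_of_le hqu ht h1 h2) hI

omit [IsDomain S] [FiniteRingKrullDim S] in
include hqu in
/-- If every component is supported, every prime containing the relations is. -/
theorem ker_le_of_forall_comp (hall : ∀ t ht, RingHom.ker act ≤ comp L t ht) {p : Ideal Pr}
    [p.IsPrime] (hp : L.relIdeal ≤ p) : RingHom.ker act ≤ p := by
  obtain ⟨t, ht, hle⟩ := exists_type_comp_le hqu hp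
  exact (hall t ht).trans hle

include hj hg hI hqu in
/-- **(ii) Patched Mazur principle.** A nonzero patched module new at a residually unramified place
cannot have inertia of half residual rank there. -/
theorem false_of_new_of_half_rank [IsLocalRing S] {q : Q} {n : Bool} (hd : d ≠ 0)
    (hsig : Cong (L.sig0 q) 1)
    (hnew : L.typeSet (ρ := ρ) q (.st n) ⊆ (RingHom.ker act : Set Pr))
    (hrk : ((blockAct act (L.sig q - 1)).map (residue S)).rank = d) : False := by
  classical
  let π := Ideal.Quotient.mk (RingHom.ker act)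
  have hne : RingHom.ker act ≠ ⊤ := by
    intro h
    have h1 : act 1 = 0 := RingHom.mem_ker.mp (h ▸ Submodule.mem_top)
    rw [map_one] at h1
    have := congrFun (congrFun h1 ⟨0, by omega⟩) ⟨0, by omega⟩
    simp at this
  obtain ⟨m, hm, hmle⟩ := Ideal.exists_le_maximal _ hne
  obtain ⟨t, ht, -, hsupp⟩ := exists_supported_comp_le hj hg hI hqu (p := m) hmle
  obtain ⟨W, hW, hcW, -, hNW, hFW, -⟩ := exists_special (ρ := ρ) hqu ht hsig
  obtain ⟨i, k, hik⟩ := hFW (sgn n)
  refine hik ?_
  have hzero : ∀ M : M₂ Pr, M.map π = 0 → blockAct act M = 0 := fun M hM => by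
    ext ⟨a, u⟩ ⟨b, v⟩
    have := congrFun (congrFun hM a) b
    rw [Matrix.map_apply, Matrix.zero_apply] at this
    rw [blockAct_apply, RingHom.mem_ker.mp (Ideal.Quotient.eq_zero_iff_mem.mp this)]
    rfl
  obtain ⟨-, htN, hdN, hrel, -, hst⟩ := relIdeal_le_of_typeSet_subset hI hnew
  obtain ⟨-, hFN⟩ := hst n rfl
  have hu : IsUnit (L.qv q : Pr ⧸ RingHom.ker act) := by
    rw [← map_natCast (π.comp (C : O →+* Pr))]
    exact (hqu q).map _
  refine mem_of_half_rank act hj (L.sig q - 1) (L.phi q - (C (sgn n) : Pr) • 1) (hzero _ ?_)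
    (hzero _ ?_) hrk (hsupp.trans hcW) hNW i k
  · rw [Matrix.map_mul, map_sub_one]
    set N := (L.sig q).map π - 1
    rw [trace_fin_two] at htN
    rw [det_fin_two] at hdN
    ext a b
    fin_cases a <;> fin_cases b <;> simp [Matrix.mul_apply, Fin.sum_univ_two]
    · linear_combination N 0 0 * htN - hdN
    · linear_combination N 0 1 * htN
    · linear_combination N 1 0 * htN
    · linear_combination N 1 1 * htN - hdN
  · rw [Matrix.map_mul, map_sub_one, map_sub_smul_one, map_sgn, map_sgn, mul_sub, sub_eq_zero,
      mul_smul_comm, mul_one]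
    refine hu.smul_left_cancel.mp ?_
    rw [← hrel, hFN, smul_smul, mul_comm]

include hj hg hI hqu in
/-- **(iii) From an unramified component to a Steinberg component of the new part.** `act` is the
new part: it is killed by the relations and by the square of the product of the two forms of the
level raising equation at `q`, and it contains in its support every prime of the old support containing the form
of sign `n`. -/
theorem ker_le_comp_of_crossing [DecidableEq Q] [CharZero O] {d₀ : ℕ}
    (act₀ : Pr →+* Matrix (Fin d₀) (Fin d₀) S) {q : Q} {n : Bool} {t : Q → Ty}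
    (hu : t q = .unr) (ht : Valid L t) (ht' : Valid L (Function.update t q (.st n)))
    (hold : RingHom.ker act₀ ≤ comp L t ht)
    (hnew : (((L.phi q).trace - C ((L.qv q : O) + 1)) *
      ((L.phi q).trace + C ((L.qv q : O) + 1))) ^ 2 ∈ RingHom.ker act)
    (hcross : ∀ W : Ideal Pr, W.IsPrime → RingHom.ker act₀ ≤ W →
      (L.phi q).trace - C (sgn n * ((L.qv q : O) + 1)) ∈ W → RingHom.ker act ≤ W) :
    RingHom.ker act ≤ comp L (Function.update t q (.st n)) ht' := by
  classical
  have hback : Function.update (Function.update t q (.st n)) q Ty.unr = t := by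
    rw [Function.update_idem, ← hu, Function.update_eq_self]
  obtain ⟨W, hW, hWrel, -, hW1, hW2, huniq⟩ :=
    exists_wall (ρ := ρ) hqu (Function.update_self q (Ty.st n) t) ht' (by rwa [hback])
  simp only [hback] at hW2 huniq
  have hx : (L.phi q).trace - C (sgn n * ((L.qv q : O) + 1)) ∈ W := by
    refine hW1 (le_comp ht' (Ideal.mem_sup_right (Ideal.subset_span
      (Set.mem_iUnion.mpr ⟨q, ?_⟩))))
    simp only [Function.update_self, LocalData.typeSet]
    left
    simp [map_sgn]
  obtain ⟨t'', ht'', hle, hsupp⟩ :=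
    exists_supported_comp_le hj hg hI hqu (p := W) (hcross W hW (hold.trans hW2) hx)
  rcases huniq t'' ((le_sup_right.trans (le_comp ht'')).trans hle) with rfl | rfl
  · exact hsupp
  · exfalso
    refine trace_mul_notMem_comp (ρ := ρ) hqu ht'' hu ((L.qv q : O) + 1) (-((L.qv q : O) + 1)) ?_
    rw [map_neg, sub_neg_eq_add]
    exact (comp_isPrime (ρ := ρ) ht'').mem_of_pow_mem 2 (hsupp hnew)

end FA.RT
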