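import Fermat.Agent.RT.System

/-!
# Raising the type at one prime

Blocks of a larger level over a smaller one, with the composite of the degeneracy maps, pass from
every depth to the patched modules: a supported unramified component at `q` gives a supported
Steinberg component of the new part.
-/

set_option autoImplicit false

noncomputable section

open IsLocalRing Matrix FA.Deform FA.TW FA.LocalDef FA.Patch

namespace FA.Patch.Level

attribute [local instance] Level.commRing Level.isLocalRing Level.algebra Level.commGroup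

variable {O τ Z Y R₀ ι κ : Type} [CommRing O] [IsLocalRing O] [Finite τ] [Finite Z] [Finite Y]
  [CommRing R₀] [Algebra O R₀] {d : ι → ℕ} {src tgt : κ → ι}
  {act₀ : ∀ i, R₀ →+* Matrix (Fin (d i)) (Fin (d i)) O} {n : ℕ}

omit [Finite Y] in
set_option maxHeartbeats 800000 in
-- the commutative image is a heavy type
/-- The framed action only sees the truncation. -/
theorem actFramed_eq_trunc (L : Level O τ Z Y R₀ ι κ d src tgt act₀ n) (i : ι)
    (f : MvPowerSeries Z L.R) : L.actFramed i f = L.actFramed i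
      ((MvPowerSeries.truncTotal n f : MvPolynomial Z L.R) : MvPowerSeries Z L.R) := by
  simp only [actFramed, RingHom.coe_comp, Function.comp_apply]
  congr 1
  rw [actImage, evalNil_coe]
  simp [evalNil, MvPowerSeries.truncTotalAlgHom_apply]

end FA.Patch.Level

namespace FA.RT

local notation "Qb" => AlgebraicClosure ℚ
local notation "GQ" => AlgebraicClosure ℚ ≃ₐ[ℚ] AlgebraicClosure ℚ

variable {O : Type} [CommRing O] [IsDomain O] [IsDiscreteValuationRing O]
  [IsAdicComplete (maximalIdeal O) O] [Finite (ResidueField O)]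

namespace Setup

variable {S : Setup O} {C₀ : Carried S.rb S.cyc} {ι κ : Type} {d : ι → ℕ} {src tgt : κ → ι}
  {act₀ : ∀ i, C₀.R →ₐ[O] Matrix (Fin (d i)) (Fin (d i)) O} {r g : ℕ}
  (hg : g + 1 = r + S.Sig.card)

local notation "Sx" => Aux O (FrameVar S.T S.p) (Fin r)

/-- The reduction of a diamond group algebra at one depth. -/
def LevelInput.psi {n : ℕ} (I : S.LevelInput C₀ d src tgt act₀ r n) :
    haveI : NeZero S.p := ⟨S.hp.ne_zero⟩
    MonoidAlgebra O (DGroup S.p I.D.expo) →+* Sx ⧸ maximalIdeal Sx ^ n :=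
  haveI : NeZero S.p := ⟨S.hp.ne_zero⟩
  ((MonoidAlgebra.lift O (Sx ⧸ maximalIdeal Sx ^ n) (DGroup S.p I.D.expo)
    (dChi S.p I.D.expo O (FrameVar S.T S.p) n S.hpO I.D.le_expo) : _ →ₐ[O] _) : _ →+* _)

theorem LevelInput.framedAct_C {n : ℕ} (I : S.LevelInput C₀ d src tgt act₀ r n) (i : ι) (z : I.C.R)
    (u v : Fin (d i)) :
    I.framedAct hg i (MvPowerSeries.C z) u v = I.psi (I.act i z u v) :=
  congrFun (congrFun ((I.toLevel hg).actFramed_C i z) u) v

theorem LevelInput.framedAct_X {n : ℕ} (I : S.LevelInput C₀ d src tgt act₀ r n) (i : ι)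
    (z : FrameVar S.T S.p) : I.framedAct hg i (MvPowerSeries.X z) =
      Matrix.scalar (Fin (d i)) (Ideal.Quotient.mk _ (MvPowerSeries.X (Sum.inl z))) :=
  (I.toLevel hg).actFramed_X i z

/-- An additive relation between entries extends to the framed algebra. -/
theorem LevelInput.framedAct_entry_eq {n : ℕ} (I : S.LevelInput C₀ d src tgt act₀ r n)
    {i i' : ι} {u v : Fin (d i)} {u' v' : Fin (d i')}
    (h : ∀ z, I.act i z u v = I.act i' z u' v') (f : MvPowerSeries (FrameVar S.T S.p) I.C.R) :
    I.framedAct hg i f u v = I.framedAct hg i' f u' v' := by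
  classical
  have hz : ∀ i, I.framedAct hg i f = I.framedAct hg i ((MvPowerSeries.truncTotal n f :
      MvPolynomial (FrameVar S.T S.p) I.C.R) : MvPowerSeries (FrameVar S.T S.p) I.C.R) := by
    intro i
    exact (I.toLevel hg).actFramed_eq_trunc i f
  rw [hz, hz]
  induction (MvPowerSeries.truncTotal n f : MvPolynomial (FrameVar S.T S.p) I.C.R)
    using MvPolynomial.induction_on with
  | C z => rw [MvPolynomial.coe_C, I.framedAct_C, I.framedAct_C, h]
  | add a b ha hb => rw [MvPolynomial.coe_add, map_add, map_add, Matrix.add_apply, Matrix.add_apply,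
      ha, hb]
  | mul_X a z ha =>
    rw [MvPolynomial.coe_mul, MvPolynomial.coe_X, map_mul, map_mul, I.framedAct_X, I.framedAct_X,
      Matrix.scalar_apply, Matrix.scalar_apply, Matrix.mul_diagonal, Matrix.mul_diagonal, ha]

/-- An entry vanishing on the carried algebra vanishes on the framed algebra. -/
theorem LevelInput.framedAct_entry_zero {n : ℕ} (I : S.LevelInput C₀ d src tgt act₀ r n)
    {i : ι} {u v : Fin (d i)}
    (h : ∀ z, I.act i z u v = 0) (f : MvPowerSeries (FrameVar S.T S.p) I.C.R) :
    I.framedAct hg i f u v = 0 := by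
  classical
  have hz : I.framedAct hg i f = I.framedAct hg i ((MvPowerSeries.truncTotal n f :
      MvPolynomial (FrameVar S.T S.p) I.C.R) : MvPowerSeries (FrameVar S.T S.p) I.C.R) :=
    (I.toLevel hg).actFramed_eq_trunc i f
  rw [hz]
  induction (MvPowerSeries.truncTotal n f : MvPolynomial (FrameVar S.T S.p) I.C.R)
    using MvPolynomial.induction_on with
  | C z => rw [MvPolynomial.coe_C, I.framedAct_C, h, map_zero]
  | add a b ha hb => rw [MvPolynomial.coe_add, map_add, Matrix.add_apply, ha, hb, add_zero]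
  | mul_X a z ha =>
    rw [MvPolynomial.coe_mul, MvPolynomial.coe_X, map_mul, I.framedAct_X, Matrix.scalar_apply,
      Matrix.mul_diagonal, ha, zero_mul]

variable (inp : ∀ n, S.LevelInput C₀ d src tgt act₀ r n) (Pt : (system hg inp).Patched)

/-- Equal entries at every depth give equal patched entries. -/
theorem patched_entry_eq {i i' : ι} {u v : Fin (d i)} {u' v' : Fin (d i')}
    (h : ∀ n z, (inp n).act i z u v = (inp n).act i' z u' v')
    (x : MvPowerSeries (S.Var g) O) : Pt.act i x u v = Pt.act i' x u' v' := by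
  rw [← sub_eq_zero, ← Ideal.mem_bot]
  refine Pt.act_sub_act_mem ⊥ fun n s s' hs hs' => Ideal.mem_sup_right ?_
  rw [← Ideal.Quotient.mk_eq_mk_iff_sub_mem]
  exact hs.trans (((inp n).framedAct_entry_eq hg (h n) _).trans hs'.symm)

/-- Vanishing entries at every depth give vanishing patched entries. -/
theorem patched_entry_zero {i : ι} {u v : Fin (d i)} (h : ∀ n z, (inp n).act i z u v = 0)
    (x : MvPowerSeries (S.Var g) O) : Pt.act i x u v = 0 :=
  Pt.act_apply_eq_zero fun n => (inp n).framedAct_entry_zero hg (h n) _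

/-- An element of the presentation ring acting as a constant does so in the patched module. -/
theorem patched_map_entry_eq (t : κ) {u : Fin (d (tgt t))} {v : Fin (d (src t))} {i : ι}
    {a b : Fin (d i)} (x : MvPowerSeries (S.Var g) O)
    (z : ∀ n, (inp n).C.R)
    (hx : ∀ n, S.evalVals (inp n).C ((inp n).extra hg) (Classical.choose ((inp n).extra_spec hg)) x
      = MvPowerSeries.C (z n))
    (h : ∀ n, (inp n).maps t u v = (inp n).act i (z n) a b) :
    Pt.Y t u v = Pt.act i x a b := by
  refine eq_of_forall_sub_mem (maximalIdeal Sx) fun k => ?_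
  obtain ⟨n, hn, h1, h2, -⟩ := Pt.approx k
  have hs : Ideal.Quotient.mk _ ((system hg inp).Y n t u v) = (system hg inp).act n i x a b := by
    show Ideal.Quotient.mk _ (Function.surjInv Ideal.Quotient.mk_surjective _) =
      (inp n).framedAct hg i (S.evalVals (inp n).C ((inp n).extra hg)
        (Classical.choose ((inp n).extra_spec hg)) x) a b
    rw [Function.surjInv_eq Ideal.Quotient.mk_surjective, hx, (inp n).framedAct_C, ← h]
    rfl
  have := sub_mem (h2 t u v) (h1 i x a b _ hs)
  rwa [sub_sub_sub_cancel_right] at this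

/-- A map surjective modulo the maximal ideal at some depth is surjective in the limit. -/
theorem patched_map_surjective (t : κ)
    (h : ∀ n, haveI : NeZero S.p := ⟨S.hp.ne_zero⟩
      Function.Surjective ((((inp n).maps t).map
        (MonoidAlgebra.lift O O (DGroup S.p (inp n).D.expo) 1)).map (residue O)).mulVec) :
    Function.Surjective (Pt.Y t).mulVec := by
  classical
  refine surjective_mulVec_of_residue _ ?_
  let rk : Sx →+* ResidueField O := (residue O).comp MvPowerSeries.constantCoeff
  have hker : RingHom.ker rk = maximalIdeal Sx := Ideal.ext fun z => by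
    rw [RingHom.mem_ker, mem_maximalIdeal_iff_coeff, RingHom.comp_apply, residue_eq_zero_iff]
  let eb : ResidueField Sx ≃+* ResidueField O :=
    (Ideal.quotEquivOfEq hker.symm).trans (RingHom.quotientKerEquivOfSurjective
      (residue_surjective.comp fun c => ⟨MvPowerSeries.C c, MvPowerSeries.constantCoeff_C c⟩))
  have heb : ∀ s, eb (residue Sx s) = rk s := fun s => rfl
  obtain ⟨n, hn, -, h2, -⟩ := Pt.approx 1
  have : NeZero S.p := ⟨S.hp.ne_zero⟩
  have hY : ∀ u v, rk (Pt.Y t u v) =
      residue O (MonoidAlgebra.lift O O (DGroup S.p (inp n).D.expo) 1 ((inp n).maps t u v)) := by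
    intro u v
    have h1 := h2 t u v
    rw [pow_one, ← hker, RingHom.mem_ker, map_sub, sub_eq_zero] at h1
    rw [h1]
    set s := (system hg inp).Y n t u v
    have hs : Ideal.Quotient.mk (maximalIdeal Sx ^ n) s = (inp n).psi ((inp n).maps t u v) :=
      Function.surjInv_eq Ideal.Quotient.mk_surjective _
    -- the two reductions agree on the group algebra
    let f₁ : Sx ⧸ maximalIdeal Sx ^ n →+* ResidueField O := Ideal.Quotient.lift _ rk fun z hz =>
      RingHom.mem_ker.mp (hker.ge (Ideal.pow_le_self (by omega) hz))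
    have key : f₁.comp ((inp n).psi) = (residue O).comp
        ((MonoidAlgebra.lift O O (DGroup S.p (inp n).D.expo) 1 :
          MonoidAlgebra O (DGroup S.p (inp n).D.expo) →ₐ[O] O) : _ →+* O) := by
      refine MonoidAlgebra.ringHom_ext (fun c => ?_) fun a => ?_
      · simp only [LevelInput.psi, RingHom.coe_comp, RingHom.coe_coe, Function.comp_apply,
          MonoidAlgebra.lift_single, map_one]
        simp [f₁, rk, Algebra.smul_def]
        rw [show algebraMap O (Sx ⧸ maximalIdeal Sx ^ n) c =
          Ideal.Quotient.mk _ (algebraMap O Sx c) from rfl, Ideal.Quotient.lift_mk]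
        simp [MvPowerSeries.algebraMap_apply]
      · obtain ⟨s', hs'⟩ := Ideal.Quotient.mk_surjective
          (dChi S.p (inp n).D.expo O (FrameVar S.T S.p) n S.hpO (inp n).D.le_expo a)
        have haug := dChi_aug S.p (inp n).D.expo O (FrameVar S.T S.p) n S.hpO (inp n).D.le_expo a
          s' hs'
        simp only [LevelInput.psi, RingHom.coe_comp, RingHom.coe_coe, Function.comp_apply,
          MonoidAlgebra.lift_single, one_smul, ← hs', MonoidHom.one_apply, map_one]
        show rk s' = 1
        obtain ⟨w, hw, hw'⟩ := (Ideal.mem_map_iff_of_surjective _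
          Ideal.Quotient.mk_surjective).mp haug
        rw [← map_one (Ideal.Quotient.mk (augIdeal O (FrameVar S.T S.p) (Fin r))), ← map_sub,
          Ideal.Quotient.mk_eq_mk_iff_sub_mem, RingHom.mem_ker, map_sub, map_sub, map_one,
          sub_eq_zero] at hw'
        have hw0 : rk w = 0 := RingHom.mem_ker.mp (hker.ge (Ideal.pow_le_self (by omega) hw))
        simp only [rk, RingHom.comp_apply] at hw0 ⊢
        rw [hw', map_sub, map_one, sub_eq_zero] at hw0
        exact hw0
    calc rk s = f₁ (Ideal.Quotient.mk _ s) := rfl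
      _ = _ := by rw [hs]; exact RingHom.congr_fun key _
  intro w
  obtain ⟨v, hv⟩ := h n fun u => eb (w u)
  refine ⟨fun j => eb.symm (v j), funext fun u => eb.injective ?_⟩
  rw [← congrFun hv u]
  simp only [Matrix.mulVec, dotProduct, Matrix.map_apply, map_sum, map_mul, eb.apply_symm_apply,
    heb, hY]
  rfl

variable (hcycΦ : ∀ q : ↥S.Sig, S.cyc (S.Φ q) = (q.1 : O))
  (hcycs : ∀ q : ↥S.Sig, S.cyc (S.tame q) = 1)

/-- **Crossing.** A prime over the old module containing a form of the level raising equation at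
`q` is over the new part. -/
theorem ker_new_le_of_crossing (t : κ) (iOld iNew : ι)
    (eD : Fin (d iOld) ⊕ Fin (d iOld) ≃ Fin (d (tgt t)))
    (e : (Fin (d iOld) ⊕ Fin (d iOld)) ⊕ Fin (d iNew) ≃ Fin (d (src t)))
    (h₁₁ : ∀ n z u u', (inp n).act (src t) z (e (.inl u)) (e (.inl u')) =
      Matrix.fromBlocks ((inp n).act iOld z) 0 0 ((inp n).act iOld z) u u')
    (h₂₁ : ∀ n z w u, (inp n).act (src t) z (e (.inr w)) (e (.inl u)) = 0)
    (h₂₂ : ∀ n z w w', (inp n).act (src t) z (e (.inr w)) (e (.inr w')) = (inp n).act iNew z w w')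
    (hdbl : ∀ n z u u', (inp n).act (tgt t) z (eD u) (eD u') =
      Matrix.fromBlocks ((inp n).act iOld z) 0 0 ((inp n).act iOld z) u u')
    (q : ↥S.Sig)
    (hK : ∀ n u u', (inp n).maps t (eD u) (e (.inl u')) = Matrix.fromBlocks
      ((inp n).act iOld ((q.1 : (inp n).C.R) + 1))
      ((inp n).act iOld ((inp n).C.rR (S.Φ q)).trace)
      ((inp n).act iOld ((inp n).C.rR (S.Φ q)).trace)
      ((inp n).act iOld ((q.1 : (inp n).C.R) + 1)) u u')
    (hsurj : ∀ n, haveI : NeZero S.p := ⟨S.hp.ne_zero⟩
      Function.Surjective ((((inp n).maps t).map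
        (MonoidAlgebra.lift O O (DGroup S.p (inp n).D.expo) 1)).map (residue O)).mulVec)
    {s : Bool} {W : Ideal (MvPowerSeries (S.Var g) O)} [W.IsPrime]
    (hWold : RingHom.ker (Pt.act iOld) ≤ W)
    (hWform : (S.localData.phi (ρ := Fin S.m ⊕ Fin g) q).trace -
      MvPowerSeries.C (FA.LocalComp.sgn s * ((q.1 : O) + 1)) ∈ W) :
    RingHom.ker (Pt.act iNew) ≤ W := by
  classical
  have hblk : ∀ {A : Type} [Zero A] {i : ι} (F : Matrix (Fin (d i)) (Fin (d i)) A)
      (u u' : Fin (d i) ⊕ Fin (d i)), Matrix.fromBlocks F 0 0 F u u' =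
        Sum.elim (fun a => Sum.elim (F a) (fun _ => 0) u')
          (fun a => Sum.elim (fun _ => 0) (F a) u') u := by
    intro A _ i F u u'
    cases u <;> cases u' <;> rfl
  have P11 : ∀ x u u', Pt.act (src t) x (e (.inl u)) (e (.inl u')) =
      Matrix.fromBlocks (Pt.act iOld x) 0 0 (Pt.act iOld x) u u' := by
    intro x u u'
    rcases u with a | a <;> rcases u' with b | b
    · exact patched_entry_eq hg inp Pt (fun n z => h₁₁ n z (.inl a) (.inl b)) x
    · exact patched_entry_zero hg inp Pt (fun n z => h₁₁ n z (.inl a) (.inr b)) x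
    · exact patched_entry_zero hg inp Pt (fun n z => h₁₁ n z (.inr a) (.inl b)) x
    · exact patched_entry_eq hg inp Pt (fun n z => h₁₁ n z (.inr a) (.inr b)) x
  have Pdbl : ∀ x u u', Pt.act (tgt t) x (eD u) (eD u') =
      Matrix.fromBlocks (Pt.act iOld x) 0 0 (Pt.act iOld x) u u' := by
    intro x u u'
    rcases u with a | a <;> rcases u' with b | b
    · exact patched_entry_eq hg inp Pt (fun n z => hdbl n z (.inl a) (.inl b)) x
    · exact patched_entry_zero hg inp Pt (fun n z => hdbl n z (.inl a) (.inr b)) x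
    · exact patched_entry_zero hg inp Pt (fun n z => hdbl n z (.inr a) (.inl b)) x
    · exact patched_entry_eq hg inp Pt (fun n z => hdbl n z (.inr a) (.inr b)) x
  have P21 : ∀ x w u, Pt.act (src t) x (e (.inr w)) (e (.inl u)) = 0 := fun x w u =>
    patched_entry_zero hg inp Pt (fun n z => h₂₁ n z w u) x
  have P22 : ∀ x w w', Pt.act (src t) x (e (.inr w)) (e (.inr w')) = Pt.act iNew x w w' :=
    fun x w w' => patched_entry_eq hg inp Pt (fun n z => h₂₂ n z w w') x
  let AP : ∀ i, MvPowerSeries (S.Var g) O →+* Matrix (Fin (d i)) (Fin (d i)) Sx := fun i => Pt.act i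
  let YP : Matrix (Fin (d (tgt t))) (Fin (d (src t))) Sx := Pt.Y t
  have hYP : ∀ x, YP * AP (src t) x = AP (tgt t) x * YP := Pt.intertwine t
  let T : MvPowerSeries (S.Var g) O := (S.localData.phi q).trace
  let c : MvPowerSeries (S.Var g) O := MvPowerSeries.C ((q.1 : O) + 1)
  have hT : ∀ n, S.evalVals (inp n).C ((inp n).extra hg) (Classical.choose ((inp n).extra_spec hg))
      T = MvPowerSeries.C ((inp n).C.rR (S.Φ q)).trace := fun n => by
    rw [AddMonoidHom.map_trace (S.evalVals (inp n).C _ _), map_phi, trace_framed]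
  have hc : ∀ n, S.evalVals (inp n).C ((inp n).extra hg) (Classical.choose ((inp n).extra_spec hg))
      c = MvPowerSeries.C ((q.1 : (inp n).C.R) + 1) := fun n => by
    rw [show c = MvPowerSeries.C ((q.1 : O) + 1) from rfl, evalHom_C]
    simp
  let Y' : Matrix (Fin (d iOld) ⊕ Fin (d iOld)) (Fin (d (src t))) Sx := fun u v => YP (eD u) v
  have hY : ∀ x, Y' * AP (src t) x =
      Matrix.fromBlocks (AP iOld x) 0 0 (AP iOld x) * Y' := by
    intro x
    refine Matrix.ext fun u v => ?_
    refine (congrFun (congrFun (hYP x) (eD u)) v).trans ?_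
    show ∑ j, AP (tgt t) x (eD u) j * YP j v = _
    rw [← eD.sum_comp]
    exact Finset.sum_congr rfl fun k _ => congrArg (fun z => z * YP (eD k) v) (Pdbl x u k)
  refine FA.Patch.ker_le_of_crossing (AP iOld) (AP (src t)) (AP iNew)
    (Pt.isScalarLift iOld) e P11 P21 P22 Y' hY ?_ c T T c ?_ hWold ?_
  · intro w
    obtain ⟨v, hv⟩ := patched_map_surjective hg inp Pt t hsurj fun j => w (eD.symm j)
    exact ⟨v, funext fun u => (congrFun hv (eD u)).trans (by simp)⟩
  · intro u u'
    rcases u with a | a <;> rcases u' with b | b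
    · exact patched_map_entry_eq hg inp Pt t c (fun n => _) hc fun n => hK n (.inl a) (.inl b)
    · exact patched_map_entry_eq hg inp Pt t T (fun n => _) hT fun n => hK n (.inl a) (.inr b)
    · exact patched_map_entry_eq hg inp Pt t T (fun n => _) hT fun n => hK n (.inr a) (.inl b)
    · exact patched_map_entry_eq hg inp Pt t c (fun n => _) hc fun n => hK n (.inr a) (.inr b)
  · have e1 : T - MvPowerSeries.C (FA.LocalComp.sgn s * ((q.1 : O) + 1)) ∈ W := hWform
    have e2 : c * c - T * T = -((T - MvPowerSeries.C (FA.LocalComp.sgn s * ((q.1 : O) + 1))) *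
        (T + MvPowerSeries.C (FA.LocalComp.sgn s * ((q.1 : O) + 1)))) := by
      rw [show c = MvPowerSeries.C ((q.1 : O) + 1) from rfl, map_mul, FA.LocalComp.map_sgn]
      linear_combination (-(MvPowerSeries.C (σ := S.Var g) ((q.1 : O) + 1)) ^ 2) *
        FA.LocalComp.sgn_mul_self (A := MvPowerSeries (S.Var g) O) s
    rw [e2]
    exact W.neg_mem (W.mul_mem_right _ e1)


/-- The support of the level above contains that of its new part. -/
theorem ker_le_new (t : κ) {iOld iNew : ι}
    (e : (Fin (d iOld) ⊕ Fin (d iOld)) ⊕ Fin (d iNew) ≃ Fin (d (src t)))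
    (h₂₂ : ∀ n z w w', (inp n).act (src t) z (e (.inr w)) (e (.inr w')) = (inp n).act iNew z w w') :
    RingHom.ker (Pt.act (src t)) ≤ RingHom.ker (Pt.act iNew) := fun x hx =>
  RingHom.mem_ker.mpr (Matrix.ext fun w w' => by
    have h : Pt.act (src t) x = 0 := RingHom.mem_ker.mp hx
    exact (patched_entry_eq hg inp Pt (fun n z => h₂₂ n z w w') x).symm.trans
      (congrFun (congrFun h _) _))

include hcycΦ hcycs in
/-- **Raising the type at `q`.** -/
theorem ker_le_comp_raise [CharZero O] [Fact (S.m = 4)] (t : κ) (iOld iNew : ι)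
    (eD : Fin (d iOld) ⊕ Fin (d iOld) ≃ Fin (d (tgt t)))
    (e : (Fin (d iOld) ⊕ Fin (d iOld)) ⊕ Fin (d iNew) ≃ Fin (d (src t)))
    (h₁₁ : ∀ n z u u', (inp n).act (src t) z (e (.inl u)) (e (.inl u')) =
      Matrix.fromBlocks ((inp n).act iOld z) 0 0 ((inp n).act iOld z) u u')
    (h₂₁ : ∀ n z w u, (inp n).act (src t) z (e (.inr w)) (e (.inl u)) = 0)
    (h₂₂ : ∀ n z w w', (inp n).act (src t) z (e (.inr w)) (e (.inr w')) = (inp n).act iNew z w w')
    (hdbl : ∀ n z u u', (inp n).act (tgt t) z (eD u) (eD u') =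
      Matrix.fromBlocks ((inp n).act iOld z) 0 0 ((inp n).act iOld z) u u')
    (q : ↥S.Sig)
    (hK : ∀ n u u', (inp n).maps t (eD u) (e (.inl u')) = Matrix.fromBlocks
      ((inp n).act iOld ((q.1 : (inp n).C.R) + 1))
      ((inp n).act iOld ((inp n).C.rR (S.Φ q)).trace)
      ((inp n).act iOld ((inp n).C.rR (S.Φ q)).trace)
      ((inp n).act iOld ((q.1 : (inp n).C.R) + 1)) u u')
    (hsurj : ∀ n, haveI : NeZero S.p := ⟨S.hp.ne_zero⟩
      Function.Surjective ((((inp n).maps t).map
        (MonoidAlgebra.lift O O (DGroup S.p (inp n).D.expo) 1)).map (residue O)).mulVec)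
    (hnew : (((S.localData.phi (ρ := Fin S.m ⊕ Fin g) q).trace - MvPowerSeries.C ((q.1 : O) + 1)) *
      ((S.localData.phi q).trace + MvPowerSeries.C ((q.1 : O) + 1))) ^ 2 ∈
      RingHom.ker (Pt.act iNew))
    {ty : ↥S.Sig → FA.LocalComp.Ty} {s : Bool} (hu : ty q = .unr)
    (ht : FA.LocalComp.Valid S.localData ty)
    (ht' : FA.LocalComp.Valid S.localData (Function.update ty q (.st s)))
    (hold : RingHom.ker (Pt.act iOld) ≤ FA.LocalComp.comp (ρ := Fin S.m ⊕ Fin g) S.localData ty ht) :
    RingHom.ker (Pt.act iNew) ≤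
        FA.LocalComp.comp (ρ := Fin S.m ⊕ Fin g) S.localData (Function.update ty q (.st s)) ht' ∧
      RingHom.ker (Pt.act (src t)) ≤ RingHom.ker (Pt.act iNew) := by
  classical
  have : IsDomain Sx := NoZeroDivisors.to_isDomain _
  obtain ⟨ee⟩ := exists_paramEmbedding (S := S) hg
  have hqu : ∀ q : ↥S.Sig, IsUnit (S.localData.qv q : O) := fun q => by
    refine IsLocalRing.notMem_maximalIdeal.mp fun h => (S.prime_Sig q.1 q.2).2 ?_
    have hp0 : ((S.p : ℕ) : ResidueField O) = 0 := by
      rw [← map_natCast (residue O), residue_eq_zero_iff]; exact S.hpO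
    have : CharP (ResidueField O) S.p := (CharP.charP_iff_prime_eq_zero S.hp).mpr hp0
    have hq0 : ((q.1 : ℕ) : ResidueField O) = 0 := by
      rw [← map_natCast (residue O), residue_eq_zero_iff]; exact h
    exact ((Nat.prime_dvd_prime_iff_eq S.hp (S.prime_Sig q.1 q.2).1).mp
      ((CharP.cast_eq_zero_iff _ S.p _).mp hq0)).symm
  refine ⟨?_, ker_le_new hg inp Pt t e h₂₂⟩
  refine ker_le_comp_of_crossing (L := S.localData) (ρ := Fin S.m ⊕ Fin g) (Pt.isScalarLift iNew)
    (isIntegral_paramHom hqu ee) (patched_relIdeal_le_ker hg inp Pt hcycΦ hcycs iNew) hqu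
    (Pt.act iOld) hu ht ht' hold hnew fun W hW hWold hWform => ?_
  exact ker_new_le_of_crossing hg inp Pt t iOld iNew eD e h₁₁ h₂₁ h₂₂ hdbl q hK hsurj hWold hWform

end Setup

end FA.RT
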