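import Fermat.Agent.RT.LocalMazur
import Fermat.Agent.RT.Raise

/-!
# Descending a supported component

A supported component which is Steinberg at a residually unramified place `q`, for a patched module
containing two copies of the module of the level without `q`, gives the component unramified at `q`
in the support of the latter, all other types unchanged.
-/

set_option autoImplicit false

noncomputable section

open MvPowerSeries IsLocalRing Matrix FA.LocalComp

namespace FA.RT

local notation "M₂" => Matrix (Fin 2) (Fin 2)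

/-- The identities of a nilpotent `N` with `F N = q N F`. -/
theorem steinberg_identities {A : Type*} [CommRing A] {F N : M₂ A} {q : A} (hd : F.det = q)
    (htr : N.trace = 0) (hdN : N.det = 0) (hrel : F * N = q • (N * F))
    (hreg : ∀ x : A, q * (q - 1) * x = 0 → x = 0) :
    N * N = 0 ∧ F.trace • (N * F) = (q + 1) • N ∧ F.trace • N = (q + 1) • (N * F) := by
  have hF2 : F * F = F.trace • F - q • (1 : M₂ A) := by
    rw [← hd, det_fin_two, trace_fin_two]
    ext i j
    fin_cases i <;> fin_cases j <;> simp [Matrix.mul_apply, Fin.sum_univ_two] <;> ring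
  have hN2 : N * N = 0 := by
    rw [trace_fin_two] at htr
    rw [det_fin_two] at hdN
    ext a b
    fin_cases a <;> fin_cases b <;> simp [Matrix.mul_apply, Fin.sum_univ_two]
    · linear_combination N 0 0 * htr - hdN
    · linear_combination N 0 1 * htr
    · linear_combination N 1 0 * htr
    · linear_combination N 1 1 * htr - hdN
  have e : F * F * N = (q * q) • (N * (F * F)) := by
    rw [Matrix.mul_assoc, hrel, Matrix.mul_smul, ← Matrix.mul_assoc, hrel, smul_mul_assoc,
      smul_smul, Matrix.mul_assoc]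
  rw [hF2, sub_mul, smul_mul_assoc, smul_mul_assoc, Matrix.one_mul, hrel, mul_sub, Matrix.mul_smul,
    Matrix.mul_smul, Matrix.mul_one] at e
  have h1 : F.trace • (N * F) = (q + 1) • N := by
    ext i j
    have e' := congrFun (congrFun e i) j
    simp only [Matrix.sub_apply, Matrix.smul_apply, smul_eq_mul] at e'
    refine sub_eq_zero.mp (hreg _ ?_)
    simp only [Matrix.smul_apply, smul_eq_mul]
    linear_combination -e'
  refine ⟨hN2, h1, ?_⟩
  have h2 : (F.trace • (N * F)) * F = (q + 1) • (N * F) := by rw [h1, smul_mul_assoc]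
  rw [smul_mul_assoc, Matrix.mul_assoc, hF2, mul_sub, Matrix.mul_smul, Matrix.mul_smul,
    Matrix.mul_one, smul_sub, h1, smul_smul, smul_comm] at h2
  refine Eq.trans ?_ h2
  ext i j
  simp only [Matrix.sub_apply, Matrix.smul_apply, smul_eq_mul]
  ring

variable {Q ρ : Type} [Fintype Q] [Fintype ρ] {O : Type} [CommRing O] [IsLocalRing O]
  [IsAdicComplete (maximalIdeal O) O] [IsDomain O] [IsNoetherianRing O] {L : LocalData Q O}

local notation "Pr" => MvPowerSeries (FA.LocalComp.Var Q ρ) O

omit [Fintype Q] [IsAdicComplete (maximalIdeal O) O] [IsDomain O] [IsNoetherianRing O] in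
/-- A type stays possible when made unramified at a residually unramified place. -/
theorem valid_update_unr [DecidableEq Q] {t : Q → Ty} (ht : Valid L t) {q : Q} {n : Bool}
    (hn : t q = .st n) (hsig : Cong (L.sig0 q) 1) (hq : IsUnit (L.qv q : O)) :
    Valid L (Function.update t q .unr) := by
  intro r
  rcases eq_or_ne r q with rfl | hr
  swap
  · rw [Function.update_of_ne hr]
    exact ht r
  rw [Function.update_self]
  obtain ⟨B, hB⟩ := ht r
  rw [hn] at hB
  have hdet : residue O (L.phi0 r).det = residue O (L.qv r : O) := by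
    have h := congrArg Matrix.det (hB.phi : _ = _)
    rw [← RingHom.mapMatrix_apply, ← RingHom.mapMatrix_apply, ← RingHom.map_det,
      ← RingHom.map_det, phiForm, det_unflipB, det_flag2] at h
    rw [← h, mul_right_comm, sgn_mul_self, one_mul]
  obtain ⟨G, hG, hGr⟩ := exists_lift_det (L.phi0 r * !![1, 0; -1, 1]) hq (by
    rw [det_mul, det_fin_two_of]
    simpa using hdet)
  refine ⟨⟨false, ![0, 1, 0], G⟩, ⟨?_, ?_, fun _ => hG, fun _ => by simp, fun h' => h'.elim⟩⟩
  · show (G.map (RingHom.id O) * ulu (0 : O) 1 0).map (residue O) = _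
    rw [RingHom.coe_id, Matrix.map_id, Matrix.map_mul, hGr, ← Matrix.map_mul, ulu_zero_one_zero,
      Matrix.mul_assoc,
      show (!![1, 0; -1, 1] : M₂ O) * !![1, 0; 1, 1] = 1 by
        ext i j; fin_cases i <;> fin_cases j <;> simp [Matrix.mul_apply, Fin.sum_univ_two],
      Matrix.mul_one]
  · show (1 + nForm false Ty.unr ![(0 : O), 1, 0]).map (residue O) = _
    rw [show nForm false Ty.unr ![(0 : O), 1, 0] = 0 from rfl, add_zero]
    exact (hsig : _ = _).symm

omit [IsNoetherianRing O] in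
/-- A prime above the entries of inertia minus one at `q` has type unramified there. -/
theorem type_eq_unr_of_mem [DecidableEq Q] [CharZero O] (hqu : ∀ q, IsUnit (L.qv q : O))
    {t : Q → Ty} (ht : Valid L t) {q : Q}
    (h : ∀ a b, (L.sig (ρ := ρ) q - 1) a b ∈ comp L t ht) : t q = .unr := by
  rcases htq : t q with _ | n
  · rfl
  exfalso
  have hle : L.typeIdeal (ρ := ρ) (Function.update t q .unr) ≤ comp L t ht := by
    refine Ideal.span_le.mpr (Set.iUnion_subset fun r x hx => ?_)
    rcases eq_or_ne r q with rfl | hr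
    · rw [Function.update_self] at hx
      obtain ⟨⟨a, b⟩, rfl⟩ := hx
      exact h a b
    · rw [Function.update_of_ne hr] at hx
      exact le_comp ht (Ideal.mem_sup_right (Ideal.subset_span (Set.mem_iUnion.mpr ⟨r, hx⟩)))
  have := congrFun ((typeIdeal_le_comp_iff hqu ht).mp hle) q
  rw [Function.update_self, htq] at this
  cases this

variable {S : Type} [CommRing S] [IsDomain S] [IsLocalRing S] [CharZero S] [FiniteRingKrullDim S]
  {d d₀ dn : ℕ} {act : MvPowerSeries (FA.LocalComp.Var Q ρ) O →+* Matrix (Fin d) (Fin d) S}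
  {act₀ : MvPowerSeries (FA.LocalComp.Var Q ρ) O →+* Matrix (Fin d₀) (Fin d₀) S}
  {j j₀ g : S →+* MvPowerSeries (FA.LocalComp.Var Q ρ) O} (e : (Fin d₀ ⊕ Fin d₀) ⊕ Fin dn ≃ Fin d)
  (hj₀ : FA.Patch.IsScalarLift act₀ j₀)
  (hg : ((Ideal.Quotient.mk (L.relIdeal (ρ := ρ))).comp g).IsIntegral)
  (hI : (L.relIdeal : Ideal (MvPowerSeries (FA.LocalComp.Var Q ρ) O)) ≤ RingHom.ker act)
  (hI₀ : (L.relIdeal : Ideal (MvPowerSeries (FA.LocalComp.Var Q ρ) O)) ≤ RingHom.ker act₀)
  (hqu : ∀ q, IsUnit (L.qv q : O))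

omit [Fintype Q] [Fintype ρ] [IsLocalRing O] [IsAdicComplete (maximalIdeal O) O] [IsDomain O]
  [IsNoetherianRing O] [FiniteRingKrullDim S] in
include hI in
/-- The local data of the principle at `q` from the injectivity of `ω` on the old module. -/
theorem localMazurData_of_det [CharZero O] {q : Q} (hq1 : 1 < L.qv q)
    (hdiag : ∀ x u u', act x (e (.inl u)) (e (.inl u')) =
      Matrix.fromBlocks (act₀ x) 0 0 (act₀ x) u u')
    (htri : ∀ x w u, act x (e (.inr w)) (e (.inl u)) = 0)
    (hold : L.typeSet (ρ := ρ) q .unr ⊆ (RingHom.ker act₀ : Set Pr))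
    (hdet₀ : (act₀ (((L.phi q).trace - C ((L.qv q : O) + 1)) *
      ((L.phi q).trace + C ((L.qv q : O) + 1)))).det ≠ 0)
    (hrk : ((blockAct act (L.sig q - 1)).map (residue S)).rank = dn) :
    LocalMazurData act act₀ (L.sig q - 1)
        (((L.phi q).trace - C ((L.qv q : O) + 1)) * ((L.phi q).trace + C ((L.qv q : O) + 1))) e ∧
      ∀ s : Pr, s * s = 1 → blockAct act (((L.phi q).trace + s * ((L.qv q : Pr) + 1)) •
        ((L.sig q - 1) * (L.phi q - s • 1))) = 0 := by
  classical
  let π := Ideal.Quotient.mk (RingHom.ker act)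
  have h0 : ∀ x ∈ L.relSet (ρ := ρ) q, π x = 0 := fun x hx =>
    Ideal.Quotient.eq_zero_iff_mem.mpr (hI (Ideal.subset_span (Set.mem_iUnion.mpr ⟨q, hx⟩)))
  set F := (L.phi q).map π with hF
  set N := (L.sig (ρ := ρ) q - 1).map π with hN
  have hd : F.det = (L.qv q : Pr ⧸ RingHom.ker act) := by
    have := h0 _ (.inl (.inl rfl))
    rwa [map_sub, map_natCast, sub_eq_zero, RingHom.map_det] at this
  have h2 : ((L.sig q).map π).trace = 2 := by
    have := h0 _ (.inl (.inr (.inl rfl)))
    rw [map_sub, map_ofNat, sub_eq_zero] at this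
    rw [← this]; simp [Matrix.trace]
  have htr : N.trace = 0 := by
    rw [hN, map_sub_one, Matrix.trace_sub, h2, Matrix.trace_one]; simp
  have hdN : N.det = 0 := by
    have := h0 _ (.inl (.inr (.inr rfl)))
    rw [map_sub, map_one, sub_eq_zero, RingHom.map_det, RingHom.mapMatrix_apply] at this
    rw [hN, map_sub_one, LocalData.det_sub_one, h2, this]; ring
  have hrel : F * N = (L.qv q : Pr ⧸ RingHom.ker act) • (N * F) := by
    ext a b
    have := h0 _ (.inr ⟨(a, b), rfl⟩)
    simp only [Matrix.sub_apply, Matrix.smul_apply, smul_eq_mul, map_sub, map_mul, map_natCast,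
      sub_eq_zero] at this
    simpa [hF, hN, Matrix.mul_apply, Fin.sum_univ_two] using this
  have hreg : ∀ x : Pr ⧸ RingHom.ker act,
      (L.qv q : Pr ⧸ RingHom.ker act) * ((L.qv q : Pr ⧸ RingHom.ker act) - 1) * x = 0 → x = 0 := by
    intro x hx
    obtain ⟨z, rfl⟩ := Ideal.Quotient.mk_surjective x
    rw [← Nat.cast_one, ← Nat.cast_sub hq1.le, ← Nat.cast_mul, ← map_natCast π, ← map_mul,
      Ideal.Quotient.eq_zero_iff_mem, RingHom.mem_ker, map_mul, map_natCast, ← nsmul_eq_mul] at hx
    refine Ideal.Quotient.eq_zero_iff_mem.mpr (RingHom.mem_ker.mpr (Matrix.ext fun u v => ?_))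
    have h := congrFun (congrFun hx u) v
    rw [Matrix.smul_apply, nsmul_eq_mul, Matrix.zero_apply, mul_eq_zero, Nat.cast_eq_zero] at h
    exact h.resolve_left (Nat.mul_ne_zero (by omega) (by omega))
  obtain ⟨hsq, hTNF, hTN⟩ := steinberg_identities hd htr hdN hrel hreg
  have hTπ : F.trace = π (L.phi q).trace := (AddMonoidHom.map_trace π _).symm
  have hzero : ∀ M : M₂ Pr, M.map π = 0 → blockAct act M = 0 := fun M hM => by
    ext ⟨a, u⟩ ⟨b, v⟩
    have := congrFun (congrFun hM a) b
    rw [Matrix.map_apply, Matrix.zero_apply] at this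
    rw [blockAct_apply, RingHom.mem_ker.mp (Ideal.Quotient.eq_zero_iff_mem.mp this)]
    rfl
  refine ⟨⟨hdiag, htri, hzero _ ?_, ?_, hzero _ ?_, ?_, hdet₀, hrk⟩, fun s hs => hzero _ ?_⟩
  · rw [Matrix.map_mul]; exact hsq
  · rw [← RingHom.mem_ker, ← Ideal.Quotient.eq_zero_iff_mem]
    exact (AddMonoidHom.map_trace π _).trans htr
  · rw [Matrix.map_smul' π _ _ (map_mul π), ← hN]
    simp only [map_mul, map_sub, map_add, map_natCast, map_one, ← hTπ]
    ext a b
    have e1 := congrFun (congrFun hTN a) b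
    have e2 := congrFun (congrFun hTNF a) b
    simp only [Matrix.smul_apply, smul_eq_mul, Matrix.zero_apply] at e1 e2 ⊢
    linear_combination F.trace * e1 + ((L.qv q : Pr ⧸ RingHom.ker act) + 1) * e2
  · exact fun a b => RingHom.mem_ker.mp (hold ⟨(a, b), rfl⟩)
  · rw [Matrix.map_smul' π _ _ (map_mul π), Matrix.map_mul, ← hN, map_sub_smul_one, ← hF, map_add,
      ← hTπ, map_mul, map_add, map_one, map_natCast]
    ext a b
    have e1 := congrFun (congrFun hTN a) b
    have e2 := congrFun (congrFun hTNF a) b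
    have hs' : π s * π s = 1 := by rw [← map_mul, hs, map_one]
    simp only [mul_sub, Matrix.mul_smul, Matrix.mul_one, Matrix.smul_apply, Matrix.sub_apply,
      smul_eq_mul, Matrix.zero_apply] at e1 e2 ⊢
    linear_combination e2 - π s * e1 -
      (((L.qv q : Pr ⧸ RingHom.ker act) + 1) * N a b) * hs'

include hj₀ hg hI hI₀ hqu in
/-- The local data of the principle at `q`. -/
theorem localMazurData [DecidableEq Q] [CharZero O] {q : Q} (hq1 : 1 < L.qv q)
    (hdiag : ∀ x u u', act x (e (.inl u)) (e (.inl u')) =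
      Matrix.fromBlocks (act₀ x) 0 0 (act₀ x) u u')
    (htri : ∀ x w u, act x (e (.inr w)) (e (.inl u)) = 0)
    (hold : L.typeSet (ρ := ρ) q .unr ⊆ (RingHom.ker act₀ : Set Pr))
    (hrk : ((blockAct act (L.sig q - 1)).map (residue S)).rank = dn) :
    LocalMazurData act act₀ (L.sig q - 1)
        (((L.phi q).trace - C ((L.qv q : O) + 1)) * ((L.phi q).trace + C ((L.qv q : O) + 1))) e ∧
      ∀ s : Pr, s * s = 1 → blockAct act (((L.phi q).trace + s * ((L.qv q : Pr) + 1)) •
        ((L.sig q - 1) * (L.phi q - s • 1))) = 0 := by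
  classical
  refine localMazurData_of_det e hI hq1 hdiag htri hold ?_ hrk
  intro hdet
  obtain ⟨c, hc, hωc⟩ := exists_minimalPrimes_of_det_eq_zero hj₀ hdet
  obtain ⟨t, ht, rfl⟩ := eq_comp_of_mem_minimalPrimes hj₀ hg hI₀ hqu hc
  have hu := type_eq_unr_of_mem hqu ht (q := q) fun a b => hc.1.2 (hold ⟨(a, b), rfl⟩)
  refine trace_mul_notMem_comp (ρ := ρ) hqu ht hu ((L.qv q : O) + 1) (-((L.qv q : O) + 1)) ?_
  rwa [map_neg C, sub_neg_eq_add]

omit [Fintype Q] [Fintype ρ] [IsLocalRing O] [IsAdicComplete (maximalIdeal O) O] [IsNoetherianRing O]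
  [CharZero S] [FiniteRingKrullDim S] in
/-- Above a prime of a wall at `q` in the support there is a minimal prime unramified at `q`. -/
theorem exists_minimalPrimes_wall (hj : FA.Patch.IsScalarLift act j) [CharZero O] {q : Q} (hq1 : 1 < L.qv q) {n : Bool}
    (D : LocalMazurData act act₀ (L.sig q - 1)
      (((L.phi q).trace - C ((L.qv q : O) + 1)) * ((L.phi q).trace + C ((L.qv q : O) + 1))) e)
    (hNF : ∀ s : Pr, s * s = 1 → blockAct act (((L.phi q).trace + s * ((L.qv q : Pr) + 1)) •
        ((L.sig q - 1) * (L.phi q - s • 1))) = 0)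
    {W : Ideal Pr} [W.IsPrime] (hW : RingHom.ker act ≤ W) (hWC : ∀ c : O, C c ∈ W → c = 0)
    (hNW : ∀ a b, (L.sig (ρ := ρ) q - 1) a b ∈ W)
    (hTW' : (L.phi q).trace - sgn n * ((L.qv q : Pr) + 1) ∈ W) :
    ∃ c ∈ (RingHom.ker act).minimalPrimes, c ≤ W ∧ ∀ a b, (L.sig (ρ := ρ) q - 1) a b ∈ c := by
  classical
  set s : Pr := sgn n with hsdef
  have hTW : (L.phi q).trace - s * ((L.qv q : Pr) + 1) ∈ W := hTW'
  have hsC : s = C (sgn n) := (map_sgn (C : O →+* Pr) n).symm
  have hg' : (L.phi q).trace + s * ((L.qv q : Pr) + 1) ∉ W := fun h => by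
    have h2 := W.sub_mem h hTW
    rw [show (L.phi q).trace + s * ((L.qv q : Pr) + 1) - ((L.phi q).trace - s * ((L.qv q : Pr) + 1))
      = C (2 * (sgn n * ((L.qv q : O) + 1))) by simp [hsC, map_ofNat]; ring] at h2
    have h3 := hWC _ h2
    rw [mul_eq_zero, mul_eq_zero] at h3
    rcases h3 with h3 | h3 | h3
    · exact two_ne_zero h3
    · exact one_ne_zero (α := O) (by rw [← sgn_mul_self (A := O) n, h3, mul_zero])
    · exact Nat.succ_ne_zero (L.qv q) (by exact_mod_cast h3)
  obtain ⟨a₀, b₀, hF⟩ : ∃ a b, ((L.phi q - s • (1 : M₂ Pr)) : M₂ Pr) a b ∉ W := by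
    by_contra hc
    push Not at hc
    have h2 := W.sub_mem (W.add_mem (hc 0 0) (hc 1 1)) hTW
    rw [show ((L.phi q - s • (1 : M₂ Pr)) : M₂ Pr) 0 0 + ((L.phi q - s • (1 : M₂ Pr)) : M₂ Pr) 1 1 -
      ((L.phi q).trace - s * ((L.qv q : Pr) + 1)) = C (sgn n * ((L.qv q : O) - 1)) by
        simp [hsC, trace_fin_two]; ring] at h2
    rcases mul_eq_zero.mp (hWC _ h2) with h3 | h3
    · exact one_ne_zero (α := O) (by rw [← sgn_mul_self (A := O) n, h3, mul_zero])
    · have : (L.qv q : O) = ((1 : ℕ) : O) := by rw [Nat.cast_one]; exact sub_eq_zero.mp h3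
      exact (by omega : L.qv q ≠ 1) (Nat.cast_injective this)
  have hs : s * s = 1 := sgn_mul_self n
  exact D.exists_minimalPrimes hj hW hNW hg' (hNF s hs) hF

include hj₀ hg hI hI₀ hqu in
/-- **Descent of a supported component at a residually unramified place.** -/
theorem ker_old_le_comp_unr [DecidableEq Q] [CharZero O] (hj : FA.Patch.IsScalarLift act j)
    {q : Q} (hq1 : 1 < L.qv q)
    (hdiag : ∀ x u u', act x (e (.inl u)) (e (.inl u')) =
      Matrix.fromBlocks (act₀ x) 0 0 (act₀ x) u u')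
    (htri : ∀ x w u, act x (e (.inr w)) (e (.inl u)) = 0)
    (hold : L.typeSet (ρ := ρ) q .unr ⊆ (RingHom.ker act₀ : Set Pr))
    (hrk : ((blockAct act (L.sig q - 1)).map (residue S)).rank = dn)
    {t : Q → Ty} {n : Bool} (hn : t q = .st n) (ht : Valid L t)
    (ht₀ : Valid L (Function.update t q .unr))
    (hsupp : RingHom.ker act ≤ comp L t ht) :
    RingHom.ker act₀ ≤ comp L (Function.update t q .unr) ht₀ := by
  classical
  obtain ⟨D, hNF⟩ := localMazurData e hj₀ hg hI hI₀ hqu hq1 hdiag htri hold hrk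
  obtain ⟨W, hW, hWrel, hWC, hW1, hW2, huniq⟩ := exists_wall (ρ := ρ) hqu hn ht ht₀
  set s : Pr := sgn n with hsdef
  have hNW : ∀ a b, (L.sig (ρ := ρ) q - 1) a b ∈ W := fun a b =>
    hW2 (le_comp ht₀ (Ideal.mem_sup_right (Ideal.subset_span (Set.mem_iUnion.mpr
      ⟨q, by rw [Function.update_self]; exact ⟨(a, b), rfl⟩⟩))))
  have hTW : (L.phi q).trace - s * ((L.qv q : Pr) + 1) ∈ W :=
    hW1 (le_comp ht (Ideal.mem_sup_right (Ideal.subset_span (Set.mem_iUnion.mpr
      ⟨q, by rw [hn]; exact .inl rfl⟩))))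
  obtain ⟨c, hc, hcW, hNc⟩ :=
    exists_minimalPrimes_wall e hj hq1 D hNF (hsupp.trans hW1) hWC hNW hTW
  have : c.IsPrime := hc.1.1
  obtain ⟨t', ht', rfl⟩ := eq_comp_of_mem_minimalPrimes hj hg hI hqu hc
  have hu := type_eq_unr_of_mem hqu ht' hNc
  rcases huniq t' ((le_sup_right.trans (le_comp ht')).trans hcW) with rfl | rfl
  · rw [hn] at hu
    cases hu
  · refine D.ker_old_le hc.1.2 ?_
    have := trace_mul_notMem_comp (ρ := ρ) hqu ht' hu ((L.qv q : O) + 1) (-((L.qv q : O) + 1))
    rwa [map_neg C, sub_neg_eq_add] at this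

open FA.Deform FA.TW FA.LocalDef FA.Patch

namespace Setup

variable {O : Type} [CommRing O] [IsDomain O] [IsDiscreteValuationRing O]
  [IsAdicComplete (maximalIdeal O) O] [Finite (ResidueField O)]
  {S : FA.RT.Setup O} {C₀ : Carried S.rb S.cyc} {ι κ : Type} {d : ι → ℕ} {src tgt : κ → ι}
  {act₀ : ∀ i, C₀.R →ₐ[O] Matrix (Fin (d i)) (Fin (d i)) O} {r g : ℕ}
  (hg : g + 1 = r + S.Sig.card)
  (inp : ∀ n, S.LevelInput C₀ d src tgt act₀ r n) (Pt : (system hg inp).Patched)
  (hcycΦ : ∀ q : ↥S.Sig, S.cyc (S.Φ q) = (q.1 : O))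
  (hcycs : ∀ q : ↥S.Sig, S.cyc (S.tame q) = 1)

local notation "Sx" => Aux O (FrameVar S.T S.p) (Fin r)

omit [IsAdicComplete (maximalIdeal O) O] [Finite (ResidueField O)] in
/-- The residue characteristics are units. -/
theorem isUnit_qv (q : ↥S.Sig) : IsUnit (S.localData.qv q : O) := by
  refine IsLocalRing.notMem_maximalIdeal.mp fun h => (S.prime_Sig q.1 q.2).2 ?_
  have hp0 : ((S.p : ℕ) : ResidueField O) = 0 := by
    rw [← map_natCast (residue O), residue_eq_zero_iff]; exact S.hpO
  have : CharP (ResidueField O) S.p := (CharP.charP_iff_prime_eq_zero S.hp).mpr hp0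
  have hq0 : ((q.1 : ℕ) : ResidueField O) = 0 := by
    rw [← map_natCast (residue O), residue_eq_zero_iff]; exact h
  exact ((Nat.prime_dvd_prime_iff_eq S.hp (S.prime_Sig q.1 q.2).1).mp
    ((CharP.cast_eq_zero_iff _ S.p _).mp hq0)).symm

omit [IsAdicComplete (maximalIdeal O) O] [Finite (ResidueField O)] in
/-- Residually trivial inertia, in the local data. -/
theorem cong_sig0 (q : ↥S.Sig) (hunr : S.rb (S.tame q) = 1) :
    FA.LocalComp.Cong (S.localData.sig0 q) 1 := by
  refine Matrix.ext fun a b => ?_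
  show residue O (S.lift (S.tame q) a b) = residue O ((1 : Matrix (Fin 2) (Fin 2) O) a b)
  rw [S.residue_lift, hunr]
  rcases eq_or_ne a b with rfl | hne <;> simp [*]

/-- Where inertia is trivial at every depth, the patched module is unramified. -/
theorem patched_typeSet_unr_subset_ker {i : ι} (q : ↥S.Sig)
    (h : ∀ n a b, (inp n).act i (((inp n).C.rR (S.tame q) - 1) a b) = 0) :
    S.localData.typeSet (ρ := Fin S.m ⊕ Fin g) q .unr ⊆ (RingHom.ker (Pt.act i) : Set _) := by
  rintro _ ⟨⟨u, v⟩, rfl⟩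
  refine RingHom.mem_ker.mpr (Pt.act_eq_zero fun n => ?_)
  let I := inp n
  let x := I.extra hg
  let hx := Classical.choose (I.extra_spec hg)
  let e := (S.evalVals I.C x hx).mapMatrix (m := Fin 2)
  let Fr := S.framedHom I.C (S.atT q)
  have hs : e (S.localData.sig q) = Fr (I.C.rR (S.tame q)) := S.map_sig I.C x hx q
  have hN : e (S.localData.sig q - 1) = Fr (I.C.rR (S.tame q) - 1) := by
    rw [map_sub, map_one, hs, map_sub, map_one]
  show I.framedAct hg i (e (S.localData.sig q - 1) u v) = 0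
  rw [hN]
  exact map_mul_mul_apply_eq_zero (I.framedAct hg i) _
    ((I.C.rR (S.tame q) - 1).map MvPowerSeries.C) _
    (fun a b => I.framedAct_C_eq_zero hg i (h n a b)) u v

include hcycΦ hcycs in
/-- **Descent at a residually unramified prime.** `iTop` contains two copies of `iOld`, which is
unramified at `q`; inertia minus one at `q` has residual rank `d iTop - 2 d iOld` at the base. A
supported component of `iTop`, Steinberg at `q`, gives the component unramified at `q` in the
support of `iOld`. -/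
theorem ker_le_comp_descend [CharZero O] [Fact (S.m = 4)] (iTop iOld : ι) {dn : ℕ}
    (e : (Fin (d iOld) ⊕ Fin (d iOld)) ⊕ Fin dn ≃ Fin (d iTop))
    (h₁₁ : ∀ n z u u', (inp n).act iTop z (e (.inl u)) (e (.inl u')) =
      Matrix.fromBlocks ((inp n).act iOld z) 0 0 ((inp n).act iOld z) u u')
    (h₂₁ : ∀ n z w u, (inp n).act iTop z (e (.inr w)) (e (.inl u)) = 0)
    (q : ↥S.Sig) (hunr : S.rb (S.tame q) = 1)
    (hold : ∀ n a b, (inp n).act iOld (((inp n).C.rR (S.tame q) - 1) a b) = 0)
    (hrk : ((blockAct (act₀ iTop).toRingHom (C₀.rR (S.tame q) - 1)).map (residue O)).rank = dn)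
    {t : ↥S.Sig → FA.LocalComp.Ty} {s : Bool} (ht : t q = .st s)
    (hv : FA.LocalComp.Valid S.localData t)
    (hsupp : RingHom.ker (Pt.act iTop) ≤ FA.LocalComp.comp (ρ := Fin S.m ⊕ Fin g) S.localData t hv) :
    ∃ hv' : FA.LocalComp.Valid S.localData (Function.update t q .unr),
      RingHom.ker (Pt.act iOld) ≤
        FA.LocalComp.comp (ρ := Fin S.m ⊕ Fin g) S.localData (Function.update t q .unr) hv' := by
  classical
  have : IsDomain Sx := NoZeroDivisors.to_isDomain _
  have : CharZero Sx := charZero_of_injective_ringHom (MvPowerSeries.C_injective (R := O))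
  obtain ⟨ee⟩ := exists_paramEmbedding (S := S) hg
  have hv' := valid_update_unr hv ht (cong_sig0 q hunr) (isUnit_qv q)
  refine ⟨hv', ker_old_le_comp_unr (L := S.localData) (ρ := Fin S.m ⊕ Fin g) e
    (Pt.isScalarLift iOld)
    (isIntegral_paramHom isUnit_qv ee) (patched_relIdeal_le_ker hg inp Pt hcycΦ hcycs iTop)
    (patched_relIdeal_le_ker hg inp Pt hcycΦ hcycs iOld) isUnit_qv (Pt.isScalarLift iTop)
    (S.prime_Sig q.1 q.2).1.one_lt ?_ ?_ (patched_typeSet_unr_subset_ker hg inp Pt q hold) ?_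
    ht hv hv' hsupp⟩
  · intro x u u'
    rcases u with a | a <;> rcases u' with b | b
    · exact patched_entry_eq hg inp Pt (fun n z => h₁₁ n z (.inl a) (.inl b)) x
    · exact patched_entry_zero hg inp Pt (fun n z => h₁₁ n z (.inl a) (.inr b)) x
    · exact patched_entry_zero hg inp Pt (fun n z => h₁₁ n z (.inr a) (.inl b)) x
    · exact patched_entry_eq hg inp Pt (fun n z => h₁₁ n z (.inr a) (.inr b)) x
  · exact fun x w u => patched_entry_zero hg inp Pt (fun n z => h₂₁ n z w u) x
  · exact (patched_rank_eq hg inp Pt iTop q).trans hrk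

end Setup

end FA.RT
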