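import Fermat.Agent.RT.Tame
import Fermat.Agent.TW.TangentClass
import Fermat.Agent.LocalDef.Defs
import Mathlib.LinearAlgebra.Matrix.ToLin

/-!
# Finitely many entries detecting framed local classes

At `p` four entries suffice by the tangent bound; at `q ≠ p` the entries at a Frobenius element and
at the tame generator suffice.
-/

set_option autoImplicit false

noncomputable section

open Matrix FA.LocalDef FA.TW

namespace FA.RT

local notation "Qb" => AlgebraicClosure ℚ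
local notation "GQ" => AlgebraicClosure ℚ ≃ₐ[ℚ] AlgebraicClosure ℚ

variable {k : Type} [Field k]

/-- A separating family of functionals contains `n` separating ones on a space of dimension at
most `n`. -/
theorem exists_separating {V ι : Type} [AddCommGroup V] [Module k V] [Nonempty ι]
    (φ : ι → V →ₗ[k] k) : ∀ (n : ℕ) (W : Submodule k V), FiniteDimensional k ↥W →
    Module.finrank k ↥W ≤ n → (∀ w ∈ W, (∀ i, φ i w = 0) → w = 0) →
    ∃ e : Fin n → ι, ∀ w ∈ W, (∀ i, φ (e i) w = 0) → w = 0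
  | 0, W, _, hn, _ => ⟨Fin.elim0, fun w hw _ => by
      have : W = ⊥ := Submodule.finrank_eq_zero.mp (Nat.le_zero.mp hn)
      rw [this, Submodule.mem_bot] at hw
      exact hw⟩
  | n + 1, W, hfin, hn, hsep => by
      classical
      by_cases hW : ∃ w ∈ W, w ≠ 0
      · obtain ⟨w, hw, hw0⟩ := hW
        obtain ⟨i, hi⟩ : ∃ i, φ i w ≠ 0 := by
          by_contra h
          exact hw0 (hsep w hw fun i => not_not.mp fun h' => h ⟨i, h'⟩)
        have hle : W ⊓ LinearMap.ker (φ i) ≤ W := inf_le_left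
        have hlt : Module.finrank k ↥(W ⊓ LinearMap.ker (φ i)) < Module.finrank k ↥W :=
          Submodule.finrank_lt_finrank_of_lt (lt_of_le_of_ne hle fun h =>
            hi (LinearMap.mem_ker.mp (h.symm ▸ hw : w ∈ W ⊓ LinearMap.ker (φ i)).2))
        obtain ⟨e, he⟩ := exists_separating φ n (W ⊓ LinearMap.ker (φ i))
          (Submodule.finiteDimensional_of_le hle) (by omega) fun v hv => hsep v hv.1
        refine ⟨Fin.cons i e, fun v hv h => he v ⟨hv, LinearMap.mem_ker.mpr ?_⟩ fun j => ?_⟩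
        · simpa using h 0
        · simpa using h j.succ
      · exact ⟨fun _ => Classical.arbitrary ι, fun w hw _ => not_not.mp fun h => hW ⟨w, hw, h⟩⟩

variable {p : ℕ} {A : ValuationSubring Qb}

/-- Classes in a space of dimension `n` containing the coboundaries are detected by `n` entries. -/
theorem exists_entries_le (r : GQ →* Matrix (Fin 2) (Fin 2) k) (h2 : (2 : k) ≠ 0) (n : ℕ)
    {C : (GQ → Matrix (Fin 2) (Fin 2) k) → Prop}
    (htb : ∃ Z : Submodule k (A.decompositionSubgroup ℚ → Matrix (Fin 2) (Fin 2) k),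
      FiniteDimensional k Z ∧ Module.finrank k Z ≤ n ∧
      (∀ X : Matrix (Fin 2) (Fin 2) k, X.trace = 0 →
        (fun σ : A.decompositionSubgroup ℚ => r σ * X * r σ.1⁻¹ - X) ∈ Z) ∧
      ∀ c : GQ → Matrix (Fin 2) (Fin 2) k, IsLocalCocycle A r c → C c →
        (fun σ : A.decompositionSubgroup ℚ => c σ) ∈ Z) :
    ∃ e : Fin n → GQ × Fin 2 × Fin 2, (∀ i, (e i).1 ∈ A.decompositionSubgroup ℚ) ∧
      ∀ c, IsLocalCocycle A r c → C c → ∀ X : Matrix (Fin 2) (Fin 2) k,
        (∀ i, ((c (e i).1 + X - r (e i).1 * X * r (e i).1⁻¹) * r (e i).1) (e i).2.1 (e i).2.2 = 0) →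
        ∀ σ ∈ A.decompositionSubgroup ℚ, c σ + X - r σ * X * r σ⁻¹ = 0 := by
  obtain ⟨Z, hfin, hdim, hcob, hcls⟩ := htb
  let φ : ↥(A.decompositionSubgroup ℚ) × Fin 2 × Fin 2 →
      ((↥(A.decompositionSubgroup ℚ) → Matrix (Fin 2) (Fin 2) k) →ₗ[k] k) := fun e =>
    { toFun := fun z => (z e.1 * r e.1) e.2.1 e.2.2
      map_add' := fun a b => by simp [Matrix.add_mul]
      map_smul' := fun a b => by simp }
  obtain ⟨e, he⟩ := exists_separating φ n Z hfin hdim fun w _ h => funext fun σ => by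
    have : w σ * r σ = 0 := Matrix.ext fun i j => h (σ, i, j)
    calc w σ = w σ * r σ * r σ.1⁻¹ := by rw [Matrix.mul_assoc, map_mul_map_inv, Matrix.mul_one]
      _ = 0 := by rw [this, Matrix.zero_mul]
  refine ⟨fun i => ((e i).1.1, (e i).2), fun i => (e i).1.2, fun c hc hC X hX σ hσ => ?_⟩
  let X₀ := X - (X.trace / 2) • (1 : Matrix (Fin 2) (Fin 2) k)
  have htr : X₀.trace = 0 := by
    simp only [X₀, Matrix.trace_sub, Matrix.trace_smul, Matrix.trace_one, Fintype.card_fin,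
      smul_eq_mul, Nat.cast_ofNat]
    rw [div_mul_cancel₀ _ h2, sub_self]
  have hX₀ : ∀ g, r g * X₀ * r g⁻¹ - X₀ = r g * X * r g⁻¹ - X := fun g => by
    simp only [X₀, Matrix.mul_sub, Matrix.sub_mul, Matrix.mul_smul, Matrix.smul_mul,
      Matrix.mul_one, map_mul_map_inv]
    abel
  let z : ↥(A.decompositionSubgroup ℚ) → Matrix (Fin 2) (Fin 2) k :=
    (fun σ : ↥(A.decompositionSubgroup ℚ) => c σ.1) -
      fun σ : ↥(A.decompositionSubgroup ℚ) => r σ.1 * X₀ * r σ.1⁻¹ - X₀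
  have hz : ∀ g : ↥(A.decompositionSubgroup ℚ), z g = c g + X - r g * X * r g.1⁻¹ := fun g => by
    show c g - (r g * X₀ * r g.1⁻¹ - X₀) = _
    rw [hX₀]
    abel
  have hzero : z = 0 := he z (sub_mem (hcls c hc hC) (hcob X₀ htr)) fun i => by
    show (z (e i).1 * r (e i).1) (e i).2.1 (e i).2.2 = 0
    rw [hz]
    exact hX i
  rw [← hz ⟨σ, hσ⟩, hzero]
  rfl

/-- **Four entries detect framed classes at `p`.** -/
theorem exists_entries (r : GQ →* Matrix (Fin 2) (Fin 2) k) (h2 : (2 : k) ≠ 0)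
    {C : (GQ → Matrix (Fin 2) (Fin 2) k) → Prop} (htb : TangentBound A r C) :
    ∃ e : Fin 4 → GQ × Fin 2 × Fin 2, (∀ i, (e i).1 ∈ A.decompositionSubgroup ℚ) ∧
      ∀ c, IsLocalCocycle A r c → C c → ∀ X : Matrix (Fin 2) (Fin 2) k,
        (∀ i, ((c (e i).1 + X - r (e i).1 * X * r (e i).1⁻¹) * r (e i).1) (e i).2.1 (e i).2.2 = 0) →
        ∀ σ ∈ A.decompositionSubgroup ℚ, c σ + X - r σ * X * r σ⁻¹ = 0 :=
  exists_entries_le r h2 4 htb

/-- The block matrices of a first order deformation. -/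
def blockRep (r : GQ →* Matrix (Fin 2) (Fin 2) k) (c : GQ → Matrix (Fin 2) (Fin 2) k)
    (hc : ∀ g h, c (g * h) = r g * c h * r g⁻¹ + c g) :
    GQ →* Matrix (Fin 2 ⊕ Fin 2) (Fin 2 ⊕ Fin 2) k :=
  { toFun := fun g => Matrix.fromBlocks (r g) 0 (c g * r g) (r g)
    map_one' := by
      have h1 : c 1 = 0 := by simpa using hc 1 1
      simp [h1]
    map_mul' := fun g h => by
      rw [Matrix.fromBlocks_multiply]
      simp only [map_mul, Matrix.mul_zero, Matrix.zero_mul, add_zero, zero_add]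
      congr 1
      rw [hc, Matrix.add_mul, Matrix.mul_assoc (r g * c h) (r g⁻¹), ← Matrix.mul_assoc (r g⁻¹),
        map_inv_mul_map, Matrix.one_mul, Matrix.mul_assoc, Matrix.mul_assoc]
      abel }

theorem fromBlocks_pow (M : Matrix (Fin 2) (Fin 2) k) (n : ℕ) :
    Matrix.fromBlocks M 0 0 M ^ n = Matrix.fromBlocks (M ^ n) 0 0 (M ^ n) := by
  induction n with
  | zero => simp [Matrix.fromBlocks_one]
  | succ n ih => rw [pow_succ, ih, Matrix.fromBlocks_multiply, pow_succ]; simp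

theorem fromBlocks_unipotent_pow (Y : Matrix (Fin 2) (Fin 2) k) (n : ℕ) :
    Matrix.fromBlocks (1 : Matrix (Fin 2) (Fin 2) k) 0 Y (1 : Matrix (Fin 2) (Fin 2) k) ^ n =
      Matrix.fromBlocks 1 0 ((n : k) • Y) 1 := by
  induction n with
  | zero => simp [Matrix.fromBlocks_one]
  | succ n ih =>
    rw [pow_succ, ih, Matrix.fromBlocks_multiply]
    simp [add_smul]

/-- **Frobenius and the tame generator detect framed classes at `q ≠ p`.** -/
theorem eq_zero_of_frobenius_gen [CharP k p] {q : ℕ} (hq : q.Prime) (hA : A.LiesOverPrime q)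
    (r : GQ →* Matrix (Fin 2) (Fin 2) k) (hr : IsOpen (r.ker : Set GQ))
    (hP : ∀ σ ∈ A.inertiaSubgroupIn ℚ, ∃ m : ℕ, r σ ^ p ^ m = 1) {φ : GQ}
    (hφ : A.IsFrobeniusAt φ q) {s : GQ}
    (hgen : ∀ (X : Type) [Monoid X] (f : GQ →* X),
      IsOpen (f.ker : Set GQ) → (∀ σ ∈ A.inertiaSubgroupIn ℚ, ∃ m : ℕ, f σ ^ p ^ m = 1) →
      ∀ σ ∈ A.inertiaSubgroupIn ℚ, ∃ i : ℕ, f σ = f s ^ i)
    (c : GQ → Matrix (Fin 2) (Fin 2) k) (hc : ∀ g h, c (g * h) = r g * c h * r g⁻¹ + c g)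
    {N : Subgroup GQ} (hN : IsOpen (N : Set GQ)) (hlc : ∀ g t, t ∈ N → c (g * t) = c g)
    (X : Matrix (Fin 2) (Fin 2) k)
    (hφ0 : (c φ + X - r φ * X * r φ⁻¹) * r φ = 0) (hs0 : (c s + X - r s * X * r s⁻¹) * r s = 0) :
    ∀ σ ∈ A.decompositionSubgroup ℚ, c σ + X - r σ * X * r σ⁻¹ = 0 := by
  let c' : GQ → Matrix (Fin 2) (Fin 2) k := fun g => c g + X - r g * X * r g⁻¹
  have hc' : ∀ g h, c' (g * h) = r g * c' h * r g⁻¹ + c' g := fun g h => by
    simp only [c', hc, map_mul, _root_.mul_inv_rev, Matrix.mul_sub, Matrix.sub_mul, Matrix.mul_add,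
      Matrix.add_mul, Matrix.mul_assoc]
    abel
  let f := blockRep r c' hc'
  have hcN : ∀ t ∈ N, c t = 0 := fun t ht => by
    have h1 : c 1 = 0 := by simpa using hc 1 1
    have := hlc 1 t ht
    rwa [one_mul, h1] at this
  have hfker : IsOpen (f.ker : Set GQ) := by
    refine Subgroup.isOpen_mono (H₁ := r.ker ⊓ N) (fun t ht => ?_) (hr.inter hN)
    have h1 : r t = 1 := ht.1
    have h2 : r t⁻¹ = 1 := r.ker.inv_mem ht.1
    rw [MonoidHom.mem_ker]
    show Matrix.fromBlocks (r t) 0 (c' t * r t) (r t) = 1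
    simp only [c', h1, h2, hcN t ht.2, Matrix.one_mul, Matrix.mul_one, zero_add, sub_self]
    exact Matrix.fromBlocks_one
  have hfP : ∀ σ ∈ A.inertiaSubgroupIn ℚ, ∃ m : ℕ, f σ ^ p ^ m = 1 := fun σ hσ => by
    obtain ⟨m, hm⟩ := hP σ hσ
    refine ⟨m + 1, ?_⟩
    rw [pow_succ, pow_mul, ← map_pow]
    show Matrix.fromBlocks (r (σ ^ p ^ m)) 0 (c' (σ ^ p ^ m) * r (σ ^ p ^ m)) (r (σ ^ p ^ m)) ^ p = 1
    rw [map_pow, hm, fromBlocks_unipotent_pow, CharP.cast_eq_zero, zero_smul, Matrix.fromBlocks_one]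
  have hdiag : ∀ g, c' g * r g = 0 → f g = Matrix.fromBlocks (r g) 0 0 (r g) := fun g hg => by
    show Matrix.fromBlocks (r g) 0 (c' g * r g) (r g) = _
    rw [hg]
  intro σ hσ
  obtain ⟨i, j, hij⟩ := exists_eq_pow_mul_pow f hq hA hfker hφ (hgen _ f hfker hfP) hσ
  rw [hdiag φ hφ0, hdiag s hs0, fromBlocks_pow, fromBlocks_pow, Matrix.fromBlocks_multiply] at hij
  have h21 := congrArg Matrix.toBlocks₂₁ hij
  simp only [f, blockRep, MonoidHom.coe_mk, OneHom.coe_mk, Matrix.toBlocks_fromBlocks₂₁, Matrix.mul_zero,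
    Matrix.zero_mul, add_zero] at h21
  calc c σ + X - r σ * X * r σ⁻¹ = c' σ * r σ * r σ⁻¹ := by
        rw [Matrix.mul_assoc (c' σ), map_mul_map_inv, Matrix.mul_one]
    _ = 0 := by rw [h21, Matrix.zero_mul]

end FA.RT
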