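import Fermat.Agent.RT.UnionCurve

/-!
# The flat setting of a curve

A curve with good reduction at `p`, or multiplicative reduction with `p` dividing the valuation of
the discriminant, has a residual representation finite flat at `p`; the lifting problem with the
flat condition at `p`.
-/

set_option autoImplicit false
set_option linter.unusedSectionVars false

noncomputable section

open IsLocalRing Matrix WeierstrassCurve FA.EC FA.Frob FA.Deform FA.TW FA.LocalDef FA.Local FA.JTorsion

namespace FA.RT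

local notation "Qb" => AlgebraicClosure ℚ
local notation "GQ" => AlgebraicClosure ℚ ≃ₐ[ℚ] AlgebraicClosure ℚ
local notation "M2" => Matrix (Fin 2) (Fin 2)

variable {p : ℕ} [hp : Fact p.Prime] (W : WeierstrassCurve ℤ) [(ratCurve W).IsElliptic]
  {O : Type} [CommRing O] [IsDomain O] [IsDiscreteValuationRing O]
  [IsAdicComplete (maximalIdeal O) O] [Finite (ResidueField O)]
  (hp2 : p ≠ 2) (hpO : (p : O) ∈ maximalIdeal O) (ι : ℤ_[p] →+* O)
  (j : ZMod p →+* ResidueField O) (P : Places) (hΔ : W.Δ ≠ 0) (hW : W.IsSemistableModel)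
  (hfl : (p : ℤ) ∣ W.Δ → p ∣ padicValInt p W.Δ)

include hp2 hpO ι hΔ hW hfl in
omit [IsAdicComplete (maximalIdeal O) O] in
/-- The residual representation is finite flat at `p`. -/
theorem isFlatRes_mapRep_curveRep [Fintype (ResidueField O)] :
    IsFlatRes (P.place p) (mapRep j (curveRep p W)) := by
  classical
  by_cases hbad : (p : ℤ) ∣ W.Δ
  · exact isFlatRes_mapRep j
      (isFlatRes_curveRep_mult W hΔ hW hp2 hbad (hfl hbad) (P.liesOver p hp.out))
  · have : CharP (ResidueField O) p := (CharP.charP_iff_prime_eq_zero hp.out).mpr (by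
      rw [← map_natCast (residue O), residue_eq_zero_iff]; exact hpO)
    obtain ⟨r, hr⟩ := exists_ellipticPoint hΔ hW hp2 ι hpO
    exact isFlatRes_of_models (π := residue O) (O := O) rfl residue_surjective
      (ofMatrix r hr.cont) (Pi.basisFun O (Fin 2)) (by rw [matrixOf_ofMatrix]; exact hr.residual j)
      (P.place p) (fun I hI _ => hasModel_of_isFlatAt _ (P.liesOver p hp.out) (hr.flat hbad) I hI)

include hp2 hpO ι hΔ hW hfl in
omit [IsAdicComplete (maximalIdeal O) O] in
theorem tangentBound_flatCurve :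
    TangentBound (P.place p) (mapRep j (curveRep p W)) (CpFlat W j P) := by
  classical
  let _ : Fintype (ResidueField O) := Fintype.ofFinite _
  have : CharP (ResidueField O) p := (CharP.charP_iff_prime_eq_zero hp.out).mpr (by
    rw [← map_natCast (residue O), residue_eq_zero_iff]; exact hpO)
  obtain ⟨Z, h1, h2, h3, h4⟩ := tangentBound_flat hp2 (P.liesOver p hp.out) _
    (fun σ _ a ha => det_mapRep_curveRep W j σ a ha)
    (isFlatRes_mapRep_curveRep W hp2 hpO ι j P hΔ hW hfl)
  refine ⟨Z, h1, h2, h3, fun c hc h => h4 c hc ?_⟩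
  unfold CpFlat at h
  convert h using 1

variable (Sig : Finset ℕ) (hSig : ∀ q ∈ Sig, q.Prime ∧ q ≠ p)

/-- **The lifting problem with the flat condition at `p`.** -/
def flatCurveSetup : Setup O :=
  Setup.ofBound hp.out hp2 hpO (mapRep j (curveRep p W)) (isOpen_ker_mapRep_curveRep W j)
    (fun σ => ι (cycP p σ : ℤ_[p])) (cycP_spec ι) P Sig hSig
    (fun q hq _ hσ => unipotent_mapRep_curveRep W j hΔ hW q (hSig q hq).1 (hSig q hq).2
      (P.liesOver q (hSig q hq).1) hσ)
    (CpFlat W j P) (tangentBound_flatCurve W hp2 hpO ι j P hΔ hW hfl)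

local notation "SF" => flatCurveSetup W hp2 hpO ι j P hΔ hW hfl Sig hSig

instance : Fact ((SF).m = 4) := ⟨rfl⟩

/-- The cyclotomic values at Frobenius. -/
theorem flatCurveSetup_cyc_frob (q : ↥(SF).Sig) : (SF).cyc ((SF).Φ q) = (q.1 : O) := by
  show ι (cycP p ((SF).Φ q) : ℤ_[p]) = _
  rw [cycP_frobenius p (hSig q.1 q.2).1 (hSig q.1 q.2).2 (P.liesOver _ (hSig q.1 q.2).1)
    ((SF).Φ_spec q), map_natCast]

/-- The cyclotomic values on inertia. -/
theorem flatCurveSetup_cyc_tame (q : ↥(SF).Sig) : (SF).cyc ((SF).tame q) = 1 := by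
  show ι (cycP p ((SF).tame q) : ℤ_[p]) = _
  rw [cycP_inertia p (hSig q.1 q.2).1 (hSig q.1 q.2).2 (P.liesOver _ (hSig q.1 q.2).1)
    ((SF).tame_mem q), Units.val_one, map_one]

/-- Outside the primes of the problem the residual representation is unramified. -/
theorem flatCurveSetup_unr (hall : ∀ q : ℕ, q.Prime → (q : ℤ) ∣ W.Δ → q = p ∨ q ∈ Sig) (q : ℕ)
    (hq : q.Prime) (hqT : q ∉ (SF).T) (A : ValuationSubring Qb) (hA : A.LiesOverPrime q) (σ : GQ)
    (hσ : σ ∈ A.inertiaSubgroupIn ℚ) : (SF).rb σ = 1 :=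
  curveSetup_unr W hp2 hpO ι j P hΔ hW Sig hSig hall q hq hqT A hA σ hσ

/-- The residual representation spans. -/
theorem flatCurveSetup_span (hirr : W.ModRepIsIrreducible p) :
    Submodule.span (ResidueField O) (Set.range (SF).rb) = ⊤ :=
  curveSetup_span W hp2 hpO ι j P hΔ hW Sig hSig hirr

/-- Frames exist. -/
theorem flatCurveSetup_frame (hirr : W.ModRepIsIrreducible p) :
    (∃ F : Frame O, F.Adapted (SF).rb) ∧ ∃ σ, (SF).rb σ 0 1 ≠ 0 :=
  curveSetup_frame W hp2 hpO ι j P hΔ hW Sig hSig hirr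

/-- The flat condition passes to carried algebras. -/
theorem flatCurveSetup_atP (S' : PointSet (SF).rb (SF).cyc) (M : S'.Model)
    (h : ∀ i, AtFlat p (S'.B i) (S'.r i)) (t : ↥(tangent M.π O)) :
    (SF).Cp (tgVal M.rR (SF).rb t) := by
  classical
  let _ : Fintype (ResidueField O) := Fintype.ofFinite _
  have hA := P.liesOver p hp.out
  have hlift : mapRep M.π (matrixOf (ofMatrix M.rR M.cont) (Pi.basisFun M.R (Fin 2))) =
      mapRep j (curveRep p W) := by
    rw [matrixOf_ofMatrix]; exact M.lift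
  show CpFlat W j P _
  unfold CpFlat
  have hm := M.hasFlatModels hA fun i => (h i).2
  rcases eq_or_ne t 0 with rfl | ht
  · have hres := isFlatRes_of_models (O := O) M.π_algebraMap residue_surjective
      (ofMatrix M.rR M.cont) (Pi.basisFun M.R (Fin 2)) hlift (P.place p) hm
    have h0 : tgVal M.rR (SF).rb (0 : ↥(tangent M.π O)) = 0 := funext fun σ => by
      show (M.rR σ).map (fun _ => (0 : ResidueField O)) * _ = 0
      rw [show (M.rR σ).map (fun _ => (0 : ResidueField O)) = 0 from Matrix.ext fun _ _ => rfl,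
        Matrix.zero_mul]
    rw [h0]
    exact isFlatClass_zero hres
  · have := isFlatClass_tgVal (O := O) M.π_algebraMap residue_surjective (ofMatrix M.rR M.cont)
      (Pi.basisFun M.R (Fin 2)) hlift (P.place p) hm ht
    rw [matrixOf_ofMatrix] at this
    exact this

/-- **Taylor–Wiles sets for a curve.** -/
theorem flatCurveSetup_twSets (hirr : W.ModRepIsIrreducible p)
    (hall : ∀ q : ℕ, q.Prime → (q : ℤ) ∣ W.Δ → q = p ∨ q ∈ Sig)
    (GW : GreenbergWiles P (SF).T (adRep (SF).rb) (twRep (SF).rb) complexConjugation)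
    (S₀ : Finset ℕ) :
    ∃ r : ℕ, ∀ n : ℕ, ∃ D : (SF).TWSet r n,
      Function.Injective D.qv ∧ ∀ i, D.qv i ∉ (SF).T ∧ D.qv i ∉ S₀ := by
  let a := algebraMap (ResidueField O) (AlgebraicClosure (ResidueField O))
  refine (SF).exists_twSets (fun σ b hb => det_mapRep_curveRep W j σ b hb)
    (flatCurveSetup_unr W hp2 hpO ι j P hΔ hW hfl Sig hSig hall) a ?_ GW S₀
  have : mapRep a (SF).rb = mapRep (a.comp j) (curveRep p W) := rfl
  rw [this]
  exact isBig_curveRep W hΔ hW hp2 hirr (a.comp j)

end FA.RT
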