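import Fermat.Agent.RT.Selmer
import Fermat.Agent.TW.Core
import Fermat.Agent.Patch.Surject
import Fermat.Agent.Patch.LevelData

/-!
# Generators of framed deformation rings

The framed ring is `R⟦Z⟧`, the variables `Z` being the entries of frames `β v` at the places of
`T` except one diagonal entry. Chosen entries of `β v ρ σ (β v)⁻¹`, completed by `g` further
elements, generate it, where `g + 2 = #T + r` for `r` the number of Taylor–Wiles primes.
-/

set_option autoImplicit false

noncomputable section

open IsLocalRing Matrix FA.Deform FA.LocalDef FA.TW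

namespace FA.RT

local notation "Qb" => AlgebraicClosure ℚ
local notation "GQ" => AlgebraicClosure ℚ ≃ₐ[ℚ] AlgebraicClosure ℚ

variable (T : Finset ℕ) (v₀ : ℕ)

/-- The frame variables. -/
abbrev FrameVar : Type := {x : ↥T × Fin 2 × Fin 2 // ¬ (x.1.1 = v₀ ∧ x.2.1 = 0 ∧ x.2.2 = 0)}

variable {T v₀} (R : Type) [CommRing R]

/-- The universal frame at a place. -/
def frame (v : ↥T) : Matrix (Fin 2) (Fin 2) (MvPowerSeries (FrameVar T v₀) R) :=
  1 + Matrix.of fun i j =>
    if h : ¬ (v.1 = v₀ ∧ i = 0 ∧ j = 0) then MvPowerSeries.X ⟨(v, i, j), h⟩ else 0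

variable {R}

theorem constantCoeff_frame (v : ↥T) :
    (frame (v₀ := v₀) R v).map MvPowerSeries.constantCoeff = 1 := by
  refine Matrix.ext fun i j => ?_
  simp only [frame, Matrix.map_apply, Matrix.add_apply, Matrix.of_apply, map_add]
  rcases eq_or_ne i j with rfl | hne <;> split_ifs <;> simp [*, Matrix.one_apply]

theorem isUnit_det_frame (v : ↥T) : IsUnit (frame (v₀ := v₀) R v).det := by
  rw [MvPowerSeries.isUnit_iff_constantCoeff, RingHom.map_det, RingHom.mapMatrix_apply,
    constantCoeff_frame, Matrix.det_one]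
  exact isUnit_one

/-- The conjugate of a matrix by the frame. -/
def framed (v : ↥T) (M : Matrix (Fin 2) (Fin 2) R) :
    Matrix (Fin 2) (Fin 2) (MvPowerSeries (FrameVar T v₀) R) :=
  frame R v * M.map MvPowerSeries.C * (frame R v)⁻¹

variable {k : Type} [Field k] (π : R →+* k)

/-- Reduction of the framed ring. -/
abbrev framedRed : MvPowerSeries (FrameVar T v₀) R →+* k :=
  π.comp MvPowerSeries.constantCoeff

theorem map_frame_red (v : ↥T) : (frame (v₀ := v₀) R v).map (framedRed (T := T) (v₀ := v₀) π) = 1 := by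
  rw [show ⇑(framedRed (T := T) (v₀ := v₀) π) = π ∘ MvPowerSeries.constantCoeff from rfl,
    ← Matrix.map_map, constantCoeff_frame]
  exact Matrix.map_one π (map_zero π) (map_one π)

theorem map_inv_frame_red (v : ↥T) :
    ((frame (v₀ := v₀) R v)⁻¹).map (framedRed (T := T) (v₀ := v₀) π) = 1 := by
  have h := congrArg (fun M => M.map (framedRed (T := T) (v₀ := v₀) π))
    (Matrix.mul_nonsing_inv (frame (v₀ := v₀) R v) (isUnit_det_frame v))
  rw [Matrix.map_mul, map_frame_red, Matrix.one_mul] at h
  rw [h]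
  exact Matrix.map_one _ (map_zero _) (map_one _)

theorem map_framed_red (v : ↥T) (M : Matrix (Fin 2) (Fin 2) R) :
    (framed (v₀ := v₀) v M).map (framedRed (T := T) (v₀ := v₀) π) = M.map π := by
  rw [framed, Matrix.map_mul, Matrix.map_mul, map_frame_red, map_inv_frame_red, Matrix.one_mul,
    Matrix.mul_one, Matrix.map_map]
  exact Matrix.ext fun i j => by simp

variable {O : Type} [CommRing O] [Algebra O R]

/-- Restriction of tangent vectors to the coefficient ring. -/
def restrictC : ↥(tangent (framedRed (T := T) (v₀ := v₀) π) O) →ₗ[k] ↥(tangent π O) where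
  toFun d := ⟨fun x => d.1 (MvPowerSeries.C x),
    fun x y => by beta_reduce; rw [map_add, d.2.1],
    fun x y => by simp [d.2.2.1],
    fun c => by
      have h := d.2.2.2 c
      rwa [MvPowerSeries.algebraMap_apply] at h⟩
  map_add' _ _ := rfl
  map_smul' _ _ := rfl

/-- The derivative of the frames. -/
def frameValue (v : ↥T) :
    ↥(tangent (framedRed (T := T) (v₀ := v₀) π) O) →ₗ[k] Matrix (Fin 2) (Fin 2) k where
  toFun d := (frame R v).map d.1
  map_add' _ _ := rfl
  map_smul' _ _ := rfl

theorem map_one_tangent (d : ↥(tangent (framedRed (T := T) (v₀ := v₀) π) O)) :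
    (1 : Matrix (Fin 2) (Fin 2) (MvPowerSeries (FrameVar T v₀) R)).map d.1 = 0 := by
  refine Matrix.ext fun i j => ?_
  have h1 : d.1 1 = 0 := by
    rw [← map_one (algebraMap O (MvPowerSeries (FrameVar T v₀) R)), d.2.2.2]
  have h0 : d.1 0 = 0 := by
    rw [← map_zero (algebraMap O (MvPowerSeries (FrameVar T v₀) R)), d.2.2.2]
  rcases eq_or_ne i j with rfl | hne <;> simp [*]

/-- Applying a tangent vector entrywise is a derivation. -/
theorem map_mul_tangent {A : Type} [CommRing A] [Algebra O A] {ρ : A →+* k}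
    (d : ↥(tangent ρ O)) (X Y : Matrix (Fin 2) (Fin 2) A) :
    (X * Y).map d.1 = X.map ρ * Y.map d.1 + X.map d.1 * Y.map ρ := by
  ext i j
  simp only [Matrix.map_apply, Matrix.mul_apply, Matrix.add_apply, Fin.sum_univ_two, d.2.1, d.2.2.1]
  ring

/-- The derivative of a conjugate. -/
theorem map_framed_tangent (d : ↥(tangent (framedRed (T := T) (v₀ := v₀) π) O)) (v : ↥T)
    (M : Matrix (Fin 2) (Fin 2) R) :
    (framed v M).map d.1 =
      frameValue π v d * M.map π + M.map (restrictC π d).1 - M.map π * frameValue π v d := by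
  have hinv : ((frame (v₀ := v₀) R v)⁻¹).map d.1 = - frameValue π v d := by
    have h := congrArg (fun N => N.map d.1)
      (Matrix.mul_nonsing_inv (frame (v₀ := v₀) R v) (isUnit_det_frame v))
    rw [map_mul_tangent, map_one_tangent, map_frame_red, map_inv_frame_red, Matrix.one_mul,
      Matrix.mul_one] at h
    exact eq_neg_of_add_eq_zero_left h
  have hC : (M.map (MvPowerSeries.C (σ := FrameVar T v₀))).map
      (framedRed (T := T) (v₀ := v₀) π) = M.map π := by
    rw [Matrix.map_map]
    exact Matrix.ext fun i j => by simp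
  rw [framed, map_mul_tangent, map_mul_tangent, Matrix.map_mul, hinv, map_frame_red,
    map_inv_frame_red, Matrix.one_mul, Matrix.one_mul, Matrix.mul_one, hC, Matrix.mul_neg,
    show (M.map (MvPowerSeries.C (σ := FrameVar T v₀))).map d.1 = M.map (restrictC π d).1 from
      Matrix.map_map]
  rw [show (frame R v).map d.1 = frameValue π v d from rfl]
  abel

variable [IsLocalRing R] (hsurj : Function.Surjective π)

include hsurj in
/-- A tangent vector is determined by its restriction and the derivatives of the frames. -/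
theorem eq_zero_of_restrict (d : ↥(tangent (framedRed (T := T) (v₀ := v₀) π) O))
    (hC : restrictC π d = 0) (hb : ∀ v, frameValue π v d = 0) : d = 0 := by
  classical
  have : Fintype (FrameVar T v₀) := Fintype.ofFinite _
  have hred : Function.Surjective (framedRed (T := T) (v₀ := v₀) π) := fun a => by
    obtain ⟨x, rfl⟩ := hsurj a
    exact ⟨MvPowerSeries.C x, by simp⟩
  have hC0 : ∀ x, d.1 (MvPowerSeries.C x) = 0 := fun x => congrFun (congrArg Subtype.val hC) x
  have hX0 : ∀ z, d.1 (MvPowerSeries.X z) = 0 := by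
    rintro ⟨⟨v, i, j⟩, hz⟩
    have h := congrFun (congrFun (hb v) i) j
    simp only [frameValue, LinearMap.coe_mk, AddHom.coe_mk, frame, Matrix.map_apply,
      Matrix.add_apply, Matrix.of_apply, Matrix.zero_apply] at h
    rw [dif_pos (by simpa using hz), d.2.1] at h
    have h1 : d.1 ((1 : Matrix (Fin 2) (Fin 2) (MvPowerSeries (FrameVar T v₀) R)) i j) = 0 :=
      congrFun (congrFun (map_one_tangent π d) i) j
    rwa [h1, zero_add] at h
  refine Subtype.ext (funext fun f => ?_)
  let lin : MvPowerSeries (FrameVar T v₀) R := MvPowerSeries.C (MvPowerSeries.constantCoeff f) +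
    ∑ z, MvPowerSeries.C (MvPowerSeries.coeff (Finsupp.single z 1) f) * MvPowerSeries.X z
  have h2 : f - lin ∈ maximalIdeal (MvPowerSeries (FrameVar T v₀) R) ^ 2 := by
    refine Ideal.pow_right_mono FA.Patch.span_X_le_maximalIdeal 2
      (FA.Patch.mem_span_X_pow fun x hx => ?_)
    rcases Nat.lt_succ_iff.mp hx |>.lt_or_eq with h | h
    · obtain rfl := (Finsupp.degree_eq_zero_iff x).mp (Nat.lt_one_iff.mp h)
      simp [lin, MvPowerSeries.coeff_zero_eq_constantCoeff_apply, map_sum]
    · obtain ⟨z, rfl⟩ : ∃ z, x = Finsupp.single z 1 := by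
        have hne : x ≠ 0 := by rintro rfl; simp at h
        obtain ⟨z, hz⟩ := Finsupp.support_nonempty_iff.mpr hne
        refine ⟨z, ?_⟩
        have hz1 : 1 ≤ x z := Nat.one_le_iff_ne_zero.mpr (Finsupp.mem_support_iff.mp hz)
        have hle : Finsupp.single z 1 ≤ x := Finsupp.single_le_iff.mpr hz1
        obtain ⟨y, rfl⟩ := le_iff_exists_add.mp hle
        rw [map_add, Finsupp.degree_single, add_eq_left, Finsupp.degree_eq_zero_iff] at h
        rw [h, add_zero]
      simp [lin, map_sum, MvPowerSeries.coeff_C, MvPowerSeries.coeff_C_mul,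
        MvPowerSeries.coeff_X, Finsupp.single_eq_single_iff, Finsupp.single_eq_zero]
  have h3 := tangent_eq_zero_of_pow_two hred d h2
  have h4 : d.1 lin = 0 := by
    simp only [lin, d.2.1, hC0, zero_add]
    rw [← tangentHom_apply d, map_sum]
    refine Finset.sum_eq_zero fun z _ => ?_
    rw [tangentHom_apply, d.2.2.1, hC0, hX0]
    simp
  have := d.2.1 (f - lin) lin
  rw [sub_add_cancel, h3, h4, add_zero] at this
  exact this

section Bound

omit [IsLocalRing R] in
/-- The dimension of a subspace from an image and an injective map on the kernel. -/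
theorem finrank_le_of_map {V V' : Type} [AddCommGroup V] [Module k V] [AddCommGroup V']
    [Module k V'] {U : Type} [AddCommGroup U] [Module k U] [FiniteDimensional k U]
    (K : Submodule k V) (f : V →ₗ[k] V') (hfin : FiniteDimensional k ↥(K.map f))
    (g : ↥(K ⊓ LinearMap.ker f) →ₗ[k] U) (hg : Function.Injective g) :
    FiniteDimensional k ↥K ∧
      Module.finrank k ↥K ≤ Module.finrank k ↥(K.map f) + Module.finrank k U := by
  have : FiniteDimensional k ↥(K ⊓ LinearMap.ker f) := Module.Finite.of_injective g hg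
  let φ := f.domRestrict K
  have hker : LinearMap.ker φ = (K ⊓ LinearMap.ker f).comap K.subtype := by
    ext x; simp [φ]
  have : FiniteDimensional k ↥(LinearMap.ker φ) := by
    rw [hker]
    exact Module.Finite.equiv (Submodule.comapSubtypeEquivOfLe inf_le_left).symm
  have hrange : LinearMap.range φ = K.map f := LinearMap.range_domRestrict K f
  have : FiniteDimensional k (↥K ⧸ LinearMap.ker φ) :=
    Module.Finite.equiv ((LinearEquiv.ofEq _ _ hrange.symm).trans φ.quotKerEquivRange.symm)
  have hK : FiniteDimensional k ↥K := Module.Finite.of_submodule_quotient (LinearMap.ker φ)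
  refine ⟨hK, ?_⟩
  rw [← LinearMap.finrank_range_add_finrank_ker φ, hrange, hker,
    (Submodule.comapSubtypeEquivOfLe (inf_le_left : K ⊓ LinearMap.ker f ≤ K)).finrank_eq]
  exact Nat.add_le_add_left (LinearMap.finrank_le_finrank_of_injective hg) _

variable [Algebra O k] (hπ : π.comp (algebraMap O R) = algebraMap O k)
  {rR : GQ →* Matrix (Fin 2) (Fin 2) R} {rb : GQ →* Matrix (Fin 2) (Fin 2) k}
  (hlift : mapRep π rR = rb) {p : ℕ} (hp : algebraMap O k p = 0)
  (hdet : ∀ σ, ∃ (a : ℕ) (y : R), (rR σ).det = a + p * y) (P : Places)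
  (Sel : ↥T → Set (GQ × Fin 2 × Fin 2))
  (hdetect : ∀ (v : ↥T) (d : ↥(tangent π O)) (X : Matrix (Fin 2) (Fin 2) k),
    (∀ e ∈ Sel v,
      ((tgVal rR rb d e.1 + X - rb e.1 * X * rb e.1⁻¹) * rb e.1) e.2.1 e.2.2 = 0) →
      ∀ σ ∈ P.dec v.1, tgVal rR rb d σ + X - rb σ * X * rb σ⁻¹ = 0)
  {r : ℕ}
  (hbound : ∀ (W : Type) [AddCommGroup W] [Module k W] (κ : W →ₗ[k] (GQ → ↥(sl2 k))),
    (∀ t, ∃ e : ↥(tangent π O), κ t = tgClass hπ hlift p hp hdet e ∧
      ∀ v : ↥T, ∃ m : ↥(sl2 k), ∀ σ ∈ P.dec v.1, κ t σ = adRep rb σ m - m) →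
    (∀ t m, (∀ g, κ t g = adRep rb g m - m) → t = 0) →
    FiniteDimensional k W ∧ Module.finrank k W + 1 +
      ∑ q ∈ T, Module.finrank k
        ↥(Representation.invariants ((adRep rb).comp (P.dec q).subtype)) ≤ r)
  (hinj : ∀ (d : ↥(tangent π O)) (m : ↥(sl2 k)),
    (∀ σ, tgClass hπ hlift p hp hdet d σ = adRep rb σ m - m) → d = 0)
  (hv₀ : v₀ ∈ T) (h2 : (2 : k) ≠ 0)

/-- Tangent vectors killing the chosen conjugates. -/
def localKernel : Submodule k ↥(tangent (framedRed (T := T) (v₀ := v₀) π) O) where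
  carrier := {d | ∀ v : ↥T, ∀ e ∈ Sel v, d.1 (framed v (rR e.1) e.2.1 e.2.2) = 0}
  zero_mem' _ _ _ := rfl
  add_mem' {d d'} hd hd' v e he := by
    show d.1 _ + d'.1 _ = 0
    rw [hd v e he, hd' v e he, add_zero]
  smul_mem' c d hd v e he := by
    show c * d.1 _ = 0
    rw [hd v e he, mul_zero]

include hdetect in
omit [IsLocalRing R] in
set_option maxHeartbeats 800000 in
-- nested submodules of tangent spaces
theorem local_relation (hlift' : mapRep π rR = rb)
    (d : ↥(localKernel (T := T) (v₀ := v₀) π (O := O) (rR := rR) Sel)) (v : ↥T) :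
    ∀ σ ∈ P.dec v.1, tgVal rR rb (restrictC π d.1) σ + frameValue π v d.1 -
      rb σ * frameValue π v d.1 * rb σ⁻¹ = 0 := by
  have hrel : ∀ σ : GQ, (tgVal rR rb (restrictC π d.1) σ + frameValue π v d.1 -
      rb σ * frameValue π v d.1 * rb σ⁻¹) * rb σ = (framed v (rR σ)).map d.1.1 := by
    intro σ
    rw [map_framed_tangent, ← tgVal_mul_rb rR rb (restrictC π d.1) σ,
      show (rR σ).map π = rb σ by rw [← hlift']; rfl, Matrix.sub_mul, Matrix.add_mul,
      Matrix.mul_assoc _ (rb σ⁻¹), map_inv_mul_map, Matrix.mul_one, add_comm]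
  refine hdetect v (restrictC π d.1) (frameValue π v d.1) fun e he => ?_
  rw [hrel e.1, Matrix.map_apply]
  exact d.2 v e he

include hπ hlift hp hdet hdetect hbound hinj hv₀ h2 hsurj in
set_option synthInstance.maxHeartbeats 400000 in
set_option maxHeartbeats 2000000 in
-- nested submodules of tangent spaces
/-- **The tangent bound for the framed ring.** -/
theorem finrank_localKernel_le :
    FiniteDimensional k ↥(localKernel (T := T) (v₀ := v₀) π (O := O) (rR := rR) Sel) ∧
      Module.finrank k ↥(localKernel (T := T) (v₀ := v₀) π (O := O) (rR := rR) Sel) + 2 ≤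
        r + T.card := by
  classical
  let K := localKernel (T := T) (v₀ := v₀) π (O := O) (rR := rR) Sel
  let h0 : ℕ → ℕ := fun q =>
    Module.finrank k ↥(Representation.invariants ((adRep rb).comp (P.dec q).subtype))
  let half : Matrix (Fin 2) (Fin 2) k →ₗ[k] ↥(sl2 k) :=
    LinearMap.codRestrict (sl2 k)
      (LinearMap.id - (LinearMap.smulRight (Matrix.traceLinearMap (Fin 2) k k)
        ((2 : k)⁻¹ • (1 : Matrix (Fin 2) (Fin 2) k)))) fun X => by
      rw [mem_sl2]
      simp only [LinearMap.sub_apply, LinearMap.id_apply, LinearMap.smulRight_apply,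
        Matrix.traceLinearMap_apply, Matrix.trace_sub, Matrix.trace_smul, Matrix.trace_one,
        Fintype.card_fin, smul_eq_mul]
      push_cast
      field_simp
      ring
  have hhalf : ∀ X, (half X).1 = X - X.trace • ((2 : k)⁻¹ • (1 : Matrix (Fin 2) (Fin 2) k)) :=
    fun X => rfl
  have hconj : ∀ (g : GQ) (X : Matrix (Fin 2) (Fin 2) k),
      (adRep rb g (half X)).1 - (half X).1 = rb g * X * rb g⁻¹ - X := by
    intro g X
    rw [coe_adRep, hhalf, Matrix.mul_sub, Matrix.sub_mul, Matrix.mul_smul, Matrix.mul_smul,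
      Matrix.smul_mul, Matrix.smul_mul, Matrix.mul_one, map_mul_map_inv]
    abel
  have hrel : ∀ (d : ↥K) (v : ↥T), ∀ σ ∈ P.dec v.1,
      tgClass hπ hlift p hp hdet (restrictC π d.1) σ =
        adRep rb σ (half (frameValue π v d.1)) - half (frameValue π v d.1) := fun d v σ hσ =>
    Subtype.ext (by
      rw [coe_tgClass, Submodule.coe_sub, hconj]
      exact eq_sub_of_add_eq (sub_eq_zero.mp (local_relation π P Sel hdetect hlift d v σ hσ)))
  -- the image in the tangent space of the coefficient ring
  obtain ⟨hWfin, hW⟩ := hbound ↥(K.map (restrictC π))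
    ((tgClass hπ hlift p hp hdet).comp (K.map (restrictC π)).subtype)
    (fun t => ⟨t.1, rfl, fun v => by
      obtain ⟨d, hd, hdt⟩ := t.2
      exact ⟨half (frameValue π v d), fun σ hσ => by
        show tgClass hπ hlift p hp hdet t.1 σ = _
        rw [← hdt]
        exact hrel ⟨d, hd⟩ v σ hσ⟩⟩)
    (fun t m hm => Subtype.ext (hinj t.1 m fun σ => hm σ))
  -- the vectors restricting to zero
  let v0 : ↥T := ⟨v₀, hv₀⟩
  let key : ↥(K ⊓ LinearMap.ker (restrictC (O := O) (T := T) (v₀ := v₀) π)) →ₗ[k]
      ((v : ↥T) → ↥(Representation.invariants ((adRep rb).comp (P.dec v.1).subtype))) ×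
        ({v : ↥T // v ≠ v0} → k) :=
    LinearMap.prod
      (LinearMap.pi fun v => LinearMap.codRestrict _
        ((half.comp (frameValue π v)).comp (Submodule.subtype _))
        fun d => by
          intro σ
          have h := hrel ⟨d.1, d.2.1⟩ v σ.1 σ.2
          rw [show restrictC π d.1 = 0 from LinearMap.mem_ker.mp d.2.2, map_zero] at h
          exact sub_eq_zero.mp h.symm)
      (LinearMap.pi fun v => ((Matrix.traceLinearMap (Fin 2) k k).comp (frameValue π v.1)).comp
        (Submodule.subtype _))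
  have hkey : ∀ d, key d = 0 → d = 0 := by
    intro d hd
    obtain ⟨hd1, hd2⟩ := Prod.ext_iff.mp hd
    refine Subtype.ext (eq_zero_of_restrict π hsurj d.1
      (LinearMap.mem_ker.mp d.2.2) fun v => ?_)
    have hh : half (frameValue π v d.1) = 0 := congrArg Subtype.val (congrFun hd1 v)
    have hh' : frameValue π v d.1 =
        (frameValue π v d.1).trace • ((2 : k)⁻¹ • (1 : Matrix (Fin 2) (Fin 2) k)) :=
      sub_eq_zero.mp ((hhalf _).symm.trans (congrArg Subtype.val hh))
    by_cases hv : v = v0
    · subst hv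
      have h00 : frameValue π v0 d.1 0 0 = 0 := by
        show d.1.1 (frame R v0 0 0) = 0
        have : frame (v₀ := v₀) R v0 0 0 = 1 := by simp [frame, v0]
        rw [this, ← map_one (algebraMap O (MvPowerSeries (FrameVar T v₀) R)), d.1.2.2.2]
      have h := congrFun (congrFun hh' 0) 0
      simp only [h00, Matrix.smul_apply, Matrix.one_apply_eq, smul_eq_mul, mul_one] at h
      rcases mul_eq_zero.mp h.symm with h | h
      · rw [hh', h, zero_smul]
      · exact absurd (inv_eq_zero.mp h) h2
    · have : (frameValue π v d.1).trace = 0 := congrFun hd2 ⟨v, hv⟩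
      rw [hh', this, zero_smul]
  obtain ⟨hKfin, hK⟩ := finrank_le_of_map K (restrictC π) hWfin key fun a b h => by
    refine sub_eq_zero.mp (hkey (a - b) ?_)
    exact (LinearMap.map_sub key a b).trans (sub_eq_zero.mpr h)
  rw [Module.finrank_prod, Module.finrank_pi_fintype, Module.finrank_fintype_fun_eq_card,
    Fintype.card_subtype_compl, Fintype.card_coe, Fintype.card_subtype_eq] at hK
  refine ⟨hKfin, ?_⟩
  have hsum : ∑ x : ↥T, Module.finrank k
      ↥(Representation.invariants ((adRep rb).comp (P.dec x.1).subtype)) = ∑ q ∈ T, h0 q :=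
    Finset.sum_coe_sort T h0
  rw [hsum] at hK
  change _ + _ + ∑ q ∈ T, h0 q ≤ r at hW
  have hT1 : 1 ≤ T.card := Finset.card_pos.mpr ⟨v₀, hv₀⟩
  show Module.finrank k ↥K + 2 ≤ _
  omega

end Bound

end FA.RT
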