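import Fermat.Agent.RT.Framed
import Fermat.Agent.TW.Core

/-!
# Presentations of framed deformation rings

The chosen entries of the framed representation at the places of `T`, completed by `g` further
elements with `g + 2 = r + #T`, generate the framed deformation ring.
-/

set_option autoImplicit false

noncomputable section

open IsLocalRing FA.Deform FA.LocalDef FA.TW

namespace FA.RT

local notation "Qb" => AlgebraicClosure ℚ
local notation "GQ" => AlgebraicClosure ℚ ≃ₐ[ℚ] AlgebraicClosure ℚ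

variable {O : Type} [CommRing O] [IsDomain O] [IsDiscreteValuationRing O]
  [IsAdicComplete (maximalIdeal O) O] [Finite (ResidueField O)]

variable {T : Finset ℕ} {v₀ : ℕ} {R : Type} [CommRing R] [IsLocalRing R] [Algebra O R]

/-- The local coordinates: framed entries minus constant lifts. -/
def localCoord (rR : GQ →* Matrix (Fin 2) (Fin 2) R) {m : ℕ}
    (ent : Fin m → ↥T × GQ × Fin 2 × Fin 2) (c : Fin m → O) (i : Fin m) :
    MvPowerSeries (FrameVar T v₀) R :=
  framed (v₀ := v₀) (ent i).1 (rR (ent i).2.1) (ent i).2.2.1 (ent i).2.2.2 -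
    algebraMap O (MvPowerSeries (FrameVar T v₀) R) (c i)

/-- **Generators of the framed ring.** -/
theorem exists_framed_generators [IsAdicComplete (maximalIdeal R) R]
    {π : R →+* ResidueField O} (hπ : π.comp (algebraMap O R) = algebraMap O (ResidueField O))
    (hsurj : Function.Surjective π)
    {rR : GQ →* Matrix (Fin 2) (Fin 2) R} {rb : GQ →* Matrix (Fin 2) (Fin 2) (ResidueField O)}
    (hlift : mapRep π rR = rb) {p : ℕ} [Fact p.Prime] [CharP (ResidueField O) p] (hp2 : p ≠ 2)
    (hp : algebraMap O (ResidueField O) p = 0)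
    (hdet : ∀ σ, ∃ (a : ℕ) (y : R), (rR σ).det = a + p * y)
    (hcont : IsContRep rR) (P : Places) (Q : Finset ℕ)
    (hunr : ∀ q : ℕ, q.Prime → q ∉ T ∪ Q → ∀ A : ValuationSubring Qb, A.LiesOverPrime q →
      ∀ σ ∈ A.inertiaSubgroupIn ℚ, rR σ = 1)
    {m : ℕ} (ent : Fin m → ↥T × GQ × Fin 2 × Fin 2) (c : Fin m → O)
    (hc : ∀ i, residue O (c i) = rb (ent i).2.1 (ent i).2.2.1 (ent i).2.2.2)
    (hdetect : ∀ (v : ↥T) (d : ↥(tangent π O)) (X : Matrix (Fin 2) (Fin 2) (ResidueField O)),
      (∀ i, (ent i).1 = v → ((tgVal rR rb d (ent i).2.1 + X -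
          rb (ent i).2.1 * X * rb (ent i).2.1⁻¹) * rb (ent i).2.1) (ent i).2.2.1 (ent i).2.2.2 = 0) →
        ∀ σ ∈ P.dec v.1, tgVal rR rb d σ + X - rb σ * X * rb σ⁻¹ = 0)
    {r : ℕ}
    (hbound : ∀ (W : Type) [AddCommGroup W] [Module (ResidueField O) W]
        (κ : W →ₗ[ResidueField O] (GQ → ↥(sl2 (ResidueField O)))),
      (∀ t, IsLocallyTrivial rb P T (T ∪ Q) (κ t)) →
      (∀ t v, (∀ g, κ t g = adRep rb g v - v) → t = 0) →
      FiniteDimensional (ResidueField O) W ∧ Module.finrank (ResidueField O) W + 1 +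
        ∑ q ∈ T, Module.finrank (ResidueField O)
          ↥(Representation.invariants ((adRep rb).comp (P.dec q).subtype)) ≤ r)
    (hinj : ∀ (d : ↥(tangent π O)) (v : ↥(sl2 (ResidueField O))),
      (∀ σ, tgClass hπ hlift p hp hdet d σ = adRep rb σ v - v) → d = 0)
    (hv₀ : v₀ ∈ T) {g : ℕ} (hg : g + 2 = r + T.card) :
    ∃ x : Fin g → MvPowerSeries (FrameVar T v₀) R,
      ∃ hx : ∀ i, Fin.append (localCoord (v₀ := v₀) rR ent c) x i ∈
          maximalIdeal (MvPowerSeries (FrameVar T v₀) R),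
        Function.Surjective (FA.Patch.evalHom (maximalIdeal (MvPowerSeries (FrameVar T v₀) R))
          (algebraMap O (MvPowerSeries (FrameVar T v₀) R))
          (Fin.append (localCoord (v₀ := v₀) rR ent c) x) hx :
            MvPowerSeries (Fin (m + g)) O →+* MvPowerSeries (FrameVar T v₀) R) := by
  classical
  have h2 : (2 : ResidueField O) ≠ 0 := fun h0 =>
    hp2 ((Nat.prime_dvd_prime_iff_eq Fact.out Nat.prime_two).mp
      ((CharP.cast_eq_zero_iff (ResidueField O) p 2).mp (by exact_mod_cast h0)))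
  let πF := framedRed (T := T) (v₀ := v₀) π
  have hπF : πF.comp (algebraMap O (MvPowerSeries (FrameVar T v₀) R)) =
      algebraMap O (ResidueField O) := by
    refine RingHom.ext fun a => ?_
    rw [← hπ]
    simp [πF, framedRed, MvPowerSeries.algebraMap_apply]
  let Sel : ↥T → Set (GQ × Fin 2 × Fin 2) := fun v => {e | ∃ i, (ent i).1 = v ∧ (ent i).2 = e}
  have hdetect' : ∀ (v : ↥T) (d : ↥(tangent π O)) (X : Matrix (Fin 2) (Fin 2) (ResidueField O)),
      (∀ e ∈ Sel v,
        ((tgVal rR rb d e.1 + X - rb e.1 * X * rb e.1⁻¹) * rb e.1) e.2.1 e.2.2 = 0) →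
        ∀ σ ∈ P.dec v.1, tgVal rR rb d σ + X - rb σ * X * rb σ⁻¹ = 0 := fun v d X h =>
    hdetect v d X fun i hi => h _ ⟨i, hi, rfl⟩
  have hW : ∀ (W : Type) [AddCommGroup W] [Module (ResidueField O) W]
      (κ : W →ₗ[ResidueField O] (GQ → ↥(sl2 (ResidueField O)))),
      (∀ t, ∃ e : ↥(tangent π O), κ t = tgClass hπ hlift p hp hdet e ∧
        ∀ v : ↥T, ∃ n : ↥(sl2 (ResidueField O)), ∀ σ ∈ P.dec v.1, κ t σ = adRep rb σ n - n) →
      (∀ t n, (∀ g, κ t g = adRep rb g n - n) → t = 0) →
      FiniteDimensional (ResidueField O) W ∧ Module.finrank (ResidueField O) W + 1 +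
        ∑ q ∈ T, Module.finrank (ResidueField O)
          ↥(Representation.invariants ((adRep rb).comp (P.dec q).subtype)) ≤ r := by
    intro W _ _ κ hκ hκinj
    refine hbound W κ (fun t => ?_) hκinj
    obtain ⟨e, he, hloc⟩ := hκ t
    refine ⟨fun g h => ?_, ?_, fun q hq hqS A hA σ hσ => ?_, fun q hq => hloc ⟨q, hq⟩⟩
    · rw [he]; exact tgClass_mul hπ hlift p hp hdet e g h
    · rw [he]; exact tgClass_lc hπ hlift p hp hdet hsurj hcont e
    · rw [he]
      refine Subtype.ext ?_
      show tgVal rR rb e σ = 0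
      have h2 : (rR σ).map e.1 = 0 := by
        rw [hunr q hq hqS A hA σ hσ]
        refine Matrix.ext fun i l => ?_
        rcases eq_or_ne i l with rfl | hne
        · rw [Matrix.map_apply, Matrix.one_apply_eq, ← map_one (algebraMap O R), e.2.2.2]; rfl
        · rw [Matrix.map_apply, Matrix.one_apply_ne hne, ← map_zero (algebraMap O R), e.2.2.2]; rfl
      rw [tgVal, h2, Matrix.zero_mul]
  obtain ⟨hfin, hdim⟩ := finrank_localKernel_le (v₀ := v₀) π hsurj hπ hlift hp hdet P Sel hdetect'
    hW hinj hv₀ h2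
  have : Fintype (FrameVar T v₀) := Fintype.ofFinite _
  have hloc : ∀ i, localCoord (v₀ := v₀) rR ent c i ∈
      maximalIdeal (MvPowerSeries (FrameVar T v₀) R) := fun i => by
    have hs : Function.Surjective πF := fun a => by
      obtain ⟨y, rfl⟩ := hsurj a
      exact ⟨MvPowerSeries.C y, by simp [πF, framedRed]⟩
    rw [← ker_eq_maximalIdeal hs, RingHom.mem_ker, localCoord, map_sub, sub_eq_zero]
    rw [show πF (algebraMap O (MvPowerSeries (FrameVar T v₀) R) (c i)) = residue O (c i) from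
      RingHom.congr_fun hπF (c i), hc]
    have h := congrFun (congrFun (map_framed_red (v₀ := v₀) π (ent i).1 (rR (ent i).2.1))
      (ent i).2.2.1) (ent i).2.2.2
    rw [← hlift]
    exact h
  obtain ⟨ϖ, hϖ⟩ := IsDiscreteValuationRing.exists_irreducible O
  refine FA.Patch.exists_extra_generators πF (red := algebraMap O (ResidueField O))
    residue_surjective hπF
    (ϖ := ϖ) (by rw [show algebraMap O (ResidueField O) = residue O from rfl, ker_residue,
      hϖ.maximalIdeal_eq])
    (localCoord (v₀ := v₀) rR ent c) hloc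
    (localKernel (T := T) (v₀ := v₀) π (O := O) (rR := rR) Sel)
    (Nat.le_of_add_le_add_right (hdim.trans_eq hg.symm)) fun d hd => ?_
  rintro v ⟨σ, a, b⟩ ⟨i, rfl, hi⟩
  have h := hd i
  rw [localCoord, hi, ← tangentHom_apply, map_sub, tangentHom_apply, tangentHom_apply, d.2.2.2,
    sub_zero] at h
  exact h

end FA.RT
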