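import Fermat.Agent.RT.System
import Fermat.Agent.RT.HeckeAct
import Fermat.Agent.Density.BrauerNesbitt
import Fermat.Agent.RT.Coeff

/-!
# Level inputs from Hecke algebras with separating points

At one Taylor–Wiles set: for every level an algebra acting diamond equivariantly, with elements
`T ℓ` and diamond elements, and lifts of the residual representation separating it whose Frobenius
traces are the `T ℓ`, and at which inertia at the Taylor–Wiles primes on the chosen line is given by
the diamonds. Together with a family of lifts at the base these give a `LevelInput`.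
-/

set_option autoImplicit false

noncomputable section

open IsLocalRing Matrix FA.Deform FA.TW FA.LocalDef FA.Patch

namespace FA.RT

local notation "Qb" => AlgebraicClosure ℚ
local notation "GQ" => AlgebraicClosure ℚ ≃ₐ[ℚ] AlgebraicClosure ℚ
local notation "M₂" => Matrix (Fin 2) (Fin 2)

variable {O : Type} [CommRing O] [IsDomain O] [IsDiscreteValuationRing O]
  [IsAdicComplete (maximalIdeal O) O]

omit [IsAdicComplete (maximalIdeal O) O] in
/-- Homomorphisms out of a carried algebra are determined on the traces. -/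
theorem Carried.hom_ext {rb : GQ →* M₂ (ResidueField O)} {cyc : GQ → O} (C : Carried rb cyc)
    {A : Type} [Semiring A] [Algebra O A] {f f' : C.R →ₐ[O] A}
    (h : ∀ σ, f (C.rR σ).trace = f' (C.rR σ).trace) : f = f' := by
  refine AlgHom.ext fun x => ?_
  have hx : x ∈ Algebra.adjoin O (Set.range fun σ => (C.rR σ).trace) := by
    rw [C.generated]; exact Algebra.mem_top
  exact (Algebra.adjoin_le (S := AlgHom.equalizer f f') (by rintro _ ⟨σ, rfl⟩; exact h σ)) hx

/-- Characters of the diamond group agreeing on the generators are equal. -/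
theorem dGroup_hom_ext (p : ℕ) [NeZero p] {Y : Type} [Fintype Y] [DecidableEq Y] (e : Y → ℕ)
    {M : Type*} [CommMonoid M] {f f' : DGroup p e →* M} (h : ∀ i, f (dGen p e i) = f' (dGen p e i)) :
    f = f' := by
  refine MonoidHom.pi_ext fun i x => ?_
  obtain ⟨k, hk⟩ : ∃ k : ℕ, x = Multiplicative.ofAdd (1 : ZMod (p ^ e i)) ^ k :=
    ⟨(Multiplicative.toAdd x).val, by rw [← ofAdd_nsmul, nsmul_one, ZMod.natCast_zmod_val]; rfl⟩
  rw [hk, show (Pi.mulSingle i (Multiplicative.ofAdd (1 : ZMod (p ^ e i)) ^ k) : DGroup p e) =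
    dGen p e i ^ k from Pi.mulSingle_pow i _ k, map_pow, map_pow, h]

namespace Setup

variable {S : Setup O} {r n : ℕ}

/-- One level at one set of Taylor–Wiles primes: an algebra acting on a free module over the
diamond group ring, with separating lifts. -/
structure TWSet.LevelData (D : S.TWSet r n) (Good : ∀ (B : Type) [CommRing B] [IsLocalRing B]
    [Algebra O B], (GQ →* Matrix (Fin 2) (Fin 2) B) → Prop) (ab : Fin r → ResidueField O)
    (S₀ : Finset ℕ) (d : ℕ) where
  /-- the algebra -/
  A : Type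
  [commRing : CommRing A]
  [algebra : Algebra O A]
  /-- the Hecke elements -/
  T : ℕ → A
  /-- the diamond elements -/
  dia : haveI : NeZero S.p := ⟨S.hp.ne_zero⟩
    DGroup S.p D.expo →* A
  /-- the action -/
  act : haveI : NeZero S.p := ⟨S.hp.ne_zero⟩
    A →ₐ[O] Matrix (Fin d) (Fin d) (MonoidAlgebra O (DGroup S.p D.expo))
  act_dia : haveI : NeZero S.p := ⟨S.hp.ne_zero⟩
    ∀ a, act (dia a) = Matrix.scalar _ (MonoidAlgebra.single a 1)
  /-- the lifts -/
  pts : PointSet S.rb S.cyc
  /-- the values at the lifts -/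
  ev : A →ₐ[O] ∀ j, pts.B j
  ev_injective : Function.Injective ev
  good : ∀ j, Good (pts.B j) (pts.r j)
  ev_T : ∀ ℓ : ℕ, ℓ.Prime → ℓ ∉ S₀ → ∀ P : ValuationSubring Qb, P.LiesOverPrime ℓ →
    ∀ σ : GQ, P.IsFrobeniusAt σ ℓ → ∀ j, ev (T ℓ) j = (pts.r j σ).trace
  ev_dia : haveI : NeZero S.p := ⟨S.hp.ne_zero⟩
    ∀ (i : Fin r) (j : pts.J), ∃ a : pts.B j, pts.ε j a = ab i ∧
      a * a - (pts.r j (D.φ i)).trace * a + (pts.r j (D.φ i)).det = 0 ∧
      (2 * a - (pts.r j (D.φ i)).trace) * ev (dia (dGen S.p D.expo i)) j =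
        (pts.r j (D.φ i) * pts.r j (D.s i)).trace -
          ((pts.r j (D.φ i)).trace - a) * (pts.r j (D.s i)).trace

attribute [instance] TWSet.LevelData.commRing TWSet.LevelData.algebra

/-- The conditions required of every lift at a set of Taylor–Wiles primes: unramified outside it,
inertia of trace two at the places, and a condition at `p`. -/
def TWSet.Allowed (D : S.TWSet r n) (AtP : ∀ (B : Type) [CommRing B] [IsLocalRing B]
    [Algebra O B], (GQ →* Matrix (Fin 2) (Fin 2) B) → Prop)
    (B : Type) [CommRing B] [IsLocalRing B] [Algebra O B] (m : GQ →* M₂ B) : Prop :=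
  (∀ q : ℕ, q.Prime → q ∉ S.T ∪ Finset.univ.image D.qv →
    ∀ A : ValuationSubring Qb, A.LiesOverPrime q → ∀ σ ∈ A.inertiaSubgroupIn ℚ, m σ = 1) ∧
  (∀ q : ↥S.Sig, (m (S.tame q)).trace = 2) ∧ AtP B m

/-- The disjoint union of the base lifts and the lifts of the levels. -/
def TWSet.unionPoints {D : S.TWSet r n} {Good} {ab : Fin r → ResidueField O} {S₀ : Finset ℕ}
    {ι : Type} [Finite ι] {d : ι → ℕ} (P₀ : PointSet S.rb S.cyc)
    (L : ∀ i, D.LevelData Good ab S₀ (d i)) : PointSet S.rb S.cyc where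
  J := P₀.J ⊕ Σ i, (L i).pts.J
  B x := match x with
    | .inl j => P₀.B j
    | .inr y => (L y.1).pts.B y.2
  commRing x := match x with
    | .inl j => P₀.commRing j
    | .inr y => (L y.1).pts.commRing y.2
  isLocalRing x := match x with
    | .inl j => P₀.isLocalRing j
    | .inr y => (L y.1).pts.isLocalRing y.2
  algebra x := match x with
    | .inl j => P₀.algebra j
    | .inr y => (L y.1).pts.algebra y.2
  moduleFinite x := match x with
    | .inl j => P₀.moduleFinite j
    | .inr y => (L y.1).pts.moduleFinite y.2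
  moduleFree x := match x with
    | .inl j => P₀.moduleFree j
    | .inr y => (L y.1).pts.moduleFree y.2
  r x := match x with
    | .inl j => P₀.r j
    | .inr y => (L y.1).pts.r y.2
  ε x := match x with
    | .inl j => P₀.ε j
    | .inr y => (L y.1).pts.ε y.2
  ε_algebraMap x := match x with
    | .inl j => P₀.ε_algebraMap j
    | .inr y => (L y.1).pts.ε_algebraMap y.2
  lift x := match x with
    | .inl j => P₀.lift j
    | .inr y => (L y.1).pts.lift y.2
  cont x := match x with
    | .inl j => P₀.cont j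
    | .inr y => (L y.1).pts.cont y.2
  det x := match x with
    | .inl j => P₀.det j
    | .inr y => (L y.1).pts.det y.2

omit [IsAdicComplete (maximalIdeal O) O] in
/-- Where all lifts are trivial, so is the carried representation. -/
theorem rR_eq_one {P : PointSet S.rb S.cyc} (M : P.Model) {σ : GQ} (h : ∀ j, P.r j σ = 1) :
    M.rR σ = 1 := by
  have key : ∀ j, (M.rR σ).map (M.proj j) = 1 := fun j => by
    obtain ⟨U, hU, hUσ⟩ := M.proj_rR j
    refine hU.mul_right_cancel ?_
    rw [← hUσ, h j, mul_one, one_mul]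
  refine sub_eq_zero.mp (Matrix.ext fun a b => M.proj_injective _ fun j => ?_)
  rw [Matrix.sub_apply, map_sub,
    show M.proj j (M.rR σ a b) = (1 : M₂ (P.B j)) a b from congrFun (congrFun (key j) a) b]
  rcases eq_or_ne a b with rfl | hab <;> simp [*]

/-- The projections reduce to the reduction. -/
theorem eps_proj {P : PointSet S.rb S.cyc} (M : P.Model) (j : P.J) (x : M.R) :
    P.ε j (M.proj j x) = M.π x := by
  let e : P.B j →ₐ[O] ResidueField O := { P.ε j with commutes' := P.ε_algebraMap j }
  let π : M.R →ₐ[O] ResidueField O :=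
    { M.π with commutes' := fun c => RingHom.congr_fun M.π_algebraMap c }
  have h : e.comp (M.proj j) = π := M.toCarried.hom_ext fun σ => by
    show P.ε j (M.proj j (M.rR σ).trace) = M.π (M.rR σ).trace
    rw [M.proj_trace, AddMonoidHom.map_trace (P.ε j), AddMonoidHom.map_trace M.π]
    exact congrArg Matrix.trace
      ((DFunLike.congr_fun (P.lift j) σ).trans (DFunLike.congr_fun M.lift σ).symm)
  exact AlgHom.congr_fun h x

variable [Finite (ResidueField O)]

/-- **Level inputs from Hecke algebras with separating lifts.** -/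
theorem exists_levelInput (D : S.TWSet r n) {ι κ : Type} [Finite ι] {d : ι → ℕ} {src tgt : κ → ι}
    {P₀ : PointSet S.rb S.cyc} (M₀ : P₀.Model)
    (act₀ : ∀ i, M₀.R →ₐ[O] Matrix (Fin (d i)) (Fin (d i)) O)
    (F : Frame O) (hF : F.Adapted S.rb) (hup : ∃ σ, S.rb σ 0 1 ≠ 0)
    (hspan : Submodule.span (ResidueField O) (Set.range S.rb) = ⊤)
    (AtP : ∀ (B : Type) [CommRing B] [IsLocalRing B] [Algebra O B],
      (GQ →* Matrix (Fin 2) (Fin 2) B) → Prop)
    (hAtP : ∀ (P : PointSet S.rb S.cyc) (M : P.Model), (∀ j, AtP (P.B j) (P.r j)) →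
      ∀ t : ↥(tangent M.π O), S.Cp (tgVal M.rR S.rb t))
    (ab : Fin r → ResidueField O)
    (hab : ∀ i, ab i * ab i - (S.rb (D.φ i)).trace * ab i + (S.rb (D.φ i)).det = 0)
    (S₀ : Finset ℕ) (hS₀ : ∀ i, D.qv i ∈ S₀)
    (h₀ : ∀ j, D.Allowed AtP (P₀.B j) (P₀.r j))
    (h₀Q : ∀ i j, P₀.r j (D.s i) = 1)
    (L : ∀ i, D.LevelData (D.Allowed AtP) ab S₀ (d i))
    (maps : haveI : NeZero S.p := ⟨S.hp.ne_zero⟩
      ∀ t, Matrix (Fin (d (tgt t))) (Fin (d (src t))) (MonoidAlgebra O (DGroup S.p D.expo)))
    (hmaps : haveI : NeZero S.p := ⟨S.hp.ne_zero⟩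
      ∀ t ℓ, ℓ.Prime → ℓ ∉ S₀ →
        maps t * (L (src t)).act ((L (src t)).T ℓ) = (L (tgt t)).act ((L (tgt t)).T ℓ) * maps t)
    (hbase : haveI : NeZero S.p := ⟨S.hp.ne_zero⟩
      ∀ i, ∀ ℓ : ℕ, ℓ.Prime → ℓ ∉ S₀ → ∀ P : ValuationSubring Qb, P.LiesOverPrime ℓ →
        ∀ σ : GQ, P.IsFrobeniusAt σ ℓ → ((L i).act ((L i).T ℓ)).map
          (MonoidAlgebra.lift O O (DGroup S.p D.expo) 1) = act₀ i (M₀.rR σ).trace) :
    ∃ I : S.LevelInput M₀.toCarried d src tgt act₀ r n, I.D = D ∧
      (haveI : NeZero S.p := ⟨S.hp.ne_zero⟩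
        ∀ (t : κ) u v, HEq (I.maps t u v) (maps t u v)) ∧
      ∀ i, ∃ f : I.C.R →ₐ[O] (L i).A, (haveI : NeZero S.p := ⟨S.hp.ne_zero⟩
        ∀ x u v, HEq (I.act i x u v) ((L i).act (f x) u v)) ∧
        ∀ σ j, (L i).ev (f (I.C.rR σ).trace) j = ((L i).pts.r j σ).trace := by
  classical
  have : NeZero S.p := ⟨S.hp.ne_zero⟩
  let P := TWSet.unionPoints P₀ L
  have : Nonempty P.J := ⟨Sum.inl M₀.nonempty_points.some⟩
  obtain ⟨M⟩ := P.nonempty_model F hF hup
  have hgood : ∀ x, D.Allowed AtP (P.B x) (P.r x) := by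
    rintro (j | ⟨i, j⟩)
    · exact h₀ j
    · exact (L i).good j
  -- the lines at the Taylor–Wiles primes
  have : IsLocalHom M.π := IsLocalHom.of_surjective _ M.π_surjective
  have hu2 : ∀ i, IsUnit (2 * ab i - (S.rb (D.φ i)).trace) := fun i => by
    refine isUnit_iff_ne_zero.mpr fun h => D.regular i ?_
    linear_combination (2 * ab i - (S.rb (D.φ i)).trace) * h - 4 * hab i
  have hπtr : ∀ σ, M.π (M.rR σ).trace = (S.rb σ).trace := fun σ => by
    rw [AddMonoidHom.map_trace M.π]
    exact congrArg Matrix.trace (DFunLike.congr_fun M.lift σ)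
  have hπdet : ∀ σ, M.π (M.rR σ).det = (S.rb σ).det := fun σ => by
    rw [RingHom.map_det]
    exact congrArg Matrix.det (DFunLike.congr_fun M.lift σ)
  have hroot : ∀ i, ∃ α : M.R, M.π α = ab i ∧
      α * α - (M.rR (D.φ i)).trace * α + (M.rR (D.φ i)).det = 0 := fun i => by
    obtain ⟨a₀, ha₀⟩ := M.π_surjective (ab i)
    have hmem : ∀ x : M.R, M.π x = 0 → x ∈ maximalIdeal M.R := fun x hx =>
      (IsLocalRing.mem_maximalIdeal x).mpr fun hu => not_isUnit_zero (hx ▸ hu.map M.π)
    obtain ⟨α, hα, hα0⟩ := HenselianRing.is_henselian (I := maximalIdeal M.R)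
      (Polynomial.X ^ 2 - Polynomial.C (M.rR (D.φ i)).trace * Polynomial.X +
        Polynomial.C (M.rR (D.φ i)).det) (by monicity!) a₀
      (hmem _ (by simp [ha₀, hπtr, hπdet, ← hab i]; ring))
      (by
        refine IsUnit.map _ (isUnit_of_map_unit M.π _ ?_)
        simpa [ha₀, hπtr, map_ofNat, one_add_one_eq_two] using hu2 i)
    refine ⟨α, ?_, ?_⟩
    · rw [← sub_eq_zero, ← ha₀, ← map_sub]
      by_contra hne
      exact (IsLocalRing.mem_maximalIdeal _).mp hα0
        (isUnit_of_map_unit M.π _ (isUnit_iff_ne_zero.mpr hne))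
    · simp only [Polynomial.IsRoot, Polynomial.eval_add, Polynomial.eval_sub, Polynomial.eval_pow,
        Polynomial.eval_X, Polynomial.eval_mul, Polynomial.eval_C] at hα
      linear_combination hα
  choose α hαres hαroot using hroot
  have hπp : M.π (S.p : M.R) = 0 := by
    rw [map_natCast, ← map_natCast (residue O), residue_eq_zero_iff]
    exact S.hpO
  have hmem : ∀ x : M.R, M.π x = 0 → x ∈ maximalIdeal M.R := fun x hx =>
    (IsLocalRing.mem_maximalIdeal x).mpr fun hu => not_isUnit_zero (hx ▸ hu.map M.π)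
  have hline : ∀ i, ∃ l : TWLine M.rR (D.φ i) ((S.P.place (D.qv i)).inertiaSubgroupIn ℚ) (D.qv i),
      l.α = α i := fun i => by
    refine exists_twLine M.rR M.cont (hmem _ hπp) (A := S.P.place (D.qv i))
      (fun σ hσ a b => hmem _ ?_) S.hp (D.prime i).1 (D.prime i).2.symm
      (S.P.liesOver _ (D.prime i).1) ((dvd_pow_self S.p n.succ_ne_zero).trans (D.dvd i))
      (D.φ_spec i) (β := (M.rR (D.φ i)).trace - α i) ?_ (by ring)
      (by linear_combination hαroot i)
    · have h := congrFun (congrFun (DFunLike.congr_fun M.lift σ) a) b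
      simp only [mapRep, MonoidHom.coe_comp, Function.comp_apply, RingHom.toMonoidHom_eq_coe,
        MonoidHom.coe_coe, RingHom.mapMatrix_apply, Matrix.map_apply] at h
      rw [Matrix.sub_apply, map_sub, h, D.unramified i σ hσ]
      rcases eq_or_ne a b with rfl | hne <;> simp [*]
    · refine isUnit_of_map_unit M.π _ ?_
      have h2 := hu2 i
      rw [map_sub, map_sub, hαres, hπtr]
      rwa [show ab i - ((S.rb (D.φ i)).trace - ab i) = 2 * ab i - (S.rb (D.φ i)).trace by ring]
  choose line hlineα using hline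
  -- the restriction to the base
  obtain ⟨π, hπsurj, hπ⟩ := M.exists_restrict M₀ (S₀ := P₀) (fun j => Sum.inl j)
    (fun j => AlgHom.id O (P₀.B j)) fun j σ => rfl
  obtain ⟨U, hU, hUc⟩ : ∃ U : M₂ M₀.R, IsUnit U.det ∧
      ∀ σ, M₀.rR σ * U = U * (M.rR σ).map π := by
    refine FA.Density.exists_conj_of_trace_eq (mapRep π.toRingHom M.rR) M₀.rR ?_ fun σ => ?_
    · have : IsLocalHom M₀.π := IsLocalHom.of_surjective _ M₀.π_surjective
      refine FA.Density.span_range_eq_top_of_residue _ ?_
      have hk : RingHom.ker M₀.π = maximalIdeal M₀.R :=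
        eq_maximalIdeal (RingHom.ker_isMaximal_of_surjective _ M₀.π_surjective)
      let eb : ResidueField M₀.R ≃+* ResidueField O :=
        (Ideal.quotEquivOfEq hk.symm).trans (RingHom.quotientKerEquivOfSurjective M₀.π_surjective)
      have heb : ∀ x, eb (residue M₀.R x) = M₀.π x := fun x => rfl
      have hcomp : ∀ x, M₀.π (π x) = M.π x := by
        let π₀ : M₀.R →ₐ[O] ResidueField O :=
          { M₀.π with commutes' := fun c => RingHom.congr_fun M₀.π_algebraMap c }
        let π₁ : M.R →ₐ[O] ResidueField O :=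
          { M.π with commutes' := fun c => RingHom.congr_fun M.π_algebraMap c }
        have h : π₀.comp π = π₁ := M.toCarried.hom_ext fun σ => by
          show M₀.π (π (M.rR σ).trace) = M.π (M.rR σ).trace
          rw [hπ, hπtr, AddMonoidHom.map_trace M₀.π]
          exact congrArg Matrix.trace (DFunLike.congr_fun M₀.lift σ)
        exact fun x => AlgHom.congr_fun h x
      refine eq_top_iff.mpr fun X _ => ?_
      have hX : X.map eb ∈ Submodule.span (ResidueField O) (Set.range S.rb) := by rw [hspan]; trivial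
      obtain ⟨c, hc⟩ := (Finsupp.mem_span_range_iff_exists_finsupp).mp hX
      refine Finsupp.mem_span_range_iff_exists_finsupp.mpr ⟨c.mapRange eb.symm (map_zero _), ?_⟩
      refine Matrix.map_injective eb.injective ?_
      show _ = X.map eb
      rw [← hc, Finsupp.sum_mapRange_index (fun σ => by simp)]
      simp only [Finsupp.sum]
      show ((eb : ResidueField M₀.R →+* ResidueField O).mapMatrix) _ = _
      rw [map_sum]
      refine Finset.sum_congr rfl fun σ _ => Matrix.ext fun a b => ?_
      simp only [RingHom.mapMatrix_apply, Matrix.map_apply, Matrix.smul_apply, smul_eq_mul,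
        map_mul, RingHom.coe_coe, eb.apply_symm_apply]
      congr 1
      show eb (residue _ (π (M.rR σ a b))) = _
      rw [heb, hcomp]
      exact congrFun (congrFun (DFunLike.congr_fun M.lift σ) a) b
    · show ((M.rR σ).map π).trace = _
      rw [← AddMonoidHom.map_trace π, hπ]
  -- the actions
  choose f hfM using fun i => M.exists_hom_sub (fun j => (Sum.inr ⟨i, j⟩ : P.J)) (L i).ev
    (L i).ev_injective S₀ fun q hq hq0 Pl hP σ hσ =>
      ⟨(L i).T q, (L i).ev_T q hq hq0 Pl hP σ hσ⟩
  have hf : ∀ i σ j, (L i).ev (f i (M.rR σ).trace) j = ((L i).pts.r j σ).trace := fun i σ j =>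
    (hfM i _ j).trans (M.proj_trace (Sum.inr ⟨i, j⟩) σ)
  have hfT : ∀ i ℓ, ℓ.Prime → ℓ ∉ S₀ → ∀ P : ValuationSubring Qb, P.LiesOverPrime ℓ →
      ∀ σ : GQ, P.IsFrobeniusAt σ ℓ → f i (M.rR σ).trace = (L i).T ℓ :=
    fun i ℓ hℓ hℓ0 P hP σ hσ => (L i).ev_injective (funext fun j => by
      rw [hf, (L i).ev_T ℓ hℓ hℓ0 P hP σ hσ j])
  let act : ∀ i, M.R →ₐ[O] Matrix (Fin (d i)) (Fin (d i)) (MonoidAlgebra O (DGroup S.p D.expo)) :=
    fun i => (L i).act.comp (f i)
  -- values of a point at the line
  have hδ : ∀ i k, f i ((line k).ξ (D.s k)) = (L i).dia (dGen S.p D.expo k) := fun i k => by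
    refine (L i).ev_injective (funext fun j => ?_)
    obtain ⟨a, ha, haroot, hrel⟩ := (L i).ev_dia k j
    let p : M.R →ₐ[O] (L i).pts.B j := (Pi.evalAlgHom O _ j).comp ((L i).ev.comp (f i))
    show p ((line k).ξ (D.s k)) = _
    have hp : p = M.proj (Sum.inr ⟨i, j⟩) := M.toCarried.hom_ext fun σ => by
      show (L i).ev (f i (M.rR σ).trace) j = M.proj (Sum.inr ⟨i, j⟩) (M.rR σ).trace
      rw [hf]; exact (M.proj_trace (Sum.inr ⟨i, j⟩) σ).symm
    have hp2 : p (M.rR (D.φ k) * M.rR (D.s k)).trace =
        ((L i).pts.r j (D.φ k) * (L i).pts.r j (D.s k)).trace := by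
      rw [← map_mul, ← map_mul]; exact hf i _ j
    have hεp : ∀ x, (L i).pts.ε j (p x) = M.π x := fun x => by rw [hp]; exact eps_proj M (Sum.inr ⟨i, j⟩) x
    have hεu : ∀ z : (L i).pts.B j, (L i).pts.ε j z ≠ 0 → IsUnit z := fun z hz => by
      have hs : Function.Surjective ((L i).pts.ε j) := fun c => by
        obtain ⟨c', rfl⟩ := residue_surjective c
        exact ⟨algebraMap O _ c', (L i).pts.ε_algebraMap j c'⟩
      have := IsLocalHom.of_surjective _ hs
      exact isUnit_of_map_unit ((L i).pts.ε j) _ (isUnit_iff_ne_zero.mpr hz)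
    have hpa : p (line k).α = a := by
      rw [hlineα]
      refine sub_eq_zero.mp ((hεu (p (α k) + a - ((L i).pts.r j (D.φ k)).trace) ?_).mul_right_eq_zero.mp ?_)
      · rw [map_sub, map_add, hεp, hαres, ha, ← two_mul]
        have := congrArg Matrix.trace (DFunLike.congr_fun ((L i).pts.lift j) (D.φ k))
        rw [AddMonoidHom.map_trace ((L i).pts.ε j)]
        rw [show ((((L i).pts.r j) (D.φ k)).map ((L i).pts.ε j)).trace = (S.rb (D.φ k)).trace from this]
        exact (hu2 k).ne_zero
      · have h1 := congrArg p (hαroot k)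
        rw [map_add, map_sub, map_mul, map_mul, map_zero] at h1
        have hT : p (M.rR (D.φ k)).trace = ((L i).pts.r j (D.φ k)).trace := hf i _ j
        have hD : p (M.rR (D.φ k)).det = ((L i).pts.r j (D.φ k)).det := by
          rw [M.det, AlgHom.commutes, (L i).pts.det]
        rw [hT, hD] at h1
        linear_combination h1 - haroot
    have h2 : IsUnit (2 * a - ((L i).pts.r j (D.φ k)).trace) := hεu _ (by
      rw [map_sub, map_mul, map_ofNat, ha, AddMonoidHom.map_trace ((L i).pts.ε j)]
      rw [show ((((L i).pts.r j) (D.φ k)).map ((L i).pts.ε j)).trace = (S.rb (D.φ k)).trace from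
        congrArg Matrix.trace (DFunLike.congr_fun ((L i).pts.lift j) (D.φ k))]
      exact (hu2 k).ne_zero)
    refine h2.mul_left_cancel (Eq.trans ?_ hrel.symm)
    have h3 := congrArg p ((line k).trace_mul (D.s k))
    rw [map_add, map_mul, map_mul, map_sub, map_sub, hp2, hpa,
      show p (M.rR (D.φ k)).trace = ((L i).pts.r j (D.φ k)).trace from hf i _ j,
      show p (M.rR (D.s k)).trace = ((L i).pts.r j (D.s k)).trace from hf i _ j] at h3
    linear_combination -h3
  refine ⟨{
    D := D
    C := M.toCarried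
    L := line
    unr := fun q hq hqT A hA σ hσ => rR_eq_one M fun x => (hgood x).1 q hq hqT A hA σ hσ
    atP := hAtP P M fun x => (hgood x).2.2
    tame_trace := fun q => by
      refine sub_eq_zero.mp (M.proj_injective _ fun x => ?_)
      rw [map_sub, map_ofNat, M.proj_trace, (hgood x).2.1 q, sub_self]
    π := π
    π_surjective := hπsurj
    π_conj := ⟨U, (Matrix.isUnit_iff_isUnit_det U).mpr hU, fun σ => (hUc σ).symm⟩
    base_unr := fun i => rR_eq_one M₀ fun j => h₀Q i j
    act := act
    act_delta := fun i a => ?_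
    maps := maps
    intertwine := fun t x => ?_
    act_base := fun i x => ?_ }, rfl, fun t u v => HEq.rfl, fun i => ⟨f i, fun x u v => HEq.rfl, hf i⟩⟩
  · show (L i).act (f i (TWSet.delta line a)) = _
    rw [← (L i).act_dia a]
    refine congrArg (L i).act ?_
    exact DFunLike.congr_fun (dGroup_hom_ext S.p D.expo
      (f := (f i).toMonoidHom.comp (TWSet.delta line)) (f' := (L i).dia) fun k => by
        show f i (TWSet.delta line (dGen S.p D.expo k)) = _
        rw [TWSet.delta, dHom_gen]
        exact hδ i k) a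
  · let N : Subalgebra O M.R :=
      { carrier := {x | maps t * act (src t) x = act (tgt t) x * maps t}
        mul_mem' := fun {a b} ha hb => by
          simp only [Set.mem_ofPred_eq] at *
          rw [map_mul, map_mul, ← Matrix.mul_assoc, ha, Matrix.mul_assoc, hb, Matrix.mul_assoc]
        add_mem' := fun {a b} ha hb => by
          simp only [Set.mem_ofPred_eq] at *
          rw [map_add, map_add, Matrix.mul_add, Matrix.add_mul, ha, hb]
        algebraMap_mem' := fun c => by
          simp only [Set.mem_ofPred_eq]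
          rw [AlgHom.commutes, AlgHom.commutes, Algebra.algebraMap_eq_smul_one,
            Algebra.algebraMap_eq_smul_one, Matrix.mul_smul, Matrix.smul_mul, Matrix.mul_one,
            Matrix.one_mul] }
    have hN : N = ⊤ := M.eq_top_of_frobenius N S₀ fun q hq hq0 P hP σ hσ k => by
      rw [map_pow]
      refine trace_pow_mem N _ ?_ ?_ k
      · show maps t * act (src t) _ = _
        show maps t * (L (src t)).act (f (src t) _) = (L (tgt t)).act (f (tgt t) _) * maps t
        rw [hfT _ q hq hq0 P hP σ hσ, hfT _ q hq hq0 P hP σ hσ]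
        exact hmaps t q hq hq0
      · rw [M.det]; exact N.algebraMap_mem _
    exact (hN ▸ Algebra.mem_top : x ∈ N)
  · let g₁ : M.R →ₐ[O] Matrix (Fin (d i)) (Fin (d i)) O :=
      (MonoidAlgebra.lift O O (DGroup S.p D.expo) 1).mapMatrix.comp (act i)
    have hN : AlgHom.equalizer g₁ ((act₀ i).comp π) = ⊤ :=
      M.eq_top_of_frobenius _ S₀ fun q hq hq0 P hP σ hσ k => by
        rw [map_pow]
        refine trace_pow_mem _ _ ?_ ?_ k
        · rw [AlgHom.mem_equalizer]
          show ((L i).act (f i (M.rR σ).trace)).map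
            (MonoidAlgebra.lift O O (DGroup S.p D.expo) 1) = act₀ i (π (M.rR σ).trace)
          rw [hfT i q hq hq0 P hP σ hσ, hπ]
          exact hbase i q hq hq0 P hP σ hσ
        · rw [M.det]; exact Subalgebra.algebraMap_mem _ _
    exact (hN ▸ Algebra.mem_top : x ∈ AlgHom.equalizer g₁ ((act₀ i).comp π))

end Setup

end FA.RT
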