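import Fermat.Agent.RT.LevelBuild
import Fermat.Agent.LocalComp.Comp

/-!
# The local relations at a level

The coordinates of a carried algebra satisfy the relations of the local components, and the type
conditions follow from conditions on traces.
-/

set_option autoImplicit false

noncomputable section

open IsLocalRing Matrix FA.Deform FA.TW FA.LocalDef FA.Patch

namespace FA.RT

local notation "Qb" => AlgebraicClosure ℚ
local notation "GQ" => AlgebraicClosure ℚ ≃ₐ[ℚ] AlgebraicClosure ℚ

/-- For a nilpotent `N` with `F N = q N F`, the trace of `F` determines `F N`. -/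
theorem mul_eq_of_trace {A : Type} [CommRing A] {F N : Matrix (Fin 2) (Fin 2) A} {q s : A}
    (htN : N.trace = 0) (hrel : F * N = q • (N * F)) (htr : F.trace = s * (q + 1))
    (h1 : ∀ x : A, (q - 1) * x = 0 → x = 0) (h2 : ∀ x : A, (q + 1) * x = 0 → x = 0) :
    F * N = (s * q) • N := by
  have ht : (F * N).trace = 0 := by
    refine h1 _ ?_
    have := congrArg Matrix.trace hrel
    rw [Matrix.trace_smul, Matrix.trace_mul_comm N, smul_eq_mul] at this
    linear_combination -this
  have hsum : F * N + N * F = F.trace • N := by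
    rw [Matrix.trace_fin_two] at htN ht
    rw [Matrix.mul_apply, Matrix.mul_apply, Fin.sum_univ_two, Fin.sum_univ_two] at ht
    refine Matrix.ext fun i j => ?_
    fin_cases i <;> fin_cases j <;>
      simp [Matrix.mul_apply, Fin.sum_univ_two, Matrix.trace_fin_two]
    · linear_combination ht - F 1 1 * htN
    · linear_combination (F 0 1) * htN
    · linear_combination (F 1 0) * htN
    · linear_combination ht - F 0 0 * htN
  refine Matrix.ext fun i j => sub_eq_zero.mp (h2 _ ?_)
  have e1 := congrFun (congrFun hsum i) j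
  have e2 := congrFun (congrFun hrel i) j
  simp only [Matrix.add_apply, Matrix.smul_apply, smul_eq_mul, htr] at e1 e2 ⊢
  linear_combination q * e1 + e2

theorem map_matrix_smul {A B : Type} [CommRing A] [CommRing B] (f : A →+* B) (a : A)
    (M : Matrix (Fin 2) (Fin 2) A) : f.mapMatrix (a • M) = f a • f.mapMatrix M :=
  Matrix.ext fun i j => by simp

variable {O : Type} [CommRing O] [IsDomain O] [IsDiscreteValuationRing O]
  [IsAdicComplete (maximalIdeal O) O]

namespace Setup

variable (S : Setup O)

/-- The local data of the components. -/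
def localData : FA.LocalComp.LocalData ↥S.Sig O where
  qv q := q.1
  phi0 q := S.lift (S.Φ q)
  sig0 q := S.lift (S.tame q)

omit [IsAdicComplete (maximalIdeal O) O] in
/-- The tame relation over a carried algebra. -/
theorem tame_mul (C : Carried S.rb S.cyc) (q : ↥S.Sig) :
    C.rR (S.Φ q) * C.rR (S.tame q) = C.rR (S.tame q) ^ q.1 * C.rR (S.Φ q) := by
  have hq := S.prime_Sig q.1 q.2
  have hA := S.P.liesOver q.1 hq.1
  have : IsLocalHom C.π := IsLocalHom.of_surjective _ C.π_surjective
  have hmem : ∀ x : C.R, C.π x = 0 → x ∈ maximalIdeal C.R := fun x hx =>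
    (IsLocalRing.mem_maximalIdeal x).mpr fun hu => not_isUnit_zero (hx ▸ hu.map C.π)
  have hpR : (S.p : C.R) ∈ maximalIdeal C.R := hmem _ (by
    rw [map_natCast, ← map_natCast (residue O), residue_eq_zero_iff]
    exact S.hpO)
  refine Matrix.ext fun i j => ?_
  rw [← sub_eq_zero]
  refine IsHausdorff.haus (inferInstance : IsHausdorff (maximalIdeal C.R) C.R) _ fun n => ?_
  rw [SModEq.zero, smul_eq_mul, Ideal.mul_top]
  let f := mapRep (Ideal.Quotient.mk (maximalIdeal C.R ^ n)) C.rR
  have hfo : IsOpen (f.ker : Set GQ) := by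
    obtain ⟨L, hL, hn⟩ := C.cont n
    refine Subgroup.isOpen_mono (H₁ := L.fixingSubgroup) (fun σ hσ => ?_)
      (IntermediateField.fixingSubgroup_isOpen L)
    refine MonoidHom.mem_ker.mpr (Matrix.ext fun a b => ?_)
    have h := Ideal.Quotient.eq_zero_iff_mem.mpr
      (hn σ ((IntermediateField.mem_fixingSubgroup_iff L σ).mp hσ) a b)
    rw [Matrix.sub_apply, map_sub, sub_eq_zero] at h
    show Ideal.Quotient.mk _ (C.rR σ a b) = _
    rw [h]
    rcases eq_or_ne a b with rfl | hne <;> simp [*]
  have hfP : ∀ σ ∈ (S.P.place q.1).inertiaSubgroupIn ℚ, ∃ m : ℕ, f σ ^ S.p ^ m = 1 := by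
    intro σ hσ
    obtain ⟨m, hm⟩ := S.unipotent q.1 q.2 σ hσ
    have hB : ∀ a b, (C.rR σ ^ S.p ^ m - 1) a b ∈ maximalIdeal C.R := fun a b => hmem _ (by
      have h : C.π (C.rR (σ ^ S.p ^ m) a b) = S.rb (σ ^ S.p ^ m) a b :=
        congrFun (congrFun (DFunLike.congr_fun C.lift (σ ^ S.p ^ m)) a) b
      rw [map_pow S.rb, hm, map_pow C.rR] at h
      rw [Matrix.sub_apply, map_sub, h]
      rcases eq_or_ne a b with rfl | hne <;> simp [*])
    refine ⟨m + n, ?_⟩
    show (Ideal.Quotient.mk (maximalIdeal C.R ^ n)).mapMatrix (C.rR σ) ^ S.p ^ (m + n) = 1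
    rw [pow_add, pow_mul, ← map_pow, ← map_pow]
    refine Matrix.ext fun a b => ?_
    have h := Ideal.Quotient.eq_zero_iff_mem.mpr (Ideal.pow_le_pow_right n.le_succ
      (pow_sub_one_mem hpR hB n a b))
    rw [Matrix.sub_apply, map_sub, sub_eq_zero] at h
    rw [RingHom.mapMatrix_apply, Matrix.map_apply, h]
    rcases eq_or_ne a b with rfl | hne <;> simp [*]
  have h := tame_relation f S.hp hq.1 hq.2.symm hA hfo hfP (S.Φ_spec q) (S.tame_mem q)
  have h' : (Ideal.Quotient.mk (maximalIdeal C.R ^ n)).mapMatrix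
        (C.rR (S.Φ q) * C.rR (S.tame q)) =
      (Ideal.Quotient.mk (maximalIdeal C.R ^ n)).mapMatrix
        (C.rR (S.tame q) ^ q.1 * C.rR (S.Φ q)) := by
    rw [map_mul, map_mul, map_pow]
    exact h
  rw [← Ideal.Quotient.eq_zero_iff_mem, map_sub, sub_eq_zero]
  exact congrFun (congrFun h' i) j

variable (C : Carried S.rb S.cyc) {g : ℕ}
  (x : Fin g → MvPowerSeries (FrameVar S.T S.p) C.R)
  (hx : ∀ l, S.vals C x l ∈ maximalIdeal (MvPowerSeries (FrameVar S.T S.p) C.R))

/-- The evaluation of the coordinates. -/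
abbrev evalVals : MvPowerSeries (S.Var g) O →+* MvPowerSeries (FrameVar S.T S.p) C.R :=
  evalHom (maximalIdeal (MvPowerSeries (FrameVar S.T S.p) C.R))
    ((MvPowerSeries.C (σ := FrameVar S.T S.p)).comp (algebraMap O C.R)) (S.vals C x) hx
    (σ := S.Var g)

/-- The place of a prime of `Sig`. -/
def atT (q : ↥S.Sig) : ↥S.T := ⟨q.1, Finset.mem_insert_of_mem q.2⟩

omit [IsAdicComplete (maximalIdeal O) O] in
theorem map_phi (q : ↥S.Sig) :
    (S.localData.phi (ρ := Fin S.m ⊕ Fin g) q).map (S.evalVals C x hx) =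
      framed (v₀ := S.p) (S.atT q) (C.rR (S.Φ q)) := by
  refine Matrix.ext fun i j => ?_
  simp only [FA.LocalComp.LocalData.phi, Matrix.map_apply, Matrix.of_apply, map_add, evalVals,
    evalHom_C, evalHom_X]
  simp [localData, vals, coord, entry, atT, MvPowerSeries.algebraMap_apply]

omit [IsAdicComplete (maximalIdeal O) O] in
theorem map_sig (q : ↥S.Sig) :
    (S.localData.sig (ρ := Fin S.m ⊕ Fin g) q).map (S.evalVals C x hx) =
      framed (v₀ := S.p) (S.atT q) (C.rR (S.tame q)) := by
  refine Matrix.ext fun i j => ?_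
  simp only [FA.LocalComp.LocalData.sig, Matrix.map_apply, Matrix.of_apply, map_add, evalVals,
    evalHom_C, evalHom_X]
  simp [localData, vals, coord, entry, atT, MvPowerSeries.algebraMap_apply]

/-- Conjugation by a frame as a homomorphism. -/
def framedHom (v : ↥S.T) : Matrix (Fin 2) (Fin 2) C.R →+*
    Matrix (Fin 2) (Fin 2) (MvPowerSeries (FrameVar S.T S.p) C.R) where
  toFun := framed (v₀ := S.p) v
  map_one' := by
    simp [framed, Matrix.map_one, Matrix.mul_nonsing_inv _ (isUnit_det_frame v)]
  map_zero' := by simp [framed]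
  map_mul' M N := by
    simp only [framed, Matrix.map_mul, Matrix.mul_assoc]
    rw [Matrix.nonsing_inv_mul_cancel_left _ _ (isUnit_det_frame v)]
  map_add' M N := by
    simp [framed, Matrix.map_add, Matrix.mul_add, Matrix.add_mul]

omit [IsAdicComplete (maximalIdeal O) O] in
theorem trace_framed (v : ↥S.T) (M : Matrix (Fin 2) (Fin 2) C.R) :
    (framed (v₀ := S.p) v M).trace = MvPowerSeries.C M.trace := by
  rw [framed, Matrix.trace_mul_cycle, Matrix.nonsing_inv_mul _ (isUnit_det_frame v),
    Matrix.one_mul, AddMonoidHom.map_trace]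

omit [IsAdicComplete (maximalIdeal O) O] in
theorem det_framed (v : ↥S.T) (M : Matrix (Fin 2) (Fin 2) C.R) :
    (framed (v₀ := S.p) v M).det = MvPowerSeries.C M.det := by
  rw [framed, Matrix.det_mul, Matrix.det_mul, mul_right_comm, ← Matrix.det_mul,
    Matrix.mul_nonsing_inv _ (isUnit_det_frame v), Matrix.det_one, one_mul, RingHom.map_det,
    RingHom.mapMatrix_apply]

omit [IsAdicComplete (maximalIdeal O) O] in
theorem framed_smul (v : ↥S.T) (a : C.R) (M : Matrix (Fin 2) (Fin 2) C.R) :
    framed (v₀ := S.p) v (a • M) =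
      (MvPowerSeries.C a : MvPowerSeries (FrameVar S.T S.p) C.R) • framed (v₀ := S.p) v M := by
  rw [framed, framed, ← RingHom.mapMatrix_apply, map_matrix_smul, RingHom.mapMatrix_apply,
    Matrix.mul_smul, Matrix.smul_mul]

variable (hcycΦ : ∀ q : ↥S.Sig, S.cyc (S.Φ q) = (q.1 : O))
  (hcycs : ∀ q : ↥S.Sig, S.cyc (S.tame q) = 1)
  (htr : ∀ q : ↥S.Sig, (C.rR (S.tame q)).trace = 2)

omit [IsAdicComplete (maximalIdeal O) O] in
include hcycs htr in
theorem sub_one_nilpotent (q : ↥S.Sig) :
    (C.rR (S.tame q) - 1).trace = 0 ∧ (C.rR (S.tame q) - 1).det = 0 := by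
  have h1 : (C.rR (S.tame q) - 1).trace = 0 := by
    rw [Matrix.trace_sub, htr, Matrix.trace_one]; simp
  refine ⟨h1, ?_⟩
  rw [FA.LocalComp.LocalData.det_sub_one, C.det, hcycs, map_one, htr]
  ring

omit [IsAdicComplete (maximalIdeal O) O] in
include hcycs htr in
theorem phi_mul_sub_one (q : ↥S.Sig) :
    C.rR (S.Φ q) * (C.rR (S.tame q) - 1) =
      (q.1 : C.R) • ((C.rR (S.tame q) - 1) * C.rR (S.Φ q)) := by
  set N := C.rR (S.tame q) - 1 with hN
  obtain ⟨htN, hdN⟩ := S.sub_one_nilpotent C hcycs htr q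
  have hsq : N * N = 0 := by
    rw [Matrix.trace_fin_two] at htN
    rw [Matrix.det_fin_two] at hdN
    refine Matrix.ext fun i j => ?_
    fin_cases i <;> fin_cases j <;> simp [Matrix.mul_apply, Fin.sum_univ_two]
    · linear_combination (N 0 0) * htN - hdN
    · linear_combination (N 0 1) * htN
    · linear_combination (N 1 0) * htN
    · linear_combination (N 1 1) * htN - hdN
  have hpow : ∀ m : ℕ, C.rR (S.tame q) ^ m = 1 + (m : C.R) • N := fun m => by
    induction m with
    | zero => simp
    | succ m ih =>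
      rw [pow_succ, ih, show C.rR (S.tame q) = 1 + N by rw [hN]; abel]
      simp only [mul_add, add_mul, mul_one, one_mul, smul_mul_assoc, hsq, smul_zero, add_zero,
        Nat.cast_succ, add_smul, one_smul]
      abel
  have h := S.tame_mul C q
  rw [hpow, add_mul, one_mul, smul_mul_assoc] at h
  rw [hN, mul_sub, mul_one, ← hN, h]
  abel

omit [IsAdicComplete (maximalIdeal O) O] in
include hcycΦ hcycs htr in
/-- **The relations hold.** -/
theorem relIdeal_le_ker :
    S.localData.relIdeal (ρ := Fin S.m ⊕ Fin g) ≤ RingHom.ker (S.evalVals C x hx) := by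
  rw [FA.LocalComp.LocalData.relIdeal, Ideal.span_le]
  rintro y ⟨_, ⟨q, rfl⟩, hy⟩
  rw [SetLike.mem_coe, RingHom.mem_ker]
  rcases hy with (rfl | rfl | rfl) | ⟨⟨i, j⟩, rfl⟩
  · rw [map_sub, map_natCast, RingHom.map_det, RingHom.mapMatrix_apply, map_phi, det_framed,
      C.det, hcycΦ, map_natCast, map_natCast]
    exact sub_self _
  · rw [map_sub, map_ofNat, AddMonoidHom.map_trace, map_sig, trace_framed, htr, map_ofNat,
      sub_self]
  · rw [map_sub, map_one, RingHom.map_det, RingHom.mapMatrix_apply, map_sig, det_framed, C.det,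
      hcycs, map_one, map_one, sub_self]
  · let e := (S.evalVals C x hx).mapMatrix (m := Fin 2)
    let F := S.framedHom C (S.atT q)
    have hp : e (S.localData.phi q) = F (C.rR (S.Φ q)) := S.map_phi C x hx q
    have hs : e (S.localData.sig q) = F (C.rR (S.tame q)) := S.map_sig C x hx q
    have hz : e (S.localData.phi q * (S.localData.sig q - 1) -
        (q.1 : MvPowerSeries (S.Var g) O) • ((S.localData.sig q - 1) * S.localData.phi q)) = 0 := by
      rw [map_sub, show e ((q.1 : MvPowerSeries (S.Var g) O) •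
          ((S.localData.sig q - 1) * S.localData.phi q)) = S.evalVals C x hx (q.1 : _) •
          e ((S.localData.sig q - 1) * S.localData.phi q) from
            map_matrix_smul _ _ _,
        map_mul, map_mul, map_sub, map_one, hp, hs, ← map_one F, ← map_sub, ← map_mul, ← map_mul,
        map_natCast, ← map_natCast (MvPowerSeries.C (σ := FrameVar S.T S.p) (R := C.R)),
        S.phi_mul_sub_one C hcycs htr q]
      exact sub_eq_zero.mpr (S.framed_smul C _ _ _)
    exact congrFun (congrFun hz i) j

omit [IsAdicComplete (maximalIdeal O) O] in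
include hcycs htr in
/-- **The type conditions follow from the traces of Frobenius.** -/
theorem typeSet_subset_ker (q : ↥S.Sig) (n : Bool)
    (hst : (C.rR (S.Φ q)).trace = FA.LocalComp.sgn n * ((q.1 : C.R) + 1))
    (h1 : ∀ y : C.R, ((q.1 : C.R) - 1) * y = 0 → y = 0)
    (h2 : ∀ y : C.R, ((q.1 : C.R) + 1) * y = 0 → y = 0) :
    ∀ y ∈ S.localData.typeSet (ρ := Fin S.m ⊕ Fin g) q (.st n), S.evalVals C x hx y = 0 := by
  rintro y (rfl | ⟨⟨i, j⟩, rfl⟩)
  · rw [map_sub, AddMonoidHom.map_trace, map_phi, trace_framed, hst, map_mul, map_mul, map_add,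
      map_add, map_one, map_one, FA.LocalComp.map_sgn, FA.LocalComp.map_sgn, map_natCast,
      map_natCast]
    exact sub_self _
  · let e := (S.evalVals C x hx).mapMatrix (m := Fin 2)
    let F := S.framedHom C (S.atT q)
    have hp : e (S.localData.phi q) = F (C.rR (S.Φ q)) := S.map_phi C x hx q
    have hs : e (S.localData.sig q) = F (C.rR (S.tame q)) := S.map_sig C x hx q
    have hz : e (S.localData.phi q * (S.localData.sig q - 1) -
        (FA.LocalComp.sgn n * (q.1 : MvPowerSeries (S.Var g) O)) • (S.localData.sig q - 1)) = 0 := by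
      rw [map_sub, show e ((FA.LocalComp.sgn n * (q.1 : MvPowerSeries (S.Var g) O)) •
          (S.localData.sig q - 1)) = S.evalVals C x hx (FA.LocalComp.sgn n * (q.1 : _)) •
          e (S.localData.sig q - 1) from
            map_matrix_smul _ _ _,
        map_mul, map_sub, map_one, hp, hs, ← map_one F, ← map_sub, ← map_mul,
        show S.evalVals C x hx (FA.LocalComp.sgn n * (q.1 : MvPowerSeries (S.Var g) O)) =
            MvPowerSeries.C (FA.LocalComp.sgn n * (q.1 : C.R)) by
          rw [map_mul, map_mul, map_natCast, map_natCast, FA.LocalComp.map_sgn,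
            FA.LocalComp.map_sgn],
        mul_eq_of_trace (S.sub_one_nilpotent C hcycs htr q).1 (S.phi_mul_sub_one C hcycs htr q)
          hst h1 h2]
      exact sub_eq_zero.mpr (S.framed_smul C _ _ _)
    exact congrFun (congrFun hz i) j

end Setup

end FA.RT
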