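import Fermat.Agent.RT.PatchedMazur
import Mathlib.RingTheory.Ideal.MinimalPrime.Localization
import Mathlib.LinearAlgebra.Matrix.ToLinearEquiv
import Mathlib.Data.Matrix.ColumnRowPartitioned
import Mathlib.LinearAlgebra.Matrix.NonsingularInverse

/-!
# The local patched Mazur principle

`act` is a patched module containing two copies of the old patched module `act₀`, on which
`N` (inertia minus one) vanishes and `ω` is injective. If `N` has residual rank equal to the rank
of the complement, a prime of the support containing the entries of `N`, where some `F` with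
`g (N F) = 0` and `g` outside has an entry outside, contains a minimal prime of the support
containing the entries of `N`; when this avoids `ω` it lies in the support of the old module.
-/

set_option autoImplicit false

noncomputable section

open IsLocalRing Matrix

namespace FA.RT

section MinimalPrimes

variable {S P : Type*} [CommRing S] [IsDomain S] [CommRing P] {d : ℕ}
  {act : P →+* Matrix (Fin d) (Fin d) S} {j : S →+* P}

/-- Above an ideal saturated for the scalars, minimal primes of the support. -/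
theorem exists_minimalPrimes_between (hj : FA.Patch.IsScalarLift act j) {J W : Ideal P}
    [W.IsPrime] (hle : RingHom.ker act ≤ J) (hJW : J ≤ W)
    (hsat : ∀ s x, s ≠ 0 → j s * x ∈ J → x ∈ J) :
    ∃ c ∈ (RingHom.ker act).minimalPrimes, J ≤ c ∧ c ≤ W := by
  obtain ⟨c, hc, hcW⟩ := Ideal.exists_minimalPrimes_le hJW
  have : c.IsPrime := hc.1.1
  have hbot : c.comap j = ⊥ := _root_.eq_bot_iff.mpr fun s hs => by
    by_contra h0
    obtain ⟨y, hy, hxy⟩ := Ideal.exists_mul_mem_of_mem_minimalPrimes hc hs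
    exact hy (hsat s y (fun h => h0 (by simp [h])) hxy)
  refine ⟨c, ⟨⟨inferInstance, hle.trans hc.1.2⟩, fun c' hc' hc'c => ?_⟩, hc.1.2, hcW⟩
  have : c'.IsPrime := hc'.1
  let : Algebra S (P ⧸ c') := ((Ideal.Quotient.mk c').comp j).toAlgebra
  have : Algebra.IsIntegral S (P ⧸ c') := ⟨hj.isIntegral hc'.2⟩
  have h0 : (c.map (Ideal.Quotient.mk c')).comap (algebraMap S (P ⧸ c')) = ⊥ := by
    show Ideal.comap ((Ideal.Quotient.mk c').comp j) _ = _
    rw [← Ideal.comap_comap, Ideal.comap_map_of_surjective _ Ideal.Quotient.mk_surjective,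
      ← RingHom.ker_eq_comap_bot, Ideal.mk_ker, sup_eq_left.mpr hc'c, hbot]
  have h1 := Ideal.eq_bot_of_comap_eq_bot (R := S) h0
  rwa [Ideal.map_eq_bot_iff_le_ker, Ideal.mk_ker] at h1

/-- An element acting with determinant zero lies in a minimal prime of the support. -/
theorem exists_minimalPrimes_of_det_eq_zero (hj : FA.Patch.IsScalarLift act j) {y : P}
    (hy : (act y).det = 0) : ∃ c ∈ (RingHom.ker act).minimalPrimes, y ∈ c := by
  obtain ⟨v, hv, hyv⟩ := Matrix.exists_mulVec_eq_zero_iff.mpr hy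
  let J : Ideal P :=
    { carrier := {x | act x *ᵥ v = 0}
      add_mem' := fun {a b} ha hb => by
        simp only [Set.mem_ofPred_eq] at *
        rw [map_add, Matrix.add_mulVec, ha, hb, add_zero]
      zero_mem' := by simp
      smul_mem' := fun r a ha => by
        simp only [Set.mem_ofPred_eq, smul_eq_mul] at *
        rw [map_mul, ← Matrix.mulVec_mulVec, ha, Matrix.mulVec_zero] }
  have hJ : J ≠ ⊤ := fun h => hv (by
    have h1 : act 1 *ᵥ v = 0 := (h ▸ Submodule.mem_top : (1 : P) ∈ J)
    rwa [map_one, Matrix.one_mulVec] at h1)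
  obtain ⟨W, hW, hJW⟩ := Ideal.exists_le_maximal J hJ
  have := hW.isPrime
  obtain ⟨c, hc, hJc, -⟩ := exists_minimalPrimes_between hj (W := W) (J := J)
    (fun x hx => show act x *ᵥ v = 0 by rw [RingHom.mem_ker.mp hx, Matrix.zero_mulVec]) hJW
    (fun s x hs hx => by
      have h1 : act (j s * x) *ᵥ v = 0 := hx
      rw [map_mul, hj, ← Algebra.smul_def, Matrix.smul_mulVec] at h1
      exact (smul_eq_zero.mp h1).resolve_left hs)
  exact ⟨c, hc, hJc hyv⟩

end MinimalPrimes

section LeftInverse

/-- Residually independent columns have a left inverse. -/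
theorem exists_leftInverse_of_residue {S : Type*} [CommRing S] [IsLocalRing S] {n m : Type*}
    [Fintype n] [Fintype m] [DecidableEq m] (M : Matrix n m S)
    (h : LinearIndependent (ResidueField S) fun i k => residue S (M k i)) :
    ∃ Q : Matrix m n S, Q * M = 1 := by
  classical
  let f := Matrix.mulVecLin (M.map (residue S))
  have hf : Function.Injective f := Matrix.mulVec_injective_iff.mpr h
  obtain ⟨g, hg⟩ := f.exists_leftInverse_of_injective (LinearMap.ker_eq_bot.mpr hf)
  choose Q₀ hQ₀ using fun i k => residue_surjective (R := S) (LinearMap.toMatrix' g i k)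
  have h1 : (Matrix.of Q₀).map (residue S) * M.map (residue S) = 1 := by
    rw [show (Matrix.of Q₀).map (residue S) = LinearMap.toMatrix' g from
      Matrix.ext fun i k => hQ₀ i k]
    have := congrArg LinearMap.toMatrix' hg
    rwa [LinearMap.toMatrix'_comp, LinearMap.toMatrix'_id,
      show LinearMap.toMatrix' f = M.map (residue S) from LinearMap.toMatrix'_toLin' _] at this
  have hu : IsUnit (Matrix.of Q₀ * M).det := by
    refine IsLocalRing.notMem_maximalIdeal.mp fun hm => ?_
    rw [← residue_eq_zero_iff, RingHom.map_det, RingHom.mapMatrix_apply, Matrix.map_mul, h1,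
      Matrix.det_one] at hm
    exact one_ne_zero hm
  exact ⟨(Matrix.of Q₀ * M)⁻¹ * Matrix.of Q₀, by
    rw [Matrix.mul_assoc, Matrix.nonsing_inv_mul _ hu]⟩

end LeftInverse

section Local

variable {S P : Type*} [CommRing S] [CommRing P] {d d₀ dn : ℕ}
  (act : P →+* Matrix (Fin d) (Fin d) S) (act₀ : P →+* Matrix (Fin d₀) (Fin d₀) S)

/-- An element acting on the two copies of the module. -/
def scalarAct : P →+* Matrix (Fin 2 × Fin d) (Fin 2 × Fin d) S :=
  (blockAct act).comp (Matrix.scalar (Fin 2))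

theorem blockAct_mulVec (X : Matrix (Fin 2) (Fin 2) P) (z : Fin 2 × Fin d → S) (a : Fin 2)
    (u : Fin d) :
    (blockAct act X *ᵥ z) (a, u) = ∑ b, (act (X a b) *ᵥ fun v => z (b, v)) u := by
  simp [Matrix.mulVec, dotProduct, Fintype.sum_prod_type, blockAct_apply]

theorem scalarAct_mulVec (h : P) (z : Fin 2 × Fin d → S) (a : Fin 2) (u : Fin d) :
    (scalarAct act h *ᵥ z) (a, u) = (act h *ᵥ fun v => z (a, v)) u := by
  rw [scalarAct, RingHom.comp_apply, blockAct_mulVec, Finset.sum_eq_single a]
  · simp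
  · intro b _ hb
    simp [Matrix.diagonal_apply_ne' _ hb]
  · simp

theorem scalarAct_mul (h : P) (X : Matrix (Fin 2) (Fin 2) P) :
    scalarAct act h * blockAct act X = blockAct act (h • X) := by
  rw [scalarAct, RingHom.comp_apply, ← map_mul, Matrix.scalar_apply, ← smul_eq_diagonal_mul]

theorem blockAct_mul_scalarAct (h : P) (X : Matrix (Fin 2) (Fin 2) P) :
    blockAct act X * scalarAct act h = blockAct act (h • X) := by
  rw [← scalarAct_mul, scalarAct, RingHom.comp_apply, ← map_mul, ← map_mul,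
    (Matrix.scalar_commute h (fun r => Commute.all h r) X).eq]

/-- An element whose multiples of the basis vectors lie in `W • ⊤` lies in `W`. -/
theorem mem_of_single_smul_mem [IsDomain S] {j : S →+* P} (hj : FA.Patch.IsScalarLift act j)
    {W : Ideal P} [hWp : W.IsPrime] (hW : RingHom.ker act ≤ W) {f : P}
    (hf : ∀ u, f • FA.Patch.ActMod.of act (Pi.single u 1) ∈
      W • (⊤ : Submodule P (FA.Patch.ActMod act))) : f ∈ W := by
  classical
  have := FA.Patch.ActMod.finite act hj
  let of := FA.Patch.ActMod.of act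
  let φ : Module.End P (FA.Patch.ActMod act) := algebraMap P _ f
  have hrange : LinearMap.range φ ≤ W • ⊤ := by
    rintro _ ⟨m, rfl⟩
    obtain ⟨v, rfl⟩ := of.surjective m
    have hv : of v = ∑ u, j (v u) • of (Pi.single u 1) := by
      simp only [of, FA.Patch.ActMod.smul_of, hj (v _), ← map_sum]
      congr 1
      ext k
      simp [Matrix.algebraMap_eq_diagonal, Pi.single_apply]
    show f • of v ∈ _
    rw [hv, Finset.smul_sum]
    exact Submodule.sum_mem _ fun u _ => by
      rw [smul_comm]
      exact Submodule.smul_mem _ _ (hf u)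
  obtain ⟨q, hmon, -, hcoeff, hq⟩ :=
    LinearMap.exists_monic_and_natDegree_eq_and_coeff_mem_pow_and_aeval_eq_zero P φ W hrange
  have h0 : q.eval f ∈ W := by
    refine hW ?_
    rw [← FA.Patch.ActMod.annihilator_eq, Module.mem_annihilator]
    intro m
    have h := LinearMap.congr_fun hq m
    rwa [Polynomial.aeval_algebraMap_apply, Module.algebraMap_end_apply, LinearMap.zero_apply,
      Polynomial.coe_aeval_eq_eval] at h
  have h1 : q.eval f - f ^ q.natDegree ∈ W := by
    rw [Polynomial.eval_eq_sum_range, Finset.sum_range_succ, hmon.coeff_natDegree, one_mul,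
      add_sub_cancel_right]
    refine W.sum_mem fun k hk => W.mul_mem_right _ ?_
    have hlt := Finset.mem_range.mp hk
    exact Ideal.pow_le_self (by omega : q.natDegree - k ≠ 0) (hcoeff k)
  have := sub_mem h0 h1
  rw [sub_sub_cancel] at this
  exact hWp.mem_of_pow_mem _ this

variable (N : Matrix (Fin 2) (Fin 2) P) (ω : P)

/-- The hypotheses of the local principle: the two old copies, the identities of `N`, injectivity
of `ω` on the old module, and the residual rank of `N`. -/
structure LocalMazurData [IsLocalRing S] (e : (Fin d₀ ⊕ Fin d₀) ⊕ Fin dn ≃ Fin d) : Prop where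
  diag : ∀ x u u', act x (e (.inl u)) (e (.inl u')) =
    Matrix.fromBlocks (act₀ x) 0 0 (act₀ x) u u'
  tri : ∀ x w u, act x (e (.inr w)) (e (.inl u)) = 0
  sq : blockAct act (N * N) = 0
  trace : act N.trace = 0
  annihilated : blockAct act (ω • N) = 0
  old : ∀ a b, act₀ (N a b) = 0
  injective : (act₀ ω).det ≠ 0
  rank : ((blockAct act N).map (residue S)).rank = dn

variable {act act₀ N ω} [IsDomain S] [IsLocalRing S] {e : (Fin d₀ ⊕ Fin d₀) ⊕ Fin dn ≃ Fin d}
  (D : LocalMazurData act act₀ N ω e)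

/-- A vector of the two copies supported on the old part. -/
def IsOld (e : (Fin d₀ ⊕ Fin d₀) ⊕ Fin dn ≃ Fin d) (x : Fin 2 × Fin d → S) : Prop :=
  ∀ a w, x (a, e (.inr w)) = 0

include D in
omit [IsDomain S] in
theorem LocalMazurData.mulVec_old (y : P) {v : Fin d → S} (hv : ∀ w, v (e (.inr w)) = 0) :
    (∀ w, (act y *ᵥ v) (e (.inr w)) = 0) ∧ ∀ u, (act y *ᵥ v) (e (.inl u)) =
      (Matrix.fromBlocks (act₀ y) 0 0 (act₀ y) *ᵥ fun u' => v (e (.inl u'))) u := by
  constructor <;> intro k <;>
    rw [Matrix.mulVec, dotProduct, ← e.sum_comp, Fintype.sum_sum_type] <;>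
    simp [hv, D.tri, D.diag, Matrix.mulVec, dotProduct]

include D in
/-- The image of `N` is a direct summand, complemented in the kernel by the old part. -/
theorem LocalMazurData.kernel_image :
    (∀ (s : S) x, s ≠ 0 → (∃ y, blockAct act N *ᵥ y = s • x) → ∃ y, blockAct act N *ᵥ y = x) ∧
    ∀ x, blockAct act N *ᵥ x = 0 → ∃ t : S, t ≠ 0 ∧ ∃ y, IsOld e (t • x - blockAct act N *ᵥ y) := by
  classical
  set B := blockAct act N with hB
  have hsq : B * B = 0 := by rw [hB, ← map_mul, D.sq]
  have hBold : ∀ z, IsOld e z → B *ᵥ z = 0 := fun z hz => by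
    ext ⟨a, k⟩
    rw [hB, blockAct_mulVec, Pi.zero_apply]
    refine Finset.sum_eq_zero fun b _ => ?_
    obtain ⟨h1, h2⟩ := D.mulVec_old (N a b) (v := fun v => z (b, v)) (hz b)
    obtain ⟨k, rfl⟩ := e.surjective k
    rcases k with k | w
    · rw [h2, D.old, Matrix.fromBlocks_zero, Matrix.zero_mulVec]; rfl
    · exact h1 w
  have hinter : ∀ y, IsOld e (B *ᵥ y) → B *ᵥ y = 0 := fun y hy => by
    have h0 : scalarAct act ω *ᵥ (B *ᵥ y) = 0 := by
      rw [Matrix.mulVec_mulVec, hB, scalarAct_mul, D.annihilated, Matrix.zero_mulVec]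
    ext ⟨a, k⟩
    obtain ⟨k, rfl⟩ := e.surjective k
    rcases k with k | w
    · have hv : (Matrix.fromBlocks (act₀ ω) 0 0 (act₀ ω) *ᵥ
          fun u' => (B *ᵥ y) (a, e (.inl u'))) = 0 := funext fun u => by
        rw [← (D.mulVec_old ω (v := fun v => (B *ᵥ y) (a, v)) (hy a)).2 u, ← scalarAct_mulVec, h0]
        rfl
      have hdet : (Matrix.fromBlocks (act₀ ω) 0 0 (act₀ ω)).det ≠ 0 := by
        rw [Matrix.det_fromBlocks_zero₁₂]
        exact mul_ne_zero D.injective D.injective
      exact congrFun (by_contra fun h =>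
        hdet (Matrix.exists_mulVec_eq_zero_iff.mp ⟨_, h, hv⟩)) k
    · exact hy a w
  -- residual basis of the image
  let Bb := (B.map (residue S)).mulVecLin
  have hrk : Module.finrank (ResidueField S) ↥(LinearMap.range Bb) = dn := D.rank
  obtain ⟨b⟩ : Nonempty (Module.Basis (Fin dn) (ResidueField S) ↥(LinearMap.range Bb)) :=
    ⟨Module.finBasisOfFinrankEq _ _ hrk⟩
  have hb : ∀ i, ∃ c : Fin 2 × Fin d → S,
      Bb (fun k => residue S (c k)) = (b i : Fin 2 × Fin d → ResidueField S) := fun i => by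
    obtain ⟨w, hw⟩ := (b i).2
    choose c hc using fun k => residue_surjective (R := S) (w k)
    exact ⟨c, by rw [show (fun k => residue S (c k)) = w from funext hc, hw]⟩
  choose c hc using hb
  let C : Matrix (Fin 2 × Fin d) (Fin dn) S := Matrix.of fun k i => c i k
  -- a left inverse of `B * C`
  obtain ⟨Q, hQ⟩ : ∃ Q : Matrix (Fin dn) (Fin 2 × Fin d) S, Q * (B * C) = 1 := by
    refine exists_leftInverse_of_residue (B * C) ?_
    have hcol : (fun i k => residue S ((B * C) k i)) = (Subtype.val ∘ ⇑b) := by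
      funext i k
      rw [Function.comp_apply, ← congrFun (hc i) k]
      simp [Bb, C, Matrix.mul_apply, Matrix.mulVec, dotProduct]
    rw [hcol]
    exact LinearIndependent.map' b.linearIndependent (LinearMap.range Bb).subtype
      (Submodule.ker_subtype _)
  have hQz : ∀ β, B *ᵥ (C *ᵥ β) = 0 → β = 0 := fun β hβ => by
    have := congrArg (Q *ᵥ ·) hβ
    simpa [Matrix.mulVec_mulVec, Matrix.mul_assoc, hQ] using this
  -- the spanning square matrix
  let E : Matrix (Fin 2 × Fin d) (Fin 2 × (Fin d₀ ⊕ Fin d₀)) S :=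
    Matrix.of fun k x => if k = (x.1, e (.inl x.2)) then 1 else 0
  have hE : ∀ μ, IsOld e (E *ᵥ μ) := fun μ a w => by
    simp [E, Matrix.mulVec, dotProduct]
  have hEinj : ∀ μ, E *ᵥ μ = 0 → μ = 0 := fun μ h => funext fun x => by
    obtain ⟨a, u⟩ := x
    have := congrFun h (a, e (.inl u))
    simp only [E, Matrix.mulVec, dotProduct, Matrix.of_apply, Prod.mk.injEq,
      EmbeddingLike.apply_eq_iff_eq, Sum.inl.injEq, Pi.zero_apply, ite_mul, one_mul, zero_mul,
      Fintype.sum_prod_type, ite_and] at this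
    simpa using this
  have hcard : Fintype.card (Fin 2 × Fin d) =
      Fintype.card ((Fin dn ⊕ Fin dn) ⊕ (Fin 2 × (Fin d₀ ⊕ Fin d₀))) := by
    have := Fintype.card_congr e
    simp only [Fintype.card_sum, Fintype.card_prod, Fintype.card_fin] at this ⊢
    omega
  let eI := Fintype.equivOfCardEq hcard
  let Ψ : Matrix (Fin 2 × Fin d) ((Fin dn ⊕ Fin dn) ⊕ (Fin 2 × (Fin d₀ ⊕ Fin d₀))) S :=
    Matrix.fromCols (Matrix.fromCols (B * C) C) E
  have hΨ : ∀ a, Ψ *ᵥ a = B *ᵥ (C *ᵥ fun i => a (.inl (.inl i))) +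
      C *ᵥ (fun i => a (.inl (.inr i))) + E *ᵥ fun x => a (.inr x) := fun a => by
    simp [Ψ, Matrix.fromCols_mulVec, Matrix.mulVec_mulVec, Function.comp_def]
  have hΨinj : ∀ a, Ψ *ᵥ a = 0 → a = 0 := fun a ha => by
    rw [hΨ] at ha
    have hβ : (fun i => a (.inl (.inr i))) = 0 := hQz _ (by
      have := congrArg (B *ᵥ ·) ha
      simp only [Matrix.mulVec_add, Matrix.mulVec_zero, hBold _ (hE _)] at this
      simpa [Matrix.mulVec_mulVec, ← Matrix.mul_assoc, hsq] using this)
    rw [hβ, Matrix.mulVec_zero, add_zero] at ha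
    have hα := hQz _ (hinter (C *ᵥ fun i => a (.inl (.inl i))) fun i w => by
      rw [eq_neg_of_add_eq_zero_left ha, Pi.neg_apply, hE _ i w, neg_zero])
    rw [hα, Matrix.mulVec_zero, Matrix.mulVec_zero, zero_add] at ha
    have hμ := hEinj _ ha
    funext x
    rcases x with (i | i) | i
    exacts [congrFun hα i, congrFun hβ i, congrFun hμ i]
  let Ψ' : Matrix (Fin 2 × Fin d) (Fin 2 × Fin d) S := Ψ.submatrix id eI
  have ht : Ψ'.det ≠ 0 := fun h0 => by
    obtain ⟨v, hv, hv0⟩ := Matrix.exists_mulVec_eq_zero_iff.mpr h0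
    rw [Matrix.submatrix_mulVec_equiv] at hv0
    refine hv (funext fun k => ?_)
    have := congrFun (hΨinj (v ∘ eI.symm) hv0) (eI k)
    simpa using this
  have hspan : ∀ x, ∃ α β z, IsOld e z ∧
      Ψ'.det • x = B *ᵥ (C *ᵥ α) + C *ᵥ β + z := fun x => by
    let a := (Ψ'.adjugate *ᵥ x) ∘ eI.symm
    refine ⟨fun i => a (.inl (.inl i)), fun i => a (.inl (.inr i)), _,
      hE fun y => a (.inr y), ?_⟩
    rw [← hΨ a]
    have h1 : Ψ' *ᵥ (Ψ'.adjugate *ᵥ x) = Ψ'.det • x := by
      rw [Matrix.mulVec_mulVec, Matrix.mul_adjugate, Matrix.smul_mulVec, Matrix.one_mulVec]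
    rw [← h1, Matrix.submatrix_mulVec_equiv]
    rfl
  have himage : ∀ y, B *ᵥ y = B *ᵥ (C *ᵥ (Q *ᵥ (B *ᵥ y))) := fun y => by
    obtain ⟨α, β, z, hz, h⟩ := hspan y
    have h2 : Ψ'.det • (B *ᵥ y) = B *ᵥ (C *ᵥ β) := by
      rw [← Matrix.mulVec_smul, h, Matrix.mulVec_add, Matrix.mulVec_add, hBold z hz]
      simp [Matrix.mulVec_mulVec, ← Matrix.mul_assoc, hsq]
    have h3 : Ψ'.det • (Q *ᵥ (B *ᵥ y)) = β := by
      rw [← Matrix.mulVec_smul, h2, Matrix.mulVec_mulVec, Matrix.mulVec_mulVec, Matrix.mul_assoc,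
        hQ, Matrix.one_mulVec]
    refine smul_right_injective _ ht ?_
    show Ψ'.det • (B *ᵥ y) = _
    rw [h2, ← h3, Matrix.mulVec_smul, Matrix.mulVec_smul]
  refine ⟨fun s x hs ⟨y, hy⟩ => ⟨C *ᵥ (Q *ᵥ x), ?_⟩, fun x hx => ?_⟩
  · refine smul_right_injective _ hs ?_
    show s • (B *ᵥ (C *ᵥ (Q *ᵥ x))) = s • x
    rw [← Matrix.mulVec_smul, ← Matrix.mulVec_smul, ← Matrix.mulVec_smul, ← hy]
    exact (himage y).symm
  · obtain ⟨α, β, z, hz, h⟩ := hspan x
    have hβ : β = 0 := hQz β (by
      have h2 := congrArg (B *ᵥ ·) h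
      simp only [Matrix.mulVec_add, Matrix.mulVec_smul, hx, smul_zero, hBold z hz] at h2
      simpa [Matrix.mulVec_mulVec, ← Matrix.mul_assoc, hsq] using h2.symm)
    refine ⟨_, ht, C *ᵥ α, ?_⟩
    rw [h, hβ, Matrix.mulVec_zero, add_zero, add_sub_cancel_left]
    exact hz

include D in
/-- **(1)** The square of `ω` maps the module into the old part. -/
theorem LocalMazurData.sq_omega_new (w : Fin dn) (v : Fin d) :
    act (ω * ω) (e (.inr w)) v = 0 := by
  classical
  set B := blockAct act N with hB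
  let x : Fin 2 × Fin d → S := Pi.single (0, v) 1
  have hx : B *ᵥ (scalarAct act ω *ᵥ x) = 0 := by
    rw [Matrix.mulVec_mulVec, hB, blockAct_mul_scalarAct, D.annihilated, Matrix.zero_mulVec]
  obtain ⟨t, ht, y, hy⟩ := D.kernel_image.2 _ hx
  set z := t • (scalarAct act ω *ᵥ x) - B *ᵥ y with hz
  have h1 : t • (scalarAct act (ω * ω) *ᵥ x) = scalarAct act ω *ᵥ z := by
    rw [hz, Matrix.mulVec_sub, Matrix.mulVec_smul, Matrix.mulVec_mulVec, ← map_mul,
      Matrix.mulVec_mulVec, hB, scalarAct_mul, D.annihilated, Matrix.zero_mulVec, sub_zero]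
  have h2 := congrFun h1 (0, e (.inr w))
  rw [Pi.smul_apply, scalarAct_mulVec, scalarAct_mulVec,
    (D.mulVec_old ω (v := fun k => z (0, k)) (hy 0)).1 w, smul_eq_mul, mul_eq_zero] at h2
  have h3 := h2.resolve_left ht
  rw [show (fun k => x (0, k)) = Pi.single v (1 : S) by
    funext k; simp [x, Pi.single_apply]] at h3
  simpa using h3

include D in
/-- **(2)** A minimal prime of the support containing the entries of `N`. -/
theorem LocalMazurData.exists_minimalPrimes {j : S →+* P} (hj : FA.Patch.IsScalarLift act j)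
    {W : Ideal P} [hWp : W.IsPrime] (hW : RingHom.ker act ≤ W) (hNW : ∀ a b, N a b ∈ W)
    {g : P} (hg : g ∉ W) {F : Matrix (Fin 2) (Fin 2) P}
    (hNF : blockAct act (g • (N * F)) = 0) {a₀ b₀ : Fin 2} (hF : F a₀ b₀ ∉ W) :
    ∃ c ∈ (RingHom.ker act).minimalPrimes, c ≤ W ∧ ∀ a b, N a b ∈ c := by
  classical
  let I : Ideal P :=
    { carrier := {h | ∀ z, blockAct act N *ᵥ z = 0 →
        ∃ y, blockAct act N *ᵥ y = scalarAct act h *ᵥ z}
      add_mem' := fun {h h'} hh hh' z hz => by
        obtain ⟨y, hy⟩ := hh z hz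
        obtain ⟨y', hy'⟩ := hh' z hz
        exact ⟨y + y', by rw [Matrix.mulVec_add, hy, hy', map_add, Matrix.add_mulVec]⟩
      zero_mem' := fun z _ => ⟨0, by simp⟩
      smul_mem' := fun r h hh z hz => by
        obtain ⟨y, hy⟩ := hh z hz
        exact ⟨scalarAct act r *ᵥ y, by
          rw [smul_eq_mul, map_mul, ← Matrix.mulVec_mulVec, ← hy, Matrix.mulVec_mulVec,
            Matrix.mulVec_mulVec, blockAct_mul_scalarAct, scalarAct_mul]⟩ }
  have hker : RingHom.ker act ≤ I := fun h hh z _ => ⟨0, funext fun au => by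
    rw [Matrix.mulVec_zero, scalarAct_mulVec, RingHom.mem_ker.mp hh, Matrix.zero_mulVec]
    rfl⟩
  have hsat : ∀ s x, s ≠ 0 → j s * x ∈ I → x ∈ I := fun s x hs hx z hz => by
    obtain ⟨y, hy⟩ := hx z hz
    refine D.kernel_image.1 s _ hs ⟨y, hy.trans (funext fun au => ?_)⟩
    rw [scalarAct_mulVec, Pi.smul_apply, scalarAct_mulVec, map_mul, hj, ← Algebra.smul_def,
      Matrix.smul_mulVec]
    rfl
  have hNI : ∀ a b, N a b ∈ I := fun i k z hz => by
    let zz : Fin 2 → Fin d → S := fun a u => z (a, u)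
    have hrow : ∀ a, act (N a 0) *ᵥ zz 0 + act (N a 1) *ᵥ zz 1 = 0 := fun a => funext fun u => by
      have := congrFun hz (a, u)
      rw [blockAct_mulVec, Fin.sum_univ_two] at this
      simpa using this
    have htr : act (N 1 1) = -act (N 0 0) := by
      have h0 := D.trace
      rw [Matrix.trace_fin_two, map_add, add_comm] at h0
      exact eq_neg_of_add_eq_zero_left h0
    have key : ∀ a, act (N a k) *ᵥ zz i = act (N i k) *ᵥ zz a := by
      intro a
      have h0 := hrow 0
      have h1 := hrow 1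
      rw [htr, Matrix.neg_mulVec] at h1
      fin_cases a <;> fin_cases i <;> fin_cases k <;> first
        | rfl
        | (simp only [Fin.zero_eta, Fin.mk_one, Fin.isValue] at *
           simp only [htr, Matrix.neg_mulVec]
           linear_combination (norm := module) h0)
        | (simp only [Fin.zero_eta, Fin.mk_one, Fin.isValue] at *
           simp only [htr, Matrix.neg_mulVec]
           linear_combination (norm := module) -h0)
        | (simp only [Fin.zero_eta, Fin.mk_one, Fin.isValue] at *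
           linear_combination (norm := module) h1)
        | (simp only [Fin.zero_eta, Fin.mk_one, Fin.isValue] at *
           linear_combination (norm := module) -h1)
    refine ⟨fun au => if au.1 = k then zz i au.2 else 0, funext fun au => ?_⟩
    obtain ⟨a, u⟩ := au
    rw [blockAct_mulVec, scalarAct_mulVec, Finset.sum_eq_single k]
    · simpa using congrFun (key a) u
    · intro b _ hb
      simp [hb, ← Pi.zero_def]
    · simp
  have hIW : I ≤ W := fun h hh => by
    by_contra hhW
    refine hF ?_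
    have hfW : h * g * F a₀ b₀ ∈ W := by
      refine mem_of_single_smul_mem act hj hW fun u => ?_
      let z : Fin 2 × Fin d → S := blockAct act (g • F) *ᵥ Pi.single (b₀, u) 1
      obtain ⟨y, hy⟩ := hh z (by
        rw [Matrix.mulVec_mulVec, ← map_mul, Matrix.mul_smul, hNF, Matrix.zero_mulVec])
      have he : (h * g * F a₀ b₀) • FA.Patch.ActMod.of act (Pi.single u 1) =
          ∑ b, N a₀ b • FA.Patch.ActMod.of act fun v => y (b, v) := by
        simp only [FA.Patch.ActMod.smul_of, ← map_sum]
        congr 1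
        funext v
        have h1 := congrFun hy (a₀, v)
        simp only [z] at h1
        rw [blockAct_mulVec, Matrix.mulVec_mulVec, scalarAct_mul,
          Matrix.mulVec_single_one, Matrix.col_apply, blockAct_apply] at h1
        rw [Matrix.mulVec_single_one, Matrix.col_apply, Finset.sum_apply, h1]
        simp [mul_assoc]
      rw [he]
      exact Submodule.sum_mem _ fun b _ =>
        Submodule.smul_mem_smul (hNW a₀ b) Submodule.mem_top
    exact ((hWp.mem_or_mem hfW).resolve_left fun h' => (hWp.mem_or_mem h').elim hhW hg)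
  obtain ⟨c, hc, hIc, hcW⟩ := exists_minimalPrimes_between hj hker hIW hsat
  exact ⟨c, hc, hcW, fun a b => hIc (hNI a b)⟩

include D in
/-- **(3)** A prime of the support avoiding `ω` is in the old support. -/
theorem LocalMazurData.ker_old_le {c : Ideal P} [hcp : c.IsPrime] (hc : RingHom.ker act ≤ c)
    (hω : ω ∉ c) : RingHom.ker act₀ ≤ c := fun x hx => by
  have h0 : act (x * (ω * ω)) = 0 := by
    rw [map_mul]
    refine Matrix.ext fun k m => ?_
    rw [Matrix.mul_apply, ← e.sum_comp, Fintype.sum_sum_type,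
      Finset.sum_eq_zero fun u _ => ?_, Finset.sum_eq_zero fun w _ => ?_, add_zero]
    · rfl
    · rw [D.sq_omega_new, mul_zero]
    · obtain ⟨k, rfl⟩ := e.surjective k
      rcases k with k | w
      · rw [D.diag, RingHom.mem_ker.mp hx, Matrix.fromBlocks_zero, Matrix.zero_apply, zero_mul]
      · rw [D.tri, zero_mul]
  exact (hcp.mem_or_mem (hc (RingHom.mem_ker.mpr h0))).resolve_right fun h =>
    (hcp.mem_or_mem h).elim hω hω

end Local

end FA.RT
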