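import Fermat.Agent.RT.FlatPoint
import Fermat.Agent.ModField.Semistable.OrdinaryDatum
import Fermat.Agent.ModField.Semistable.Formal.Strict
import Fermat.Agent.LocalDef.StrictOfPart
import Fermat.Agent.LocalDef.Residual

/-!
# Points from eigen systems of level exactly divisible by `p` are ordinary at `p`

A lift of a residually ordinary representation with the Frobenius traces and determinants of an
eigen system of level `pM`, up to a character unramified at `p`, is ordinary at `p`, given the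
special fibres; it is strictly ordinary if the eigen system does not occur at level `M`.
-/

set_option autoImplicit false
set_option linter.unusedSectionVars false
set_option linter.style.haveILetI false
set_option synthInstance.maxHeartbeats 200000
set_option maxHeartbeats 800000

noncomputable section

open IsLocalRing Matrix FA.Deform FA.LocalDef

namespace FA.RT

local notation "Qb" => AlgebraicClosure ℚ
local notation "GQ" => AlgebraicClosure ℚ ≃ₐ[ℚ] AlgebraicClosure ℚ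

open FA.JTorsion FA.ModField in
/-- An eigen system which does not occur at level `M` is non zero on an operator killed there. -/
theorem exists_killer_of_not_lower {N M : ℕ} [NeZero N] [NeZero M] (hMN : M ∣ N) {S : Finset ℕ}
    (hNS : ∀ q : ℕ, q.Prime → q ∣ N → q ∈ S) {O : Type} [CommRing O]
    (χ : CuspForm.heckeAlgebra N 2 (↑S : Set ℕ) →+* O)
    (hnew : ∀ χ' : CuspForm.heckeAlgebra M 2 (↑S : Set ℕ) →+* O,
      ∃ (ℓ : ℕ) (hℓ : ℓ.Prime) (hℓN : ¬ ℓ ∣ N) (hℓS : ℓ ∉ (↑S : Set ℕ)),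
        χ' (CuspForm.heckeAlgebra.T (k := 2) hℓ (fun h => hℓN (h.trans hMN)) hℓS) ≠
          χ (CuspForm.heckeAlgebra.T (k := 2) hℓ hℓN hℓS)) :
    ∃ t ∈ pairRing N M hMN S, t.2 = 0 ∧
      ∃ h, inclFull S h = t.1 ∧ χ h ≠ 0 := by
  classical
  by_contra hcon
  push Not at hcon
  let D := pairRing N M hMN S
  let f1 : D →+* CuspForm.heckeAlgebra N 2 (↑S : Set ℕ) :=
    { toFun := fun t => (exists_inclFull_eq S hMN t.2).choose
      map_one' := inclFull_injective S (by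
        rw [(exists_inclFull_eq S hMN (1 : D).2).choose_spec, map_one]; rfl)
      map_mul' := fun a b => inclFull_injective S (by
        rw [(exists_inclFull_eq S hMN (a * b : D).2).choose_spec, map_mul,
          (exists_inclFull_eq S hMN a.2).choose_spec, (exists_inclFull_eq S hMN b.2).choose_spec]
        rfl)
      map_zero' := inclFull_injective S (by
        rw [(exists_inclFull_eq S hMN (0 : D).2).choose_spec, map_zero]; rfl)
      map_add' := fun a b => inclFull_injective S (by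
        rw [(exists_inclFull_eq S hMN (a + b : D).2).choose_spec, map_add,
          (exists_inclFull_eq S hMN a.2).choose_spec, (exists_inclFull_eq S hMN b.2).choose_spec]
        rfl) }
  have hf1 : ∀ t : D, inclFull S (f1 t) = (t : HFull N × HFull M).1 := fun t =>
    (exists_inclFull_eq S hMN t.2).choose_spec
  let p2 : D →+* HFull M := (RingHom.snd _ _).comp D.subtype
  let T : ∀ (ℓ : ℕ) (hℓ : ℓ.Prime) (hℓN : ¬ ℓ ∣ N), ℓ ∉ S → D := fun ℓ hℓ hℓN hℓS =>
    ⟨_, pairT_mem N M hMN hℓ hℓN hℓS⟩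
  have hgen : ∀ (ℓ : ℕ) (hℓ : ℓ.Prime) (hℓM : ¬ ℓ ∣ M) (hℓS : ℓ ∉ (↑S : Set ℕ)),
      inclFull S (CuspForm.heckeAlgebra.T (k := 2) hℓ hℓM hℓS) ∈ p2.range := fun ℓ hℓ hℓM hℓS => by
    have hℓN : ¬ ℓ ∣ N := fun h => hℓS (Finset.mem_coe.2 (hNS ℓ hℓ h))
    refine ⟨T ℓ hℓ hℓN (by simpa using hℓS), ?_⟩
    rw [inclFull_T]
    rfl
  have hsurj : ∀ x, inclFull (N := M) S x ∈ p2.range := by
    rintro ⟨x, hx⟩
    refine Algebra.adjoin_induction (p := fun x hx =>
      inclFull (N := M) S (⟨x, hx⟩ : CuspForm.heckeAlgebra M 2 (↑S : Set ℕ)) ∈ p2.range) ?_ ?_ ?_ ?_ hx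
    · rintro _ (⟨ℓ, hℓ, hℓM, hℓS, rfl⟩ | ⟨r, hrM, hr, hrS, rfl⟩)
      · exact hgen ℓ hℓ hℓM hℓS
      · exact absurd (Finset.mem_coe.2 (hNS r hr (hrM.trans hMN))) hrS
    · intro a
      rw [show (⟨algebraMap ℤ _ a, Subalgebra.algebraMap_mem _ a⟩ :
        CuspForm.heckeAlgebra M 2 (↑S : Set ℕ)) = (a : CuspForm.heckeAlgebra M 2 (↑S : Set ℕ)) from
          eq_intCast (algebraMap ℤ (CuspForm.heckeAlgebra M 2 (↑S : Set ℕ))) a, map_intCast]
      exact intCast_mem _ a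
    · intro a b ha hb h1 h2
      rw [show (⟨a + b, add_mem ha hb⟩ : CuspForm.heckeAlgebra M 2 (↑S : Set ℕ)) =
        ⟨a, ha⟩ + ⟨b, hb⟩ from rfl, map_add]
      exact add_mem h1 h2
    · intro a b ha hb h1 h2
      rw [show (⟨a * b, mul_mem ha hb⟩ : CuspForm.heckeAlgebra M 2 (↑S : Set ℕ)) =
        ⟨a, ha⟩ * ⟨b, hb⟩ from rfl, map_mul]
      exact mul_mem h1 h2
  choose g hg using hsurj
  have hwd : ∀ a b : D, p2 a = p2 b → χ (f1 a) = χ (f1 b) := fun a b hab => by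
    have h := hcon ((a : HFull N × HFull M) - b) (sub_mem a.2 b.2) (sub_eq_zero.2 hab)
      (f1 a - f1 b) (by rw [map_sub, hf1, hf1]; rfl)
    rwa [map_sub, sub_eq_zero] at h
  let χ' : CuspForm.heckeAlgebra M 2 (↑S : Set ℕ) →+* O :=
    { toFun := fun x => χ (f1 (g x))
      map_one' := by rw [hwd (g 1) 1 (by rw [hg, map_one, map_one]), map_one, map_one]
      map_mul' := fun x y => by
        rw [hwd (g (x * y)) (g x * g y) (by rw [hg, map_mul, map_mul, hg, hg]), map_mul, map_mul]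
      map_zero' := by rw [hwd (g 0) 0 (by rw [hg, map_zero, map_zero]), map_zero, map_zero]
      map_add' := fun x y => by
        rw [hwd (g (x + y)) (g x + g y) (by rw [hg, map_add, map_add, hg, hg]), map_add, map_add] }
  obtain ⟨ℓ, hℓ, hℓN, hℓS, hne⟩ := hnew χ'
  refine hne ?_
  have h1 : χ (f1 (g (CuspForm.heckeAlgebra.T (k := 2) hℓ (fun h => hℓN (h.trans hMN)) hℓS))) =
      χ (f1 (T ℓ hℓ hℓN (by simpa using hℓS))) := hwd _ _ (by rw [hg, inclFull_T]; rfl)
  refine h1.trans (congrArg χ (inclFull_injective S ?_))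
  rw [hf1, inclFull_T]
  rfl

variable {p : ℕ} {B : Type} [CommRing B] [IsLocalRing B]

/-- The action on the space of a matrix representation. -/
theorem ofMatrix_apply {r : GQ →* Matrix (Fin 2) (Fin 2) B} (h : IsContRep r) (σ : GQ)
    (v : Fin 2 → B) : (ofMatrix r h).ρ σ v = r σ *ᵥ v :=
  Matrix.toLin'_apply (r σ) v

variable {k : Type} [Field k] (ε : B →+* k) (hεs : Function.Surjective ε)

include hεs in
/-- A representation reducing to one of ordinary type is residually ordinary. -/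
theorem residual_ordinary_of_ordType {rb : GQ →* Matrix (Fin 2) (Fin 2) k} (ρ : GaloisRepAdic B)
    (b : Module.Basis (Fin 2) B ρ.V) (hr : mapRep ε (matrixOf ρ b) = rb)
    (hord : ∀ A : ValuationSubring Qb, A.LiesOverPrime p → IsOrdType A rb) :
    (GaloisRepAdic.ofResidualGaloisRep ρ.residual).IsOrdinaryAt p := by
  classical
  intro A hA
  obtain ⟨l, hl, hD, hI⟩ := hord A hA
  have hker : ∀ x, ε x = 0 → x ∈ maximalIdeal B := fun x hx =>
    (IsLocalRing.mem_maximalIdeal _).mpr fun hu => not_isUnit_zero (hx ▸ hu.map ε)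
  have hmax : ∀ x ∈ maximalIdeal B, ε x = 0 := fun x hx => by
    have h1 := IsLocalRing.eq_maximalIdeal (RingHom.ker_isMaximal_of_surjective ε hεs)
    rw [← h1] at hx
    exact hx
  choose s hs using hεs
  let w : ρ.V := b.equivFun.symm (s ∘ l)
  have hwc : b.equivFun w = s ∘ l := b.equivFun.apply_symm_apply _
  have hw : ε ∘ b.equivFun w = l := funext fun i => by rw [hwc]; exact hs (l i)
  have hzero : ∀ v : ρ.V, ε ∘ b.equivFun v = 0 → toResidual ρ v = 0 := fun v hv => by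
    rw [← b.sum_repr v, map_sum]
    refine Finset.sum_eq_zero fun i _ => ?_
    have h0 : residue B (b.repr v i) = 0 := (residue_eq_zero_iff _).2 (hker _ (congrFun hv i))
    rw [map_smul, ← algebraMap_smul (ResidueField B), ResidueField.algebraMap_eq, h0, zero_smul]
  have hmv : ∀ σ (v : ρ.V), ε ∘ b.equivFun (ρ.ρ σ v) = rb σ *ᵥ (ε ∘ b.equivFun v) := fun σ v => by
    funext i
    rw [← hr, mapRep_eq, RingHom.mapMatrix_apply, ← RingHom.map_mulVec]
    exact congrArg ε (congrFun (LinearMap.toMatrix_mulVec_repr b b (ρ.ρ σ) v).symm i)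
  have hcl : ∀ (v : ρ.V) (x : k), ε ∘ b.equivFun v = x • l →
      toResidual ρ v ∈ ResidueField B ∙ toResidual ρ w := fun v x hv => by
    refine Submodule.mem_span_singleton.2 ⟨residue B (s x), ?_⟩
    rw [← ResidueField.algebraMap_eq, algebraMap_smul, ← map_smul, eq_comm, ← sub_eq_zero, ← map_sub]
    refine hzero _ (funext fun i => ?_)
    have h1 := congrFun hv i
    simp only [Function.comp_apply, Pi.smul_apply, smul_eq_mul] at h1
    rw [Function.comp_apply, map_sub, map_smul, hwc, Pi.sub_apply, Pi.smul_apply, map_sub,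
      smul_eq_mul, map_mul, h1, Function.comp_apply, hs, hs, sub_self]
    rfl
  obtain ⟨j, hj⟩ : ∃ j, l j ≠ 0 := by
    by_contra hc; push Not at hc; exact hl (funext hc)
  let u : Fin 2 → ρ.V := ![w, b (1 - j)]
  have hu : IsUnit (b.det u) := by
    have hwj : IsUnit (s (l j)) := by
      by_contra hn
      exact hj ((hs (l j)).symm.trans (hmax _ ((mem_maximalIdeal _).2 hn)))
    rw [Module.Basis.det_apply, Matrix.det_fin_two]
    fin_cases j <;>
      simpa [Module.Basis.toMatrix_apply, u, w, Finsupp.single_apply] using hwj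
  obtain ⟨hli, hsp⟩ := (b.is_basis_iff_det (v := u)).2 hu
  let bk : Module.Basis (Fin 2) (ResidueField B) ρ.residual.V :=
    Algebra.TensorProduct.basis (ResidueField B) (Module.Basis.mk hli hsp.ge)
  refine ⟨ResidueField B ∙ toResidual ρ w, ⟨bk, congrArg (fun z => ResidueField B ∙ z) ?_⟩,
    fun σ hσ v hv => ?_, fun σ hσ v => ?_⟩
  · show _ = Algebra.TensorProduct.basis (ResidueField B) (Module.Basis.mk hli hsp.ge) 0
    rw [Algebra.TensorProduct.basis_apply, Module.Basis.mk_apply]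
    rfl
  · obtain ⟨c, rfl⟩ := Submodule.mem_span_singleton.1 hv
    obtain ⟨x, hx⟩ := hD σ hσ
    have h1 : ρ.residual.ρ σ (toResidual ρ w) ∈ ResidueField B ∙ toResidual ρ w :=
      toResidual_apply ρ σ w ▸ hcl _ x (by rw [hmv, hw, hx])
    exact ((ρ.residual.ρ σ).map_smul c _).symm ▸ Submodule.smul_mem _ c h1
  · obtain ⟨v', hv'⟩ := toResidual_surjective ρ v
    subst hv'
    obtain ⟨x, hx⟩ := hI σ hσ (ε ∘ b.equivFun v')
    have h1 := hcl (ρ.ρ σ v' - v') x (by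
      rw [← hx, ← hmv, map_sub]
      exact funext fun i => map_sub ε _ _)
    rw [map_sub, toResidual_apply] at h1
    exact h1

section Twist

variable {r r₀ : GQ →* Matrix (Fin 2) (Fin 2) B} (h : IsContRep r) (h₀ : IsContRep r₀) (θ : GQ →* Bˣ)
  (hr : ∀ σ, r σ = (θ σ : B) • r₀ σ)
  (hθI : ∀ A : ValuationSubring Qb, A.LiesOverPrime p → ∀ σ ∈ A.inertiaSubgroupIn ℚ, θ σ = 1)

include hr in
theorem ofMatrix_smul_apply (σ : GQ) (v : Fin 2 → B) :
    (ofMatrix r h).ρ σ v = (θ σ : B) • (ofMatrix r₀ h₀).ρ σ v := by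
  rw [ofMatrix_apply, ofMatrix_apply, hr]
  exact Matrix.smul_mulVec _ _ _

include h₀ hr hθI in
/-- A twist unramified at `p` preserves ordinarity. -/
theorem isOrdinaryAt_twist (ho : (ofMatrix r₀ h₀).IsOrdinaryAt p) :
    (ofMatrix r h).IsOrdinaryAt p := fun A hA => by
  obtain ⟨L, hb, hD, hI⟩ := ho A hA
  refine ⟨L, hb, fun σ hσ v hv => ?_, fun σ hσ v => ?_⟩
  · have := L.smul_mem (θ σ : B) (hD σ hσ v hv)
    exact (ofMatrix_smul_apply h h₀ θ hr σ v).symm ▸ this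
  · have e := ofMatrix_smul_apply h h₀ θ hr σ v
    rw [hθI A hA σ hσ, Units.val_one, one_smul] at e
    exact e.symm ▸ hI σ hσ v

include h₀ hr hθI in
/-- A twist unramified at `p` preserves strict ordinarity. -/
theorem isStrictOrdinaryAt_twist (ho : (ofMatrix r₀ h₀).IsStrictOrdinaryAt p) :
    (ofMatrix r h).IsStrictOrdinaryAt p := by
  refine ⟨ho.1, fun A hA => ?_⟩
  obtain ⟨L, hb, hD, hI, hS⟩ := ho.2 A hA
  refine ⟨L, hb, fun σ hσ v hv => ?_, fun σ hσ v => ?_, fun σ hσ => ?_⟩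
  · have := L.smul_mem (θ σ : B) (hD σ hσ v hv)
    exact (ofMatrix_smul_apply h h₀ θ hr σ v).symm ▸ this
  · have e := ofMatrix_smul_apply h h₀ θ hr σ v
    rw [hθI A hA σ hσ, Units.val_one, one_smul] at e
    exact e.symm ▸ hI σ hσ v
  · obtain ⟨x, z, hx, hz, ha⟩ := hS σ hσ
    refine ⟨(θ σ : B) * x, (θ σ : B) * z, fun w hw => ?_, fun v => ?_, fun n a hna => ?_⟩
    · refine (ofMatrix_smul_apply h h₀ θ hr σ w).trans ?_
      rw [mul_smul]
      exact congrArg ((θ σ : B) • ·) (hx w hw)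
    · have e := ofMatrix_smul_apply h h₀ θ hr σ v
      have h2 := L.smul_mem (θ σ : B) (hz v)
      refine Eq.mp (congrArg (· ∈ L) ?_) h2
      rw [e]
      exact (smul_sub (θ σ : B) _ _).trans (congrArg (_ - ·) (smul_smul _ _ _))
    · have := Ideal.mul_mem_left (Ideal.span {((p ^ n : ℕ) : B)}) (θ σ : B) (ha n a hna)
      convert this using 1
      ring

end Twist

section Lift

variable {O : Type} [CommRing O] [IsDomain O] [IsDiscreteValuationRing O] [CharZero O]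
  [Finite (ResidueField O)] [Algebra O B] [Module.Finite O B] [Module.Free O B]

/-- What is known about a twisted lift with Hecke traces. -/
structure HeckeLift (p N : ℕ) [NeZero N] (S : Finset ℕ) (ε : B →+* ResidueField O)
    (rb : GQ →* Matrix (Fin 2) (Fin 2) (ResidueField O)) (r : GQ →* Matrix (Fin 2) (Fin 2) B)
    (χ : CuspForm.heckeAlgebra N 2 (↑S : Set ℕ) →+* O) (θ : GQ →* Oˣ) (bad : Finset ℕ) : Prop where
  hε : ∀ c, ε (algebraMap O B c) = residue O c
  span : Submodule.span (ResidueField O) (Set.range rb) = ⊤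
  lift : mapRep ε r = rb
  θfin : ∃ L : IntermediateField ℚ Qb, FiniteDimensional ℚ L ∧
    ∀ σ : GQ, (∀ a ∈ L, σ a = a) → θ σ = 1
  θI : ∀ A : ValuationSubring Qb, A.LiesOverPrime p → ∀ σ ∈ A.inertiaSubgroupIn ℚ, θ σ = 1
  frob : ∀ (ℓ : ℕ) (hℓ : ℓ.Prime) (hℓN : ¬ ℓ ∣ N) (hℓS : ℓ ∉ (↑S : Set ℕ)), ℓ ∉ bad →
    ∀ P : ValuationSubring Qb, P.LiesOverPrime ℓ → ∀ τ : GQ, P.IsFrobeniusAt τ ℓ →
      (r τ).trace = algebraMap O B
          ((θ τ : O) * χ (CuspForm.heckeAlgebra.T (k := 2) hℓ hℓN hℓS)) ∧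
        (r τ).det = algebraMap O B ((θ τ : O) ^ 2 * (ℓ : O))

variable {N : ℕ} [NeZero N] {S : Finset ℕ} {ε' : B →+* ResidueField O}
  {rb : GQ →* Matrix (Fin 2) (Fin 2) (ResidueField O)} {r : GQ →* Matrix (Fin 2) (Fin 2) B}
  {χ : CuspForm.heckeAlgebra N 2 (↑S : Set ℕ) →+* O} {θ : GQ →* Oˣ} {bad : Finset ℕ}

/-- The untwisted lift. -/
theorem HeckeLift.exists_untwist (H : HeckeLift p N S ε' rb r χ θ bad) (hcont : IsContRep r)
    (hord : ∀ A : ValuationSubring Qb, A.LiesOverPrime p → IsOrdType A rb) :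
    ∃ (r₀ : GQ →* Matrix (Fin 2) (Fin 2) B) (h₀ : IsContRep r₀) (θB : GQ →* Bˣ),
      (∀ σ, r σ = (θB σ : B) • r₀ σ) ∧
      (∀ A : ValuationSubring Qb, A.LiesOverPrime p → ∀ σ ∈ A.inertiaSubgroupIn ℚ, θB σ = 1) ∧
      Submodule.span B (Set.range r₀) = ⊤ ∧
      (GaloisRepAdic.ofResidualGaloisRep (ofMatrix r₀ h₀).residual).IsOrdinaryAt p ∧
      ∀ (ℓ : ℕ) (hℓ : ℓ.Prime) (hℓN : ¬ ℓ ∣ N) (hℓS : ℓ ∉ (↑S : Set ℕ)), ℓ ∉ bad →
        ∀ P : ValuationSubring Qb, P.LiesOverPrime ℓ → ∀ τ : GQ, P.IsFrobeniusAt τ ℓ →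
          (r₀ τ).trace = algebraMap O B (χ (CuspForm.heckeAlgebra.T (k := 2) hℓ hℓN hℓS)) ∧
            (r₀ τ).det = (ℓ : B) := by
  classical
  let θB : GQ →* Bˣ := (Units.map (algebraMap O B).toMonoidHom).comp θ
  have hθB : ∀ σ, (θB σ : B) = algebraMap O B (θ σ : O) := fun σ => rfl
  let r₀ : GQ →* Matrix (Fin 2) (Fin 2) B :=
    { toFun := fun σ => ((θB σ)⁻¹ : Bˣ).1 • r σ
      map_one' := by simp
      map_mul' := fun a b => by
        rw [map_mul, map_mul, mul_inv, Units.val_mul, Matrix.smul_mul, Matrix.mul_smul, smul_smul] }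
  have hr₀ : ∀ σ, r₀ σ = ((θB σ)⁻¹ : Bˣ).1 • r σ := fun σ => rfl
  have hr : ∀ σ, r σ = (θB σ : B) • r₀ σ := fun σ => by
    rw [hr₀, smul_smul, Units.mul_inv, one_smul]
  obtain ⟨Lθ, hLθ, hθ1⟩ := H.θfin
  have hB1 : ∀ σ : GQ, θ σ = 1 → θB σ = 1 := fun σ h => by
    rw [MonoidHom.comp_apply, h, map_one]
  have hcont₀ : IsContRep r₀ := fun n => by
    obtain ⟨L, hL, h⟩ := hcont n
    refine ⟨L ⊔ Lθ, inferInstance, fun σ hσ i j => ?_⟩
    rw [hr₀, hB1 σ (hθ1 σ fun a ha => hσ a ((le_sup_right : Lθ ≤ L ⊔ Lθ) ha)), inv_one,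
      Units.val_one, one_smul]
    exact h σ (fun a ha => hσ a ((le_sup_left : L ≤ L ⊔ Lθ) ha)) i j
  have hspan₀ : Submodule.span B (Set.range r₀) = ⊤ := by
    refine top_unique ((span_eq_top_of_lift ε' H.hε H.span H.lift).ge.trans (Submodule.span_le.mpr ?_))
    rintro _ ⟨σ, rfl⟩
    rw [hr σ]
    exact Submodule.smul_mem _ _ (Submodule.subset_span ⟨σ, rfl⟩)
  have hεs : Function.Surjective ε' := fun y => by
    obtain ⟨c, rfl⟩ := residue_surjective y
    exact ⟨algebraMap O B c, H.hε c⟩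
  refine ⟨r₀, hcont₀, θB, hr, fun A hA σ hσ => hB1 σ (H.θI A hA σ hσ), hspan₀,
    residual_ordinary_of_ordType ε' hεs (ofMatrix r₀ hcont₀) (Pi.basisFun B (Fin 2))
      (by rw [matrixOf_ofMatrix]) (fun A hA => ?_),
    fun ℓ hℓ hℓN hℓS hbad P hP τ hτ => ?_⟩
  · obtain ⟨l, hl, hD, hI⟩ := hord A hA
    have e : ∀ σ (v : Fin 2 → ResidueField O),
        mapRep ε' r₀ σ *ᵥ v = ε' ((θB σ)⁻¹ : Bˣ).1 • (rb σ *ᵥ v) := fun σ v => by
      have e1 : mapRep ε' r₀ σ = ε' ((θB σ)⁻¹ : Bˣ).1 • mapRep ε' r σ := by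
        ext i j
        simp [mapRep_apply, hr₀]
      rw [e1, H.lift, Matrix.smul_mulVec]
    refine ⟨l, hl, fun σ hσ => ?_, fun σ hσ w => ?_⟩
    · obtain ⟨x, hx⟩ := hD σ hσ
      exact ⟨ε' ((θB σ)⁻¹ : Bˣ).1 * x, by rw [e, hx, smul_smul]⟩
    · obtain ⟨x, hx⟩ := hI σ hσ w
      exact ⟨x, by rw [e, hB1 σ (H.θI A hA σ hσ), inv_one, Units.val_one, map_one, one_smul, hx]⟩
  · obtain ⟨ht, hd⟩ := H.frob ℓ hℓ hℓN hℓS hbad P hP τ hτ
    rw [hr₀, Matrix.trace_smul, Matrix.det_smul, Fintype.card_fin, ht, hd, smul_eq_mul, map_mul,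
      map_mul, map_pow, map_natCast, ← hθB, ← mul_assoc, ← mul_assoc, ← mul_pow, Units.inv_mul,
      one_mul, one_pow, one_mul]
    exact ⟨rfl, rfl⟩

/-- **Lifts of eigen systems of level `pM` are ordinary at `p`**, given the special fibres. -/
theorem HeckeLift.isOrdinaryAt (hfib : FA.ModField.HasFibreData) (hp : p.Prime) (hp2 : p ≠ 2)
    (hpO : (p : O) ∈ maximalIdeal O) (H : HeckeLift p N S ε' rb r χ θ bad) (hcont : IsContRep r)
    (hN : p ∣ N ∧ ¬ p ^ 2 ∣ N) (hNS : ∀ q : ℕ, q.Prime → q ∣ N → q ∈ S)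
    (hord : ∀ A : ValuationSubring Qb, A.LiesOverPrime p → IsOrdType A rb) :
    (ofMatrix r hcont).IsOrdinaryAt p := by
  classical
  obtain ⟨alg⟩ := FA.JTorsion.exists_algebra_qbar
  letI := alg
  haveI : Fact p.Prime := ⟨hp⟩
  obtain ⟨r₀, h₀, θB, hr, hθI, hspan₀, hres, hfrob⟩ := H.exists_untwist hcont hord
  obtain ⟨⟨M, rfl⟩, hN2⟩ := hN.imp_left fun h =>
    (⟨N / p, (Nat.div_mul_cancel h).symm⟩ : ∃ M, N = M * p)
  haveI : NeZero M := ⟨fun h0 => NeZero.ne (M * p) (by rw [h0, zero_mul])⟩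
  have hpM : ¬ p ∣ M := fun hd => hN2 (by rw [sq]; exact mul_dvd_mul_right hd p)
  have hpB : (p : B) ∈ maximalIdeal B := by
    refine (IsLocalRing.mem_maximalIdeal _).mpr fun hu => not_isUnit_zero (M₀ := ResidueField O) ?_
    rw [← (residue_eq_zero_iff _).mpr hpO, map_natCast, ← map_natCast ε']
    exact hu.map ε'
  haveI : IsNoetherianRing B := isNoetherian_of_tower O inferInstance
  have hfin := fun n => FA.FlatModel.finite_quotient_prime_pow (O := O) (R := B) hp n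
  haveI : Finite (ResidueField B) := FA.FlatModel.finite_residueField hp hpB hfin
  refine isOrdinaryAt_twist hcont h₀ θB hr hθI ?_
  refine isOrdinaryAt_of_connPart (ofMatrix r₀ h₀) hp2 hpB hres (bad ∪ S ∪ (M * p).primeFactors)
    (fun ℓ hℓ hℓb P hP τ hτ => ?_) fun A hA t inst => ?_
  · simp only [Finset.mem_union, Nat.mem_primeFactors, not_or] at hℓb
    have hℓN : ¬ ℓ ∣ M * p := fun h => hℓb.2 ⟨hℓ, h, NeZero.ne _⟩
    refine (LinearMap.det_toMatrix (Pi.basisFun B (Fin 2)) ((ofMatrix r₀ h₀).ρ τ)).symm.trans ?_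
    show (matrixOf (ofMatrix r₀ h₀) (Pi.basisFun B (Fin 2)) τ).det = _
    rw [matrixOf_ofMatrix]
    exact (hfrob ℓ hℓ hℓN (by simpa using hℓb.1.2) hℓb.1.1 P hP τ hτ).2
  · haveI : Finite (B ⧸ maximalIdeal B ^ t) := by
      haveI : Finite (B ⧸ maximalIdeal B) := ‹Finite (ResidueField B)›
      exact Ideal.finite_quotient_pow (IsNoetherian.noetherian _) t
    exact FA.FlatModel.transfer_of_hecke hp2 hNS hpB
      (FA.FlatModel.natCast_mem_nonZeroDivisors (O := O) hp) hfin ((algebraMap O B).comp χ)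
      (ofMatrix r₀ h₀) (Pi.basisFun B (Fin 2)) (by rw [matrixOf_ofMatrix]; exact hspan₀) bad
      (fun ℓ hℓ hℓN hℓS hbad P hP τ hτ => by
        rw [matrixOf_ofMatrix]; exact hfrob ℓ hℓ hℓN hℓS hbad P hP τ hτ)
      isTransfer_hasConnPart (fun n _ _ => FA.ModField.hasConnPart_modN hfib hpM hA _ n) _

open FA.ModField FA.JTorsion in
/-- **Lifts of eigen systems new at `p` of level `pM` are strictly ordinary at `p`**, given the
special fibres. -/
theorem HeckeLift.isStrictOrdinaryAt (hfib : FA.ModField.HasFibreData) (hp : p.Prime) (hp2 : p ≠ 2)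
    (hpO : (p : O) ∈ maximalIdeal O) {M : ℕ} [NeZero M] (hNM : N = M * p) (hpM : ¬ p ∣ M)
    (H : HeckeLift p N S ε' rb r χ θ bad) (hcont : IsContRep r)
    (hNS : ∀ q : ℕ, q.Prime → q ∣ N → q ∈ S)
    (hord : ∀ A : ValuationSubring Qb, A.LiesOverPrime p → IsOrdType A rb)
    (hnew : ∀ χ' : CuspForm.heckeAlgebra M 2 (↑S : Set ℕ) →+* O,
      ∃ (ℓ : ℕ) (hℓ : ℓ.Prime) (hℓN : ¬ ℓ ∣ N) (hℓS : ℓ ∉ (↑S : Set ℕ)),
        χ' (CuspForm.heckeAlgebra.T (k := 2) hℓ (fun h => hℓN (hNM ▸ h.mul_right p)) hℓS) ≠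
          χ (CuspForm.heckeAlgebra.T (k := 2) hℓ hℓN hℓS)) :
    (ofMatrix r hcont).IsStrictOrdinaryAt p := by
  classical
  subst hNM
  obtain ⟨alg⟩ := FA.JTorsion.exists_algebra_qbar
  letI := alg
  haveI : Fact p.Prime := ⟨hp⟩
  obtain ⟨r₀, h₀, θB, hr, hθI, hspan₀, hres, hfrob⟩ := H.exists_untwist hcont hord
  obtain ⟨t, ht, ht2, h, hh, hχ⟩ := exists_killer_of_not_lower (dvd_mul_right M p) hNS χ hnew
  have hpB : (p : B) ∈ maximalIdeal B := by
    refine (IsLocalRing.mem_maximalIdeal _).mpr fun hu => not_isUnit_zero (M₀ := ResidueField O) ?_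
    rw [← (residue_eq_zero_iff _).mpr hpO, map_natCast, ← map_natCast ε']
    exact hu.map ε'
  haveI : IsNoetherianRing B := isNoetherian_of_tower O inferInstance
  have hfin := fun n => FA.FlatModel.finite_quotient_prime_pow (O := O) (R := B) hp n
  haveI : Finite (ResidueField B) := FA.FlatModel.finite_residueField hp hpB hfin
  have hpow : ∃ c, (p : B) ^ c ∈ Ideal.span {((algebraMap O B).comp χ) h} := by
    obtain ⟨ϖ, hϖ⟩ := IsDiscreteValuationRing.exists_irreducible O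
    obtain ⟨a, u, hu⟩ := IsDiscreteValuationRing.eq_unit_mul_pow_irreducible hχ hϖ
    obtain ⟨d, hd⟩ : ϖ ∣ (p : O) := by
      rw [← Ideal.mem_span_singleton, ← hϖ.maximalIdeal_eq]; exact hpO
    refine ⟨a, Ideal.mem_span_singleton'.2 ⟨algebraMap O B (d ^ a * ↑u⁻¹), ?_⟩⟩
    rw [RingHom.comp_apply, ← map_mul, hu, ← map_natCast (algebraMap O B), ← map_pow, hd, mul_pow]
    congr 1
    calc d ^ a * ↑u⁻¹ * (↑u * ϖ ^ a) = (↑u⁻¹ * ↑u) * (ϖ ^ a * d ^ a) := by ring
      _ = ϖ ^ a * d ^ a := by rw [Units.inv_mul, one_mul]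
  obtain ⟨c, hc⟩ := hpow
  have hdet : ∀ ℓ : ℕ, ℓ.Prime → ℓ ∉ bad ∪ S ∪ (M * p).primeFactors →
      ∀ P : ValuationSubring Qb, P.LiesOverPrime ℓ → ∀ τ : GQ, P.IsFrobeniusAt τ ℓ →
        LinearMap.det ((ofMatrix r₀ h₀).ρ τ) = (ℓ : B) := fun ℓ hℓ hℓb P hP τ hτ => by
    simp only [Finset.mem_union, Nat.mem_primeFactors, not_or] at hℓb
    have hℓN : ¬ ℓ ∣ M * p := fun h => hℓb.2 ⟨hℓ, h, NeZero.ne _⟩
    refine (LinearMap.det_toMatrix (Pi.basisFun B (Fin 2)) ((ofMatrix r₀ h₀).ρ τ)).symm.trans ?_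
    show (matrixOf (ofMatrix r₀ h₀) (Pi.basisFun B (Fin 2)) τ).det = _
    rw [matrixOf_ofMatrix]
    exact (hfrob ℓ hℓ hℓN (by simpa using hℓb.1.2) hℓb.1.1 P hP τ hτ).2
  refine isStrictOrdinaryAt_twist hcont h₀ θB hr hθI ?_
  refine isStrictOrdinaryAt_of_part (ofMatrix r₀ h₀) hp2 hpB hres _ hdet
    (detIsCyclotomic_of_frobenius (ofMatrix r₀ h₀) hpB
      (fun n => by rw [Nat.cast_pow]; exact hfin n) _ hdet) fun A hA t' inst => ?_
  haveI : Finite (B ⧸ maximalIdeal B ^ t') := by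
    haveI : Finite (B ⧸ maximalIdeal B) := ‹Finite (ResidueField B)›
    exact Ideal.finite_quotient_pow (IsNoetherian.noetherian _) t'
  refine FA.FlatModel.transfer_of_hecke_image hp2 hNS hpB
    (FA.FlatModel.natCast_mem_nonZeroDivisors (O := O) hp) hfin ((algebraMap O B).comp χ)
    (ofMatrix r₀ h₀) (Pi.basisFun B (Fin 2)) (by rw [matrixOf_ofMatrix]; exact hspan₀) bad
    (fun ℓ hℓ hℓN hℓS hbad P hP τ hτ => by
      rw [matrixOf_ofMatrix]; exact hfrob ℓ hℓ hℓN hℓS hbad P hP τ hτ)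
    (isTransfer_hasPart strictSet_subset) h hc (fun n _ _ => ?_) _
  haveI : Algebra.IsAlgebraic ℚ Qb := AlgebraicClosure.isAlgebraic ℚ
  haveI : IsAlgClosed (ResidueField A) := FA.Frob.residueField_isAlgClosed A
  haveI : CharP (ResidueField A) p := residueAt_charP hA
  haveI : NeZero p := ⟨hp.ne_zero⟩
  obtain ⟨D⟩ := hfib M p hpM A residueAt_eq_zero
    (fun x hx => FA.ModField.exists_pow_lt_valuation hp hA x hx) hA
  exact D.hasStrictPart (hNS p hp (dvd_mul_left p M)) ht ht2 hh hA n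

end Lift

end FA.RT
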