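import Fermat.Agent.RT.PointOf
import Fermat.Agent.Density.Places
import Fermat.Agent.JTorsion.Cyclo
import Fermat.Agent.JTorsion.CycloRes
import Fermat.Agent.JTorsion.TraceTools

/-!
# Lemmas on points

Determinants and residual traces from Frobenius elements, and base change of a spanning residual
representation.
-/

set_option autoImplicit false
set_option linter.unusedSectionVars false

noncomputable section

open IsLocalRing Matrix FA.Deform FA.JTorsion

namespace FA.RT

local notation "Qb" => AlgebraicClosure ℚ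
local notation "GQ" => AlgebraicClosure ℚ ≃ₐ[ℚ] AlgebraicClosure ℚ
local notation "M2" => Matrix (Fin 2) (Fin 2)

/-- A continuous representation has open kernel modulo powers of the maximal ideal. -/
theorem isOpen_ker_quot {R : Type} [CommRing R] [IsLocalRing R] {m : GQ →* M2 R}
    (hm : IsContRep m) (n : ℕ) :
    IsOpen ((mapRep (Ideal.Quotient.mk (maximalIdeal R ^ n)) m).ker : Set GQ) := by
  obtain ⟨L, hL, h⟩ := hm n
  refine Subgroup.isOpen_mono (H₁ := L.fixingSubgroup) (fun σ hσ => ?_)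
    (IntermediateField.fixingSubgroup_isOpen L)
  refine MonoidHom.mem_ker.mpr (Matrix.ext fun i j => ?_)
  have h1 := Ideal.Quotient.eq_zero_iff_mem.mpr
    (h σ ((IntermediateField.mem_fixingSubgroup_iff L σ).mp hσ) i j)
  rw [Matrix.sub_apply, map_sub, sub_eq_zero] at h1
  show Ideal.Quotient.mk _ (m σ i j) = _
  rw [h1]
  rcases eq_or_ne i j with rfl | hne <;> simp [*]

/-- **Traces are determined by Frobenius elements.** -/
theorem trace_eq_of_frobenius {k : Type} [CommRing k] (ρ₁ ρ₂ : GQ →* M2 k)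
    (h₁ : IsOpen (ρ₁.ker : Set GQ)) (h₂ : IsOpen (ρ₂.ker : Set GQ)) (S : Finset ℕ)
    (h : ∀ q : ℕ, q.Prime → q ∉ S → ∀ A : ValuationSubring Qb, A.LiesOverPrime q →
      ∀ τ : GQ, A.IsFrobeniusAt τ q →
        (ρ₁ τ).trace = (ρ₂ τ).trace ∧ (ρ₁ τ).det = (ρ₂ τ).det)
    (σ : GQ) : (ρ₁ σ).trace = (ρ₂ σ).trace := by
  have hK : IsOpen ((ρ₁.prod ρ₂).ker : Set GQ) := by
    rw [show (((ρ₁.prod ρ₂).ker : Subgroup GQ) : Set GQ) = (ρ₁.ker : Set GQ) ∩ ρ₂.ker by
      ext x; simp [MonoidHom.mem_ker, Prod.ext_iff]]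
    exact h₁.inter h₂
  refine FA.Density.forall_of_frobenius_pow _ hK (fun τ => (ρ₁ τ).trace = (ρ₂ τ).trace) ?_ S ?_ σ
  · intro τ η hη hτ
    obtain ⟨e1, e2⟩ := Prod.ext_iff.1 (MonoidHom.mem_ker.1 hη)
    change ρ₁ η = 1 at e1
    change ρ₂ η = 1 at e2
    rw [map_mul, map_mul, e1, e2, mul_one, mul_one, hτ]
  · intro q hq hqS A hA τ hτ j
    obtain ⟨ht, hd⟩ := h q hq hqS A hA τ hτ
    rw [map_pow, map_pow, trace_pow_fin_two, trace_pow_fin_two, ht, hd]

variable {p : ℕ} [Fact p.Prime] {R : Type} [CommRing R] [IsLocalRing R]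

theorem map_toZModPow_eq (ι : ℤ_[p] →+* R) (hpR : (p : R) ∈ maximalIdeal R) {n : ℕ} {a b : ℤ_[p]}
    (h : PadicInt.toZModPow n a = PadicInt.toZModPow n b) :
    Ideal.Quotient.mk (maximalIdeal R ^ n) (ι a) = Ideal.Quotient.mk (maximalIdeal R ^ n) (ι b) := by
  rw [Ideal.Quotient.eq, ← map_sub]
  have h1 : a - b ∈ RingHom.ker (PadicInt.toZModPow n (p := p)) := by
    rw [RingHom.mem_ker, map_sub, h, sub_self]
  rw [PadicInt.ker_toZModPow, Ideal.mem_span_singleton'] at h1
  obtain ⟨c, hc⟩ := h1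
  rw [← hc, map_mul, map_pow, map_natCast]
  exact Ideal.mul_mem_left _ _ (Ideal.pow_mem_pow hpR n)

/-- **The determinant is cyclotomic.** -/
theorem det_eq_cycP [IsHausdorff (maximalIdeal R) R] (hpR : (p : R) ∈ maximalIdeal R)
    (ι : ℤ_[p] →+* R) {m : GQ →* M2 R} (hm : IsContRep m) (S : Finset ℕ)
    (h : ∀ q : ℕ, q.Prime → q ∉ S → ∀ A : ValuationSubring Qb, A.LiesOverPrime q →
      ∀ τ : GQ, A.IsFrobeniusAt τ q → (m τ).det = (q : R))
    (σ : GQ) : (m σ).det = ι ((cycP p σ : ℤ_[p]ˣ) : ℤ_[p]) := by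
  refine sub_eq_zero.1 (IsHausdorff.haus (inferInstance : IsHausdorff (maximalIdeal R) R) _ fun n => ?_)
  rw [SModEq.zero, smul_eq_mul, Ideal.mul_top, ← Ideal.Quotient.eq]
  let mn := mapRep (Ideal.Quotient.mk (maximalIdeal R ^ n)) m
  let cn : GQ →* ZMod (p ^ n) :=
    ((PadicInt.toZModPow n).toMonoidHom.comp (Units.coeHom ℤ_[p])).comp (cycP p)
  obtain ⟨L, hL, hc⟩ := exists_field_cycP p n
  have hK : IsOpen ((mn.ker ⊓ cn.ker : Subgroup GQ) : Set GQ) := by
    refine (isOpen_ker_quot hm n).inter (Subgroup.isOpen_mono (H₁ := L.fixingSubgroup)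
      (fun τ hτ => MonoidHom.mem_ker.2
        (hc τ ((IntermediateField.mem_fixingSubgroup_iff L τ).mp hτ)))
      (IntermediateField.fixingSubgroup_isOpen L))
  have hnat : ∀ (τ : GQ) (a : ℕ), cn τ = a →
      Ideal.Quotient.mk (maximalIdeal R ^ n) (ι ((cycP p τ : ℤ_[p]ˣ) : ℤ_[p])) =
        Ideal.Quotient.mk (maximalIdeal R ^ n) (a : R) := fun τ a ha => by
    rw [← map_natCast ι]
    exact map_toZModPow_eq ι hpR (by rw [map_natCast]; exact ha)
  refine FA.Density.forall_of_frobenius_pow (mn.ker ⊓ cn.ker) hK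
    (fun τ => Ideal.Quotient.mk (maximalIdeal R ^ n) (m τ).det =
      Ideal.Quotient.mk (maximalIdeal R ^ n) (ι ((cycP p τ : ℤ_[p]ˣ) : ℤ_[p]))) ?_
    (insert p S) ?_ σ
  · intro τ η hη hτ
    obtain ⟨e1, e2⟩ := Subgroup.mem_inf.1 hη
    have hd : Ideal.Quotient.mk (maximalIdeal R ^ n) (m η).det = 1 := by
      rw [RingHom.map_det, RingHom.mapMatrix_apply]
      have h1 : (m η).map (Ideal.Quotient.mk (maximalIdeal R ^ n)) = 1 := MonoidHom.mem_ker.1 e1
      rw [h1, Matrix.det_one]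
    have hc1 : Ideal.Quotient.mk (maximalIdeal R ^ n) (ι ((cycP p η : ℤ_[p]ˣ) : ℤ_[p])) = 1 := by
      rw [hnat η 1 (by rw [Nat.cast_one]; exact MonoidHom.mem_ker.1 e2), Nat.cast_one, map_one]
    rw [map_mul m, Matrix.det_mul, map_mul (Ideal.Quotient.mk _), hd, map_mul (cycP p),
      Units.val_mul, map_mul ι, map_mul (Ideal.Quotient.mk _), hc1, hτ]
  · intro q hq hqS A hA τ hτ k
    simp only [Finset.mem_insert, not_or] at hqS
    rw [map_pow m, Matrix.det_pow, h q hq hqS.2 A hA τ hτ, map_pow (cycP p),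
      Units.val_pow_eq_pow_val, map_pow ι, cycP_frobenius p hq hqS.1 hA hτ, map_natCast]

/-- Spanning survives an extension of the field. -/
theorem span_map_eq_top {k k' : Type} [Field k] [Field k'] (j : k →+* k') {ι : Type*}
    (v : ι → M2 k) (h : Submodule.span k (Set.range v) = ⊤) :
    Submodule.span k' (Set.range fun i => (v i).map j) = ⊤ := by
  refine eq_top_iff.2 fun X _ => ?_
  have hs : ∀ Y ∈ Submodule.span k (Set.range v),
      Y.map j ∈ Submodule.span k' (Set.range fun i => (v i).map j) := by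
    intro Y hY
    induction hY using Submodule.span_induction with
    | mem Y hY => obtain ⟨i, rfl⟩ := hY; exact Submodule.subset_span ⟨i, rfl⟩
    | zero => rw [Matrix.map_zero _ (map_zero j)]; exact zero_mem _
    | add a b _ _ ha hb => rw [Matrix.map_add _ (map_add j)]; exact add_mem ha hb
    | smul c a _ ha => rw [Matrix.map_smul' _ _ _ (map_mul j)]; exact Submodule.smul_mem _ _ ha
  rw [Matrix.matrix_eq_sum_single X]
  refine Submodule.sum_mem _ fun i _ => Submodule.sum_mem _ fun l _ => ?_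
  have := Submodule.smul_mem _ (X i l) (hs (Matrix.single i l 1) (h ▸ Submodule.mem_top))
  rw [show (Matrix.single i l (1 : k)).map j = Matrix.single i l (1 : k') by
    ext a b; simp [Matrix.single_apply, apply_ite j]] at this
  simpa [Matrix.smul_single] using this

end FA.RT
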