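import Fermat.Agent.RT.Carrier
import Fermat.Agent.TW.TangentClass

/-!
# Families of points and the algebras carrying them

A `Carried` algebra is a complete local algebra generated by the traces of a lift of the residual
representation with determinant `cyc`. Every finite family of lifts gives one.
-/

set_option autoImplicit false

noncomputable section

open IsLocalRing Matrix FA.Deform FA.TW

namespace FA.RT

local notation "Qb" => AlgebraicClosure ℚ
local notation "GQ" => AlgebraicClosure ℚ ≃ₐ[ℚ] AlgebraicClosure ℚ

variable {O : Type} [CommRing O] [IsDomain O] [IsDiscreteValuationRing O]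
  [IsAdicComplete (maximalIdeal O) O]
  (rb : GQ →* Matrix (Fin 2) (Fin 2) (ResidueField O)) (cyc : GQ → O)

/-- A finite family of lifts of the residual representation. -/
structure PointSet where
  /-- the index type -/
  J : Type
  [finite : Finite J]
  /-- the coefficient rings -/
  B : J → Type
  [commRing : ∀ j, CommRing (B j)]
  [isLocalRing : ∀ j, IsLocalRing (B j)]
  [algebra : ∀ j, Algebra O (B j)]
  [moduleFinite : ∀ j, Module.Finite O (B j)]
  [moduleFree : ∀ j, Module.Free O (B j)]
  /-- the representations -/
  r : ∀ j, GQ →* Matrix (Fin 2) (Fin 2) (B j)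
  /-- the reductions -/
  ε : ∀ j, B j →+* ResidueField O
  ε_algebraMap : ∀ j c, ε j (algebraMap O (B j) c) = residue O c
  lift : ∀ j, mapRep (ε j) (r j) = rb
  cont : ∀ j, IsContRep (r j)
  det : ∀ j σ, (r j σ).det = algebraMap O (B j) (cyc σ)

attribute [instance] PointSet.finite PointSet.commRing PointSet.isLocalRing
  PointSet.algebra PointSet.moduleFinite PointSet.moduleFree

/-- An algebra carrying a lift and generated by its traces. -/
structure Carried where
  /-- the ring -/
  R : Type
  [commRing : CommRing R]
  [isLocalRing : IsLocalRing R]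
  [isNoetherianRing : IsNoetherianRing R]
  [algebra : Algebra O R]
  complete : IsAdicComplete (maximalIdeal R) R
  /-- the reduction -/
  π : R →+* ResidueField O
  π_algebraMap : π.comp (algebraMap O R) = algebraMap O (ResidueField O)
  π_surjective : Function.Surjective π
  /-- the lift -/
  rR : GQ →* Matrix (Fin 2) (Fin 2) R
  lift : mapRep π rR = rb
  cont : IsContRep rR
  det : ∀ σ, (rR σ).det = algebraMap O R (cyc σ)
  generated : Algebra.adjoin O (Set.range fun σ => (rR σ).trace) = ⊤

attribute [instance] Carried.commRing Carried.isLocalRing Carried.isNoetherianRing Carried.algebra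
  Carried.complete

variable {rb cyc}

omit [IsAdicComplete (maximalIdeal O) O] in
/-- A tangent vector whose class is a coboundary vanishes. -/
theorem Carried.eq_zero_of_coboundary (C : Carried rb cyc) {p : ℕ}
    (hp : algebraMap O (ResidueField O) p = 0)
    (hdet : ∀ σ, ∃ (a : ℕ) (y : C.R), (C.rR σ).det = a + p * y)
    (d : ↥(tangent C.π O)) (m : ↥(sl2 (ResidueField O)))
    (hm : ∀ σ, tgClass C.π_algebraMap C.lift p hp hdet d σ = adRep rb σ m - m) : d = 0 := by
  have htr : ∀ σ, d.1 (C.rR σ).trace = 0 := fun σ => by
    have h := congrArg Subtype.val (hm σ)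
    rw [coe_tgClass, Submodule.coe_sub, coe_adRep] at h
    have h2 : (C.rR σ).map d.1 =
        rb σ * (m : Matrix (Fin 2) (Fin 2) (ResidueField O)) -
          (m : Matrix (Fin 2) (Fin 2) (ResidueField O)) * rb σ := by
      rw [← tgVal_mul_rb C.rR rb d σ, h, Matrix.sub_mul, Matrix.mul_assoc _ (rb σ⁻¹),
        map_inv_mul_map, Matrix.mul_one]
    have h3 := congrArg Matrix.trace h2
    rw [Matrix.trace_sub, Matrix.trace_mul_comm (rb σ), sub_self, Matrix.trace_fin_two] at h3
    rw [Matrix.trace_fin_two, d.2.1]
    exact h3
  have hall : ∀ x ∈ Algebra.adjoin O (Set.range fun σ => (C.rR σ).trace), d.1 x = 0 := by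
    intro x hx
    induction hx using Algebra.adjoin_induction with
    | mem y hy => obtain ⟨σ, rfl⟩ := hy; exact htr σ
    | algebraMap c => exact d.2.2.2 c
    | add y z _ _ hy hz => rw [d.2.1, hy, hz, add_zero]
    | mul y z _ _ hy hz => rw [d.2.2.1, hy, hz, mul_zero, mul_zero, add_zero]
  exact Subtype.ext (funext fun x => hall x (C.generated ▸ Algebra.mem_top))

/-- A carried algebra with the projections to the points. -/
structure PointSet.Model (S : PointSet rb cyc) extends Carried rb cyc where
  /-- the projections -/
  proj : ∀ j, R →ₐ[O] S.B j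
  proj_injective : ∀ x : R, (∀ j, proj j x = 0) → x = 0
  proj_rR : ∀ j, ∃ U : Matrix (Fin 2) (Fin 2) (S.B j), IsUnit U ∧
    ∀ σ, U * S.r j σ = (rR σ).map (proj j) * U

omit [IsAdicComplete (maximalIdeal O) O] in
/-- A model comes from a nonempty family. -/
theorem PointSet.Model.nonempty_points {S : PointSet rb cyc} (M : S.Model) : Nonempty S.J := by
  by_contra h
  rw [not_nonempty_iff] at h
  exact one_ne_zero (M.proj_injective (1 : M.R) fun j => h.elim j)

/-- **Every family of lifts is carried.** -/
theorem PointSet.nonempty_model [Finite (ResidueField O)] (S : PointSet rb cyc) [Nonempty S.J]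
    (F : Frame O)
    (hF : F.Adapted rb) (hup : ∃ σ, rb σ 0 1 ≠ 0) : Nonempty S.Model := by
  obtain ⟨hloc, hcompl, π, rA, hπ, hsurj, hlift, hcont, htr, -, hconj⟩ :=
    exists_carrier S.r S.ε S.ε_algebraMap S.lift S.cont F hF hup
  refine ⟨{
    R := ↥(traceAlg O S.r)
    complete := hcompl
    π := π
    π_algebraMap := hπ
    π_surjective := hsurj
    rR := rA
    lift := hlift
    cont := hcont
    det := fun σ => ?_
    generated := ?_
    proj := fun j => { trProj O S.r j with commutes' := fun c => rfl }
    proj_injective := fun x h => eq_zero_of_trProj S.r h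
    proj_rR := hconj }⟩
  · refine Subtype.ext (funext fun j => ?_)
    show trProj O S.r j (rA σ).det = algebraMap O (S.B j) (cyc σ)
    obtain ⟨U, hU, hUσ⟩ := hconj j
    have h := congrArg Matrix.det (hUσ σ)
    rw [Matrix.det_mul, Matrix.det_mul, mul_comm U.det] at h
    rw [RingHom.map_det, RingHom.mapMatrix_apply, ← S.det j σ]
    exact ((hU.map Matrix.detMonoidHom).mul_right_cancel h).symm
  · have hset : (Set.range fun σ => (rA σ).trace) = Set.range fun σ => trGen O S.r σ :=
      congrArg Set.range (funext htr)
    rw [hset]
    refine eq_top_iff.mpr fun x _ => ?_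
    obtain ⟨x, hx⟩ := x
    induction hx using Algebra.adjoin_induction with
    | mem y hy => obtain ⟨σ, rfl⟩ := hy; exact Algebra.subset_adjoin ⟨σ, rfl⟩
    | algebraMap c => exact Subalgebra.algebraMap_mem _ c
    | add y z hy' hz' hy hz => exact add_mem (hy trivial) (hz trivial)
    | mul y z hy' hz' hy hz => exact mul_mem (hy trivial) (hz trivial)

end FA.RT
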