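import Fermat.Agent.RT.Detect
import Fermat.Agent.RT.Generators
import Fermat.Agent.RT.Points

/-!
# The local coordinates of a lifting problem

For the residual representation `rb`, unramified outside `Sig ∪ {p}`: a Frobenius element and the
tame generator at every prime of `Sig`, four entries at `p`, and the presentation of framed carried
algebras by these coordinates and `g` further ones.
-/

set_option autoImplicit false

noncomputable section

open IsLocalRing Matrix FA.Deform FA.TW FA.LocalDef FA.Patch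

namespace FA.RT

local notation "Qb" => AlgebraicClosure ℚ
local notation "GQ" => AlgebraicClosure ℚ ≃ₐ[ℚ] AlgebraicClosure ℚ

variable (O : Type) [CommRing O] [IsDomain O] [IsDiscreteValuationRing O]
  [IsAdicComplete (maximalIdeal O) O]

/-- The fixed data of a lifting problem. -/
structure Setup where
  /-- the residue characteristic -/
  p : ℕ
  hp : p.Prime
  hp2 : p ≠ 2
  hpO : (p : O) ∈ maximalIdeal O
  /-- the residual representation -/
  rb : GQ →* Matrix (Fin 2) (Fin 2) (ResidueField O)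
  rb_open : IsOpen (rb.ker : Set GQ)
  /-- the determinant -/
  cyc : GQ → O
  cyc_spec : ∀ σ, ∃ (a : ℕ) (y : O), cyc σ = a + p * y
  /-- the places -/
  P : Places
  /-- the primes with a condition -/
  Sig : Finset ℕ
  prime_Sig : ∀ q ∈ Sig, q.Prime ∧ q ≠ p
  unipotent : ∀ q ∈ Sig, ∀ σ ∈ (P.place q).inertiaSubgroupIn ℚ, ∃ m : ℕ, rb σ ^ p ^ m = 1
  /-- Frobenius elements -/
  Φ : ↥Sig → GQ
  Φ_spec : ∀ q : ↥Sig, (P.place q.1).IsFrobeniusAt (Φ q) q.1
  /-- tame generators -/
  tame : ↥Sig → GQ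
  tame_mem : ∀ q : ↥Sig, tame q ∈ (P.place q.1).inertiaSubgroupIn ℚ
  tame_gen : ∀ (q : ↥Sig) (X : Type) [Monoid X] (f : GQ →* X), IsOpen (f.ker : Set GQ) →
    (∀ σ ∈ (P.place q.1).inertiaSubgroupIn ℚ, ∃ m : ℕ, f σ ^ p ^ m = 1) →
    ∀ σ ∈ (P.place q.1).inertiaSubgroupIn ℚ, ∃ i : ℕ, f σ = f (tame q) ^ i
  /-- the condition on tangent classes at `p` -/
  Cp : (GQ → Matrix (Fin 2) (Fin 2) (ResidueField O)) → Prop
  /-- the number of entries at `p`: four for a single condition, more for a union of conditions -/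
  m : ℕ
  /-- the entries at `p` -/
  e : Fin m → GQ × Fin 2 × Fin 2
  e_mem : ∀ i, (e i).1 ∈ P.dec p
  detect : ∀ c, IsLocalCocycle (P.place p) rb c → Cp c →
    ∀ X : Matrix (Fin 2) (Fin 2) (ResidueField O),
      (∀ i, ((c (e i).1 + X - rb (e i).1 * X * rb (e i).1⁻¹) * rb (e i).1) (e i).2.1 (e i).2.2 = 0) →
      ∀ σ ∈ P.dec p, c σ + X - rb σ * X * rb σ⁻¹ = 0

variable {O}

namespace Setup

variable (S : Setup O)

/-- The places with frames. -/
def T : Finset ℕ := insert S.p S.Sig

omit [IsAdicComplete (maximalIdeal O) O] in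
theorem p_mem_T : S.p ∈ S.T := Finset.mem_insert_self _ _

omit [IsAdicComplete (maximalIdeal O) O] in
theorem card_T : S.T.card = S.Sig.card + 1 :=
  Finset.card_insert_of_notMem fun h => (S.prime_Sig _ h).2 rfl

/-- The coordinates of the local conditions. -/
abbrev Loc : Type := (↥S.Sig × Fin 2 × Fin 2 × Fin 2) ⊕ Fin S.m

/-- The place and entry of a coordinate. -/
def entry : S.Loc → ↥S.T × GQ × Fin 2 × Fin 2
  | .inl (q, w, i, j) => (⟨q.1, Finset.mem_insert_of_mem q.2⟩,
      if w = 0 then S.Φ q else S.tame q, i, j)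
  | .inr i => (⟨S.p, S.p_mem_T⟩, S.e i)

/-- A lift of the residual entries. -/
def lift (σ : GQ) : Matrix (Fin 2) (Fin 2) O :=
  (S.rb σ).map (Function.surjInv residue_surjective)

omit [IsAdicComplete (maximalIdeal O) O] in
theorem residue_lift (σ : GQ) (i j : Fin 2) : residue O (S.lift σ i j) = S.rb σ i j :=
  Function.surjInv_eq residue_surjective _

/-- The coordinate functions on a carried algebra. -/
def coord (C : Carried S.rb S.cyc) (l : S.Loc) : MvPowerSeries (FrameVar S.T S.p) C.R :=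
  framed (v₀ := S.p) (S.entry l).1 (C.rR (S.entry l).2.1) (S.entry l).2.2.1 (S.entry l).2.2.2 -
    algebraMap O (MvPowerSeries (FrameVar S.T S.p) C.R)
      (S.lift (S.entry l).2.1 (S.entry l).2.2.1 (S.entry l).2.2.2)

/-- The variables of the presentation ring: entries at the places of `Sig`, the free variables. -/
abbrev Var (g : ℕ) : Type := (↥S.Sig × Fin 2 × Fin 2 × Fin 2) ⊕ (Fin S.m ⊕ Fin g)

/-- The values of the variables, completed by `g` further elements. -/
def vals (C : Carried S.rb S.cyc) {g : ℕ} (x : Fin g → MvPowerSeries (FrameVar S.T S.p) C.R) :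
    S.Var g → MvPowerSeries (FrameVar S.T S.p) C.R :=
  Sum.elim (fun l => S.coord C (.inl l)) (Sum.elim (fun i => S.coord C (.inr i)) x)

variable [Finite (ResidueField O)]

/-- **Presentation of the framed carried algebra.** -/
theorem exists_generators (C : Carried S.rb S.cyc) (Q : Finset ℕ)
    (hunr : ∀ q : ℕ, q.Prime → q ∉ S.T ∪ Q → ∀ A : ValuationSubring Qb, A.LiesOverPrime q →
      ∀ σ ∈ A.inertiaSubgroupIn ℚ, C.rR σ = 1)
    (hCp : ∀ d : ↥(tangent C.π O), S.Cp (tgVal C.rR S.rb d))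
    {r : ℕ}
    (hbound : ∀ (W : Type) [AddCommGroup W] [Module (ResidueField O) W]
        (κ : W →ₗ[ResidueField O] (GQ → ↥(sl2 (ResidueField O)))),
      (∀ t, IsLocallyTrivial S.rb S.P S.T (S.T ∪ Q) (κ t)) →
      (∀ t v, (∀ g, κ t g = adRep S.rb g v - v) → t = 0) →
      FiniteDimensional (ResidueField O) W ∧ Module.finrank (ResidueField O) W + 1 +
        ∑ q ∈ S.T, Module.finrank (ResidueField O)
          ↥(Representation.invariants ((adRep S.rb).comp (S.P.dec q).subtype)) ≤ r)
    {g : ℕ} (hg : g + 1 = r + S.Sig.card) :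
    ∃ x : Fin g → MvPowerSeries (FrameVar S.T S.p) C.R,
      ∃ hx : ∀ l, S.vals C x l ∈ maximalIdeal (MvPowerSeries (FrameVar S.T S.p) C.R),
        Function.Surjective (evalHom (maximalIdeal (MvPowerSeries (FrameVar S.T S.p) C.R))
          ((MvPowerSeries.C (σ := FrameVar S.T S.p)).comp (algebraMap O C.R))
          (S.vals C x) hx (σ := S.Var g)) := by
  classical
  have : Fact S.p.Prime := ⟨S.hp⟩
  have hpk : ((S.p : ℕ) : ResidueField O) = 0 := by
    rw [← map_natCast (residue O), residue_eq_zero_iff]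
    exact S.hpO
  have : CharP (ResidueField O) S.p := (CharP.charP_iff_prime_eq_zero S.hp).mpr hpk
  have hp0 : algebraMap O (ResidueField O) S.p = 0 := by rw [map_natCast]; exact hpk
  have hdet : ∀ σ, ∃ (a : ℕ) (y : C.R), (C.rR σ).det = a + S.p * y := fun σ => by
    obtain ⟨a, y, hy⟩ := S.cyc_spec σ
    exact ⟨a, algebraMap O C.R y, by rw [C.det, hy, map_add, map_mul, map_natCast, map_natCast]⟩
  have hcyc : ∀ (d : ↥(tangent C.π O)) (g h : GQ), tgVal C.rR S.rb d (g * h) =
      S.rb g * tgVal C.rR S.rb d h * S.rb g⁻¹ + tgVal C.rR S.rb d g := fun d g h =>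
    tgVal_mul C.lift d g h
  let eq := Fintype.equivFin S.Loc
  let ent : Fin (Fintype.card S.Loc) → ↥S.T × GQ × Fin 2 × Fin 2 := fun i => S.entry (eq.symm i)
  have hdetect : ∀ (v : ↥S.T) (d : ↥(tangent C.π O)) (X : Matrix (Fin 2) (Fin 2) (ResidueField O)),
      (∀ i, (ent i).1 = v → ((tgVal C.rR S.rb d (ent i).2.1 + X -
          S.rb (ent i).2.1 * X * S.rb (ent i).2.1⁻¹) * S.rb (ent i).2.1)
            (ent i).2.2.1 (ent i).2.2.2 = 0) →
        ∀ σ ∈ S.P.dec v.1, tgVal C.rR S.rb d σ + X - S.rb σ * X * S.rb σ⁻¹ = 0 := by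
    intro v d X h
    have hl : ∀ l : S.Loc, (S.entry l).1 = v → ((tgVal C.rR S.rb d (S.entry l).2.1 + X -
        S.rb (S.entry l).2.1 * X * S.rb (S.entry l).2.1⁻¹) * S.rb (S.entry l).2.1)
          (S.entry l).2.2.1 (S.entry l).2.2.2 = 0 := fun l hlv => by
      have := h (eq l)
      simp only [ent, Equiv.symm_apply_apply] at this
      exact this hlv
    obtain ⟨v, hv⟩ := v
    rcases Finset.mem_insert.mp hv with rfl | hq
    · refine S.detect _ ⟨fun σ _ => ?_, fun σ _ τ _ => by rw [hcyc, add_comm]⟩ (hCp d) X fun i =>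
        hl (.inr i) rfl
      exact mem_sl2.mp (tgClass C.π_algebraMap C.lift S.p hp0 hdet d σ).2
    · obtain ⟨N, hN, hlc⟩ := tgClass_lc C.π_algebraMap C.lift S.p hp0 hdet C.π_surjective C.cont d
      refine eq_zero_of_frobenius_gen (p := S.p) (S.prime_Sig v hq).1
        (S.P.liesOver v (S.prime_Sig v hq).1) S.rb S.rb_open (S.unipotent v hq)
        (S.Φ_spec ⟨v, hq⟩) (S.tame_gen ⟨v, hq⟩) (tgVal C.rR S.rb d) (hcyc d) hN
        (fun g t ht => congrArg Subtype.val (hlc g t ht)) X
        (Matrix.ext fun i j => ?_) (Matrix.ext fun i j => ?_)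
      · have := hl (.inl (⟨v, hq⟩, 0, i, j)) rfl
        simpa [entry] using this
      · have := hl (.inl (⟨v, hq⟩, 1, i, j)) rfl
        simpa [entry] using this
  obtain ⟨x, hx, hsurj⟩ := exists_framed_generators (v₀ := S.p) C.π_algebraMap C.π_surjective
    C.lift S.hp2 hp0 hdet C.cont S.P Q hunr ent
    (fun i => S.lift (ent i).2.1 (ent i).2.2.1 (ent i).2.2.2)
    (fun i => S.residue_lift _ _ _) hdetect hbound
    (fun d v hv => C.eq_zero_of_coboundary hp0 hdet d v hv) S.p_mem_T
    (g := g) (by rw [S.card_T]; omega)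
  let e : S.Var g ≃ Fin (Fintype.card S.Loc + g) :=
    ((Equiv.sumAssoc _ _ _).symm.trans (Equiv.sumCongr eq (Equiv.refl _))).trans finSumFinEquiv
  have he : ∀ l, Fin.append (localCoord (v₀ := S.p) C.rR ent
      fun i => S.lift (ent i).2.1 (ent i).2.2.1 (ent i).2.2.2) x (e l) = S.vals C x l := by
    rintro (l | l | i)
    · simp [e, vals, localCoord, coord, ent]
    · simp [e, vals, localCoord, coord, ent]
    · simp [e, vals]
  have hx' : ∀ l, S.vals C x l ∈
      maximalIdeal (MvPowerSeries (FrameVar S.T S.p) C.R) := fun l => he l ▸ hx (e l)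
  refine ⟨x, hx', fun y => ?_⟩
  obtain ⟨s, rfl⟩ := hsurj y
  have : Finite (FrameVar S.T S.p) := inferInstance
  have hm : ∀ i, (MvPowerSeries.X (e.symm i) : MvPowerSeries (S.Var g) O) ∈
      maximalIdeal (MvPowerSeries (S.Var g) O) := fun i =>
    mem_maximalIdeal_iff_coeff.mpr (by simp)
  let h : MvPowerSeries (Fin (Fintype.card S.Loc + g)) O →+* MvPowerSeries (S.Var g) O :=
    evalHom (maximalIdeal _) (MvPowerSeries.C (σ := S.Var g))
      (fun i => MvPowerSeries.X (e.symm i)) hm
  refine ⟨h s, RingHom.congr_fun (mvPowerSeries_hom_ext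
    (maximalIdeal (MvPowerSeries (FrameVar S.T S.p) C.R)) (f := (evalHom _ _ _ hx').comp h)
    (fun c => ?_) (fun i => ?_) fun i => ?_) s⟩
  · simp only [h, RingHom.coe_comp, Function.comp_apply, evalHom_C]
    exact (MvPowerSeries.algebraMap_apply).symm
  · simp only [h, RingHom.coe_comp, Function.comp_apply, evalHom_X]
    rw [← he (e.symm i), Equiv.apply_symm_apply]
  · simp only [h, RingHom.coe_comp, Function.comp_apply, evalHom_X]
    exact hx' _

end Setup

end FA.RT
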