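import Fermat.Agent.RT.Detect
import Fermat.Agent.LocalDef.TangentStrict
import Fermat.Agent.GalCoh.Bridge
import Fermat.Agent.GalCoh.CycloGlobal
import Fermat.Agent.TW.Frobenius

/-!
# Finitely many entries detect smooth local classes

A local field of residue characteristic `p` has finitely many smooth homomorphisms to `ℤ/p` on
each open subgroup, so the smooth cocycles on a decomposition group are finitely many and finitely
many entries detect them.
-/

set_option autoImplicit false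
set_option linter.unusedSectionVars false

noncomputable section

open Matrix FA.LocalDef FA.GalCoh FA.TW
open scoped Pointwise

namespace FA.RT

local notation "Qb" => AlgebraicClosure ℚ
local notation "GQ" => AlgebraicClosure ℚ ≃ₐ[ℚ] AlgebraicClosure ℚ
local notation "M2" => Matrix (Fin 2) (Fin 2)

variable {p : ℕ} [hp : Fact p.Prime] {A : ValuationSubring Qb}

/-- A homomorphism from the local group onto the decomposition group. -/
theorem exists_locOnto (hA : A.LiesOverPrime p) :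
    ∃ φ : LG p →* GQ, (∀ τ, φ τ ∈ A.decompositionSubgroup ℚ) ∧
      (∀ σ ∈ A.decompositionSubgroup ℚ, ∃ τ, φ τ = σ) ∧
      ∀ N : Subgroup GQ, IsOpen (N : Set GQ) → N.comap φ ∈ (LL p).carrier := by
  obtain ⟨g, hg⟩ := FA.TW.exists_smul_eq_of_liesOver hp.out (A := padicPlace p) (B := A)
    (liesOverPrime_padicPlace p) hA
  let φ : LG p →* GQ := (MulAut.conj g).toMonoidHom.comp (loc p)
  have hφ : ∀ τ, φ τ = g * loc p τ * g⁻¹ := fun τ => rfl
  refine ⟨φ, fun τ => ?_, fun σ hσ => ?_, fun N hN => ?_⟩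
  · show φ τ • A = A
    have h : loc p τ • padicPlace p = padicPlace p := by
      have : loc p τ ∈ (padicPlace p).decompositionSubgroup ℚ := range_loc (q := p) ▸ ⟨τ, rfl⟩
      exact this
    rw [hφ, ← hg, mul_smul, mul_smul, inv_smul_smul, h]
  · have hσ' : σ • A = A := hσ
    have hmem : g⁻¹ * σ * g ∈ (padicPlace p).decompositionSubgroup ℚ := by
      show (g⁻¹ * σ * g) • padicPlace p = padicPlace p
      rw [mul_smul, mul_smul, hg, hσ', ← hg, inv_smul_smul]
    rw [← range_loc] at hmem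
    obtain ⟨τ, hτ⟩ := hmem
    exact ⟨τ, by rw [hφ, hτ]; group⟩
  · have hN' : IsOpen ((N.comap (MulAut.conj g).toMonoidHom : Subgroup GQ) : Set GQ) :=
      hN.preimage (show Continuous fun x : GQ => g * x * g⁻¹ by fun_prop)
    obtain ⟨N', ⟨F, hF, hFN⟩, hle⟩ := compat_loc (q := p) _ (mem_LQ_iff_isOpen.mpr hN')
    exact ⟨F, hF, fun τ hτ => hle (hFN hτ)⟩

/-- An open subgroup of the local group on which the roots of unity are fixed has finitely many
smooth homomorphisms to `ℤ/p`. -/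
theorem finite_localHom {H : Subgroup (LG p)} (hH : H ∈ (LL p).carrier)
    (hμ : ∀ h ∈ H, (cycL p p).χ h = 1) :
    Finite {f : H → ZMod p // LC₁ ((LL p).sub H) f ∧ ∀ a b, f (a * b) = f a + f b} := by
  have hcard := natCard_H1 hH ((cycL p p).kumData H hμ)
  have : Finite (H1 ((LL p).sub H) (triv H p)) := Nat.finite_of_card_ne_zero (by
    rw [hcard]; exact pow_ne_zero _ hp.out.ne_zero)
  refine Finite.of_injective (fun f => mk1 ((LL p).sub H) (triv H p)
    ⟨f.1, f.2.1, fun a b => by rw [f.2.2, add_comm]; rfl⟩) fun f f' h => Subtype.ext ?_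
  exact (congrArg Subtype.val (mk1_triv_injective h) :)

variable {k : Type} [Field k] [Finite k] [CharP k p]

/-- A smooth cocycle on the decomposition group. -/
def IsSmoothCocycle (A : ValuationSubring Qb) (r : GQ →* M2 k)
    (z : ↥(A.decompositionSubgroup ℚ) → M2 k) : Prop :=
  (∀ σ τ, z (σ * τ) = z σ + r σ * z τ * r σ.1⁻¹) ∧
    ∃ N : Subgroup GQ, IsOpen (N : Set GQ) ∧
      ∀ σ : ↥(A.decompositionSubgroup ℚ), σ.1 ∈ N → z σ = 0

/-- **Smooth local cocycles are finitely many.** -/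
theorem finite_smoothCocycle (hA : A.LiesOverPrime p) (r : GQ →* M2 k)
    (hr : IsOpen (r.ker : Set GQ)) :
    Finite {z : ↥(A.decompositionSubgroup ℚ) → M2 k // IsSmoothCocycle A r z} := by
  classical
  obtain ⟨φ, hφD, hφsurj, hφlc⟩ := exists_locOnto hA
  let _ : Algebra (ZMod p) k := ZMod.algebra k p
  let Bk := Module.finBasis (ZMod p) k
  let D := cycL p p
  obtain ⟨N₀, ⟨F₀, hF₀, hN₀⟩, hζ⟩ := D.gal.smooth D.ζ
  let H : Subgroup (LG p) := r.ker.comap φ ⊓ D.χ.ker
  have hχ : D.χ.ker ∈ (LL p).carrier := ⟨F₀, hF₀, fun τ hτ => MonoidHom.mem_ker.mpr (Units.ext (by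
    have h : τ • D.ζ = D.ζ := hζ τ (hN₀ hτ)
    rw [D.act] at h
    have h1 : D.ζ ^ ((D.χ τ : ZMod p)).val = D.ζ ^ (1 : ℕ) := by rw [pow_one]; exact h
    have h2 := D.prim.pow_inj (ZMod.val_lt _) hp.out.one_lt h1
    exact (ZMod.natCast_zmod_val _).symm.trans (by rw [h2, Nat.cast_one]; rfl)))⟩
  have hH : H ∈ (LL p).carrier := (LL p).inf_mem (hφlc _ hr) hχ
  have : H.FiniteIndex := (LL p).finiteIndex hH
  have := finite_localHom hH fun h hh => MonoidHom.mem_ker.mp hh.2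
  -- the values on representatives and the coordinates on `H`
  let Z := {z : ↥(A.decompositionSubgroup ℚ) → M2 k // IsSmoothCocycle A r z}
  let ev : Z → (LG p ⧸ H → M2 k) := fun z c => z.1 ⟨φ c.out, hφD _⟩
  have hhom : ∀ (z : Z) (a b : H),
      z.1 ⟨φ (a * b : H), hφD _⟩ = z.1 ⟨φ a, hφD _⟩ + z.1 ⟨φ b, hφD _⟩ := by
    intro z a b
    have h := z.2.1 ⟨φ a, hφD _⟩ ⟨φ b, hφD _⟩
    have h1 : r (φ a) = 1 := a.2.1
    have h2 : r (φ a)⁻¹ = 1 := inv_mem (show φ a ∈ r.ker from h1)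
    rw [h1, h2, one_mul, mul_one] at h
    rw [← h]
    exact congrArg z.1 (Subtype.ext (map_mul φ _ _))
  let co : Z → (Fin 2 → Fin 2 → Fin (Module.finrank (ZMod p) k) →
      {f : H → ZMod p // LC₁ ((LL p).sub H) f ∧ ∀ a b, f (a * b) = f a + f b}) := fun z i j l =>
    ⟨fun h => Bk.coord l (z.1 ⟨φ h, hφD _⟩ i j), by
      obtain ⟨N, hN, hzN⟩ := z.2.2
      refine ⟨_, ⟨N.comap φ, hφlc N hN, rfl⟩, fun g s hs => ?_⟩
      dsimp only
      rw [hhom, Matrix.add_apply, map_add, hzN ⟨φ s, hφD _⟩ hs, Matrix.zero_apply, map_zero,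
        add_zero],
      fun a b => by dsimp only; rw [hhom, Matrix.add_apply, map_add]⟩
  have : Finite (LG p ⧸ H) := Subgroup.finite_quotient_of_finiteIndex
  refine Finite.of_injective (fun z => (ev z, co z)) fun z z' h => Subtype.ext (funext fun σ => ?_)
  obtain ⟨hev, hco⟩ := Prod.mk.injEq _ _ _ _ ▸ h
  obtain ⟨σ, hσ⟩ := σ
  obtain ⟨τ, rfl⟩ := hφsurj σ hσ
  obtain ⟨s, hs⟩ := QuotientGroup.mk_out_eq_mul H τ
  have hτ : τ = (τ : LG p ⧸ H).out * ((s : LG p))⁻¹ := by rw [hs, mul_inv_cancel_right]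
  have key : ∀ w : Z, w.1 ⟨φ τ, hσ⟩ = ev w τ + r (φ (τ : LG p ⧸ H).out) *
      w.1 ⟨φ (s⁻¹ : H), hφD _⟩ * r (φ (τ : LG p ⧸ H).out)⁻¹ := fun w => by
    show _ = w.1 ⟨φ (τ : LG p ⧸ H).out, hφD _⟩ + _
    rw [← w.2.1]
    exact congrArg w.1 (Subtype.ext (by
      show φ τ = φ (τ : LG p ⧸ H).out * φ (s⁻¹ : H)
      rw [← map_mul]
      exact congrArg φ hτ))
  have hs' : z.1 ⟨φ (s⁻¹ : H), hφD _⟩ = z'.1 ⟨φ (s⁻¹ : H), hφD _⟩ :=
    Matrix.ext fun i j => Bk.ext_elem fun l =>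
      congrFun (congrArg Subtype.val (congrFun (congrFun (congrFun hco i) j) l)) (s⁻¹)
  rw [key, key, congrFun hev τ, hs']

/-- **Finitely many entries detect smooth local classes.** -/
theorem exists_entries_smooth (hA : A.LiesOverPrime p) (r : GQ →* M2 k)
    (hr : IsOpen (r.ker : Set GQ)) :
    ∃ (m : ℕ) (e : Fin m → GQ × Fin 2 × Fin 2),
      (∀ i, (e i).1 ∈ A.decompositionSubgroup ℚ) ∧
      ∀ c, IsLocalCocycle A r c → IsSmoothClass A c → ∀ X : M2 k,
        (∀ i, ((c (e i).1 + X - r (e i).1 * X * r (e i).1⁻¹) * r (e i).1) (e i).2.1 (e i).2.2 = 0) →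
        ∀ σ ∈ A.decompositionSubgroup ℚ, c σ + X - r σ * X * r σ⁻¹ = 0 := by
  classical
  let Z := {z : ↥(A.decompositionSubgroup ℚ) → M2 k // IsSmoothCocycle A r z}
  have := finite_smoothCocycle hA r hr
  have : Fintype Z := Fintype.ofFinite _
  let pick : Z → ↥(A.decompositionSubgroup ℚ) := fun z =>
    if h : ∃ σ, z.1 σ ≠ 0 then h.choose else 1
  let eq := Fintype.equivFin (Z × Fin 2 × Fin 2)
  refine ⟨_, fun i => ((pick (eq.symm i).1).1, (eq.symm i).2), fun i => (pick _).2,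
    fun c hc hsm X hX σ hσ => ?_⟩
  have hz : IsSmoothCocycle A r fun σ : ↥(A.decompositionSubgroup ℚ) =>
      c σ + X - r σ * X * r σ.1⁻¹ := by
    refine ⟨fun a b => ?_, ?_⟩
    · show c (a.1 * b.1) + X - r (a.1 * b.1) * X * r (a.1 * b.1)⁻¹ = _
      rw [hc.2 _ a.2 _ b.2, map_mul, _root_.mul_inv_rev, map_mul]
      simp only [mul_add, mul_sub, add_mul, sub_mul, Matrix.mul_assoc]
      abel
    · obtain ⟨N, hN, hvan⟩ := hsm
      refine ⟨N ⊓ r.ker, hN.inter hr, fun τ hτ => ?_⟩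
      have h1 : r τ.1 = 1 := hτ.2
      have h2 : r τ.1⁻¹ = 1 := inv_mem (show τ.1 ∈ r.ker from hτ.2)
      show c τ.1 + X - r τ.1 * X * r τ.1⁻¹ = 0
      rw [hvan _ τ.2 hτ.1, h1, h2, one_mul, mul_one, zero_add, sub_self]
  let z : Z := ⟨_, hz⟩
  by_contra hne
  have hex : ∃ σ, z.1 σ ≠ 0 := ⟨⟨σ, hσ⟩, hne⟩
  have hp' : pick z = hex.choose := dif_pos hex
  refine hex.choose_spec ?_
  have h0 : z.1 hex.choose * r hex.choose.1 = 0 := Matrix.ext fun a b => by
    have h := hX (eq (z, a, b))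
    simp only [Equiv.symm_apply_apply, hp'] at h
    exact h
  calc z.1 hex.choose = z.1 hex.choose * r hex.choose.1 * r hex.choose.1⁻¹ := by
        rw [Matrix.mul_assoc, map_mul_map_inv, Matrix.mul_one]
    _ = 0 := by rw [h0, Matrix.zero_mul]

end FA.RT
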