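import Fermat.Agent.RT.Descend

/-!
# One step in the lattice of levels

At a residually unramified prime `q`, a level containing two copies of the level without `q` and a
new part. Supported components descend to the unramified type and ascend to every possible type.
-/

set_option autoImplicit false

noncomputable section

open IsLocalRing Matrix FA.Deform FA.TW FA.LocalDef FA.Patch

namespace FA.RT

namespace Setup

variable {O : Type} [CommRing O] [IsDomain O] [IsDiscreteValuationRing O]
  [IsAdicComplete (maximalIdeal O) O] [Finite (ResidueField O)]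
  {S : FA.RT.Setup O} {C₀ : Carried S.rb S.cyc} {ι κ : Type} {d : ι → ℕ} {src tgt : κ → ι}
  {act₀ : ∀ i, C₀.R →ₐ[O] Matrix (Fin (d i)) (Fin (d i)) O} {r g : ℕ}
  (hg : g + 1 = r + S.Sig.card)

/-- A prime `q` between the levels `src t` and `iOld`, with new part `iNew`. -/
structure Step (inp : ∀ n, S.LevelInput C₀ d src tgt act₀ r n) (q : ↥S.Sig) (t : κ)
    (iOld iNew : ι) where
  /-- the two copies of the old level in the target of the pushforward -/
  eD : Fin (d iOld) ⊕ Fin (d iOld) ≃ Fin (d (tgt t))
  /-- the two copies of the old level and the new part -/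
  e : (Fin (d iOld) ⊕ Fin (d iOld)) ⊕ Fin (d iNew) ≃ Fin (d (src t))
  h₁₁ : ∀ n z u u', (inp n).act (src t) z (e (.inl u)) (e (.inl u')) =
    Matrix.fromBlocks ((inp n).act iOld z) 0 0 ((inp n).act iOld z) u u'
  h₂₁ : ∀ n z w u, (inp n).act (src t) z (e (.inr w)) (e (.inl u)) = 0
  h₂₂ : ∀ n z w w', (inp n).act (src t) z (e (.inr w)) (e (.inr w')) = (inp n).act iNew z w w'
  hdbl : ∀ n z u u', (inp n).act (tgt t) z (eD u) (eD u') =
    Matrix.fromBlocks ((inp n).act iOld z) 0 0 ((inp n).act iOld z) u u'
  hK : ∀ n u u', (inp n).maps t (eD u) (e (.inl u')) = Matrix.fromBlocks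
    ((inp n).act iOld ((q.1 : (inp n).C.R) + 1))
    ((inp n).act iOld ((inp n).C.rR (S.Φ q)).trace)
    ((inp n).act iOld ((inp n).C.rR (S.Φ q)).trace)
    ((inp n).act iOld ((q.1 : (inp n).C.R) + 1)) u u'
  hsurj : ∀ n, haveI : NeZero S.p := ⟨S.hp.ne_zero⟩
    Function.Surjective ((((inp n).maps t).map
      (MonoidAlgebra.lift O O (DGroup S.p (inp n).D.expo) 1)).map (residue O)).mulVec
  hunr : S.rb (S.tame q) = 1
  hold : ∀ n a b, (inp n).act iOld (((inp n).C.rR (S.tame q) - 1) a b) = 0
  hrk : ((blockAct (act₀ (src t)).toRingHom (C₀.rR (S.tame q) - 1)).map (residue O)).rank = d iNew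

variable (inp : ∀ n, S.LevelInput C₀ d src tgt act₀ r n) (Pt : (system hg inp).Patched)
  (hcycΦ : ∀ q : ↥S.Sig, S.cyc (S.Φ q) = (q.1 : O))
  (hcycs : ∀ q : ↥S.Sig, S.cyc (S.tame q) = 1)
  {q : ↥S.Sig} {t : κ} {iOld iNew : ι} (st : Step inp q t iOld iNew)

local notation "Sx" => Aux O (FrameVar S.T S.p) (Fin r)

include st in
/-- The support of the old level lies in that of the level above. -/
theorem Step.ker_top_le_old : RingHom.ker (Pt.act (src t)) ≤ RingHom.ker (Pt.act iOld) :=
  fun x hx => RingHom.mem_ker.mpr (Matrix.ext fun u u' => by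
    have h : Pt.act (src t) x = 0 := RingHom.mem_ker.mp hx
    have h1 := patched_entry_eq hg inp Pt
      (fun n z => st.h₁₁ n z (.inl u) (.inl u')) x
    exact h1.symm.trans (congrFun (congrFun h _) _))

include hcycΦ hcycs st in
/-- The local data of the step in the patched modules. -/
theorem Step.localMazur [CharZero O] [Fact (S.m = 4)] :
    LocalMazurData (Pt.act (src t)) (Pt.act iOld) (S.localData.sig (ρ := Fin S.m ⊕ Fin g) q - 1)
      (((S.localData.phi q).trace - MvPowerSeries.C ((q.1 : O) + 1)) *
        ((S.localData.phi q).trace + MvPowerSeries.C ((q.1 : O) + 1))) st.e := by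
  classical
  have : IsDomain Sx := NoZeroDivisors.to_isDomain _
  have : CharZero Sx := charZero_of_injective_ringHom (MvPowerSeries.C_injective (R := O))
  obtain ⟨ee⟩ := exists_paramEmbedding (S := S) hg
  refine (localMazurData (L := S.localData) (ρ := Fin S.m ⊕ Fin g) st.e (Pt.isScalarLift iOld)
    (isIntegral_paramHom isUnit_qv ee) (patched_relIdeal_le_ker hg inp Pt hcycΦ hcycs (src t))
    (patched_relIdeal_le_ker hg inp Pt hcycΦ hcycs iOld) isUnit_qv
    (S.prime_Sig q.1 q.2).1.one_lt ?_ ?_ (patched_typeSet_unr_subset_ker hg inp Pt q st.hold)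
    ((patched_rank_eq hg inp Pt (src t) q).trans st.hrk)).1
  · intro x u u'
    rcases u with a | a <;> rcases u' with b | b
    · exact patched_entry_eq hg inp Pt (fun n z => st.h₁₁ n z (.inl a) (.inl b)) x
    · exact patched_entry_zero hg inp Pt (fun n z => st.h₁₁ n z (.inl a) (.inr b)) x
    · exact patched_entry_zero hg inp Pt (fun n z => st.h₁₁ n z (.inr a) (.inl b)) x
    · exact patched_entry_eq hg inp Pt (fun n z => st.h₁₁ n z (.inr a) (.inr b)) x
  · exact fun x w u => patched_entry_zero hg inp Pt (fun n z => st.h₂₁ n z w u) x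

include hcycΦ hcycs st in
/-- **Down**: a supported component descends to the type unramified at `q`. -/
theorem Step.descend [CharZero O] [Fact (S.m = 4)] {ty : ↥S.Sig → FA.LocalComp.Ty}
    (hv : FA.LocalComp.Valid S.localData ty)
    (hsupp : RingHom.ker (Pt.act (src t)) ≤
      FA.LocalComp.comp (ρ := Fin S.m ⊕ Fin g) S.localData ty hv) :
    ∃ hv' : FA.LocalComp.Valid S.localData (Function.update ty q .unr),
      RingHom.ker (Pt.act iOld) ≤
        FA.LocalComp.comp (ρ := Fin S.m ⊕ Fin g) S.localData (Function.update ty q .unr) hv' := by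
  classical
  rcases hty : ty q with _ | s
  · have he : Function.update ty q .unr = ty := by rw [← hty, Function.update_eq_self]
    have : IsDomain Sx := NoZeroDivisors.to_isDomain _
    have := FA.LocalComp.comp_isPrime (ρ := Fin S.m ⊕ Fin g) hv
    refine ⟨he.symm ▸ hv, ?_⟩
    simp only [he]
    refine (st.localMazur hg inp Pt hcycΦ hcycs).ker_old_le hsupp ?_
    have h := FA.LocalComp.trace_mul_notMem_comp (ρ := Fin S.m ⊕ Fin g) isUnit_qv hv hty
      ((q.1 : O) + 1) (-((q.1 : O) + 1))
    rwa [map_neg MvPowerSeries.C, sub_neg_eq_add] at h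
  · exact ker_le_comp_descend hg inp Pt hcycΦ hcycs (src t) iOld st.e st.h₁₁ st.h₂₁ q st.hunr
      st.hold st.hrk hty hv hsupp

include hcycΦ hcycs st in
/-- **Up**: a supported component unramified at `q` ascends to every possible type at `q`. -/
theorem Step.ascend [CharZero O] [Fact (S.m = 4)] {ty : ↥S.Sig → FA.LocalComp.Ty} (hty : ty q = .unr)
    (hv : FA.LocalComp.Valid S.localData ty) (y : FA.LocalComp.Ty)
    (hv' : FA.LocalComp.Valid S.localData (Function.update ty q y))
    (hsupp : RingHom.ker (Pt.act iOld) ≤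
      FA.LocalComp.comp (ρ := Fin S.m ⊕ Fin g) S.localData ty hv) :
    RingHom.ker (Pt.act (src t)) ≤
      FA.LocalComp.comp (ρ := Fin S.m ⊕ Fin g) S.localData (Function.update ty q y) hv' := by
  classical
  rcases y with _ | s
  · have he : Function.update ty q .unr = ty := by rw [← hty, Function.update_eq_self]
    simp only [he]
    exact (st.ker_top_le_old hg inp Pt).trans hsupp
  · have : IsDomain Sx := NoZeroDivisors.to_isDomain _
    have hnew : (((S.localData.phi (ρ := Fin S.m ⊕ Fin g) q).trace -
        MvPowerSeries.C ((q.1 : O) + 1)) * ((S.localData.phi q).trace +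
          MvPowerSeries.C ((q.1 : O) + 1))) ^ 2 ∈ RingHom.ker (Pt.act iNew) := by
      rw [pow_two]
      refine RingHom.mem_ker.mpr (Matrix.ext fun w w' => ?_)
      exact (patched_entry_eq hg inp Pt (fun n z => st.h₂₂ n z w w') _).symm.trans
        ((st.localMazur hg inp Pt hcycΦ hcycs).sq_omega_new w _)
    obtain ⟨h1, h2⟩ := ker_le_comp_raise hg inp Pt hcycΦ hcycs t iOld iNew st.eD st.e st.h₁₁
      st.h₂₁ st.h₂₂ st.hdbl q st.hK st.hsurj hnew hty hv hv' hsupp
    exact h2.trans h1

end Setup

end FA.RT
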