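import Fermat.Agent.RT.SetupExists
import Fermat.Agent.RT.LevelRelations
import Fermat.Agent.RT.Components
import Fermat.Agent.Patch.Consequences

/-!
# The patching system of a lifting problem

A `LevelInput` is what the Hecke algebras and the Galois representations supply at one depth. A
family of them at all depths gives patched modules supported on components; if at a residually
unramified prime they are new with inertia of half residual rank, there is none.
-/

set_option autoImplicit false

noncomputable section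

open IsLocalRing Matrix FA.Deform FA.TW FA.LocalDef FA.Patch

namespace FA.RT

local notation "Qb" => AlgebraicClosure ℚ
local notation "GQ" => AlgebraicClosure ℚ ≃ₐ[ℚ] AlgebraicClosure ℚ

variable {O : Type} [CommRing O] [IsDomain O] [IsDiscreteValuationRing O]
  [IsAdicComplete (maximalIdeal O) O]

omit [IsDomain O] [IsDiscreteValuationRing O] [IsAdicComplete (maximalIdeal O) O] in
/-- Matrices with entries in a kernel absorb. -/
theorem map_mul_mul_apply_eq_zero {A B : Type} [CommRing A] [Ring B] (φ : A →+* B)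
    (X M Y : Matrix (Fin 2) (Fin 2) A) (h : ∀ a b, φ (M a b) = 0) (u v : Fin 2) :
    φ ((X * M * Y) u v) = 0 := by
  simp [Matrix.mul_apply, h]

/-- The rank does not change under an isomorphism of fields. -/
theorem rank_map_ringEquiv {K K' : Type} [Field K] [Field K'] {m : Type} [Fintype m]
    (e : K ≃+* K') (M : Matrix m m K) : (M.map e).rank = M.rank := by
  let j₀ : (m → K) ≃+ (m → K') := AddEquiv.piCongrRight fun _ => e.toAddEquiv
  have hmem : ∀ v, (M.map e).mulVec (j₀ v) = j₀ (M.mulVec v) := fun v => by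
    funext a
    simp [j₀, Matrix.mulVec, dotProduct, map_sum]
  let j : ↥(LinearMap.range M.mulVecLin) ≃+ ↥(LinearMap.range (M.map e).mulVecLin) :=
    { toFun := fun x => ⟨j₀ x.1, by
        obtain ⟨v, hv⟩ := x.2
        exact ⟨j₀ v, (hmem v).trans (congrArg j₀ hv)⟩⟩
      invFun := fun y => ⟨j₀.symm y.1, by
        obtain ⟨w, hw⟩ := y.2
        refine ⟨j₀.symm w, j₀.injective ?_⟩
        rw [j₀.apply_symm_apply, ← hw]
        exact (hmem _).symm.trans (by rw [j₀.apply_symm_apply]; rfl)⟩
      left_inv := fun x => Subtype.ext (j₀.symm_apply_apply _)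
      right_inv := fun y => Subtype.ext (j₀.apply_symm_apply _)
      map_add' := fun x y => Subtype.ext (map_add j₀ _ _) }
  exact (congrArg Cardinal.toNat (rank_eq_of_equiv_equiv (fun c : K => e c) j e.bijective
    fun c x => Subtype.ext (funext fun a => map_mul e c (x.1 a)))).symm

namespace Setup

variable (S : Setup O) (C₀ : Carried S.rb S.cyc) {ι κ : Type} (d : ι → ℕ) (src tgt : κ → ι)
  (act₀ : ∀ i, C₀.R →ₐ[O] Matrix (Fin (d i)) (Fin (d i)) O)

/-- The data at depth `n` over the base `C₀`. -/
structure LevelInput (r n : ℕ) where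
  /-- the Taylor–Wiles primes -/
  D : S.TWSet r n
  /-- the carried algebra of the points of this level -/
  C : Carried S.rb S.cyc
  /-- the lines at the Taylor–Wiles primes -/
  L : D.Line C
  unr : ∀ q : ℕ, q.Prime → q ∉ S.T ∪ Finset.univ.image D.qv →
    ∀ A : ValuationSubring Qb, A.LiesOverPrime q → ∀ σ ∈ A.inertiaSubgroupIn ℚ, C.rR σ = 1
  atP : ∀ t : ↥(tangent C.π O), S.Cp (tgVal C.rR S.rb t)
  tame_trace : ∀ q : ↥S.Sig, (C.rR (S.tame q)).trace = 2
  /-- the restriction to the base -/
  π : C.R →ₐ[O] C₀.R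
  π_surjective : Function.Surjective π
  π_conj : ∃ U : Matrix (Fin 2) (Fin 2) C₀.R, IsUnit U ∧
    ∀ σ, U * (C.rR σ).map π = C₀.rR σ * U
  base_unr : ∀ i, C₀.rR (D.s i) = 1
  /-- the diamond equivariant action -/
  act : haveI : NeZero S.p := ⟨S.hp.ne_zero⟩
    ∀ i, C.R →ₐ[O] Matrix (Fin (d i)) (Fin (d i)) (MonoidAlgebra O (DGroup S.p D.expo))
  act_delta : haveI : NeZero S.p := ⟨S.hp.ne_zero⟩
    ∀ i a, act i (TWSet.delta L a) = Matrix.scalar _ (MonoidAlgebra.single a 1)
  /-- the intertwiners -/
  maps : haveI : NeZero S.p := ⟨S.hp.ne_zero⟩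
    ∀ t, Matrix (Fin (d (tgt t))) (Fin (d (src t))) (MonoidAlgebra O (DGroup S.p D.expo))
  intertwine : haveI : NeZero S.p := ⟨S.hp.ne_zero⟩
    ∀ t x, maps t * act (src t) x = act (tgt t) x * maps t
  act_base : haveI : NeZero S.p := ⟨S.hp.ne_zero⟩
    ∀ i x, (act i x).map (MonoidAlgebra.lift O O (DGroup S.p D.expo) 1) = act₀ i (π x)

variable {S C₀ d src tgt act₀}

omit [IsAdicComplete (maximalIdeal O) O] in
theorem LevelInput.base_traces {r n : ℕ} (I : S.LevelInput C₀ d src tgt act₀ r n) (i : Fin r) :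
    I.π (I.C.rR (I.D.s i)).trace = 2 ∧
      I.π (I.C.rR (I.D.φ i) * I.C.rR (I.D.s i)).trace = I.π (I.C.rR (I.D.φ i)).trace := by
  obtain ⟨U, ⟨u, rfl⟩, hU⟩ := I.π_conj
  have hone : (I.C.rR (I.D.s i)).map I.π = 1 := by
    have h := hU (I.D.s i)
    rw [I.base_unr, one_mul] at h
    exact u.isUnit.mul_left_cancel (h.trans (mul_one _).symm)
  refine ⟨?_, ?_⟩
  · rw [AddMonoidHom.map_trace I.π, hone, Matrix.trace_one, Fintype.card_fin]
    norm_num
  · rw [AddMonoidHom.map_trace I.π, AddMonoidHom.map_trace I.π, Matrix.map_mul, hone, mul_one]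

variable [Finite (ResidueField O)] {r g : ℕ} (hg : g + 1 = r + S.Sig.card)

/-- The further generators at one depth. -/
def LevelInput.extra {n : ℕ} (I : S.LevelInput C₀ d src tgt act₀ r n) :
    Fin g → MvPowerSeries (FrameVar S.T S.p) I.C.R :=
  Classical.choose (S.exists_generators I.C (Finset.univ.image I.D.qv) I.unr I.atP I.D.bound hg)

theorem LevelInput.extra_spec {n : ℕ} (I : S.LevelInput C₀ d src tgt act₀ r n) :
    ∃ hx : ∀ l, S.vals I.C (I.extra hg) l ∈ maximalIdeal (MvPowerSeries (FrameVar S.T S.p) I.C.R),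
      Function.Surjective (evalHom (maximalIdeal (MvPowerSeries (FrameVar S.T S.p) I.C.R))
        ((MvPowerSeries.C (σ := FrameVar S.T S.p)).comp (algebraMap O I.C.R))
        (S.vals I.C (I.extra hg)) hx (σ := S.Var g)) :=
  Classical.choose_spec (S.exists_generators I.C (Finset.univ.image I.D.qv) I.unr I.atP I.D.bound hg)

/-- The level. -/
def LevelInput.toLevel {n : ℕ} (I : S.LevelInput C₀ d src tgt act₀ r n) :
    Level O (S.Var g) (FrameVar S.T S.p) (Fin r) C₀.R ι κ d src tgt
      (fun i => (act₀ i).toRingHom) n :=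
  I.D.level I.L (I.extra hg) (Classical.choose (I.extra_spec hg))
    (Classical.choose_spec (I.extra_spec hg)) I.π I.π_surjective I.base_traces I.act I.act_delta
    I.maps I.intertwine I.act_base

variable (inp : ∀ n, S.LevelInput C₀ d src tgt act₀ r n)

/-- The system. -/
def system : LevelSystem (Aux O (FrameVar S.T S.p) (Fin r)) (MvPowerSeries (S.Var g) O) C₀.R ι κ :=
  LevelSystem.ofLevels fun n => (inp n).toLevel hg

theorem nonempty_patched [Finite ι] [Finite κ] : Nonempty (system hg inp).Patched := by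
  have : Finite (ResidueField C₀.R) := by
    have : IsLocalHom C₀.π := IsLocalHom.of_surjective _ C₀.π_surjective
    refine Finite.of_injective (IsLocalRing.ResidueField.lift C₀.π) (RingHom.injective _)
  exact LevelSystem.nonempty_patched _

/-- The action of a framed carried algebra at a level. -/
def LevelInput.framedAct {n : ℕ} (I : S.LevelInput C₀ d src tgt act₀ r n) (i : ι) :
    MvPowerSeries (FrameVar S.T S.p) I.C.R →+* Matrix (Fin (d i)) (Fin (d i))
      (Aux O (FrameVar S.T S.p) (Fin r) ⧸ maximalIdeal (Aux O (FrameVar S.T S.p) (Fin r)) ^ n) :=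
  (I.toLevel hg).actFramed i

theorem LevelInput.framedAct_C_eq_zero {n : ℕ} (I : S.LevelInput C₀ d src tgt act₀ r n) (i : ι)
    {z : I.C.R} (hz : I.act i z = 0) : I.framedAct hg i (MvPowerSeries.C z) = 0 := by
  refine ((I.toLevel hg).actFramed_C i z).trans ?_
  refine Matrix.ext fun u v => ?_
  exact (congrArg (I.toLevel hg).ψ (congrFun (congrFun hz u) v)).trans (map_zero _)

variable (Pt : (system hg inp).Patched)

/-- What dies in the framed algebras dies in the patched modules. -/
theorem act_eq_zero_of_evalVals {y : MvPowerSeries (S.Var g) O} (i : ι)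
    (hy : ∀ n, S.evalVals (inp n).C ((inp n).extra hg) (Classical.choose ((inp n).extra_spec hg)) y
      = 0) : Pt.act i y = 0 := by
  refine Pt.act_eq_zero fun n => ?_
  show (inp n).framedAct hg i (S.evalVals (inp n).C ((inp n).extra hg)
    (Classical.choose ((inp n).extra_spec hg)) y) = 0
  rw [hy n, map_zero]

variable (hcycΦ : ∀ q : ↥S.Sig, S.cyc (S.Φ q) = (q.1 : O))
  (hcycs : ∀ q : ↥S.Sig, S.cyc (S.tame q) = 1)

include hcycΦ hcycs in
/-- The relations kill the patched modules. -/
theorem patched_relIdeal_le_ker (i : ι) :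
    S.localData.relIdeal (ρ := Fin S.m ⊕ Fin g) ≤ RingHom.ker (Pt.act i) := fun _ hy =>
  RingHom.mem_ker.mpr (act_eq_zero_of_evalVals hg inp Pt i fun n =>
    RingHom.mem_ker.mp (S.relIdeal_le_ker (inp n).C ((inp n).extra hg) _ hcycΦ hcycs
      (inp n).tame_trace hy))

omit [IsDiscreteValuationRing O] [IsAdicComplete (maximalIdeal O) O] [Finite (ResidueField O)] in
/-- Natural numbers prime to `0` are regular on matrices over group rings. -/
theorem eq_zero_of_natCast_smul [CharZero O] {G : Type} {m : ℕ} {a : ℤ} (ha : a ≠ 0)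
    {M : Matrix (Fin m) (Fin m) (MonoidAlgebra O G)} (h : (a : O) • M = 0) : M = 0 := by
  refine Matrix.ext fun u v => MonoidAlgebra.ext (Finsupp.ext fun w => ?_)
  have h' := congrArg (fun N : Matrix (Fin m) (Fin m) (MonoidAlgebra O G) => (N u v).coeff w) h
  simp only [Matrix.smul_apply, Matrix.zero_apply] at h'
  simp only [MonoidAlgebra.coeff_smul, Finsupp.smul_apply, smul_eq_mul, MonoidAlgebra.coeff_zero,
    Finsupp.coe_zero, Pi.zero_apply] at h'
  simpa using (mul_eq_zero.mp h').resolve_left (Int.cast_ne_zero.mpr ha)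

include hcycs in
/-- A level action killing the form of sign `n` makes the patched module new of that sign. -/
theorem patched_typeSet_subset_ker [CharZero O] {i : ι} (q : ↥S.Sig) (s : Bool)
    (hnew : ∀ n, (inp n).act i ((((inp n).C.rR (S.Φ q)).trace) -
      FA.LocalComp.sgn s * ((q.1 : (inp n).C.R) + 1)) = 0) :
    S.localData.typeSet (ρ := Fin S.m ⊕ Fin g) q (.st s) ⊆ (RingHom.ker (Pt.act i) : Set _) := by
  have : NeZero S.p := ⟨S.hp.ne_zero⟩
  intro y hy
  refine RingHom.mem_ker.mpr (Pt.act_eq_zero fun n => ?_)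
  let I := inp n
  let Lv := I.toLevel hg
  let f : I.C.R →+* _ := (I.act i).toRingHom
  let Q := I.C.R ⧸ RingHom.ker f
  let q' : I.C.R →+* Q := Ideal.Quotient.mk _
  have hreg : ∀ a : ℤ, a ≠ 0 → ∀ z : Q, (a : Q) * z = 0 → z = 0 := by
    intro a ha z hz
    obtain ⟨z, rfl⟩ := Ideal.Quotient.mk_surjective z
    rw [← map_intCast q', ← map_mul, Ideal.Quotient.eq_zero_iff_mem, RingHom.mem_ker] at hz
    refine Ideal.Quotient.eq_zero_iff_mem.mpr (RingHom.mem_ker.mpr
      (eq_zero_of_natCast_smul ha ?_))
    rw [Algebra.smul_def, map_intCast]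
    rwa [map_mul, map_intCast] at hz
  set N := I.C.rR (S.tame q) - 1 with hN
  set F := I.C.rR (S.Φ q)
  obtain ⟨htN, -⟩ := S.sub_one_nilpotent I.C hcycs I.tame_trace q
  have hrel := S.phi_mul_sub_one I.C hcycs I.tame_trace q
  have htr : q' F.trace = FA.LocalComp.sgn s * ((q.1 : Q) + 1) := by
    have := Ideal.Quotient.eq_zero_iff_mem.mpr ((RingHom.mem_ker (f := f)).mpr (hnew n))
    rw [map_sub, sub_eq_zero] at this
    show q' ((inp n).C.rR (S.Φ q)).trace = _
    rw [this, map_mul, map_add, map_one, map_natCast, FA.LocalComp.map_sgn]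
  have hmul := mul_eq_of_trace (A := Q) (F := F.map q') (N := N.map q') (q := (q.1 : Q))
    (s := FA.LocalComp.sgn s)
    (by rw [← AddMonoidHom.map_trace q', htN, map_zero])
    (by
      rw [← RingHom.mapMatrix_apply, ← RingHom.mapMatrix_apply, ← map_mul, ← map_mul, hN, hrel,
        map_matrix_smul, map_natCast])
    (by rw [← AddMonoidHom.map_trace q', htr])
    (fun z hz => hreg ((q.1 : ℤ) - 1)
      (by have := (S.prime_Sig q.1 q.2).1.two_le; omega) z (by push_cast; exact hz))
    (fun z hz => hreg ((q.1 : ℤ) + 1) (by omega) z (by push_cast; exact hz))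
  have hkill : ∀ z : I.C.R, q' z = 0 → I.framedAct hg i (MvPowerSeries.C z) = 0 := by
    intro z hz
    exact I.framedAct_C_eq_zero hg i (RingHom.mem_ker.mp (Ideal.Quotient.eq_zero_iff_mem.mp hz))
  let x := I.extra hg
  let hx := Classical.choose (I.extra_spec hg)
  show I.framedAct hg i (S.evalVals I.C x hx y) = 0
  rcases hy with rfl | ⟨⟨u, v⟩, rfl⟩
  · rw [map_sub, AddMonoidHom.map_trace (S.evalVals I.C x hx), map_phi, trace_framed, map_mul,
      map_add, map_one, map_natCast, FA.LocalComp.map_sgn,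
      show (S.localData.qv q) = q.1 from rfl,
      show (FA.LocalComp.sgn s * ((q.1 : MvPowerSeries (FrameVar S.T S.p) I.C.R) + 1)) =
        MvPowerSeries.C (FA.LocalComp.sgn s * ((q.1 : I.C.R) + 1)) by
        rw [map_mul, map_add, map_one, map_natCast, FA.LocalComp.map_sgn], ← map_sub]
    refine hkill _ ?_
    rw [map_sub, map_mul, map_add, map_one, map_natCast, FA.LocalComp.map_sgn, htr, sub_self]
  · let e := (S.evalVals I.C x hx).mapMatrix (m := Fin 2)
    let Fr := S.framedHom I.C (S.atT q)
    have hp : e (S.localData.phi q) = Fr F := S.map_phi I.C x hx q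
    have hs : e (S.localData.sig q) = Fr (I.C.rR (S.tame q)) := S.map_sig I.C x hx q
    have hz : e (S.localData.phi q * (S.localData.sig q - 1) -
        (FA.LocalComp.sgn s * (q.1 : MvPowerSeries (S.Var g) O)) • (S.localData.sig q - 1)) =
        Fr (F * N - (FA.LocalComp.sgn s * (q.1 : I.C.R)) • N) := by
      have hFN : e (S.localData.sig q - 1) = Fr N := by
        rw [map_sub, map_one, hs, hN, map_sub, map_one]
      have hc : S.evalVals I.C x hx
          (FA.LocalComp.sgn s * (q.1 : MvPowerSeries (S.Var g) O)) =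
          MvPowerSeries.C (FA.LocalComp.sgn s * (q.1 : I.C.R)) := by
        rw [map_mul, map_mul, map_natCast, map_natCast, FA.LocalComp.map_sgn,
          FA.LocalComp.map_sgn]
      rw [map_sub e, map_matrix_smul, map_mul e, hp, hFN, hc, ← map_mul Fr]
      exact (congrArg _ (S.framed_smul I.C (S.atT q) _ N).symm).trans (map_sub Fr _ _).symm
    show I.framedAct hg i (e _ u v) = 0
    rw [show (S.localData.qv q) = q.1 from rfl, hz]
    set M := F * N - (FA.LocalComp.sgn s * (q.1 : I.C.R)) • N
    have h0 : q'.mapMatrix M = 0 := by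
      rw [map_sub, map_mul, map_matrix_smul, map_mul, FA.LocalComp.map_sgn, map_natCast]
      exact sub_eq_zero.mpr hmul
    exact map_mul_mul_apply_eq_zero (I.framedAct hg i) _ (M.map MvPowerSeries.C) _
      (fun a b => hkill _ (congrFun (congrFun h0 a) b)) u v

omit [IsAdicComplete (maximalIdeal O) O] [Finite (ResidueField O)] in
include hg in
/-- The map from the parameters of four selected entries. -/
theorem exists_paramEmbedding_four : Nonempty ((↥S.Sig × Fin 3) ⊕ (Fin 4 ⊕ Fin g) ↪
    FrameVar S.T S.p ⊕ Fin r) := by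
  classical
  refine Function.Embedding.nonempty_of_card_le ?_
  have h1 : Fintype.card (FrameVar S.T S.p) + 1 = 4 * (S.Sig.card + 1) := by
    rw [← S.card_T, Fintype.card_subtype_compl]
    have : Fintype.card {x : ↥S.T × Fin 2 × Fin 2 // x.1.1 = S.p ∧ x.2.1 = 0 ∧ x.2.2 = 0} = 1 :=
      Fintype.card_eq_one_iff.mpr ⟨⟨(⟨S.p, S.p_mem_T⟩, 0, 0), rfl, rfl, rfl⟩, by
        rintro ⟨⟨⟨a, ha⟩, b, c⟩, h1, h2, h3⟩
        simp only at h1 h2 h3
        subst h1 h2 h3
        rfl⟩
    rw [this]
    simp only [Fintype.card_prod, Fintype.card_coe, Fintype.card_fin]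
    have h4 := S.T.card_pos.mpr ⟨S.p, S.p_mem_T⟩
    omega
  simp only [Fintype.card_sum, Fintype.card_prod, Fintype.card_coe, Fintype.card_fin]
  omega

omit [IsAdicComplete (maximalIdeal O) O] [Finite (ResidueField O)] in
include hg in
/-- The map from the parameters, for four entries at `p`. -/
theorem exists_paramEmbedding [Fact (S.m = 4)] : Nonempty ((↥S.Sig × Fin 3) ⊕ (Fin S.m ⊕ Fin g) ↪
    FrameVar S.T S.p ⊕ Fin r) := by
  rw [(Fact.out : S.m = 4)]
  exact exists_paramEmbedding_four hg

include hg in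
/-- The residual rank of inertia minus one in a patched module is that of the base level. -/
theorem patched_rank_eq (i : ι) (q : ↥S.Sig) :
    ((blockAct (Pt.act i) (S.localData.sig (ρ := Fin S.m ⊕ Fin g) q - 1)).map (residue _)).rank =
      ((blockAct (act₀ i).toRingHom (C₀.rR (S.tame q) - 1)).map (residue O)).rank := by
  classical
  have : IsDomain (Aux O (FrameVar S.T S.p) (Fin r)) := NoZeroDivisors.to_isDomain _
  let Sx := Aux O (FrameVar S.T S.p) (Fin r)
  let cc : Sx ⧸ augIdeal O (FrameVar S.T S.p) (Fin r) →+* O :=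
    Ideal.Quotient.lift _ MvPowerSeries.constantCoeff fun _ h => RingHom.mem_ker.mp h
  let rk : Sx →+* ResidueField O := (residue O).comp MvPowerSeries.constantCoeff
  have hrks : ∀ M : Matrix (Fin 2 × Fin (d i)) (Fin 2 × Fin (d i)) Sx,
      (M.map (residue Sx)).rank = (M.map rk).rank := by
    intro M
    have hker : RingHom.ker rk = maximalIdeal Sx := Ideal.ext fun z => by
      rw [RingHom.mem_ker, mem_maximalIdeal_iff_coeff, RingHom.comp_apply, residue_eq_zero_iff]
    let eb : ResidueField Sx ≃+* ResidueField O :=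
      (Ideal.quotEquivOfEq hker.symm).trans (RingHom.quotientKerEquivOfSurjective
        (residue_surjective.comp fun c => ⟨MvPowerSeries.C c, MvPowerSeries.constantCoeff_C c⟩))
    rw [← rank_map_ringEquiv eb, Matrix.map_map]
    congr 1
  refine (hrks _).trans ?_
  let act' : MvPowerSeries (S.Var g) O →+* Matrix (Fin (d i)) (Fin (d i)) (ResidueField O) :=
    ((residue O).mapMatrix.comp (act₀ i).toRingHom).comp Pt.φ
  have h1 : (blockAct (Pt.act i) (S.localData.sig q - 1)).map rk =
      blockAct act' (S.localData.sig q - 1) := by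
    refine Matrix.ext fun a b => ?_
    obtain ⟨a, u⟩ := a
    obtain ⟨b, v⟩ := b
    show rk (blockAct (Pt.act i) _ (a, u) (b, v)) = _
    rw [blockAct_apply]
    show _ = act' _ u v
    have h := congrFun (congrFun (Pt.act_aug i ((S.localData.sig q - 1) a b)) u) v
    generalize (S.localData.sig (ρ := Fin S.m ⊕ Fin g) q - 1) a b = z at h ⊢
    have h' := congrArg ((residue O).comp cc) h
    refine h'.trans ?_
    show residue O (MvPowerSeries.constantCoeff
      ((MvPowerSeries.C : O →+* Sx) (act₀ i (Pt.φ z) u v))) =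
        residue O (act₀ i (Pt.φ z) u v)
    rw [MvPowerSeries.constantCoeff_C]
  have : Finite (Matrix (Fin (d i)) (Fin (d i)) (ResidueField O)) := inferInstance
  let f₀ : C₀.R →+* Matrix (Fin (d i)) (Fin (d i)) (ResidueField O) :=
    (residue O).mapMatrix.comp (act₀ i).toRingHom
  obtain ⟨n, -, -, -, -, happ⟩ := Pt.approx (Nat.card (Matrix (Fin (d i)) (Fin (d i)) (ResidueField O)))
  have h2 : ∀ z, act' z = f₀ ((system hg inp).φ n z) := fun z => by
    show f₀ (Pt.φ z) = _
    rw [← sub_eq_zero, ← map_sub]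
    exact maximalIdeal_pow_le_ker f₀ (happ z)
  refine (congrArg Matrix.rank h1).trans ?_
  obtain ⟨U, hU, hconj⟩ := (inp n).π_conj
  have h3 : (S.localData.sig (ρ := Fin S.m ⊕ Fin g) q - 1).map ((system hg inp).φ n) =
      ((inp n).C.rR (S.tame q)).map (inp n).π - 1 := by
    rw [FA.LocalComp.map_sub_one]
    congr 1
    show (S.localData.sig q).map ((inp n).toLevel hg).toBase = _
    have hsig' := S.map_sig (inp n).C ((inp n).extra hg) (Classical.choose ((inp n).extra_spec hg)) q
    rw [show ⇑((inp n).toLevel hg).toBase = (fun z => (inp n).π (MvPowerSeries.constantCoeff z)) ∘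
      S.evalVals (inp n).C ((inp n).extra hg) (Classical.choose ((inp n).extra_spec hg)) from rfl,
      ← Matrix.map_map, hsig']
    rw [show (fun z => (inp n).π (MvPowerSeries.constantCoeff (σ := FrameVar S.T S.p) z)) =
      ⇑(inp n).π ∘ ⇑MvPowerSeries.constantCoeff from rfl, ← Matrix.map_map]
    congr 1
    rw [framed, Matrix.map_mul, Matrix.map_mul, constantCoeff_frame, one_mul, Matrix.map_map]
    have hinv : (frame (v₀ := S.p) (inp n).C.R (S.atT q))⁻¹.map
        (MvPowerSeries.constantCoeff) = 1 := by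
      have h := congrArg (fun M => M.map (MvPowerSeries.constantCoeff))
        (Matrix.mul_nonsing_inv (frame (v₀ := S.p) (inp n).C.R (S.atT q)) (isUnit_det_frame _))
      simp only [Matrix.map_mul, constantCoeff_frame, one_mul] at h
      rw [h]
      exact Matrix.map_one _ (map_zero _) (map_one _)
    rw [hinv, mul_one]
    exact Matrix.ext fun a b => by simp
  let B := blockAct f₀ (C₀.rR (S.tame q) - 1)
  have hB : B.rank =
      ((blockAct (act₀ i).toRingHom (C₀.rR (S.tame q) - 1)).map (residue O)).rank := by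
    congr 1
  rw [show blockAct act' (S.localData.sig (ρ := Fin S.m ⊕ Fin g) q - 1) =
      blockAct f₀ (((inp n).C.rR (S.tame q)).map (inp n).π - 1) by
    rw [← h3]
    refine Matrix.ext fun a b => ?_
    obtain ⟨a, u⟩ := a
    obtain ⟨b, v⟩ := b
    rw [blockAct_apply, blockAct_apply, Matrix.map_apply, h2]]
  have hUB : blockAct f₀ U * blockAct f₀ (((inp n).C.rR (S.tame q)).map (inp n).π - 1) =
      B * blockAct f₀ U := by
    rw [← map_mul, ← map_mul, mul_sub, sub_mul, hconj, mul_one, one_mul]
  have hdet : IsUnit (blockAct f₀ U).det :=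
    (Matrix.isUnit_iff_isUnit_det _).mp (hU.map _)
  refine (Matrix.rank_mul_eq_right_of_isUnit_det (blockAct f₀ U) _ hdet).symm.trans ?_
  refine (congrArg Matrix.rank hUB).trans ?_
  exact (Matrix.rank_mul_eq_left_of_isUnit_det (blockAct f₀ U) B hdet).trans hB

end Setup

end FA.RT
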