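import Fermat.Agent.RT.UnionStep

/-!
# Transfer between strict lifts in a union of two worlds

Along two sequences of steps between whole levels, a strict point in the support of the strict part
of the first puts every strict point with smaller ramification in the base support of the strict
part of the second.
-/

set_option autoImplicit false
set_option linter.unusedSectionVars false

noncomputable section

open MvPowerSeries IsLocalRing Matrix FA.Deform FA.TW FA.LocalDef FA.Patch FA.LocalComp

namespace FA.RT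

namespace Setup

variable {O : Type} [CommRing O] [IsDomain O] [IsDiscreteValuationRing O]
  [IsAdicComplete (maximalIdeal O) O] [Finite (ResidueField O)]
  {S : FA.RT.Setup O} {C₀ : Carried S.rb S.cyc} {ι κ : Type} {d : ι → ℕ} {src tgt : κ → ι}
  {act₀ : ∀ i, C₀.R →ₐ[O] Matrix (Fin (d i)) (Fin (d i)) O} {r g : ℕ}
  (hg : g + 1 = r + S.Sig.card)
  {inp : ∀ n, S.LevelInput C₀ d src tgt act₀ r n}

local notation "Pu" => MvPowerSeries (Setup.Var S g) O

/-- A descending sequence of steps of whole levels, indexed by their strict parts. -/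
inductive UDown (W : UnionWorlds inp) : ι → ι → Finset ↥S.Sig → Prop
  | refl (i : ι) : UDown W i i ∅
  | step {q : ↥S.Sig} {t : κ} {iOld iNew fOld sOld fTop sTop j : ι} {U : Finset ↥S.Sig}
      (st : Step inp q t iOld iNew) (Bt : PBlock W (src t) fTop sTop)
      (Bo : PBlock W iOld fOld sOld) (hd : UDown W sOld j U) (hq : q ∉ U) :
      UDown W sTop j (insert q U)

variable (Pt : (system hg inp).Patched) {W : UnionWorlds inp}
  (hcycΦ : ∀ q : ↥S.Sig, S.cyc (S.Φ q) = (q.1 : O))
  (hcycs : ∀ q : ↥S.Sig, S.cyc (S.tame q) = 1)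

include hcycΦ hcycs in
/-- Down along a sequence of steps. -/
theorem UDown.descend [CharZero O] {i j : ι} {U : Finset ↥S.Sig} (hd : UDown W i j U) :
    ∀ {ty : ↥S.Sig → Ty} (hv : Valid S.localData ty), SuppS hg Pt W i ty hv →
      ∃ (ty' : ↥S.Sig → Ty) (hv' : Valid S.localData ty'),
        (∀ q ∈ U, ty' q = .unr) ∧ (∀ q ∉ U, ty' q = ty q) ∧ SuppS hg Pt W j ty' hv' := by
  classical
  induction hd with
  | refl i => exact fun {ty} hv h => ⟨ty, hv, by simp, fun _ _ => rfl, h⟩
  | @step q t iOld iNew fOld sOld fTop sTop j U st Bt Bo _ hq ih =>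
    intro ty hv h
    obtain ⟨hv₁, h₁⟩ := st.descendS hg Pt hcycΦ hcycs Bt Bo hv h
    obtain ⟨ty', hv', hU, hnU, h'⟩ := ih hv₁ h₁
    refine ⟨ty', hv', fun x hx => ?_, fun x hx => ?_, h'⟩
    · rcases Finset.mem_insert.mp hx with rfl | hx
      · rw [hnU x hq, Function.update_self]
      · exact hU x hx
    · rw [Finset.mem_insert, not_or] at hx
      rw [hnU x hx.2, Function.update_of_ne hx.1]

include hcycΦ hcycs in
/-- Up along a sequence of steps. -/
theorem UDown.ascend [CharZero O] {i j : ι} {U : Finset ↥S.Sig} (hd : UDown W i j U) :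
    ∀ {ty₀ ty : ↥S.Sig → Ty} (hv₀ : Valid S.localData ty₀) (hv : Valid S.localData ty),
      (∀ q ∈ U, ty₀ q = .unr) → (∀ q ∉ U, ty q = ty₀ q) →
      SuppS hg Pt W j ty₀ hv₀ → SuppS hg Pt W i ty hv := by
  classical
  induction hd with
  | refl i =>
    intro ty₀ ty hv₀ hv _ heq h
    obtain rfl : ty = ty₀ := funext fun q => heq q (Finset.notMem_empty q)
    exact h
  | @step q t iOld iNew fOld sOld fTop sTop j U st Bt Bo _ hq ih =>
    intro ty₀ ty hv₀ hv hU heq h
    have hq₀ : ty₀ q = .unr := hU q (Finset.mem_insert_self q U)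
    have hv₁ : Valid S.localData (Function.update ty q .unr) := fun x => by
      rcases eq_or_ne x q with rfl | hx
      · rw [Function.update_self, ← hq₀]; exact hv₀ x
      · rw [Function.update_of_ne hx]; exact hv x
    have h₁ := ih hv₀ hv₁ (fun x hx => hU x (Finset.mem_insert_of_mem hx)) (fun x hx => ?_) h
    · have he : Function.update (Function.update ty q .unr) q (ty q) = ty := by
        rw [Function.update_idem, Function.update_eq_self]
      have h2 := st.ascendS hg Pt hcycΦ hcycs Bt Bo (Function.update_self q Ty.unr ty) hv₁ (ty q)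
        (by rw [he]; exact hv) h₁
      simpa only [he] using h2
    · rcases eq_or_ne x q with rfl | hxq
      · rw [Function.update_self, hq₀]
      · rw [Function.update_of_ne hxq]
        exact heq x (by simp [hxq, hx])

include hg hcycΦ hcycs in
/-- **Transfer between strict lifts.** A point of the base support of the strict index `iTop` and a
strict point `f`, unramified outside the primes removed between `iTar` and the common lower level:
`f` is in the base support of the strict index `iTar`. -/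
theorem transferStrict [CharZero O] [Finite ι] [Finite κ] {O' : Type} [CommRing O'] [IsDomain O']
    (W : UnionWorlds inp) (f' : C₀.R →+* O') (f : C₀.R →ₐ[O] O) {iTop iMin iTar : ι}
    {U' U : Finset ↥S.Sig} (hd' : UDown W iTop iMin U') (hd : UDown W iTar iMin U)
    (hTop : W.InStrict iTop) (hTar : W.InStrict iTar)
    (hfS : ∀ n, ∀ z ∈ W.KS n, f ((inp n).π z) = 0)
    (hf' : RingHom.ker (act₀ iTop) ≤ RingHom.ker f')
    (h' : ∀ q, S.rb (S.tame q) = 1 → q ∉ U' →
      (∀ n a b, (inp n).act iTop (((inp n).C.rR (S.tame q) - 1) a b) = 0) ∨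
        (S.rb (S.Φ q)).trace * (S.rb (S.Φ q)).trace ≠
          ((q.1 : ResidueField O) + 1) * ((q.1 : ResidueField O) + 1))
    (h : ∀ q, S.rb (S.tame q) = 1 → q ∉ U →
      (∀ a b, f ((C₀.rR (S.tame q) - 1) a b) = 0) ∨
        (S.rb (S.Φ q)).trace * (S.rb (S.Φ q)).trace ≠
          ((q.1 : ResidueField O) + 1) * ((q.1 : ResidueField O) + 1))
    (hunr : ∀ q ∈ U ∪ U', S.rb (S.tame q) = 1) :
    RingHom.ker (act₀ iTar) ≤ RingHom.ker f := by
  classical
  have : IsDomain (Aux O (FrameVar S.T S.p) (Fin r)) := NoZeroDivisors.to_isDomain _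
  obtain ⟨Pt⟩ := nonempty_patched hg inp
  let aS : Fin 4 ⊕ Fin g → Fin S.m ⊕ Fin g := W.aS
  have h2 : (2 : ResidueField O) ≠ 0 := two_ne_zero_residue S.hp S.hp2 S.hpO
  have hrel := relIdeal_le_ker_phi hg inp Pt hcycΦ hcycs
  have htrace : ∀ q : ↥S.Sig, residue O (S.localData.phi0 q).trace = (S.rb (S.Φ q)).trace :=
    fun q => by
      rw [AddMonoidHom.map_trace (residue O)]
      exact congrArg Matrix.trace (Matrix.ext fun a b => S.residue_lift (S.Φ q) a b)
  -- the component of the first point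
  have hpt' := ker_act_le_comp_phi hg inp Pt f' iTop hf'
  have : (RingHom.ker (f'.comp Pt.φ)).IsPrime := RingHom.ker_isPrime _
  obtain ⟨c, hc, -⟩ := Ideal.exists_minimalPrimes_le hpt'
  obtain ⟨t₁, hv₁, hc₁⟩ := exists_comap_eq_comp hg Pt hcycΦ hcycs (W.detects_strict hg Pt hTop) hc
  have hsupp₁ : SuppS hg Pt W iTop t₁ hv₁ := (Ideal.comap_mono hc.1.2).trans hc₁.le
  obtain ⟨t₂, hv₂, hU₂, hnU₂, hsupp₂⟩ := hd'.descend hg Pt hcycΦ hcycs hv₁ hsupp₁
  -- the component of the second point
  let 𝔭 : Ideal Pu := RingHom.ker (f.toRingHom.comp Pt.φ)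
  have : 𝔭.IsPrime := RingHom.ker_isPrime _
  have hrel𝔭 : S.localData.relIdeal ≤ 𝔭 := hrel.trans fun x hx => RingHom.mem_ker.mpr (by
    rw [RingHom.comp_apply, RingHom.mem_ker.mp hx, map_zero])
  obtain ⟨t, hv, hle, ht⟩ := exists_type_comp_le_unr (ρ := Fin 4 ⊕ Fin g) (L := S.localData)
    isUnit_qv (W := 𝔭.comap (sel (Q := ↥S.Sig) (O := O) aS))
    (relIdeal_le_comap aS S.localData hrel𝔭)
  have hU0 : ∀ q, S.rb (S.tame q) = 1 → t₂ q = .unr := fun q hq => by
    by_cases hqU : q ∈ U'
    · exact hU₂ q hqU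
    rw [hnU₂ q hqU]
    rcases h' q hq hqU with h0 | h0
    · exact type_unr_of_comap hv₁ hc₁ fun a b =>
        hc.1.2 (patched_typeSet_unr_subset_ker hg inp Pt q h0 ⟨(a, b), rfl⟩)
    · exact type_eq_unr_of_trace hv₁ (by rw [htrace]; exact h0)
  have heq : ∀ q ∉ U, t q = t₂ q := fun q hqU => by
    by_cases hq : S.rb (S.tame q) = 1
    · rw [hU0 q hq]
      rcases h q hq hqU with h0 | h0
      · refine ht q fun a b => (typeSet_subset_iff aS S.localData (J := 𝔭) (q := q)
          (ty := Ty.unr)).mp ?_ ⟨(a, b), rfl⟩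
        rintro _ ⟨⟨u, v⟩, rfl⟩
        exact sig_mem_ker_comp hg inp Pt f.toRingHom q h0 u v
      · exact type_eq_unr_of_trace hv (by rw [htrace]; exact h0)
    · refine type_eq_of_ramified h2 isUnit_qv hv hv₂ fun hc => hq (Matrix.ext fun a b => ?_)
      rw [← S.residue_lift (S.tame q) a b]
      refine (congrFun (congrFun (hc : _ = _) a) b).trans ?_
      rcases eq_or_ne a b with rfl | hab <;> simp [*]
  have hsupp := hd.ascend hg Pt hcycΦ hcycs hv₂ hv
    (fun q hq => hU0 q (hunr q (Finset.mem_union_left _ hq))) heq hsupp₂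
  -- the point is in the support
  have := comp_isPrime (ρ := Fin 4 ⊕ Fin g) hv
  obtain ⟨W', hW', hkW', hW'eq⟩ :=
    exists_prime_over (W.detects_strict hg Pt hTar).surjective (W := comp S.localData t hv) hsupp
  have hd2 : Detects (RingHom.ker (Pt.act iTar) ⊓ 𝔭 : Ideal Pu) aS :=
    (covers_ker_inf hg inp Pt hTar f hfS).detects hg inp Pt W.detectS
  have hW'𝔭 : W' ≤ 𝔭 := le_of_comap_sel_le hd2.surjective inf_le_right
    (inf_le_left.trans hkW') (hW'eq.le.trans hle)
  exact ker_act0_le_of_comp_phi hg inp Pt f.toRingHom iTar (hkW'.trans hW'𝔭)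

end Setup

end FA.RT
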