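import Fermat.Agent.RT.InputBuild
import Fermat.Agent.RT.UnionTransfer
import Fermat.Agent.RT.SmoothEntries
import Fermat.Agent.RT.FlatPoint
import Fermat.Agent.RT.Conjugate
import Fermat.Agent.TW.Assemble

/-!
# The union of the flat and the strictly ordinary world

A `Setup` whose entries at `p` detect all smooth classes and contain four entries detecting flat
classes, four detecting strictly ordinary classes and three detecting classes of both kinds; the
worlds given by flat and strictly ordinary subfamilies of the lifts of every depth.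
-/

set_option autoImplicit false
set_option linter.unusedSectionVars false

noncomputable section

open IsLocalRing Matrix FA.Deform FA.TW FA.LocalDef FA.Patch

namespace FA.RT

local notation "Qb" => AlgebraicClosure ℚ
local notation "GQ" => AlgebraicClosure ℚ ≃ₐ[ℚ] AlgebraicClosure ℚ
local notation "M2" => Matrix (Fin 2) (Fin 2)

/-- Classes satisfying both conditions lie in three dimensions, coboundaries included. -/
def CommonBound {k : Type} [Field k] (A : ValuationSubring Qb) (r : GQ →* M2 k)
    (C : (GQ → M2 k) → Prop) : Prop :=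
  ∃ Z : Submodule k (A.decompositionSubgroup ℚ → M2 k),
    FiniteDimensional k Z ∧ Module.finrank k Z ≤ 3 ∧
    (∀ X : M2 k, X.trace = 0 →
      (fun σ : A.decompositionSubgroup ℚ => r σ * X * r σ.1⁻¹ - X) ∈ Z) ∧
    ∀ c : GQ → M2 k, IsLocalCocycle A r c → C c → (fun σ : A.decompositionSubgroup ℚ => c σ) ∈ Z

variable {O : Type} [CommRing O] [IsDomain O] [IsDiscreteValuationRing O]
  [IsAdicComplete (maximalIdeal O) O] [Finite (ResidueField O)]

section Def

variable {p : ℕ} (hp : p.Prime) (hp2 : p ≠ 2) (hpO : (p : O) ∈ maximalIdeal O)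
  (rb : GQ →* M2 (ResidueField O)) (rb_open : IsOpen (rb.ker : Set GQ))
  (cyc : GQ → O) (cyc_spec : ∀ σ, ∃ (a : ℕ) (y : O), cyc σ = a + p * y)
  (P : Places) (Sig : Finset ℕ) (prime_Sig : ∀ q ∈ Sig, q.Prime ∧ q ≠ p)
  (unipotent : ∀ q ∈ Sig, ∀ σ ∈ (P.place q).inertiaSubgroupIn ℚ, ∃ m : ℕ, rb σ ^ p ^ m = 1)
  (CF CS : (GQ → M2 (ResidueField O)) → Prop)
  (hF : TangentBound (P.place p) rb CF) (hS : TangentBound (P.place p) rb CS)
  (hB : CommonBound (P.place p) rb fun c => CF c ∧ CS c)

include hp hpO rb_open in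
omit [IsAdicComplete (maximalIdeal O) O] in
theorem exists_unionEntries :
    ∃ (m : ℕ) (e : Fin m → GQ × Fin 2 × Fin 2),
      (∀ i, (e i).1 ∈ (P.place p).decompositionSubgroup ℚ) ∧
      ∀ c, IsLocalCocycle (P.place p) rb c → IsSmoothClass (P.place p) c →
        ∀ X : M2 (ResidueField O),
        (∀ i, ((c (e i).1 + X - rb (e i).1 * X * rb (e i).1⁻¹) * rb (e i).1) (e i).2.1 (e i).2.2 = 0) →
        ∀ σ ∈ (P.place p).decompositionSubgroup ℚ, c σ + X - rb σ * X * rb σ⁻¹ = 0 := by
  have : Fact p.Prime := ⟨hp⟩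
  have : CharP (ResidueField O) p := (CharP.charP_iff_prime_eq_zero hp).mpr (by
    rw [← map_natCast (residue O), residue_eq_zero_iff]; exact hpO)
  exact exists_entries_smooth (P.liesOver p hp) rb rb_open

/-- **The setup of the union of two worlds.** -/
def Setup.ofUnion : Setup O where
  p := p
  hp := hp
  hp2 := hp2
  hpO := hpO
  rb := rb
  rb_open := rb_open
  cyc := cyc
  cyc_spec := cyc_spec
  P := P
  Sig := Sig
  prime_Sig := prime_Sig
  unipotent := unipotent
  Φ q := Classical.choose (Deform.exists_isFrobeniusAt (prime_Sig q.1 q.2).1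
    (P.liesOver q.1 (prime_Sig q.1 q.2).1))
  Φ_spec q := Classical.choose_spec (Deform.exists_isFrobeniusAt (prime_Sig q.1 q.2).1
    (P.liesOver q.1 (prime_Sig q.1 q.2).1))
  tame q := Classical.choose (exists_tame_gen hp (prime_Sig q.1 q.2).1 (prime_Sig q.1 q.2).2.symm
    (P.liesOver q.1 (prime_Sig q.1 q.2).1))
  tame_mem q := (Classical.choose_spec (exists_tame_gen hp (prime_Sig q.1 q.2).1
    (prime_Sig q.1 q.2).2.symm (P.liesOver q.1 (prime_Sig q.1 q.2).1))).1
  tame_gen q := (Classical.choose_spec (exists_tame_gen hp (prime_Sig q.1 q.2).1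
    (prime_Sig q.1 q.2).2.symm (P.liesOver q.1 (prime_Sig q.1 q.2).1))).2
  Cp := IsSmoothClass (P.place p)
  m := Classical.choose (exists_unionEntries hp hpO rb rb_open P) + (4 + 4 + 3)
  e := Fin.append (Classical.choose (Classical.choose_spec (exists_unionEntries hp hpO rb rb_open P)))
    (Fin.append (Fin.append
      (Classical.choose (exists_entries rb (two_ne_zero_residue hp hp2 hpO) hF))
      (Classical.choose (exists_entries rb (two_ne_zero_residue hp hp2 hpO) hS)))
      (Classical.choose (exists_entries_le rb (two_ne_zero_residue hp hp2 hpO) 3 hB)))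
  e_mem i := by
    induction i using Fin.addCases with
    | left i =>
      rw [Fin.append_left]
      exact (Classical.choose_spec
        (Classical.choose_spec (exists_unionEntries hp hpO rb rb_open P))).1 i
    | right i =>
      rw [Fin.append_right]
      induction i using Fin.addCases with
      | left i =>
        rw [Fin.append_left]
        induction i using Fin.addCases with
        | left i =>
          rw [Fin.append_left]
          exact (Classical.choose_spec (exists_entries rb (two_ne_zero_residue hp hp2 hpO) hF)).1 i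
        | right i =>
          rw [Fin.append_right]
          exact (Classical.choose_spec (exists_entries rb (two_ne_zero_residue hp hp2 hpO) hS)).1 i
      | right i =>
        rw [Fin.append_right]
        exact (Classical.choose_spec
          (exists_entries_le rb (two_ne_zero_residue hp hp2 hpO) 3 hB)).1 i
  detect c hc hsm X h := (Classical.choose_spec
    (Classical.choose_spec (exists_unionEntries hp hpO rb rb_open P))).2 c hc hsm X fun i => by
      have := h (Fin.castAdd _ i)
      rwa [Fin.append_left] at this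

local notation "SU" => Setup.ofUnion hp hp2 hpO rb rb_open cyc cyc_spec P Sig prime_Sig unipotent CF CS hF hS hB

/-- The flat entries. -/
def Setup.ofUnionF : Fin 4 → Fin (SU).m := fun i =>
  Fin.natAdd _ (Fin.castAdd 3 (Fin.castAdd 4 i))

/-- The strictly ordinary entries. -/
def Setup.ofUnionS : Fin 4 → Fin (SU).m := fun i =>
  Fin.natAdd _ (Fin.castAdd 3 (Fin.natAdd 4 i))

/-- The common entries. -/
def Setup.ofUnionB : Fin 3 → Fin (SU).m := fun i => Fin.natAdd _ (Fin.natAdd (4 + 4) i)

/-- The flat entries detect flat classes. -/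
theorem Setup.seen_ofUnionF {c : GQ → M2 (ResidueField O)}
    (hc : IsLocalCocycle (P.place p) rb c) (h : CF c) :
    Setup.Seen (SU) (Setup.ofUnionF hp hp2 hpO rb rb_open cyc cyc_spec P Sig prime_Sig unipotent
      CF CS hF hS hB) c := fun Y hY =>
  (Classical.choose_spec (exists_entries rb (two_ne_zero_residue hp hp2 hpO) hF)).2 c hc h Y
    fun i => by
      have h := hY i
      simp only [Setup.ofUnion, Setup.ofUnionF, Fin.append_left, Fin.append_right] at h
      exact h

/-- The strictly ordinary entries detect strictly ordinary classes. -/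
theorem Setup.seen_ofUnionS {c : GQ → M2 (ResidueField O)}
    (hc : IsLocalCocycle (P.place p) rb c) (h : CS c) :
    Setup.Seen (SU) (Setup.ofUnionS hp hp2 hpO rb rb_open cyc cyc_spec P Sig prime_Sig unipotent
      CF CS hF hS hB) c := fun Y hY =>
  (Classical.choose_spec (exists_entries rb (two_ne_zero_residue hp hp2 hpO) hS)).2 c hc h Y
    fun i => by
      have h := hY i
      simp only [Setup.ofUnion, Setup.ofUnionS, Fin.append_left, Fin.append_right] at h
      exact h

/-- The common entries detect common classes. -/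
theorem Setup.seen_ofUnionB {c : GQ → M2 (ResidueField O)}
    (hc : IsLocalCocycle (P.place p) rb c) (h : CF c) (h' : CS c) :
    Setup.Seen (SU) (Setup.ofUnionB hp hp2 hpO rb rb_open cyc cyc_spec P Sig prime_Sig unipotent
      CF CS hF hS hB) c := fun Y hY =>
  (Classical.choose_spec (exists_entries_le rb (two_ne_zero_residue hp hp2 hpO) 3 hB)).2 c hc ⟨h, h'⟩ Y
    fun i => by
      have h := hY i
      simp only [Setup.ofUnion, Setup.ofUnionB, Fin.append_left, Fin.append_right] at h
      exact h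

/-- Tangent classes of carried algebras satisfy the condition of the union. -/
theorem Setup.ofUnion_atP (C : Carried (SU).rb (SU).cyc) (t : ↥(tangent C.π O)) :
    (SU).Cp (tgVal C.rR (SU).rb t) :=
  isSmoothClass_tgVal C.π_surjective C.cont _ _ t

end Def

section Worlds

variable {S : Setup O}

omit [Finite (ResidueField O)] in
/-- Tangent classes of carried algebras are local cocycles. -/
theorem isLocalCocycle_tgVal (C : Carried S.rb S.cyc) (t : ↥(tangent C.π O)) :
    IsLocalCocycle (S.P.place S.p) S.rb (tgVal C.rR S.rb t) := by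
  have hp0 : algebraMap O (ResidueField O) S.p = 0 := by
    rw [map_natCast, ← map_natCast (residue O), residue_eq_zero_iff]
    exact S.hpO
  have hdet : ∀ σ, ∃ (a : ℕ) (y : C.R), (C.rR σ).det = a + S.p * y := fun σ => by
    obtain ⟨a, y, hy⟩ := S.cyc_spec σ
    exact ⟨a, algebraMap O C.R y, by rw [C.det, hy, map_add, map_mul, map_natCast, map_natCast]⟩
  exact ⟨fun σ _ => trace_tgVal C.π_algebraMap C.lift S.p hp0 hdet t σ,
    fun σ _ τ _ => by rw [tgVal_mul C.lift t σ τ, add_comm]⟩

variable {C₀ : Carried S.rb S.cyc} {ι κ : Type} {d : ι → ℕ} {src tgt : κ → ι}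
  {act₀ : ∀ i, C₀.R →ₐ[O] Matrix (Fin (d i)) (Fin (d i)) O} {r : ℕ}
  {inp : ∀ n, S.LevelInput C₀ d src tgt act₀ r n}

/-- **Worlds from two kinds of classes.** -/
def Setup.UnionWorlds.ofClasses (CF CS : (GQ → M2 (ResidueField O)) → Prop)
    (KF KS : ∀ n, Ideal (inp n).C.R) (iF iS : Fin 4 → Fin S.m) (iB : Fin 3 → Fin S.m)
    (sF : ∀ c, IsLocalCocycle (S.P.place S.p) S.rb c → CF c → S.Seen iF c)
    (sS : ∀ c, IsLocalCocycle (S.P.place S.p) S.rb c → CS c → S.Seen iS c)
    (sB : ∀ c, IsLocalCocycle (S.P.place S.p) S.rb c → CF c → CS c → S.Seen iB c)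
    (hKF : ∀ n (t : ↥(tangent (inp n).C.π O)), (∀ z ∈ KF n, t.1 z = 0) →
      CF (tgVal (inp n).C.rR S.rb t))
    (hKS : ∀ n (t : ↥(tangent (inp n).C.π O)), (∀ z ∈ KS n, t.1 z = 0) →
      CS (tgVal (inp n).C.rR S.rb t)) :
    Setup.UnionWorlds inp where
  KF := KF
  KS := KS
  iF := iF
  iS := iS
  iB := iB
  detectF n t h := sF _ (isLocalCocycle_tgVal _ t) (hKF n t h)
  detectS n t h := sS _ (isLocalCocycle_tgVal _ t) (hKS n t h)
  detectB n t h h' := sB _ (isLocalCocycle_tgVal _ t) (hKF n t h) (hKS n t h')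

end Worlds

section Restrict

/-- Flat models pass to equivalent representations. -/
theorem hasFlatModels_of_equiv {B : Type} [CommRing B] [IsLocalRing B]
    {ρ₁ ρ₂ : GaloisRepAdic B} (e : GaloisRepAdic.Equiv ρ₁ ρ₂) {A : ValuationSubring Qb}
    (h : HasFlatModels ρ₁ A) : HasFlatModels ρ₂ A := by
  intro I hI _
  let ψ : (ρ₁.V ⧸ (I • (⊤ : Submodule B ρ₁.V))) ≃ₗ[B] (ρ₂.V ⧸ (I • (⊤ : Submodule B ρ₂.V))) :=
    Submodule.Quotient.equiv _ _ e.toLinearEquiv (by
      rw [Submodule.map_smul'', Submodule.map_top]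
      exact congrArg (I • ·) (LinearEquiv.range e.toLinearEquiv))
  let _ : Fintype (ρ₁.V ⧸ (I • (⊤ : Submodule B ρ₁.V))) := Fintype.ofEquiv _ ψ.symm.toEquiv
  refine hasModel_congr A ψ.toAddEquiv (fun σ x => ?_) (h I hI)
  obtain ⟨v, rfl⟩ := Submodule.Quotient.mk_surjective _ x
  show ψ (Submodule.Quotient.mk (ρ₁.ρ σ v)) = _
  exact congrArg Submodule.Quotient.mk (e.map_apply σ v)

variable {rb : GQ →* M2 (ResidueField O)} {cyc : GQ → O}

omit [Finite (ResidueField O)] in
/-- A tangent vector killing the kernel of a restriction is one of the smaller algebra. -/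
theorem Carried.exists_tangent_factor (C C' : Carried rb cyc) (π : C.R →ₐ[O] C'.R)
    (hπ : Function.Surjective π) (hπC : ∀ x, C'.π (π x) = C.π x) (t : ↥(tangent C.π O))
    (ht : ∀ z ∈ RingHom.ker π, t.1 z = 0) :
    ∃ t' : ↥(tangent C'.π O), ∀ σ,
      tgVal C.rR rb t σ = tgVal (mapRep π.toRingHom C.rR) rb t' σ := by
  let s := Function.surjInv hπ
  have hs : ∀ y, π (s y) = y := Function.surjInv_eq hπ
  have hwd : ∀ x y, π x = π y → t.1 x = t.1 y := fun x y h => by
    have h0 := ht (x - y) (RingHom.mem_ker.mpr (by rw [map_sub, h, sub_self]))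
    rw [← tangentHom_apply t, map_sub, sub_eq_zero] at h0
    exact h0
  refine ⟨⟨fun y => t.1 (s y), fun x y => ?_, fun x y => ?_, fun c => ?_⟩, fun σ => ?_⟩
  · rw [← t.2.1]; exact hwd _ _ (by rw [map_add, hs, hs, hs])
  · beta_reduce
    rw [hwd (s (x * y)) (s x * s y) (by rw [map_mul, hs, hs, hs]), t.2.2.1, ← hπC, ← hπC, hs, hs]
  · beta_reduce
    rw [hwd (s _) (algebraMap O C.R c) (by rw [hs, AlgHom.commutes])]
    exact t.2.2.2 c
  · show (C.rR σ).map t.1 * _ = ((C.rR σ).map π).map (fun y => t.1 (s y)) * _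
    congr 1
    exact Matrix.ext fun a b => hwd _ _ (hs _).symm

omit [Finite (ResidueField O)] in
/-- A restriction of a carried lift is equivalent to the smaller carried lift. -/
theorem Carried.restrict_equiv (C C' : Carried rb cyc)
    (hspan : Submodule.span (ResidueField O) (Set.range rb) = ⊤) (π : C.R →ₐ[O] C'.R)
    (hπ : ∀ σ, π (C.rR σ).trace = (C'.rR σ).trace) :
    (∀ x, C'.π (π x) = C.π x) ∧ ∃ hc : IsContRep (mapRep π.toRingHom C.rR),
      Nonempty (GaloisRepAdic.Equiv (ofMatrix C'.rR C'.cont)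
        (ofMatrix (mapRep π.toRingHom C.rR) hc)) := by
  have hπC : ∀ x, C'.π (π x) = C.π x := by
    let e : C.R →ₐ[O] ResidueField O :=
      { C.π with commutes' := fun c => RingHom.congr_fun C.π_algebraMap c }
    let e' : C'.R →ₐ[O] ResidueField O :=
      { C'.π with commutes' := fun c => RingHom.congr_fun C'.π_algebraMap c }
    have h : e'.comp π = e := C.hom_ext fun σ => by
      show C'.π (π (C.rR σ).trace) = C.π (C.rR σ).trace
      rw [hπ, AddMonoidHom.map_trace C'.π, AddMonoidHom.map_trace C.π]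
      exact congrArg Matrix.trace
        ((DFunLike.congr_fun C'.lift σ).trans (DFunLike.congr_fun C.lift σ).symm)
    exact fun x => AlgHom.congr_fun h x
  obtain ⟨U, hU, hUc⟩ := FA.Density.exists_conj_of_trace_eq C'.rR (mapRep π.toRingHom C.rR)
    (span_eq_top_of_lift C'.π (fun c => RingHom.congr_fun C'.π_algebraMap c) hspan C'.lift)
    fun σ => by
      rw [← hπ, AddMonoidHom.map_trace π]
      rfl
  obtain ⟨v, hv⟩ := (Matrix.isUnit_iff_isUnit_det U).mpr hU
  have hconj : ∀ σ, mapRep π.toRingHom C.rR σ =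
      ((v⁻¹)⁻¹ : (M2 C'.R)ˣ).1 * C'.rR σ * (v⁻¹ : (M2 C'.R)ˣ).1 := fun σ => by
    rw [inv_inv, hv, ← hUc, mul_assoc, ← hv, Units.mul_inv, mul_one]
  exact ⟨hπC, isContRep_conj C'.cont v⁻¹ hconj, ⟨conjEquiv C'.cont _ v⁻¹ hconj⟩⟩

variable {p : ℕ} [hp : Fact p.Prime] (hp2 : p ≠ 2) (hpO : (p : O) ∈ maximalIdeal O)
  (hspan : Submodule.span (ResidueField O) (Set.range rb) = ⊤)
  {A : ValuationSubring Qb} (hA : A.LiesOverPrime p)

include hp2 hpO hspan hA in
/-- **A tangent vector of the strictly ordinary subfamily has a strictly ordinary class.** -/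
theorem isStrictOrd_of_restrict {S' : PointSet rb cyc} (C : Carried rb cyc) (M' : S'.Model)
    (h : ∀ j, (ofMatrix (S'.r j) (S'.cont j)).IsStrictOrdinaryAt p) (π : C.R →ₐ[O] M'.R)
    (hπs : Function.Surjective π) (hπ : ∀ σ, π (C.rR σ).trace = (M'.rR σ).trace)
    (t : ↥(tangent C.π O)) (ht : ∀ z ∈ RingHom.ker π, t.1 z = 0) :
    IsSmoothClass A (tgVal C.rR rb t) ∧ IsStrictOrdClass A p rb (tgVal C.rR rb t) := by
  refine ⟨isSmoothClass_tgVal C.π_surjective C.cont _ _ t, ?_⟩
  obtain ⟨hπC, hc, ⟨e⟩⟩ := C.restrict_equiv M'.toCarried hspan π hπ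
  obtain ⟨t', ht'⟩ := C.exists_tangent_factor M'.toCarried π hπs hπC t ht
  have hlift : mapRep M'.π (mapRep π.toRingHom C.rR) = rb := by
    refine MonoidHom.ext fun σ => Matrix.ext fun a b => ?_
    show M'.π (π (C.rR σ a b)) = rb σ a b
    rw [hπC]
    exact congrFun (congrFun (DFunLike.congr_fun C.lift σ) a) b
  have := (isStrictOrd_tgVal (O := O) M'.π_algebraMap residue_surjective
    (ofMatrix (mapRep π.toRingHom C.rR) hc) (Pi.basisFun M'.R (Fin 2))
    (show mapRep M'.π (matrixOf (ofMatrix (mapRep π.toRingHom C.rR) hc)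
      (Pi.basisFun M'.R (Fin 2))) = rb by rw [matrixOf_ofMatrix]; exact hlift) A
    (by rw [map_natCast, ← map_natCast (residue O), residue_eq_zero_iff]; exact hpO) hA
    (isStrictOrdinaryAt_of_equiv e (M'.isStrictOrdinaryAt hp2 hpO h))).2 t'
  rw [matrixOf_ofMatrix] at this
  rw [funext ht']
  exact this

include hspan hA in
/-- **A tangent vector of the flat subfamily has a flat class.** -/
theorem isFlat_of_restrict [Fintype (ResidueField O)] {S' : PointSet rb cyc} (C : Carried rb cyc)
    (M' : S'.Model)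
    (h : ∀ j, (ofMatrix (S'.r j) (S'.cont j)).IsFlatAt p) (π : C.R →ₐ[O] M'.R)
    (hπs : Function.Surjective π) (hπ : ∀ σ, π (C.rR σ).trace = (M'.rR σ).trace)
    (t : ↥(tangent C.π O)) (ht : ∀ z ∈ RingHom.ker π, t.1 z = 0) :
    IsFlatClass A rb (tgVal C.rR rb t) := by
  obtain ⟨hπC, hc, ⟨e⟩⟩ := C.restrict_equiv M'.toCarried hspan π hπ
  obtain ⟨t', ht'⟩ := C.exists_tangent_factor M'.toCarried π hπs hπC t ht
  have hlift : mapRep M'.π (mapRep π.toRingHom C.rR) = rb := by
    refine MonoidHom.ext fun σ => Matrix.ext fun a b => ?_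
    show M'.π (π (C.rR σ a b)) = rb σ a b
    rw [hπC]
    exact congrFun (congrFun (DFunLike.congr_fun C.lift σ) a) b
  have hm := hasFlatModels_of_equiv e (M'.hasFlatModels hA h)
  rw [funext ht']
  rcases eq_or_ne t' 0 with rfl | ht0
  · have hres := isFlatRes_of_models (O := O) M'.π_algebraMap residue_surjective
      (ofMatrix (mapRep π.toRingHom C.rR) hc) (Pi.basisFun M'.R (Fin 2))
      (show mapRep M'.π (matrixOf (ofMatrix (mapRep π.toRingHom C.rR) hc)
      (Pi.basisFun M'.R (Fin 2))) = rb by rw [matrixOf_ofMatrix]; exact hlift) A hm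
    have h0 : tgVal (mapRep π.toRingHom C.rR) rb (0 : ↥(tangent M'.π O)) = 0 := funext fun σ => by
      show (mapRep π.toRingHom C.rR σ).map (fun _ => (0 : ResidueField O)) * _ = 0
      rw [show (mapRep π.toRingHom C.rR σ).map (fun _ => (0 : ResidueField O)) = 0 from
        Matrix.ext fun _ _ => rfl, Matrix.zero_mul]
    rw [h0]
    exact isFlatClass_zero hres
  · have := isFlatClass_tgVal (O := O) M'.π_algebraMap residue_surjective
      (ofMatrix (mapRep π.toRingHom C.rR) hc) (Pi.basisFun M'.R (Fin 2))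
      (show mapRep M'.π (matrixOf (ofMatrix (mapRep π.toRingHom C.rR) hc)
      (Pi.basisFun M'.R (Fin 2))) = rb by rw [matrixOf_ofMatrix]; exact hlift) A hm ht0
    rw [matrixOf_ofMatrix] at this
    exact this

end Restrict

end FA.RT
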