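import Fermat.Agent.RT.LiftSetting
import Fermat.Agent.LocalDef.TresRamified
import Fermat.Agent.RT.FlatSetting

/-!
# The très ramifiée case

At a multiplicative `p` with `p ∤ v_p(Δ)` the residual representation of the curve has no flat lift.
-/

set_option autoImplicit false
set_option linter.unusedSectionVars false

noncomputable section

open IsLocalRing Matrix WeierstrassCurve FA.EC FA.Frob FA.Deform FA.TW FA.LocalDef FA.Local FA.JTorsion
open scoped WeierstrassCurve.Affine

namespace FA.RT

local notation "Qb" => AlgebraicClosure ℚ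
local notation "GQ" => AlgebraicClosure ℚ ≃ₐ[ℚ] AlgebraicClosure ℚ
local notation "M2" => Matrix (Fin 2) (Fin 2)

variable {p : ℕ} [hp : Fact p.Prime] (W : WeierstrassCurve ℤ) [(ratCurve W).IsElliptic]
  (hΔ : W.Δ ≠ 0) (hW : W.IsSemistableModel) (hp2 : p ≠ 2) (hbad : (p : ℤ) ∣ W.Δ)
  {A : ValuationSubring Qb} (hA : A.LiesOverPrime p)

include hΔ hW hp2 hbad hA in
/-- **A finite flat residual representation forces `p ∣ v_p(Δ)`.** -/
theorem dvd_padicValInt_of_isFlatRes {k : Type} [Field k] [Fintype k] (j : ZMod p →+* k)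
    (h : IsFlatRes A (mapRep j (curveRep p W))) : p ∣ padicValInt p W.Δ := by
  classical
  have := finite_torsion (ratCurve W) hp.out.ne_zero
  let _ : Fintype (Submodule.torsionBy ℤ ((ratCurve W)⁄Qb).Point p) := Fintype.ofFinite _
  have hm : MultAt W p A := ⟨hΔ, hp.out, hbad, hW p hp.out hbad, hA⟩
  obtain ⟨r, N⟩ := exists_nodeAt hm hp2
  let b := (torsBasis (p := p) W).equivFun
  refine dvd_padicValInt_of_hasModel N (h.of_injective
    { toFun := fun x i => j (b x i)
      map_zero' := funext fun i => by simp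
      map_add' := fun x y => funext fun i => by simp } (fun x y hxy => b.injective
        (funext fun i => j.injective (congrFun hxy i))) fun σ _ x => funext fun i => ?_)
  show j (b (σ • x) i) = (mapRep j (curveRep p W) σ *ᵥ fun i => j (b x i)) i
  rw [← toMatrix_mulVec]
  simp [Matrix.mulVec, dotProduct, mapRep_apply, b]

include hΔ hW hp2 hbad hA in
/-- **No flat lift in the très ramifiée case.** -/
theorem not_atFlat_of_tres {O : Type} [CommRing O] [IsDomain O] [IsDiscreteValuationRing O]
    [Finite (ResidueField O)] (j : ZMod p →+* ResidueField O)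
    (hnval : ¬ p ∣ padicValInt p W.Δ) {B : Type} [CommRing B] [IsLocalRing B] [Algebra O B]
    (m : GQ →* M2 B) (ε : B →+* ResidueField O) (hε : ∀ c, ε (algebraMap O B c) = residue O c)
    (hlift : mapRep ε m = mapRep j (curveRep p W)) : ¬ AtFlat p B m := by
  classical
  rintro ⟨hc, hflat⟩
  let _ : Fintype (ResidueField O) := Fintype.ofFinite _
  refine hnval (dvd_padicValInt_of_isFlatRes W hΔ hW hp2 hbad hA j ?_)
  exact isFlatRes_of_models (π := ε) (O := O) (RingHom.ext hε) residue_surjective
    (ofMatrix m hc) (Pi.basisFun B (Fin 2)) (by rw [matrixOf_ofMatrix]; exact hlift) A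
    fun I hI _ => hasModel_of_isFlatAt _ hA hflat I hI

include hΔ hW hp2 hbad hA in
/-- A family of lifts with a flat member does not exist. -/
theorem isEmpty_flat_pointSet {O : Type} [CommRing O] [IsDomain O] [IsDiscreteValuationRing O]
    [IsAdicComplete (maximalIdeal O) O] [Finite (ResidueField O)] (j : ZMod p →+* ResidueField O)
    (hnval : ¬ p ∣ padicValInt p W.Δ) {cyc : GQ → O}
    (S : PointSet (mapRep j (curveRep p W)) cyc) (h : ∀ i, AtFlat p (S.B i) (S.r i)) :
    IsEmpty S.J :=
  ⟨fun i => not_atFlat_of_tres W hΔ hW hp2 hbad hA j hnval (S.r i) (S.ε i) (S.ε_algebraMap i)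
    (S.lift i) (h i)⟩

end FA.RT
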