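import Fermat.Agent.RT.TraceRep
import Fermat.Agent.Deform.TestAlgebra
import Mathlib.RingTheory.DiscreteValuationRing.Basic
import Mathlib.RingTheory.HopkinsLevitzki
import Mathlib.RingTheory.IntegralClosure.IsIntegralClosure.Basic
import Mathlib.LinearAlgebra.FreeModule.PID

/-!
# The algebra generated by the traces of finitely many representations

It is a complete noetherian local `O`-algebra with residue field that of `O`, and carries a
representation inducing the given ones.
-/

set_option autoImplicit false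

noncomputable section

open IsLocalRing Matrix FA.Deform

namespace FA.RT

local notation "Qb" => AlgebraicClosure ℚ
local notation "GQ" => AlgebraicClosure ℚ ≃ₐ[ℚ] AlgebraicClosure ℚ

variable {O : Type} [CommRing O]

/-- A power of the maximal ideal dies in an artinian quotient. -/
theorem exists_pow_map_eq_zero {A Q : Type} [CommRing A] [IsLocalRing A] [CommRing Q]
    [IsLocalRing Q] [IsArtinianRing Q] (q : A →+* Q) (hq : Function.Surjective q) :
    ∃ n, ∀ x ∈ maximalIdeal A ^ n, q x = 0 := by
  have : IsLocalHom q := IsLocalHom.of_surjective q hq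
  obtain ⟨n, hn⟩ := (isArtinianRing_iff_isNilpotent_maximalIdeal Q).mp inferInstance
  refine ⟨n, fun x hx => ?_⟩
  have h := Ideal.le_comap_pow q n (Ideal.pow_right_mono
    (show maximalIdeal A ≤ (maximalIdeal Q).comap q from
      ((local_hom_TFAE q).out 0 3).mp this) n hx)
  rwa [Ideal.mem_comap, hn, Ideal.zero_eq_bot, Ideal.mem_bot] at h

/-- Local algebras which are finite and free over a complete local ring with principal maximal
ideal are complete. -/
theorem isAdicComplete_of_finite_free [IsLocalRing O] [IsNoetherianRing O]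
    [IsAdicComplete (maximalIdeal O) O] {A : Type} [CommRing A] [IsLocalRing A] [Algebra O A]
    [Module.Finite O A] [Module.Free O A] {ϖ : O} (hϖ : maximalIdeal O = Ideal.span {ϖ})
    {c : ℕ} (hc : maximalIdeal A ^ c ≤ Ideal.span {algebraMap O A ϖ}) (hc0 : c ≠ 0)
    (hϖA : algebraMap O A ϖ ∈ maximalIdeal A) : IsAdicComplete (maximalIdeal A) A := by
  classical
  have : IsNoetherianRing A := IsNoetherianRing.of_finite O A
  let b := Module.Free.chooseBasis O A
  have : Fintype (Module.Free.ChooseBasisIndex O A) := inferInstance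
  have hpow : ∀ (n : ℕ) (x : A), x ∈ Ideal.span {algebraMap O A ϖ} ^ n ↔
      ∀ i, b.repr x i ∈ maximalIdeal O ^ n := fun n x => by
    simp only [hϖ, Ideal.span_singleton_pow, Ideal.mem_span_singleton]
    refine ⟨?_, fun h => ?_⟩
    · rintro ⟨y, rfl⟩ i
      rw [← map_pow, ← Algebra.smul_def, map_smul, Finsupp.smul_apply, smul_eq_mul]
      exact dvd_mul_right _ _
    · choose z hz using h
      refine ⟨∑ i, z i • b i, ?_⟩
      rw [← b.sum_repr x, Finset.mul_sum]
      refine Finset.sum_congr rfl fun i _ => ?_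
      rw [hz i, mul_smul_comm, mul_smul, Algebra.smul_def (ϖ ^ n), map_pow, mul_smul_comm]
  have htoW : ∀ (n : ℕ) (x : A), x ∈ maximalIdeal A ^ (c * n) →
      x ∈ Ideal.span {algebraMap O A ϖ} ^ n := fun n x hx => by
    rw [pow_mul] at hx
    exact Ideal.pow_right_mono hc n hx
  have hfromW : ∀ (n : ℕ) (x : A), x ∈ Ideal.span {algebraMap O A ϖ} ^ n →
      x ∈ maximalIdeal A ^ n := fun n x hx =>
    Ideal.pow_right_mono ((Ideal.span_singleton_le_iff_mem _).mpr hϖA) n hx
  have : IsHausdorff (maximalIdeal A) A :=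
    IsHausdorff.of_isLocalRing (maximalIdeal A) A (maximalIdeal.isMaximal A).ne_top
  refine { toIsHausdorff := this, toIsPrecomplete := ⟨fun f hf => ?_⟩ }
  have hf' : ∀ {m n}, m ≤ n → f m - f n ∈ maximalIdeal A ^ m := fun {m n} h => by
    have h1 := hf h
    rwa [SModEq.sub_mem, smul_eq_mul, Ideal.mul_top] at h1
  have hco : ∀ i, ∃ L : O, ∀ n, b.repr (f (c * n)) i - L ∈ maximalIdeal O ^ n := fun i => by
    obtain ⟨L, hL⟩ := IsPrecomplete.prec (inferInstance : IsPrecomplete (maximalIdeal O) O)
      (f := fun n => b.repr (f (c * n)) i) fun {m n} h => by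
        rw [SModEq.sub_mem, smul_eq_mul, Ideal.mul_top, ← Finsupp.sub_apply, ← map_sub]
        exact (hpow m _).mp (htoW m _ (hf' (Nat.mul_le_mul_left c h))) i
    refine ⟨L, fun n => ?_⟩
    have h1 := hL n
    rwa [SModEq.sub_mem, smul_eq_mul, Ideal.mul_top] at h1
  choose L hL using hco
  refine ⟨∑ i, L i • b i, fun n => ?_⟩
  rw [SModEq.sub_mem, smul_eq_mul, Ideal.mul_top]
  have h1 : f (c * n) - ∑ i, L i • b i ∈ maximalIdeal A ^ n := by
    refine hfromW n _ ((hpow n _).mpr fun i => ?_)
    rw [map_sub, Finsupp.sub_apply, b.repr_sum_self]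
    exact hL i n
  have h2 := hf' (Nat.le_mul_of_pos_left n (Nat.pos_of_ne_zero hc0))
  have := add_mem h2 h1
  rwa [sub_add_sub_cancel] at this

/-- A power of the maximal ideal of a finite free local algebra lies in the ideal of a
uniformiser. -/
theorem exists_pow_le_span [IsDomain O] [IsDiscreteValuationRing O]
    [Finite (ResidueField O)] {A : Type} [CommRing A]
    [IsLocalRing A] [Algebra O A] [Module.Finite O A] [Module.Free O A] {ϖ : O}
    (hϖ : Irreducible ϖ) (hϖA : algebraMap O A ϖ ∈ maximalIdeal A) :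
    ∃ c, c ≠ 0 ∧ maximalIdeal A ^ c ≤ Ideal.span {algebraMap O A ϖ} := by
  set ϖA := algebraMap O A ϖ
  let I : Ideal A := Ideal.span {ϖA}
  have hI : I ≤ maximalIdeal A := (Ideal.span_singleton_le_iff_mem _).mpr hϖA
  have : Nontrivial (A ⧸ I) := Ideal.Quotient.nontrivial_iff.mpr fun h =>
    (maximalIdeal.isMaximal _).ne_top (top_le_iff.mp (h.ge.trans hI))
  have : IsLocalRing (A ⧸ I) :=
    IsLocalRing.of_surjective' (Ideal.Quotient.mk I) Ideal.Quotient.mk_surjective
  have : Finite (A ⧸ I) := by
    let b := Module.Free.chooseBasis O (A)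
    have : Fintype (Module.Free.ChooseBasisIndex O (A)) := inferInstance
    let f : (Module.Free.ChooseBasisIndex O (A) → ResidueField O) → A ⧸ I :=
      fun a => Ideal.Quotient.mk I (∑ i, Function.surjInv residue_surjective (a i) • b i)
    refine Finite.of_surjective f fun y => ?_
    obtain ⟨x, rfl⟩ := Ideal.Quotient.mk_surjective y
    refine ⟨fun i => residue O (b.repr x i), ?_⟩
    rw [Ideal.Quotient.mk_eq_mk_iff_sub_mem]
    rw [show ∑ i, Function.surjInv residue_surjective (residue O (b.repr x i)) • b i - x =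
        ∑ i, (Function.surjInv residue_surjective (residue O (b.repr x i)) - b.repr x i) • b i by
      simp only [sub_smul, Finset.sum_sub_distrib, b.sum_repr]]
    refine Ideal.sum_mem _ fun i _ => ?_
    have h : Function.surjInv residue_surjective (residue O (b.repr x i)) - b.repr x i ∈
        maximalIdeal O := by
      rw [← residue_eq_zero_iff, map_sub, Function.surjInv_eq residue_surjective, sub_self]
    rw [hϖ.maximalIdeal_eq] at h
    obtain ⟨z, hz⟩ := Ideal.mem_span_singleton'.mp h
    rw [← hz, Algebra.smul_def, map_mul]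
    exact Ideal.mul_mem_right _ _ (Ideal.mul_mem_left _ _ (Ideal.mem_span_singleton_self ϖA))
  have : IsArtinianRing (A ⧸ I) := inferInstance
  obtain ⟨n, hn⟩ := exists_pow_map_eq_zero (Ideal.Quotient.mk I) Ideal.Quotient.mk_surjective
  exact ⟨n + 1, n.succ_ne_zero, fun x hx =>
    Ideal.Quotient.eq_zero_iff_mem.mp (hn x (Ideal.pow_le_pow_right n.le_succ hx))⟩

/-- Local algebras which are finite and free over a complete DVR with finite residue field are
complete. -/
theorem isAdicComplete_of_finite_free' [IsDomain O] [IsDiscreteValuationRing O]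
    [IsAdicComplete (maximalIdeal O) O] [Finite (ResidueField O)] {A : Type} [CommRing A]
    [IsLocalRing A] [Algebra O A] [Module.Finite O A] [Module.Free O A] {ϖ : O}
    (hϖ : Irreducible ϖ) (hϖA : algebraMap O A ϖ ∈ maximalIdeal A) :
    IsAdicComplete (maximalIdeal A) A := by
  obtain ⟨c, hc0, hc⟩ := exists_pow_le_span hϖ hϖA
  exact isAdicComplete_of_finite_free (hϖ.maximalIdeal_eq) hc hc0 hϖA

variable [IsDomain O] [IsDiscreteValuationRing O] [IsAdicComplete (maximalIdeal O) O]
  {J : Type} [Finite J] {B : J → Type} [∀ j, CommRing (B j)] [∀ j, IsLocalRing (B j)]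
  [∀ j, Algebra O (B j)] [∀ j, Module.Finite O (B j)] [∀ j, Module.Free O (B j)]
  (r : ∀ j, GQ →* Matrix (Fin 2) (Fin 2) (B j))

variable (O) in
/-- The algebra generated by the traces. -/
def traceAlg : Subalgebra O (∀ j, B j) :=
  Algebra.adjoin O (Set.range fun σ j => (r j σ).trace)

variable (O) in
/-- The projections of the trace algebra. -/
def trProj (j : J) : traceAlg O r →+* B j :=
  (Pi.evalRingHom B j).comp (traceAlg O r).toSubring.subtype

variable (O) in
/-- The traces. -/
def trGen (σ : GQ) : traceAlg O r :=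
  ⟨fun j => (r j σ).trace, Algebra.subset_adjoin ⟨σ, rfl⟩⟩

theorem trProj_algebraMap (j : J) (c : O) :
    trProj O r j (algebraMap O (traceAlg O r) c) = algebraMap O (B j) c := rfl

theorem eq_zero_of_trProj {x : traceAlg O r} (h : ∀ j, trProj O r j x = 0) : x = 0 :=
  Subtype.ext (funext h)

instance : Module.Finite O (traceAlg O r) := by
  have : IsNoetherian O (∀ j, B j) := isNoetherian_of_isNoetherianRing_of_finite O _
  exact Module.Finite.iff_fg.mpr (IsNoetherian.noetherian (traceAlg O r).toSubmodule)

instance : Module.Free O (traceAlg O r) :=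
  Module.free_of_finite_type_torsion_free'

instance : IsNoetherianRing (traceAlg O r) := IsNoetherianRing.of_finite O _

variable (ε : ∀ j, B j →+* ResidueField O) (hε : ∀ j c, ε j (algebraMap O (B j) c) = residue O c)
  {rb : GQ →* Matrix (Fin 2) (Fin 2) (ResidueField O)} (hr : ∀ j, mapRep (ε j) (r j) = rb)

include hε hr in
theorem eps_trProj_eq (x : traceAlg O r) (i j : J) : ε i (trProj O r i x) = ε j (trProj O r j x) := by
  obtain ⟨x, hx⟩ := x
  show ε i (x i) = ε j (x j)
  induction hx using Algebra.adjoin_induction with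
  | mem y hy =>
    obtain ⟨σ, rfl⟩ := hy
    have h : ∀ l, ε l (r l σ).trace = (rb σ).trace := fun l => by
      rw [AddMonoidHom.map_trace, ← hr l]
      rfl
    exact (h i).trans (h j).symm
  | algebraMap c => simp [hε]
  | add y z _ _ hy hz => simp [hy, hz]
  | mul y z _ _ hy hz => simp [hy, hz]

include hε hr in
theorem isLocalRing_traceAlg [Nonempty J] :
    IsLocalRing (traceAlg O r) ∧ ∀ j x, x ∈ nonunits (traceAlg O r) ↔ ε j (trProj O r j x) = 0 := by
  have hloc : ∀ (j : J) (y : B j), ε j y = 0 ↔ ¬ IsUnit y := fun j y => by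
    have hsurj : Function.Surjective (ε j) := fun a => by
      obtain ⟨c, rfl⟩ := residue_surjective a
      exact ⟨algebraMap O (B j) c, hε j c⟩
    rw [← RingHom.mem_ker, eq_maximalIdeal (RingHom.ker_isMaximal_of_surjective (ε j) hsurj)]
    rfl
  have hiff : ∀ (j : J) (x : traceAlg O r), x ∈ nonunits (traceAlg O r) ↔ ε j (trProj O r j x) = 0 := by
    intro j x
    rw [hloc]
    refine ⟨fun hx hu => hx ?_, fun hx hu => hx (hu.map (trProj O r j))⟩
    have hall : IsUnit (x : ∀ j, B j) := Pi.isUnit_iff.mpr fun i => by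
      by_contra h
      exact (hloc j _).mp ((eps_trProj_eq r ε hε hr x j i).trans ((hloc i _).mpr h)) hu
    have hint : (traceAlg O r).toSubring.subtype.IsIntegral := fun y => by
      obtain ⟨P, hP, hPy⟩ := Algebra.IsIntegral.isIntegral (R := O) y
      refine ⟨P.map (algebraMap O (traceAlg O r)), hP.map _, ?_⟩
      rw [Polynomial.eval₂_map]
      exact hPy
    exact ((hint.isLocalHom Subtype.val_injective).map_nonunit _ hall)
  obtain ⟨j₀⟩ := (inferInstance : Nonempty J)
  have : Nontrivial (traceAlg O r) := ⟨⟨0, 1, fun h => by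
    have := congrArg (fun x => ε j₀ (trProj O r j₀ x)) h
    simp at this⟩⟩
  refine ⟨IsLocalRing.of_nonunits_add fun a b ha hb => ?_, hiff⟩
  rw [hiff j₀] at ha hb ⊢
  rw [map_add, map_add, ha, hb, add_zero]

variable [IsLocalRing (traceAlg O r)]

include hε hr in
theorem residue_surjective_traceAlg [Nonempty J] :
    Function.Surjective (residue (traceAlg O r) ∘ algebraMap O (traceAlg O r)) := by
  obtain ⟨j⟩ := (inferInstance : Nonempty J)
  intro y
  obtain ⟨x, rfl⟩ := residue_surjective y
  obtain ⟨c, hc⟩ := residue_surjective (ε j (trProj O r j x))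
  refine ⟨c, ?_⟩
  rw [Function.comp_apply, ← sub_eq_zero, ← map_sub, residue_eq_zero_iff, mem_maximalIdeal,
    (isLocalRing_traceAlg r ε hε hr).2 j, map_sub, map_sub, trProj_algebraMap, hε, hc, sub_self]

include hε hr in
theorem isLocalHom_trProj [Nonempty J] (j : J) : IsLocalHom (trProj O r j) := ⟨fun x hx => by
  by_contra h
  have := ((isLocalRing_traceAlg r ε hε hr).2 j x).mp h
  exact (hx.map (ε j)).ne_zero this⟩

include hε hr in
theorem isAdicComplete_traceAlg [Finite (ResidueField O)] [Nonempty J] :
    IsAdicComplete (maximalIdeal (traceAlg O r)) (traceAlg O r) := by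
  obtain ⟨ϖ, hϖ⟩ := IsDiscreteValuationRing.exists_irreducible O
  set ϖA := algebraMap O (traceAlg O r) ϖ
  obtain ⟨j⟩ := (inferInstance : Nonempty J)
  have hϖA : ϖA ∈ maximalIdeal (traceAlg O r) := by
    rw [mem_maximalIdeal, (isLocalRing_traceAlg r ε hε hr).2 j, trProj_algebraMap, hε,
      residue_eq_zero_iff, hϖ.maximalIdeal_eq]
    exact Ideal.mem_span_singleton_self ϖ
  exact isAdicComplete_of_finite_free' hϖ hϖA

end FA.RT
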