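import Fermat.Agent.Deform.MatrixRep

/-!
# Descending representations along traces

Normalised representations over several rings, whose traces come from one complete local ring `A`
embedded in their product, come from a representation over `A`.
-/

set_option autoImplicit false

noncomputable section

open IsLocalRing Matrix FA.Deform

namespace FA.RT

local notation "Qb" => AlgebraicClosure ℚ
local notation "GQ" => AlgebraicClosure ℚ ≃ₐ[ℚ] AlgebraicClosure ℚ

variable {O : Type} [CommRing O] {A : Type} [CommRing A] [IsLocalRing A] [Algebra O A]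
  {J : Type} {B : J → Type} [∀ j, CommRing (B j)] [∀ j, IsLocalRing (B j)] [∀ j, Algebra O (B j)]

/-- A monic quadratic congruent to `X (X - 1)` has at most one root congruent to `1`. -/
theorem root_unique {C : Type} [CommRing C] [IsLocalRing C] {s d x y : C}
    (hx : x * x - s * x + d = 0) (hy : y * y - s * y + d = 0) (hs : s - 1 ∈ maximalIdeal C)
    (hx1 : x - 1 ∈ maximalIdeal C) (hy1 : y - 1 ∈ maximalIdeal C) : x = y := by
  have hu : IsUnit (x + y - s) := by
    refine IsLocalRing.notMem_maximalIdeal.mp fun h => ?_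
    have := sub_mem h (sub_mem (add_mem hx1 hy1) hs)
    rw [show x + y - s - (x - 1 + (y - 1) - (s - 1)) = 1 by ring] at this
    exact (IsLocalRing.mem_maximalIdeal _).mp this isUnit_one
  have h : (x + y - s) * (x - y) = 0 := by linear_combination hx - hy
  exact sub_eq_zero.mp (hu.mul_right_eq_zero.mp h)

variable [HenselianRing A (maximalIdeal A)] (F : Frame O) (ι : ∀ j, A →+* B j)
  (hι : ∀ x : A, (∀ j, ι j x = 0) → x = 0)
  (hιalg : ∀ j c, ι j (algebraMap O A c) = algebraMap O (B j) c) [∀ j, IsLocalHom (ι j)]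
  (r : ∀ j, GQ →* Matrix (Fin 2) (Fin 2) (B j))
  (hnormal : ∀ j, F.IsNormal (r j))
  (hadapt : ∀ j, F.Adapted (mapRep (residue (B j)) (r j)))
  (t : GQ → A) (htr : ∀ j σ, ι j (t σ) = (r j σ).trace)
  {σ₀ : GQ} (hσ₀ : ∀ j, IsUnit (r j σ₀ 0 1))

include hι hιalg hnormal hadapt htr hσ₀ in
/-- **Descent along traces.** -/
theorem exists_rep_of_traces [Nonempty J] :
    ∃ rA : GQ →* Matrix (Fin 2) (Fin 2) A, ∀ j, mapRep (ι j) rA = r j := by
  classical
  -- traces of combinations
  let tc : (GQ →₀ O) → GQ → A := fun c g => c.sum fun h a => algebraMap O A a * t (h * g)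
  have htc : ∀ j c g, ι j (tc c g) = (evalComb c (r j) * r j g).trace := fun j c g => by
    simp only [tc, evalComb, Finsupp.sum, map_sum, map_mul, hιalg, htr, Finset.sum_mul,
      Matrix.trace_sum, Algebra.smul_def]
    refine Finset.sum_congr rfl fun h _ => ?_
    simp [Matrix.trace_fin_two, Matrix.mul_apply, Matrix.algebraMap_matrix_apply]
    ring
  let s1 := tc F.cx 1
  let s2 := F.cx.sum fun g a => algebraMap O A a * tc F.cx g
  let s3 := F.cx.sum fun g a => algebraMap O A a *
    F.cx.sum fun h b => algebraMap O A b * tc F.cx (g * h)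
  -- the entries of `X`
  have hX : ∀ j, evalComb F.cx (r j) 0 1 = 0 ∧ evalComb F.cx (r j) 1 0 = 0 ∧
      evalComb F.cy (r j) 1 0 = 1 := hnormal
  let lam : ∀ j, B j := fun j => evalComb F.cx (r j) 0 0
  let mu : ∀ j, B j := fun j => evalComb F.cx (r j) 1 1
  have hXr : ∀ j g, ι j (tc F.cx g) = lam j * r j g 0 0 + mu j * r j g 1 1 := fun j g => by
    rw [htc, Matrix.trace_fin_two, Matrix.mul_apply, Matrix.mul_apply, Fin.sum_univ_two,
      Fin.sum_univ_two, (hX j).1, (hX j).2.1]
    ring
  have hcomb : ∀ j (f : GQ → A) (a : GQ → B j), (∀ g, ι j (f g) = a g) →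
      ι j (F.cx.sum fun g c => algebraMap O A c * f g) =
        F.cx.sum fun g c => algebraMap O (B j) c * a g := fun j f a hf => by
    simp only [Finsupp.sum, map_sum, map_mul, hιalg, hf]
  have hdiag : ∀ j (i : Fin 2), F.cx.sum (fun g c => algebraMap O (B j) c * r j g i i) =
      evalComb F.cx (r j) i i := fun j i => by
    simp [evalComb, Finsupp.sum, Matrix.sum_apply, Algebra.smul_def, Matrix.algebraMap_matrix_apply,
      Matrix.mul_apply]
  have hs1 : ∀ j, ι j s1 = lam j + mu j := fun j => by simp [s1, hXr]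
  have hmulX : ∀ j g (i : Fin 2),
      F.cx.sum (fun h c => algebraMap O (B j) c * r j (g * h) i i) =
        r j g i i * evalComb F.cx (r j) i i := fun j g i => by
    have hXz : evalComb F.cx (r j) 0 1 = 0 ∧ evalComb F.cx (r j) 1 0 = 0 := ⟨(hX j).1, (hX j).2.1⟩
    have : F.cx.sum (fun h c => algebraMap O (B j) c * r j (g * h) i i) =
        (r j g * evalComb F.cx (r j)) i i := by
      simp [evalComb, Finsupp.sum, Matrix.mul_apply, Finset.mul_sum, map_mul, Matrix.sum_apply,
        Fin.sum_univ_two, Algebra.smul_def, Matrix.algebraMap_matrix_apply, ← Finset.sum_add_distrib]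
      refine Finset.sum_congr rfl fun h _ => ?_
      ring
    rw [this, Matrix.mul_apply, Fin.sum_univ_two]
    fin_cases i <;> simp [hXz.1, hXz.2]
  have hs2 : ∀ j, ι j s2 = lam j * lam j + mu j * mu j := fun j => by
    rw [show s2 = F.cx.sum fun g c => algebraMap O A c * tc F.cx g from rfl, hcomb j _ _ (hXr j)]
    simp only [mul_add, Finsupp.sum_add, mul_left_comm (algebraMap O (B j) _) _]
    rw [← Finsupp.mul_sum, ← Finsupp.mul_sum, hdiag, hdiag]
  have hs3 : ∀ j, ι j s3 = lam j * lam j * lam j + mu j * mu j * mu j := fun j => by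
    have h1 : ∀ g, ι j (F.cx.sum fun h b => algebraMap O A b * tc F.cx (g * h)) =
        lam j * lam j * r j g 0 0 + mu j * mu j * r j g 1 1 := fun g => by
      rw [hcomb j _ _ fun h => hXr j (g * h)]
      simp only [mul_add, Finsupp.sum_add, mul_left_comm (algebraMap O (B j) _) _]
      rw [← Finsupp.mul_sum, ← Finsupp.mul_sum, hmulX, hmulX]
      ring
    rw [show s3 = F.cx.sum fun g c => algebraMap O A c * _ from rfl, hcomb j _ _ h1]
    simp only [mul_add, Finsupp.sum_add, mul_left_comm (algebraMap O (B j) _) _]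
    rw [← Finsupp.mul_sum, ← Finsupp.mul_sum, hdiag, hdiag]
  -- residues
  obtain ⟨j₀⟩ := (inferInstance : Nonempty J)
  have hres : ∀ j, residue (B j) (lam j) = 1 ∧ residue (B j) (mu j) = 0 := fun j => by
    have h := (hadapt j).1
    rw [evalComb_residue] at h
    exact ⟨congrFun (congrFun h 0) 0, congrFun (congrFun h 1) 1⟩
  have hback : ∀ (j : J) (x : A), ι j x ∈ maximalIdeal (B j) ↔ x ∈ maximalIdeal A := fun j x => by
    rw [mem_maximalIdeal, mem_maximalIdeal, map_mem_nonunits_iff]
  have hs1m : s1 - 1 ∈ maximalIdeal A := by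
    rw [← hback j₀, map_sub, map_one, ← residue_eq_zero_iff, hs1, map_sub, map_add, (hres j₀).1,
      (hres j₀).2, map_one]
    simp
  have hs1u : IsUnit s1 := IsLocalRing.notMem_maximalIdeal.mp fun h => by
    have := sub_mem h hs1m
    rw [sub_sub_cancel] at this
    exact (IsLocalRing.mem_maximalIdeal _).mp this isUnit_one
  obtain ⟨u, hu⟩ := hs1u.exists_right_inv
  let D := u * (s1 * s2 - s3)
  have hD : ∀ j, ι j D = lam j * mu j := fun j => by
    have h := congrArg (ι j) hu
    rw [map_mul, map_one, hs1] at h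
    simp only [D, map_mul, map_sub, hs1, hs2, hs3]
    linear_combination (lam j * mu j) * h
  have hDm : D ∈ maximalIdeal A := by
    rw [← hback j₀, ← residue_eq_zero_iff, hD, map_mul, (hres j₀).2, mul_zero]
  obtain ⟨l, hl, hl1⟩ := HenselianRing.is_henselian (I := maximalIdeal A)
    (Polynomial.X ^ 2 - Polynomial.C s1 * Polynomial.X + Polynomial.C D) (by monicity!) 1
    (by
      simp only [Polynomial.eval_add, Polynomial.eval_sub, Polynomial.eval_pow, Polynomial.eval_X,
        Polynomial.eval_mul, Polynomial.eval_C, one_pow, mul_one]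
      exact add_mem (by simpa using neg_mem hs1m) hDm)
    (by
      refine (IsLocalRing.notMem_maximalIdeal.mp fun h => ?_).map _
      simp [one_add_one_eq_two] at h
      have := add_mem h hs1m
      rw [show (2 : A) - s1 + (s1 - 1) = 1 by ring] at this
      exact (IsLocalRing.mem_maximalIdeal _).mp this isUnit_one)
  simp only [Polynomial.IsRoot, Polynomial.eval_add, Polynomial.eval_sub, Polynomial.eval_pow,
    Polynomial.eval_X, Polynomial.eval_mul, Polynomial.eval_C] at hl
  have hlam : ∀ j, ι j l = lam j := fun j => by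
    have h0 := congrArg (ι j) hl
    simp only [map_add, map_sub, map_mul, map_pow, map_zero, hs1, hD] at h0
    refine root_unique (s := lam j + mu j) (d := lam j * mu j) (by linear_combination h0) (by ring)
      ?_ ?_ ?_
    · rw [← residue_eq_zero_iff, map_sub, map_add, (hres j).1, (hres j).2, map_one]; simp
    · rw [← map_one (ι j), ← map_sub, hback]
      exact hl1
    · rw [← residue_eq_zero_iff, map_sub, (hres j).1, map_one, sub_self]
  have hdu : IsUnit (2 * l - s1) := IsLocalRing.notMem_maximalIdeal.mp fun h => by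
    have := sub_mem h (sub_mem (Ideal.mul_mem_left _ 2 hl1) hs1m)
    rw [show 2 * l - s1 - (2 * (l - 1) - (s1 - 1)) = 1 by ring] at this
    exact (IsLocalRing.mem_maximalIdeal _).mp this isUnit_one
  obtain ⟨w, hw⟩ := hdu.exists_right_inv
  -- the entries
  let ea : GQ → A := fun g => w * (tc F.cx g - (s1 - l) * t g)
  let ed : GQ → A := fun g => w * (l * t g - tc F.cx g)
  have hw' : ∀ j, ι j w * (lam j - mu j) = 1 := fun j => by
    have h := congrArg (ι j) hw
    simp only [map_mul, map_sub, map_ofNat, map_one, hs1, hlam] at h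
    linear_combination h
  have hea : ∀ j g, ι j (ea g) = r j g 0 0 := fun j g => by
    simp only [ea, map_mul, map_sub, hs1, hlam, htr, hXr, Matrix.trace_fin_two]
    linear_combination (r j g 0 0) * hw' j
  have hed : ∀ j g, ι j (ed g) = r j g 1 1 := fun j g => by
    simp only [ed, map_mul, map_sub, hlam, htr, hXr, Matrix.trace_fin_two]
    linear_combination (r j g 1 1) * hw' j
  let bc : GQ → GQ → A := fun g h => ea (g * h) - ea g * ea h
  have hbc : ∀ j g h, ι j (bc g h) = r j g 0 1 * r j h 1 0 := fun j g h => by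
    simp only [bc, map_sub, map_mul, hea, map_mul (r j)]
    simp [Matrix.mul_apply, Fin.sum_univ_two]
  let eb : GQ → A := fun g => F.cy.sum fun h a => algebraMap O A a * bc g h
  have heb : ∀ j g, ι j (eb g) = r j g 0 1 := fun j g => by
    have h := (hX j).2.2
    simp only [evalComb, Finsupp.sum, Matrix.sum_apply] at h
    simp only [eb, Finsupp.sum, map_sum, map_mul, hιalg, hbc]
    conv_rhs => rw [← mul_one (r j g 0 1), ← h, Finset.mul_sum]
    refine Finset.sum_congr rfl fun x _ => ?_
    simp
    ring
  have hb0 : IsUnit (eb σ₀) := by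
    refine IsLocalRing.notMem_maximalIdeal.mp fun h => ?_
    rw [← hback j₀, heb] at h
    exact (IsLocalRing.mem_maximalIdeal _).mp h (hσ₀ j₀)
  obtain ⟨v, hv⟩ := hb0.exists_right_inv
  let ec : GQ → A := fun g => v * bc σ₀ g
  have hec : ∀ j g, ι j (ec g) = r j g 1 0 := fun j g => by
    have h := congrArg (ι j) hv
    rw [map_mul, map_one, heb] at h
    simp only [ec, map_mul, hbc]
    linear_combination (r j g 1 0) * h
  let M : GQ → Matrix (Fin 2) (Fin 2) A := fun g => !![ea g, eb g; ec g, ed g]
  have hM : ∀ j g, (M g).map (ι j) = r j g := fun j g => by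
    refine Matrix.ext fun a b => ?_
    fin_cases a <;> fin_cases b <;> simp [M, hea, heb, hec, hed]
  have hext : ∀ X Y : Matrix (Fin 2) (Fin 2) A, (∀ j, X.map (ι j) = Y.map (ι j)) → X = Y := by
    intro X Y h
    refine Matrix.ext fun a b => sub_eq_zero.mp (hι _ fun j => ?_)
    rw [map_sub, sub_eq_zero]
    exact congrFun (congrFun (h j) a) b
  refine ⟨MonoidHom.mk ⟨M, hext _ _ fun j => ?_⟩ fun g h => hext _ _ fun j => ?_, fun j => ?_⟩
  · rw [hM, map_one]
    exact ((ι j).mapMatrix.map_one).symm
  · show (M (g * h)).map (ι j) = (M g * M h).map (ι j)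
    rw [Matrix.map_mul, hM, hM, hM, map_mul]
  · exact MonoidHom.ext fun g => hM j g

end FA.RT
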