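import Fermat.Agent.RT.UnionSetup
import Fermat.Agent.RT.LiftSetting
import Fermat.Agent.LocalDef.EllipticMult
import Fermat.Agent.LocalDef.TangentInter

/-!
# The union setting of a curve at a multiplicative `p` dividing the valuation of the discriminant

The residual representation is finite flat and strictly ordinary at `p`.
-/

set_option autoImplicit false
set_option linter.unusedSectionVars false

noncomputable section

open IsLocalRing Matrix WeierstrassCurve FA.EC FA.Frob FA.Deform FA.TW FA.LocalDef FA.Local FA.JTorsion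
open scoped WeierstrassCurve.Affine

namespace FA.RT

local notation "Qb" => AlgebraicClosure ℚ
local notation "GQ" => AlgebraicClosure ℚ ≃ₐ[ℚ] AlgebraicClosure ℚ
local notation "M2" => Matrix (Fin 2) (Fin 2)

/-- Finite flatness of a residual representation survives an extension of scalars. -/
theorem isFlatRes_mapRep {p : ℕ} [Fact p.Prime] {k : Type} [Field k] [Fintype k]
    {A : ValuationSubring Qb} (j : ZMod p →+* k) {r : GQ →* M2 (ZMod p)} (h : IsFlatRes A r) :
    IsFlatRes A (mapRep j r) := by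
  classical
  let : Algebra (ZMod p) k := j.toAlgebra
  let b := Module.finBasis (ZMod p) k
  refine (HasModel.pi (ι := Fin (Module.finrank (ZMod p) k)) fun _ => h).of_injective
    { toFun := fun x l i => b.repr (x i) l
      map_zero' := by ext l i; simp
      map_add' := fun x y => by funext l i; simp } (fun x y hxy => funext fun i =>
        b.ext_elem fun l => congrFun (congrFun hxy l) i) fun σ _ x => ?_
  funext l i
  show b.repr ((mapRep j r σ *ᵥ x) i) l = (r σ *ᵥ fun i => b.repr (x i) l) i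
  simp only [Matrix.mulVec, dotProduct, map_sum, Finsupp.coe_finsetSum, Finset.sum_apply]
  refine Finset.sum_congr rfl fun i' _ => ?_
  rw [show mapRep j r σ i i' * x i' = r σ i i' • x i' from (Algebra.smul_def _ _).symm, map_smul]
  rfl

variable {p : ℕ} [hp : Fact p.Prime] (W : WeierstrassCurve ℤ) [(ratCurve W).IsElliptic]

/-- At a multiplicative `p` dividing the valuation of the discriminant the representation is finite
flat. -/
theorem isFlatRes_curveRep_mult (hΔ : W.Δ ≠ 0) (hW : W.IsSemistableModel) (hp2 : p ≠ 2)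
    (hbad : (p : ℤ) ∣ W.Δ) (hval : p ∣ padicValInt p W.Δ) {A : ValuationSubring Qb}
    (hA : A.LiesOverPrime p) : IsFlatRes A (curveRep p W) := by
  classical
  have := finite_torsion (ratCurve W) hp.out.ne_zero
  let _ : Fintype (Submodule.torsionBy ℤ ((ratCurve W)⁄Qb).Point p) := Fintype.ofFinite _
  have hm : MultAt W p A := ⟨hΔ, hp.out, hbad, hW p hp.out hbad, hA⟩
  obtain ⟨r, N⟩ := exists_nodeAt hm hp2
  obtain ⟨k, hk⟩ := hval
  let b := (torsBasis (p := p) W).equivFun
  refine (N.hasModel_torsion (k := k)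
    (by rw [exists_valuation_eq_pow hp.out hA hΔ, hk])).of_injective
    (b.symm.toAddEquiv.toAddMonoidHom) b.symm.injective fun σ _ x => ?_
  show b.symm (curveRep p W σ *ᵥ x) = _
  obtain ⟨y, rfl⟩ := b.surjective x
  rw [toMatrix_mulVec]
  exact (b.symm_apply_apply _).trans (congrArg (σ • ·) (b.symm_apply_apply y).symm)

variable {O : Type} [CommRing O] [IsDomain O] [IsDiscreteValuationRing O]
  [IsAdicComplete (maximalIdeal O) O] [Finite (ResidueField O)]
  (hp2 : p ≠ 2) (hpO : (p : O) ∈ maximalIdeal O) (ι : ℤ_[p] →+* O)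
  (j : ZMod p →+* ResidueField O) (P : Places) (hΔ : W.Δ ≠ 0) (hW : W.IsSemistableModel)
  (hbad : (p : ℤ) ∣ W.Δ) (hval : p ∣ padicValInt p W.Δ)

/-- The flat classes. -/
def CpFlat (c : GQ → M2 (ResidueField O)) : Prop :=
  haveI : Fintype (ResidueField O) := Fintype.ofFinite _
  IsFlatClass (P.place p) (mapRep j (curveRep p W)) c

/-- The strictly ordinary classes. -/
def CpStrict (c : GQ → M2 (ResidueField O)) : Prop :=
  IsSmoothClass (P.place p) c ∧ IsStrictOrdClass (P.place p) p (mapRep j (curveRep p W)) c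

include hp2 hpO ι hΔ hW hbad in
omit [IsAdicComplete (maximalIdeal O) O] in
theorem isStrictOrdRes_mapRep_curveRep :
    IsStrictOrdRes (P.place p) p (mapRep j (curveRep p W)) := by
  obtain ⟨r, hr⟩ := exists_ellipticPoint hΔ hW hp2 ι hpO
  exact (isStrictOrd_tgVal (π := residue O) (O := O) rfl residue_surjective
    (ofMatrix r hr.cont) (Pi.basisFun O (Fin 2))
    (by rw [matrixOf_ofMatrix]; exact hr.residual j) (P.place p)
    (by rw [map_natCast, ← map_natCast (residue O), residue_eq_zero_iff]; exact hpO)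
    (P.liesOver p hp.out) (hr.strictOrdinary hbad)).1

include hp2 hpO hΔ hW hbad hval in
omit [IsAdicComplete (maximalIdeal O) O] in
theorem tangentBound_cpFlat :
    TangentBound (P.place p) (mapRep j (curveRep p W)) (CpFlat W j P) := by
  classical
  let _ : Fintype (ResidueField O) := Fintype.ofFinite _
  have : CharP (ResidueField O) p := (CharP.charP_iff_prime_eq_zero hp.out).mpr (by
    rw [← map_natCast (residue O), residue_eq_zero_iff]; exact hpO)
  obtain ⟨Z, h1, h2, h3, h4⟩ := tangentBound_flat hp2 (P.liesOver p hp.out) _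
    (fun σ _ a ha => det_mapRep_curveRep W j σ a ha)
    (isFlatRes_mapRep j (isFlatRes_curveRep_mult W hΔ hW hp2 hbad hval (P.liesOver p hp.out)))
  refine ⟨Z, h1, h2, h3, fun c hc h => h4 c hc ?_⟩
  unfold CpFlat at h
  convert h using 1

include hp2 hpO ι hΔ hW hbad in
omit [IsAdicComplete (maximalIdeal O) O] in
theorem tangentBound_cpStrict :
    TangentBound (P.place p) (mapRep j (curveRep p W)) (CpStrict W j P) := by
  classical
  let _ : Fintype (ResidueField O) := Fintype.ofFinite _
  have : CharP (ResidueField O) p := (CharP.charP_iff_prime_eq_zero hp.out).mpr (by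
    rw [← map_natCast (residue O), residue_eq_zero_iff]; exact hpO)
  exact tangentBound_strictOrd hp2 (P.liesOver p hp.out) _ (isOpen_ker_mapRep_curveRep W j)
    (fun σ _ a ha => det_mapRep_curveRep W j σ a ha)
    (isStrictOrdRes_mapRep_curveRep W hp2 hpO ι j P hΔ hW hbad)

include hp2 hpO ι hΔ hW hbad hval in
omit [IsAdicComplete (maximalIdeal O) O] in
theorem commonBound_curve :
    CommonBound (P.place p) (mapRep j (curveRep p W))
      (fun c => CpFlat W j P c ∧ CpStrict W j P c) := by
  classical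
  let _ : Fintype (ResidueField O) := Fintype.ofFinite _
  have : CharP (ResidueField O) p := (CharP.charP_iff_prime_eq_zero hp.out).mpr (by
    rw [← map_natCast (residue O), residue_eq_zero_iff]; exact hpO)
  obtain ⟨l, hl, hD, hI⟩ := isStrictOrdRes_mapRep_curveRep W hp2 hpO ι j P hΔ hW hbad
  obtain ⟨Z, h1, h2, h3, h4⟩ := tangentBoundBy_flat_strict hp2 (P.liesOver p hp.out) _
    (fun σ _ a ha => det_mapRep_curveRep W j σ a ha)
    (isFlatRes_mapRep j (isFlatRes_curveRep_mult W hΔ hW hp2 hbad hval (P.liesOver p hp.out)))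
    ⟨l, hl, fun σ hσ => (hD σ hσ).elim fun x h => h.elim fun _ h => ⟨x, h.1⟩, hI⟩
  refine ⟨Z, h1, h2, h3, fun c hc h => h4 c hc ⟨?_, h.2.2⟩⟩
  have h' := h.1
  unfold CpFlat at h'
  convert h' using 1

variable (Sig : Finset ℕ) (hSig : ∀ q ∈ Sig, q.Prime ∧ q ≠ p)

/-- **The lifting problem of a curve in the union of the two worlds at `p`.** -/
def unionCurveSetup : Setup O :=
  Setup.ofUnion hp.out hp2 hpO (mapRep j (curveRep p W)) (isOpen_ker_mapRep_curveRep W j)
    (fun σ => ι (cycP p σ : ℤ_[p])) (cycP_spec ι) P Sig hSig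
    (fun q hq _ hσ => unipotent_mapRep_curveRep W j hΔ hW q (hSig q hq).1 (hSig q hq).2
      (P.liesOver q (hSig q hq).1) hσ)
    (CpFlat W j P) (CpStrict W j P) (tangentBound_cpFlat W hp2 hpO j P hΔ hW hbad hval)
    (tangentBound_cpStrict W hp2 hpO ι j P hΔ hW hbad)
    (commonBound_curve W hp2 hpO ι j P hΔ hW hbad hval)

local notation "SU" => unionCurveSetup W hp2 hpO ι j P hΔ hW hbad hval Sig hSig

/-- The flat entries. -/
def unionCurveF : Fin 4 → Fin (SU).m := Setup.ofUnionF _ _ _ _ _ _ _ _ _ _ _ _ _ _ _ _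

/-- The strictly ordinary entries. -/
def unionCurveS : Fin 4 → Fin (SU).m := Setup.ofUnionS _ _ _ _ _ _ _ _ _ _ _ _ _ _ _ _

/-- The common entries. -/
def unionCurveB : Fin 3 → Fin (SU).m := Setup.ofUnionB _ _ _ _ _ _ _ _ _ _ _ _ _ _ _ _

/-- The cyclotomic values at Frobenius. -/
theorem unionCurveSetup_cyc_frob (q : ↥(SU).Sig) : (SU).cyc ((SU).Φ q) = (q.1 : O) := by
  show ι (cycP p ((SU).Φ q) : ℤ_[p]) = _
  rw [cycP_frobenius p (hSig q.1 q.2).1 (hSig q.1 q.2).2 (P.liesOver _ (hSig q.1 q.2).1)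
    ((SU).Φ_spec q), map_natCast]

/-- The cyclotomic values on inertia. -/
theorem unionCurveSetup_cyc_tame (q : ↥(SU).Sig) : (SU).cyc ((SU).tame q) = 1 := by
  show ι (cycP p ((SU).tame q) : ℤ_[p]) = _
  rw [cycP_inertia p (hSig q.1 q.2).1 (hSig q.1 q.2).2 (P.liesOver _ (hSig q.1 q.2).1)
    ((SU).tame_mem q), Units.val_one, map_one]

/-- The condition at `p` of the union holds for every carried algebra. -/
theorem unionCurveSetup_atP (S' : PointSet (SU).rb (SU).cyc) (M : S'.Model)
    (t : ↥(tangent M.π O)) : (SU).Cp (tgVal M.rR (SU).rb t) :=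
  isSmoothClass_tgVal M.π_surjective M.cont _ _ t

/-- **The worlds of a curve from flat and strictly ordinary subfamilies.** At every depth models of
a flat and of a strictly ordinary family of lifts, with restrictions of the carried algebra. -/
def unionCurveWorlds {C₀ : Carried (SU).rb (SU).cyc} {ι₀ κ : Type} {d : ι₀ → ℕ} {src tgt : κ → ι₀}
    {act₀ : ∀ i, C₀.R →ₐ[O] Matrix (Fin (d i)) (Fin (d i)) O} {r : ℕ}
    {inp : ∀ n : ℕ, (SU).LevelInput C₀ d src tgt act₀ r n}
    (hspan : Submodule.span (ResidueField O) (Set.range (mapRep j (curveRep p W))) = ⊤)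
    (SF SS' : ℕ → PointSet (SU).rb (SU).cyc) (MF : ∀ n, (SF n).Model) (MS : ∀ n, (SS' n).Model)
    (hF : ∀ n i, (ofMatrix ((SF n).r i) ((SF n).cont i)).IsFlatAt p)
    (hS : ∀ n i, (ofMatrix ((SS' n).r i) ((SS' n).cont i)).IsStrictOrdinaryAt p)
    (πF : ∀ n, (inp n).C.R →ₐ[O] (MF n).R) (hπF : ∀ n, Function.Surjective (πF n))
    (hπF' : ∀ n σ, πF n ((inp n).C.rR σ).trace = ((MF n).rR σ).trace)
    (πS : ∀ n, (inp n).C.R →ₐ[O] (MS n).R) (hπS : ∀ n, Function.Surjective (πS n))
    (hπS' : ∀ n σ, πS n ((inp n).C.rR σ).trace = ((MS n).rR σ).trace) :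
    Setup.UnionWorlds (S := SU) inp := by
  refine Setup.UnionWorlds.ofClasses (S := SU) (CpFlat W j P) (CpStrict W j P)
    (fun n => RingHom.ker (πF n)) (fun n => RingHom.ker (πS n))
    (unionCurveF W hp2 hpO ι j P hΔ hW hbad hval Sig hSig)
    (unionCurveS W hp2 hpO ι j P hΔ hW hbad hval Sig hSig)
    (unionCurveB W hp2 hpO ι j P hΔ hW hbad hval Sig hSig)
    (fun _ hc h => Setup.seen_ofUnionF _ _ _ _ _ _ _ _ _ _ _ _ _ _ _ _ hc h)
    (fun _ hc h => Setup.seen_ofUnionS _ _ _ _ _ _ _ _ _ _ _ _ _ _ _ _ hc h)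
    (fun _ hc h h' => Setup.seen_ofUnionB _ _ _ _ _ _ _ _ _ _ _ _ _ _ _ _ hc h h')
    (fun n t ht => by
      let _ : Fintype (ResidueField O) := Fintype.ofFinite _
      exact isFlat_of_restrict hspan (P.liesOver p hp.out) (inp n).C (MF n) (hF n) (πF n) (hπF n)
        (hπF' n) t ht)
    (fun n t ht => isStrictOrd_of_restrict hp2 hpO hspan (P.liesOver p hp.out) (inp n).C (MS n)
      (hS n) (πS n) (hπS n) (hπS' n) t ht)

end FA.RT
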