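import Fermat.Agent.RT.UnionCurve
import Fermat.Agent.RT.Tower.PDefs
import Fermat.Agent.RT.Tower.Lift

/-!
# The local input of the union setting of a curve
-/

set_option autoImplicit false
set_option linter.unusedSectionVars false

noncomputable section

open IsLocalRing Matrix WeierstrassCurve FA.EC FA.Frob FA.Deform FA.TW FA.LocalDef FA.Local FA.JTorsion
open scoped WeierstrassCurve.Affine

namespace FA.RT

local notation "Qb" => AlgebraicClosure ℚ
local notation "GQ" => AlgebraicClosure ℚ ≃ₐ[ℚ] AlgebraicClosure ℚ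
local notation "M2" => Matrix (Fin 2) (Fin 2)

variable {p : ℕ} [hp : Fact p.Prime] (W : WeierstrassCurve ℤ) [(ratCurve W).IsElliptic]
  {O : Type} [CommRing O] [IsDomain O] [IsDiscreteValuationRing O]
  [IsAdicComplete (maximalIdeal O) O] [Finite (ResidueField O)]
  (hp2 : p ≠ 2) (hpO : (p : O) ∈ maximalIdeal O) (ι : ℤ_[p] →+* O)
  (j : ZMod p →+* ResidueField O) (P : Places) (hΔ : W.Δ ≠ 0) (hW : W.IsSemistableModel)
  (hbad : (p : ℤ) ∣ W.Δ) (hval : p ∣ padicValInt p W.Δ)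
  (Sig : Finset ℕ) (hSig : ∀ q ∈ Sig, q.Prime ∧ q ≠ p)
  (hspan : Submodule.span (ResidueField O) (Set.range (mapRep j (curveRep p W))) = ⊤)

include hspan in
/-- **The flat and the strictly ordinary world of a curve.** -/
def unionCurveLocal : Setup.UnionLocal (unionCurveSetup W hp2 hpO ι j P hΔ hW hbad hval Sig hSig)
    (fun B _ _ _ m => AtFlat p B m) (fun B _ _ _ m => AtStrict p B m) where
  CF := CpFlat W j P
  CS := CpStrict W j P
  zeroF :=
    letI : Fintype (ResidueField O) := Fintype.ofFinite _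
    isFlatClass_zero (isFlatRes_mapRep j
      (isFlatRes_curveRep_mult W hΔ hW hp2 hbad hval (P.liesOver p hp.out)))
  iF := unionCurveF W hp2 hpO ι j P hΔ hW hbad hval Sig hSig
  iS := unionCurveS W hp2 hpO ι j P hΔ hW hbad hval Sig hSig
  iB := unionCurveB W hp2 hpO ι j P hΔ hW hbad hval Sig hSig
  sF _ hc h := Setup.seen_ofUnionF _ _ _ _ _ _ _ _ _ _ _ _ _ _ _ _ hc h
  sS _ hc h := Setup.seen_ofUnionS _ _ _ _ _ _ _ _ _ _ _ _ _ _ _ _ hc h
  sB _ hc h h' := Setup.seen_ofUnionB _ _ _ _ _ _ _ _ _ _ _ _ _ _ _ _ hc h h'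
  restrictF C _ M h π hπs hπ t ht :=
    letI : Fintype (ResidueField O) := Fintype.ofFinite _
    isFlat_of_restrict hspan (P.liesOver p hp.out) C M (fun i => (h i).choose_spec) π hπs hπ t ht
  restrictS C _ M h π hπs hπ t ht :=
    isStrictOrd_of_restrict hp2 hpO hspan (P.liesOver p hp.out) C M (fun i => (h i).choose_spec)
      π hπs hπ t ht

local notation "SU" => unionCurveSetup W hp2 hpO ι j P hΔ hW hbad hval Sig hSig
local notation "SS" => curveSetup W hp2 hpO ι j P hΔ hW Sig hSig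

/-- Outside the primes of the problem the residual representation is unramified. -/
theorem unionCurveSetup_unr (hall : ∀ q : ℕ, q.Prime → (q : ℤ) ∣ W.Δ → q = p ∨ q ∈ Sig) (q : ℕ)
    (hq : q.Prime) (hqT : q ∉ (SU).T) (A : ValuationSubring Qb) (hA : A.LiesOverPrime q) (σ : GQ)
    (hσ : σ ∈ A.inertiaSubgroupIn ℚ) : (SU).rb σ = 1 :=
  curveSetup_unr W hp2 hpO ι j P hΔ hW Sig hSig hall q hq hqT A hA σ hσ

/-- Frames exist. -/
theorem unionCurveSetup_frame (hirr : W.ModRepIsIrreducible p) :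
    (∃ F : Frame O, F.Adapted (SU).rb) ∧ ∃ σ, (SU).rb σ 0 1 ≠ 0 :=
  curveSetup_frame W hp2 hpO ι j P hΔ hW Sig hSig hirr

/-- The residual representation spans. -/
theorem unionCurveSetup_span (hirr : W.ModRepIsIrreducible p) :
    Submodule.span (ResidueField O) (Set.range (SU).rb) = ⊤ :=
  curveSetup_span W hp2 hpO ι j P hΔ hW Sig hSig hirr

/-- **Taylor–Wiles sets for a curve.** -/
theorem unionCurveSetup_twSets (hirr : W.ModRepIsIrreducible p)
    (hall : ∀ q : ℕ, q.Prime → (q : ℤ) ∣ W.Δ → q = p ∨ q ∈ Sig)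
    (GW : GreenbergWiles P (SU).T (adRep (SU).rb) (twRep (SU).rb) complexConjugation)
    (S₀ : Finset ℕ) :
    ∃ r : ℕ, ∀ n : ℕ, ∃ D : (SU).TWSet r n,
      Function.Injective D.qv ∧ ∀ i, D.qv i ∉ (SU).T ∧ D.qv i ∉ S₀ := by
  let a := algebraMap (ResidueField O) (AlgebraicClosure (ResidueField O))
  refine (SU).exists_twSets (fun σ b hb => det_mapRep_curveRep W j σ b hb)
    (unionCurveSetup_unr W hp2 hpO ι j P hΔ hW hbad hval Sig hSig hall) a ?_ GW S₀
  have : mapRep a (SU).rb = mapRep (a.comp j) (curveRep p W) := rfl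
  rw [this]
  exact isBig_curveRep W hΔ hW hp2 hirr (a.comp j)

/-- **The strictly ordinary point of a congruent curve.** -/
theorem exists_unionCurvePoint (W' : WeierstrassCurve ℤ) [(ratCurve W').IsElliptic] (hΔ' : W'.Δ ≠ 0)
    (hW' : W'.IsSemistableModel) (hcong : ∃ U : M2 (ZMod p), IsUnit U ∧
      ∀ σ, U * curveRep p W σ = curveRep p W' σ * U)
    (hbad' : (p : ℤ) ∣ W'.Δ) :
    ∃ w : Setup.ZeroPoint (SU), AtStrict p O w.r ∧
      (∀ q : ℕ, q.Prime → q ≠ p → W'.IsGoodPrimeFor q → ∀ A : ValuationSubring Qb,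
        A.LiesOverPrime q → ∀ σ ∈ A.inertiaSubgroupIn ℚ, w.r σ = 1) ∧
      (∀ q : ℕ, q.Prime → q ≠ p → ∀ A : ValuationSubring Qb, A.LiesOverPrime q →
        ∀ σ ∈ A.inertiaSubgroupIn ℚ, (w.r σ).trace = 2) ∧
      ∀ q : ℕ, q.Prime → q ≠ p → W'.IsGoodPrimeFor q → ∀ A : ValuationSubring Qb,
        A.LiesOverPrime q → ∀ σ : GQ, A.IsFrobeniusAt σ q → (w.r σ).trace = (W'.apOfModel q : O) := by
  obtain ⟨r, hlift, hcont, hdet, hat, h1, h2, h3⟩ := exists_curvePoint W hp2 hpO ι j P hΔ hW Sig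
    hSig W' hΔ' hW' hcong (iff_of_true hbad hbad')
  exact ⟨⟨r, hlift, hcont, hdet⟩, hat.1 hbad, h1, h2, h3⟩

end FA.RT
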