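import Fermat.Agent.RT.UnionWorlds

/-!
# Steps between strict components in a union of two worlds

A level is a triangular extension of a strict by a flat action. At a residually unramified prime `q`
with the data of a `Step` on the whole levels, supported strict components descend to the type
unramified at `q` and ascend to every possible type.
-/

set_option autoImplicit false
set_option linter.unusedSectionVars false

noncomputable section

open MvPowerSeries IsLocalRing Matrix FA.Deform FA.TW FA.LocalDef FA.Patch FA.LocalComp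

namespace FA.RT

section Sel

variable {Q ρ ρw : Type} [Fintype Q] [Fintype ρ] [Fintype ρw] {O : Type} [CommRing O]
  [IsDomain O] [IsDiscreteValuationRing O] [IsAdicComplete (maximalIdeal O) O]
  (a : ρw → ρ) (L : LocalData Q O)

/-- The forms of the level raising equation in the selected coordinates. -/
theorem sel_trace_mul (q : Q) (x y : O) :
    sel a (((L.phi (ρ := ρw) q).trace - C x) * ((L.phi q).trace + C y)) =
      ((L.phi (ρ := ρ) q).trace - C x) * ((L.phi q).trace + C y) := by
  rw [map_mul, map_sub, map_add, sel_C, sel_C, AddMonoidHom.map_trace (sel a), map_sel_phi]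

end Sel

namespace Setup

variable {O : Type} [CommRing O] [IsDomain O] [IsDiscreteValuationRing O]
  [IsAdicComplete (maximalIdeal O) O] [Finite (ResidueField O)]
  {S : FA.RT.Setup O} {C₀ : Carried S.rb S.cyc} {ι κ : Type} {d : ι → ℕ} {src tgt : κ → ι}
  {act₀ : ∀ i, C₀.R →ₐ[O] Matrix (Fin (d i)) (Fin (d i)) O} {r g : ℕ}
  (hg : g + 1 = r + S.Sig.card)
  {inp : ∀ n, S.LevelInput C₀ d src tgt act₀ r n} (Pt : (system hg inp).Patched)

local notation "Sx" => Aux O (FrameVar S.T S.p) (Fin r)
local notation "Pu" => MvPowerSeries (Setup.Var S g) O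

/-- Two indices with conjugate actions at every depth. -/
def Conjugate (inp : ∀ n, S.LevelInput C₀ d src tgt act₀ r n) (i i' : ι) : Prop :=
  ∀ n, haveI : NeZero S.p := ⟨S.hp.ne_zero⟩
    ∃ (P : Matrix (Fin (d i')) (Fin (d i)) (MonoidAlgebra O (DGroup S.p (inp n).D.expo)))
      (P' : Matrix (Fin (d i)) (Fin (d i')) (MonoidAlgebra O (DGroup S.p (inp n).D.expo))),
      P * P' = 1 ∧ P' * P = 1 ∧ ∀ z, P * (inp n).act i z = (inp n).act i' z * P

theorem Conjugate.refl (inp : ∀ n, S.LevelInput C₀ d src tgt act₀ r n) (i : ι) :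
    Conjugate inp i i := fun _ => ⟨1, 1, one_mul 1, one_mul 1, fun z => by rw [one_mul, mul_one]⟩

theorem Conjugate.symm {i i' : ι} (h : Conjugate inp i i') : Conjugate inp i' i := fun n => by
  obtain ⟨P, P', h1, h2, h3⟩ := h n
  refine ⟨P', P, h2, h1, fun z => ?_⟩
  calc P' * (inp n).act i' z = P' * ((inp n).act i' z * (P * P')) := by rw [h1, Matrix.mul_one]
    _ = P' * P * ((inp n).act i z * P') := by
      rw [← Matrix.mul_assoc ((inp n).act i' z), ← h3, Matrix.mul_assoc P, ← Matrix.mul_assoc P']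
    _ = (inp n).act i z * P' := by rw [h2, Matrix.one_mul]

/-- Conjugate actions have the same patched kernel. -/
theorem Conjugate.ker_le {i i' : ι} (h : Conjugate inp i i') :
    RingHom.ker (Pt.act i) ≤ RingHom.ker (Pt.act i') := by
  classical
  intro x hx
  have h0 : Pt.act i x = 0 := RingHom.mem_ker.mp hx
  refine RingHom.mem_ker.mpr (Matrix.ext fun u v => eq_of_forall_sub_mem (maximalIdeal Sx) fun k => ?_)
  obtain ⟨n, hn, h1, -⟩ := Pt.approx k
  have : NeZero S.p := ⟨S.hp.ne_zero⟩
  obtain ⟨P, P', hPP', -, hP⟩ := h n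
  let ev := (inp n).psi
  let I := inp n
  have hfr : ∀ f, P.map ev * I.framedAct hg i f = I.framedAct hg i' f * P.map ev := by
    intro f
    have hz : ∀ i, I.framedAct hg i f = I.framedAct hg i ((MvPowerSeries.truncTotal n f :
        MvPolynomial (FrameVar S.T S.p) I.C.R) : MvPowerSeries (FrameVar S.T S.p) I.C.R) :=
      fun i => (I.toLevel hg).actFramed_eq_trunc i f
    rw [hz, hz]
    induction (MvPowerSeries.truncTotal n f : MvPolynomial (FrameVar S.T S.p) I.C.R)
      using MvPolynomial.induction_on with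
    | C z =>
      rw [MvPolynomial.coe_C,
        show I.framedAct hg i (C z) = (I.act i z).map ev from Matrix.ext fun a b =>
          I.framedAct_C hg i z a b,
        show I.framedAct hg i' (C z) = (I.act i' z).map ev from Matrix.ext fun a b =>
          I.framedAct_C hg i' z a b, ← Matrix.map_mul, hP, Matrix.map_mul]
    | add a b ha hb => rw [MvPolynomial.coe_add, map_add, map_add, Matrix.mul_add, Matrix.add_mul,
        ha, hb]
    | mul_X a z ha =>
      rw [MvPolynomial.coe_mul, MvPolynomial.coe_X, map_mul, map_mul, I.framedAct_X, I.framedAct_X,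
        ← Matrix.mul_assoc, ha, Matrix.mul_assoc, Matrix.mul_assoc]
      refine congrArg _ (Matrix.ext fun a b => ?_)
      rw [Matrix.scalar_apply, Matrix.scalar_apply, Matrix.mul_diagonal, Matrix.diagonal_mul,
        mul_comm]
  let A : Matrix (Fin (d i)) (Fin (d i)) (Sx ⧸ maximalIdeal Sx ^ n) :=
    (system hg inp).act n i x
  let A' : Matrix (Fin (d i')) (Fin (d i')) (Sx ⧸ maximalIdeal Sx ^ n) :=
    (system hg inp).act n i' x
  have hA : P.map ev * A = A' * P.map ev := hfr (evalAt hg inp n x)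
  let fac : Sx ⧸ maximalIdeal Sx ^ n →+* Sx ⧸ maximalIdeal Sx ^ k :=
    Ideal.Quotient.factor (Ideal.pow_le_pow_right hn.le)
  have hA0 : fac.mapMatrix A = 0 := Matrix.ext fun a b => by
    obtain ⟨s, hs⟩ := Ideal.Quotient.mk_surjective (A a b)
    have := h1 i x a b s hs
    rw [h0] at this
    show fac (A a b) = 0
    rw [← hs, Ideal.Quotient.factor_mk, Ideal.Quotient.eq_zero_iff_mem]
    have h6 : (0 : Sx) - s ∈ maximalIdeal Sx ^ k := this
    simpa using h6
  have hA' : fac.mapMatrix A' = 0 := by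
    have h2 : A'.map fac = ((P.map ev * A) * P'.map ev).map fac := by
      rw [hA, Matrix.mul_assoc, ← Matrix.map_mul, hPP', Matrix.map_one _ (map_zero ev) (map_one ev),
        Matrix.mul_one]
    have h3 : A.map fac = 0 := hA0
    show A'.map fac = 0
    rw [h2, Matrix.map_mul, Matrix.map_mul, h3, Matrix.mul_zero, Matrix.zero_mul]
  obtain ⟨s, hs⟩ := Ideal.Quotient.mk_surjective (A' u v)
  have h4 := h1 i' x u v s hs
  have h5 : s ∈ maximalIdeal Sx ^ k := by
    rw [← Ideal.Quotient.eq_zero_iff_mem]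
    have h6 : fac (A' u v) = 0 := congrFun (congrFun hA' u) v
    rwa [← hs, Ideal.Quotient.factor_mk] at h6
  show Pt.act i' x u v - 0 ∈ _
  rw [sub_zero]
  simpa using add_mem h4 h5

/-- A level with its flat and its strict part, in a conjugate basis `i'`. -/
structure PBlock (W : UnionWorlds inp) (i iF iS : ι) where
  /-- the index of an adapted basis -/
  i' : ι
  conj : Conjugate inp i i'
  /-- the flat part and the strict part -/
  e : Fin (d iF) ⊕ Fin (d iS) ≃ Fin (d i')
  h₁₁ : ∀ n z u u', (inp n).act i' z (e (.inl u)) (e (.inl u')) = (inp n).act iF z u u'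
  h₂₁ : ∀ n z v u, (inp n).act i' z (e (.inr v)) (e (.inl u)) = 0
  h₂₂ : ∀ n z v v', (inp n).act i' z (e (.inr v)) (e (.inr v')) = (inp n).act iS z v v'
  flat : W.InFlat iF
  strict : W.InStrict iS

variable {W : UnionWorlds inp} {i iF iS : ι} (B : PBlock W i iF iS)

include B in
theorem PBlock.ker_le_flat : RingHom.ker (Pt.act i) ≤ RingHom.ker (Pt.act iF) := fun x hx =>
  RingHom.mem_ker.mpr (Matrix.ext fun u u' => by
    have h : Pt.act B.i' x = 0 := RingHom.mem_ker.mp (B.conj.ker_le hg Pt hx)
    exact (patched_entry_eq hg inp Pt (fun n z => B.h₁₁ n z u u') x).symm.trans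
      (congrFun (congrFun h _) _))

include B in
theorem PBlock.ker_le_strict : RingHom.ker (Pt.act i) ≤ RingHom.ker (Pt.act iS) := fun x hx =>
  RingHom.mem_ker.mpr (Matrix.ext fun u u' => by
    have h : Pt.act B.i' x = 0 := RingHom.mem_ker.mp (B.conj.ker_le hg Pt hx)
    exact (patched_entry_eq hg inp Pt (fun n z => B.h₂₂ n z u u') x).symm.trans
      (congrFun (congrFun h _) _))

include B in
theorem PBlock.le_or_le {Q : Ideal Pu} [Q.IsPrime] (hQ : RingHom.ker (Pt.act i) ≤ Q) :
    RingHom.ker (Pt.act iF) ≤ Q ∨ RingHom.ker (Pt.act iS) ≤ Q :=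
  Pt.le_or_le_of_block B.e (fun n x v u => (inp n).framedAct_entry_zero hg (B.h₂₁ n · v u) _)
    (fun n x u u' => (inp n).framedAct_entry_eq hg (B.h₁₁ n · u u') _)
    (fun n x v v' => (inp n).framedAct_entry_eq hg (B.h₂₂ n · v v') _)
    ((B.conj.symm.ker_le hg Pt).trans hQ)

/-- The component of type `t` is in the support of the strict index `i`. -/
def SuppS (W : UnionWorlds inp) (i : ι) (t : ↥S.Sig → Ty) (ht : Valid S.localData t) : Prop :=
  (RingHom.ker (Pt.act i)).comap (sel (Q := ↥S.Sig) (O := O) W.aS) ≤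
    comp (ρ := Fin 4 ⊕ Fin g) S.localData t ht

/-- The form `ω`. -/
abbrev omegaU (q : ↥S.Sig) : Pu :=
  ((S.localData.phi (ρ := Fin S.m ⊕ Fin g) q).trace - C ((q.1 : O) + 1)) *
    ((S.localData.phi q).trace + C ((q.1 : O) + 1))

variable {a : Fin 4 ⊕ Fin g → Fin S.m ⊕ Fin g}

/-- An unramified trace avoids `ω`. -/
theorem omegaU_notMem [CharZero O] {t : ↥S.Sig → Ty} (ht : Valid S.localData t) {q : ↥S.Sig}
    (hu : t q = .unr) {c : Ideal Pu}
    (hc : c.comap (sel (Q := ↥S.Sig) (O := O) a) ≤ comp S.localData t ht) : omegaU q ∉ c := by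
  intro h
  refine trace_mul_notMem_comp (ρ := Fin 4 ⊕ Fin g) isUnit_qv ht hu ((q.1 : O) + 1)
    (-((q.1 : O) + 1)) ?_
  rw [map_neg C, sub_neg_eq_add]
  refine hc (Ideal.mem_comap.mpr ?_)
  rw [sel_trace_mul]
  exact h

/-- The type of a trace containing the entries of inertia. -/
theorem type_unr_of_comap [CharZero O] {t : ↥S.Sig → Ty} (ht : Valid S.localData t) {q : ↥S.Sig}
    {c : Ideal Pu} (hc : c.comap (sel (Q := ↥S.Sig) (O := O) a) = comp S.localData t ht)
    (hN : ∀ u v, (S.localData.sig (ρ := Fin S.m ⊕ Fin g) q - 1) u v ∈ c) : t q = .unr := by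
  classical
  refine type_eq_unr_of_mem (ρ := Fin 4 ⊕ Fin g) isUnit_qv ht fun u v => ?_
  have h := (typeSet_subset_iff a S.localData (J := c) (q := q) (ty := Ty.unr)).mp
    (by rintro _ ⟨⟨u, v⟩, rfl⟩; exact hN u v) ⟨(u, v), rfl⟩
  rwa [hc] at h

variable (hcycΦ : ∀ q : ↥S.Sig, S.cyc (S.Φ q) = (q.1 : O))
  (hcycs : ∀ q : ↥S.Sig, S.cyc (S.tame q) = 1)
  {q : ↥S.Sig} {t : κ} {iOld iNew fOld sOld fTop sTop : ι} (st : Step inp q t iOld iNew)
  (Bt : PBlock W (src t) fTop sTop) (Bo : PBlock W iOld fOld sOld)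

include hcycΦ hcycs st Bo in
/-- The local data of the step in the union. -/
theorem Step.unionMazur [CharZero O] :
    LocalMazurData (Pt.act (src t)) (Pt.act iOld) (S.localData.sig (ρ := Fin S.m ⊕ Fin g) q - 1)
      (omegaU q) st.e ∧
    ∀ s : Pu, s * s = 1 → blockAct (Pt.act (src t))
      (((S.localData.phi (ρ := Fin S.m ⊕ Fin g) q).trace + s * ((q.1 : Pu) + 1)) •
        ((S.localData.sig q - 1) * (S.localData.phi q - s • 1))) = 0 := by
  classical
  have : IsDomain Sx := NoZeroDivisors.to_isDomain _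
  have : CharZero Sx := charZero_of_injective_ringHom (MvPowerSeries.C_injective (R := O))
  have hold := patched_typeSet_unr_subset_ker hg inp Pt q st.hold
  refine localMazurData_of_det (L := S.localData) (ρ := Fin S.m ⊕ Fin g) st.e
    (patched_relIdeal_le_ker hg inp Pt hcycΦ hcycs (src t)) (S.prime_Sig q.1 q.2).1.one_lt
    ?_ (fun x w u => patched_entry_zero hg inp Pt (fun n z => st.h₂₁ n z w u) x) hold ?_
    ((patched_rank_eq hg inp Pt (src t) q).trans st.hrk)
  · intro x u u'
    rcases u with a | a <;> rcases u' with b | b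
    · exact patched_entry_eq hg inp Pt (fun n z => st.h₁₁ n z (.inl a) (.inl b)) x
    · exact patched_entry_zero hg inp Pt (fun n z => st.h₁₁ n z (.inl a) (.inr b)) x
    · exact patched_entry_zero hg inp Pt (fun n z => st.h₁₁ n z (.inr a) (.inl b)) x
    · exact patched_entry_eq hg inp Pt (fun n z => st.h₁₁ n z (.inr a) (.inr b)) x
  · intro hdet
    obtain ⟨c, hc, hωc⟩ := exists_minimalPrimes_of_det_eq_zero (Pt.isScalarLift iOld) hdet
    have : c.IsPrime := hc.1.1
    have hN : ∀ u v, (S.localData.sig (ρ := Fin S.m ⊕ Fin g) q - 1) u v ∈ c :=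
      fun u v => hc.1.2 (hold ⟨(u, v), rfl⟩)
    have key : ∀ (i : ι) (a : Fin 4 ⊕ Fin g → Fin S.m ⊕ Fin g),
        Detects (RingHom.ker (Pt.act i) : Ideal Pu) a →
        RingHom.ker (Pt.act iOld) ≤ RingHom.ker (Pt.act i) → RingHom.ker (Pt.act i) ≤ c →
        False := fun i a hd hi hic => by
      obtain ⟨ty, hty, heq⟩ := exists_comap_eq_comp hg Pt hcycΦ hcycs hd (c := c)
        ⟨⟨inferInstance, hic⟩, fun c' hc' h => hc.2 ⟨hc'.1, hi.trans hc'.2⟩ h⟩
      exact omegaU_notMem hty (type_unr_of_comap hty heq hN) heq.le hωc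
    rcases Bo.le_or_le hg Pt hc.1.2 with h | h
    · exact key fOld _ (W.detects_flat hg Pt Bo.flat) (Bo.ker_le_flat hg Pt) h
    · exact key sOld _ (W.detects_strict hg Pt Bo.strict) (Bo.ker_le_strict hg Pt) h

include hcycΦ hcycs st Bt Bo in
/-- **Down**: a supported strict component descends to the type unramified at `q`. -/
theorem Step.descendS [CharZero O] {ty : ↥S.Sig → Ty} (hv : Valid S.localData ty)
    (hsupp : SuppS hg Pt W sTop ty hv) :
    ∃ hv' : Valid S.localData (Function.update ty q .unr),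
      SuppS hg Pt W sOld (Function.update ty q .unr) hv' := by
  classical
  have : IsDomain Sx := NoZeroDivisors.to_isDomain _
  obtain ⟨D, hNF⟩ := st.unionMazur hg Pt hcycΦ hcycs Bo
  have hs := (W.detects_strict hg Pt Bt.strict).surjective
  have hlast : ∀ c : Ideal Pu, c.IsPrime → RingHom.ker (Pt.act (src t)) ≤ c → omegaU q ∉ c →
      ∀ W' : Ideal Pu, c ≤ W' → RingHom.ker (Pt.act sTop) ≤ W' →
      FreeTangent (W'.comap (sel (Q := ↥S.Sig) (O := O) W.aS)) →
      RingHom.ker (Pt.act sOld) ≤ c := fun c hcp hc hω W' hcW hW' hfree => by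
    rcases Bo.le_or_le hg Pt (D.ker_old_le hc hω) with h | h
    · exact (W.pair_false hg Pt Bo.flat Bt.strict (h.trans hcW) hW' hfree).elim
    · exact h
  rcases hty : ty q with _ | s
  · have he : Function.update ty q .unr = ty := by rw [← hty, Function.update_eq_self]
    have := comp_isPrime (ρ := Fin 4 ⊕ Fin g) hv
    obtain ⟨W', hW', hle, heq⟩ := exists_prime_over hs (W := comp S.localData ty hv) hsupp
    refine ⟨he.symm ▸ hv, ?_⟩
    simp only [he]
    exact (Ideal.comap_mono (hlast W' hW' ((Bt.ker_le_strict hg Pt).trans hle)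
      (omegaU_notMem hv hty heq.le) W' le_rfl hle (heq ▸ freeTangent_comp hv))).trans heq.le
  · have hv' := valid_update_unr hv hty (cong_sig0 q st.hunr) (isUnit_qv q)
    refine ⟨hv', ?_⟩
    obtain ⟨Ww, hWw, -, hWC, hW1, hW2, huniq, hfree⟩ :=
      exists_wall_free (ρw := Fin 4 ⊕ Fin g) (L := S.localData) isUnit_qv hty hv hv'
    obtain ⟨W', hW', hle, heq⟩ := exists_prime_over hs (W := Ww) (hsupp.trans hW1)
    subst heq
    obtain ⟨c, hc, hcW, hNc⟩ := exists_minimalPrimes_wall (n := s) st.e (Pt.isScalarLift (src t))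
      (S.prime_Sig q.1 q.2).1.one_lt D hNF ((Bt.ker_le_strict hg Pt).trans hle)
      (fun x hx => hWC x (by rw [Ideal.mem_comap, sel_C]; exact hx))
      (fun u v => (typeSet_subset_iff W.aS S.localData (J := W') (q := q) (ty := Ty.unr)).mpr
        (fun x hx => hW2 (le_comp hv' (Ideal.mem_sup_right (Ideal.subset_span
          (Set.mem_iUnion.mpr ⟨q, by rwa [Function.update_self]⟩))))) ⟨(u, v), rfl⟩)
      ((typeSet_subset_iff W.aS S.localData (J := W') (q := q) (ty := Ty.st s)).mpr
        (fun x hx => hW1 (le_comp hv (Ideal.mem_sup_right (Ideal.subset_span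
          (Set.mem_iUnion.mpr ⟨q, by rwa [hty]⟩))))) (Or.inl rfl))
    have : c.IsPrime := hc.1.1
    rcases Bt.le_or_le hg Pt hc.1.2 with h | h
    · exact (W.pair_false hg Pt Bt.flat Bt.strict (h.trans hcW) hle hfree).elim
    obtain ⟨t', ht', hct⟩ := exists_comap_eq_comp hg Pt hcycΦ hcycs
      (W.detects_strict hg Pt Bt.strict) (c := c)
      ⟨⟨inferInstance, h⟩, fun c' hc' h' => hc.2 ⟨hc'.1, (Bt.ker_le_strict hg Pt).trans hc'.2⟩ h'⟩
    have hu := type_unr_of_comap ht' hct hNc
    rcases huniq t' ((le_sup_right.trans (le_comp ht')).trans (hct.ge.trans (Ideal.comap_mono hcW)))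
      with rfl | rfl
    · rw [hty] at hu
      cases hu
    · exact (Ideal.comap_mono (hlast c inferInstance hc.1.2 (omegaU_notMem ht' hu hct.le) W' hcW
        hle hfree)).trans hct.le

include hcycΦ hcycs st Bt Bo in
/-- **Up**: a supported strict component unramified at `q` ascends to every possible type at `q`. -/
theorem Step.ascendS [CharZero O] {ty : ↥S.Sig → Ty} (hty : ty q = .unr)
    (hv : Valid S.localData ty) (y : Ty) (hv' : Valid S.localData (Function.update ty q y))
    (hsupp : SuppS hg Pt W sOld ty hv) : SuppS hg Pt W sTop (Function.update ty q y) hv' := by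
  classical
  have : IsDomain Sx := NoZeroDivisors.to_isDomain _
  have htop : RingHom.ker (Pt.act (src t)) ≤ RingHom.ker (Pt.act iOld) := st.ker_top_le_old hg inp Pt
  have hs := (W.detects_strict hg Pt Bo.strict).surjective
  rcases y with _ | s
  · have he : Function.update ty q .unr = ty := by rw [← hty, Function.update_eq_self]
    have := comp_isPrime (ρ := Fin 4 ⊕ Fin g) hv
    obtain ⟨W', hW', hle, heq⟩ := exists_prime_over hs (W := comp S.localData ty hv) hsupp
    simp only [he]
    rcases Bt.le_or_le hg Pt (htop.trans ((Bo.ker_le_strict hg Pt).trans hle)) with h | h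
    · exact (W.pair_false hg Pt Bt.flat Bo.strict h hle (heq ▸ freeTangent_comp hv)).elim
    · exact (Ideal.comap_mono h).trans heq.le
  · obtain ⟨D, -⟩ := st.unionMazur hg Pt hcycΦ hcycs Bo
    have hnew : omegaU q ^ 2 ∈ RingHom.ker (Pt.act iNew) := by
      rw [pow_two]
      refine RingHom.mem_ker.mpr (Matrix.ext fun w w' => ?_)
      exact (patched_entry_eq hg inp Pt (fun n z => st.h₂₂ n z w w') _).symm.trans
        (D.sq_omega_new w _)
    have hback : Function.update (Function.update ty q (.st s)) q Ty.unr = ty := by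
      rw [Function.update_idem, ← hty, Function.update_eq_self]
    obtain ⟨Ww, hWw, -, -, hW1, hW2, huniq, hfree⟩ := exists_wall_free (ρw := Fin 4 ⊕ Fin g)
      (L := S.localData) isUnit_qv (Function.update_self q (Ty.st s) ty) hv' (by rwa [hback])
    simp only [hback] at hW2 huniq
    obtain ⟨W', hW', hle, heq⟩ := exists_prime_over hs (W := Ww) (hsupp.trans hW2)
    subst heq
    have hx : (S.localData.phi (ρ := Fin S.m ⊕ Fin g) q).trace -
        C (FA.LocalComp.sgn s * ((q.1 : O) + 1)) ∈ W' := by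
      refine (typeSet_subset_iff W.aS S.localData (J := W') (q := q) (ty := Ty.st s)).mpr
        (fun x hx => hW1 (le_comp hv' (Ideal.mem_sup_right (Ideal.subset_span
          (Set.mem_iUnion.mpr ⟨q, by rwa [Function.update_self]⟩))))) (Or.inl ?_)
      simp [localData, map_sgn]
    have hnewW := ker_new_le_of_crossing hg inp Pt t iOld iNew st.eD st.e st.h₁₁ st.h₂₁ st.h₂₂
      st.hdbl q st.hK st.hsurj ((Bo.ker_le_strict hg Pt).trans hle) hx
    obtain ⟨c, hc, hcW⟩ := Ideal.exists_minimalPrimes_le hnewW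
    have : c.IsPrime := hc.1.1
    rcases Bt.le_or_le hg Pt ((ker_le_new hg inp Pt t st.e st.h₂₂).trans hc.1.2) with h | h
    · exact (W.pair_false hg Pt Bt.flat Bo.strict (h.trans hcW) hle hfree).elim
    obtain ⟨c', hc', hle'⟩ := Ideal.exists_minimalPrimes_le h
    have : c'.IsPrime := hc'.1.1
    obtain rfl := eq_of_le_of_comap_eq_bot (Pt.isScalarLift sTop) hc'.1.2 hle'
      ((Pt.isScalarLift iNew).comap_eq_bot_of_mem_minimalPrimes hc)
    obtain ⟨t', ht', hct⟩ := exists_comap_eq_comp hg Pt hcycΦ hcycs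
      (W.detects_strict hg Pt Bt.strict) hc'
    rcases huniq t' ((le_sup_right.trans (le_comp ht')).trans (hct.ge.trans (Ideal.comap_mono hcW)))
      with rfl | rfl
    · exact (Ideal.comap_mono hc'.1.2).trans hct.le
    · exact absurd (hc.1.1.mem_of_pow_mem 2 (hc.1.2 hnew)) (omegaU_notMem ht' hty hct.le)

end Setup

end FA.RT
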