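import Fermat.Agent.RT.Worlds
import Fermat.Agent.RT.Transfer

/-!
# Two worlds inside one patching system

The entries at `p` of a `Setup` may contain four entries detecting a first kind of lifts (flat), four
detecting a second kind (strict) and three detecting their common tangents. Each kind is given at
every depth by an ideal of the carried algebra. An action killing these ideals at every depth has,
in the limit, its tangent vectors detected by the corresponding entries.
-/

set_option autoImplicit false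
set_option linter.unusedSectionVars false

noncomputable section

open MvPowerSeries IsLocalRing Matrix FA.Deform FA.TW FA.LocalDef FA.Patch FA.LocalComp

namespace FA.RT

local notation "Qb" => AlgebraicClosure ℚ
local notation "GQ" => AlgebraicClosure ℚ ≃ₐ[ℚ] AlgebraicClosure ℚ
local notation "M2" => Matrix (Fin 2) (Fin 2)

/-- Elements with deep image are in the kernel up to second order. -/
theorem exists_sub_mem_sq {S P M : Type*} [CommRing S] [IsLocalRing S] [IsNoetherianRing S]
    [CommRing P] [IsLocalRing P] [AddCommGroup M] [Module S M] [Module.Finite S M] (h : P →+ M)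
    (j : S →+* P) (hj : ∀ s x, h (j s * x) = s • h x)
    (hjm : ∀ s ∈ maximalIdeal S, j s ∈ maximalIdeal P) :
    ∃ k, ∀ x, h x ∈ maximalIdeal S ^ k • (⊤ : Submodule S M) →
      ∃ y ∈ maximalIdeal P ^ 2, h (x - y) = 0 := by
  let A : Submodule S M :=
    { carrier := Set.range h
      add_mem' := by rintro _ _ ⟨a, rfl⟩ ⟨b, rfl⟩; exact ⟨a + b, map_add h a b⟩
      zero_mem' := ⟨0, map_zero h⟩
      smul_mem' := by rintro s _ ⟨a, rfl⟩; exact ⟨j s * a, hj s a⟩ }
  obtain ⟨c, hc⟩ := Ideal.exists_pow_inf_eq_pow_smul (maximalIdeal S) A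
  refine ⟨c + 2, fun x hx => ?_⟩
  have h1 : h x ∈ maximalIdeal S ^ (c + 2) • (⊤ : Submodule S M) ⊓ A := ⟨hx, x, rfl⟩
  rw [hc (c + 2) (Nat.le_add_right c 2), Nat.add_sub_cancel_left] at h1
  have h2 : h x ∈ maximalIdeal S ^ 2 • A := Submodule.smul_mono le_rfl inf_le_right h1
  suffices ∀ z ∈ maximalIdeal S ^ 2 • A, ∃ y ∈ maximalIdeal P ^ 2, h y = z by
    obtain ⟨y, hy, hyx⟩ := this _ h2
    exact ⟨y, hy, by rw [map_sub, hyx, sub_self]⟩
  intro z hz
  refine Submodule.smul_induction_on hz (fun s hs w hw => ?_) fun a b ha hb => ?_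
  · obtain ⟨v, rfl⟩ := hw
    refine ⟨j s * v, Ideal.mul_mem_right _ _ ?_, hj s v⟩
    refine Ideal.pow_right_mono (Ideal.map_le_iff_le_comap.mpr hjm) 2 ?_
    rw [← Ideal.map_pow]
    exact Ideal.mem_map_of_mem j hs
  · obtain ⟨y, hy, rfl⟩ := ha
    obtain ⟨y', hy', rfl⟩ := hb
    exact ⟨y + y', add_mem hy hy', map_add h y y'⟩

/-- A prime of the support lying over no nonzero scalar is minimal. -/
theorem eq_of_le_of_comap_eq_bot {S P : Type*} [CommRing S] [IsDomain S] [CommRing P] {d : ℕ}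
    {act : P →+* Matrix (Fin d) (Fin d) S} {j : S →+* P} (hj : FA.Patch.IsScalarLift act j)
    {c c' : Ideal P} [c'.IsPrime] (h : RingHom.ker act ≤ c') (hle : c' ≤ c)
    (hbot : c.comap j = ⊥) : c = c' := by
  let : Algebra S (P ⧸ c') := ((Ideal.Quotient.mk c').comp j).toAlgebra
  have : Algebra.IsIntegral S (P ⧸ c') := ⟨hj.isIntegral h⟩
  have h0 : (c.map (Ideal.Quotient.mk c')).comap (algebraMap S (P ⧸ c')) = ⊥ := by
    show Ideal.comap ((Ideal.Quotient.mk c').comp j) _ = _
    rw [← Ideal.comap_comap, Ideal.comap_map_of_surjective _ Ideal.Quotient.mk_surjective,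
      ← RingHom.ker_eq_comap_bot, Ideal.mk_ker, sup_eq_left.mpr hle, hbot]
  have h1 := Ideal.eq_bot_of_comap_eq_bot (R := S) h0
  rw [Ideal.map_eq_bot_iff_le_ker, Ideal.mk_ker] at h1
  exact le_antisymm h1 hle

namespace Setup

variable {O : Type} [CommRing O] [IsDomain O] [IsDiscreteValuationRing O]
  [IsAdicComplete (maximalIdeal O) O] [Finite (ResidueField O)]
  {S : FA.RT.Setup O} {C₀ : Carried S.rb S.cyc} {ι κ : Type} {d : ι → ℕ} {src tgt : κ → ι}
  {act₀ : ∀ i, C₀.R →ₐ[O] Matrix (Fin (d i)) (Fin (d i)) O} {r g : ℕ}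
  (hg : g + 1 = r + S.Sig.card)
  (inp : ∀ n, S.LevelInput C₀ d src tgt act₀ r n) (Pt : (system hg inp).Patched)

local notation "Sx" => Aux O (FrameVar S.T S.p) (Fin r)
local notation "kO" => ResidueField O
local notation "Dual" => DualNumber (ResidueField O)

/-- The evaluation at depth `n`. -/
abbrev evalAt (n : ℕ) :=
  S.evalVals (inp n).C ((inp n).extra hg) (Classical.choose ((inp n).extra_spec hg))

/-- The depth `n` agrees with the limit to order `k`. -/
def Near (k n : ℕ) : Prop :=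
  (∀ i x u v (s : Sx), Ideal.Quotient.mk _ s = (system hg inp).act n i x u v →
    Pt.act i x u v - s ∈ maximalIdeal Sx ^ k) ∧
  ∀ x, Pt.φ x - (system hg inp).φ n x ∈ maximalIdeal C₀.R ^ k

theorem exists_near (k : ℕ) : ∃ n, Near hg inp Pt k n := by
  obtain ⟨n, -, h1, -, -, h4⟩ := Pt.approx k
  exact ⟨n, h1, h4⟩

theorem Near.mono {k k' n : ℕ} (h : Near hg inp Pt k n) (hk : k' ≤ k) : Near hg inp Pt k' n :=
  ⟨fun i x u v s hs => Ideal.pow_le_pow_right hk (h.1 i x u v s hs),
    fun x => Ideal.pow_le_pow_right hk (h.2 x)⟩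

/-- The patched variables fix the constants. -/
theorem patched_j_C (c : O) : Pt.j (C c) = C c := by
  refine eq_of_forall_sub_mem (maximalIdeal (MvPowerSeries (S.Var g) O)) fun k => ?_
  obtain ⟨n, -, -, -, h3, -⟩ := Pt.approx k
  have h : (system hg inp).j n (C c) = C c := evalHom_C _ _ _ c
  have := h3 (C c)
  rwa [h] at this

/-- The patched variables are small. -/
theorem patched_j_mem {s : Sx} (hs : s ∈ maximalIdeal Sx) :
    Pt.j s ∈ maximalIdeal (MvPowerSeries (S.Var g) O) := by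
  obtain ⟨n, -, -, -, h3, -⟩ := Pt.approx 1
  have h := h3 s
  rw [pow_one] at h
  simpa using add_mem h ((system hg inp).j_mem n s hs)

/-- The patched map to the base fixes the constants. -/
theorem patched_phi_C (c : O) : Pt.φ (C c) = algebraMap O C₀.R c := by
  refine eq_of_forall_sub_mem (maximalIdeal C₀.R) fun k => ?_
  obtain ⟨n, -, -, -, -, h4⟩ := Pt.approx k
  have h : (system hg inp).φ n (C c) = algebraMap O C₀.R c := by
    show (inp n).π (constantCoeff (evalAt hg inp n (C c))) = _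
    rw [show evalAt hg inp n (C c) = C (algebraMap O (inp n).C.R c) from evalHom_C _ _ _ _,
      constantCoeff_C, AlgHom.commutes]
  have := h4 (C c)
  rwa [h] at this

/-- The ideals `K` at the levels see `I` up to second order. -/
def Covers (K : ∀ n, Ideal (inp n).C.R) (I : Ideal (MvPowerSeries (S.Var g) O)) : Prop :=
  ∃ k, ∀ n, Near hg inp Pt k n → ∀ x, ∀ z ∈ K n, evalAt hg inp n x = C z →
    x ∈ I ⊔ maximalIdeal (MvPowerSeries (S.Var g) O) ^ 2

variable {K : ∀ n, Ideal (inp n).C.R}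

/-- A matrix with deep entries is deep. -/
theorem matrix_mem_smul_top {A : Type*} [CommRing A] {m : ℕ} {I : Ideal A}
    {M : Matrix (Fin m) (Fin m) A} (h : ∀ u v, M u v ∈ I) :
    M ∈ I • (⊤ : Submodule A (Matrix (Fin m) (Fin m) A)) := by
  classical
  rw [Matrix.matrix_eq_sum_single M]
  refine Submodule.sum_mem _ fun u _ => Submodule.sum_mem _ fun v _ => ?_
  rw [show Matrix.single u v (M u v) = M u v • Matrix.single u v (1 : A) by
    rw [Matrix.smul_single, smul_eq_mul, mul_one]]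
  exact Submodule.smul_mem_smul (h u v) Submodule.mem_top

/-- An action killed by `K` at every depth is seen by `K`. -/
theorem covers_ker {i : ι} (hK : ∀ n, ∀ z ∈ K n, (inp n).act i z = 0) :
    Covers hg inp Pt K (RingHom.ker (Pt.act i)) := by
  have : IsNoetherianRing Sx := MvPowerSeries.isNoetherianRing O
  obtain ⟨k, hk⟩ := exists_sub_mem_sq (S := Sx) (Pt.act i).toAddMonoidHom Pt.j
    (fun s x => by
      show Pt.act i (Pt.j s * x) = s • Pt.act i x
      rw [map_mul, Pt.isScalarLift i s, Algebra.smul_def]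
    )
    (fun s hs => patched_j_mem hg inp Pt hs)
  refine ⟨k, fun n hn x z hz hx => ?_⟩
  have hdeep : ∀ u v, Pt.act i x u v ∈ maximalIdeal Sx ^ k := fun u v => by
    have h0 : (system hg inp).act n i x u v = 0 := by
      show (inp n).framedAct hg i (evalAt hg inp n x) u v = 0
      rw [hx, (inp n).framedAct_C_eq_zero hg i (hK n z hz)]
      rfl
    simpa using hn.1 i x u v 0 (by rw [map_zero]; exact h0.symm)
  obtain ⟨y, hy, hxy⟩ := hk x (matrix_mem_smul_top hdeep)
  exact Submodule.mem_sup.mpr ⟨x - y, hxy, y, hy, sub_add_cancel x y⟩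

/-- An action and a point of the base killed by `K` at every depth are seen by `K`. -/
theorem covers_ker_inf {i : ι} (hK : ∀ n, ∀ z ∈ K n, (inp n).act i z = 0) (f : C₀.R →ₐ[O] O)
    (hf : ∀ n, ∀ z ∈ K n, f ((inp n).π z) = 0) :
    Covers hg inp Pt K (RingHom.ker (Pt.act i) ⊓ RingHom.ker (f.toRingHom.comp Pt.φ)) := by
  have : IsNoetherianRing Sx := MvPowerSeries.isNoetherianRing O
  let mk : Sx →+* Sx ⧸ augIdeal O (FrameVar S.T S.p) (Fin r) := Ideal.Quotient.mk _
  let h : MvPowerSeries (S.Var g) O →+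
      Matrix (Fin (d i)) (Fin (d i)) Sx × (Sx ⧸ augIdeal O (FrameVar S.T S.p) (Fin r)) :=
    AddMonoidHom.prod (Pt.act i).toAddMonoidHom
      ((mk.comp (C.comp (f.toRingHom.comp Pt.φ))).toAddMonoidHom)
  have hfj : ∀ s : Sx, f (Pt.φ (Pt.j s)) = constantCoeff s := fun s => by
    have h0 : Pt.φ (Pt.j (s - C (constantCoeff s))) = 0 :=
      Pt.φ_j _ (RingHom.mem_ker.mpr (by rw [map_sub, constantCoeff_C, sub_self]))
    rw [map_sub, map_sub, patched_j_C, patched_phi_C, sub_eq_zero] at h0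
    rw [h0, AlgHom.commutes]
    rfl
  obtain ⟨k, hk⟩ := exists_sub_mem_sq (S := Sx) h Pt.j
    (fun s x => Prod.ext (by
      show Pt.act i (Pt.j s * x) = s • Pt.act i x
      rw [map_mul, Pt.isScalarLift i s, Algebra.smul_def]) (by
      show mk (C (f (Pt.φ (Pt.j s * x)))) = s • mk (C (f (Pt.φ x)))
      rw [map_mul, map_mul, hfj, map_mul (C : O →+* Sx), map_mul,
        Algebra.smul_def, Ideal.Quotient.algebraMap_eq]
      congr 1
      refine ((Ideal.Quotient.mk_eq_mk_iff_sub_mem _ _).mpr (RingHom.mem_ker.mpr ?_)).symm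
      rw [map_sub, constantCoeff_C, sub_self]))
    (fun s hs => patched_j_mem hg inp Pt hs)
  refine ⟨k, fun n hn x z hz hx => ?_⟩
  have hact : ∀ u v, Pt.act i x u v ∈ maximalIdeal Sx ^ k := fun u v => by
    have h0 : (system hg inp).act n i x u v = 0 := by
      show (inp n).framedAct hg i (evalAt hg inp n x) u v = 0
      rw [hx, (inp n).framedAct_C_eq_zero hg i (hK n z hz)]
      rfl
    simpa using hn.1 i x u v 0 (by rw [map_zero]; exact h0.symm)
  have hfx : f (Pt.φ x) ∈ maximalIdeal O ^ k := by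
    have hφ : (system hg inp).φ n x = (inp n).π z := by
      show (inp n).π (constantCoeff (evalAt hg inp n x)) = _
      rw [hx, constantCoeff_C]
    have hmem : (maximalIdeal C₀.R).map f ≤ maximalIdeal O :=
      Ideal.map_le_iff_le_comap.mpr fun a ha => by
        by_contra hu
        have hfs : Function.Surjective ((residue O).comp f.toRingHom) := fun c => by
          obtain ⟨c, rfl⟩ := residue_surjective c
          exact ⟨algebraMap O C₀.R c, congrArg (residue O) (f.commutes c)⟩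
        refine hu ?_
        rw [← FA.TW.ker_eq_maximalIdeal hfs] at ha
        exact (residue_eq_zero_iff _).mp (RingHom.mem_ker.mp ha)
    have h1 := Ideal.mem_map_of_mem f (hn.2 x)
    rw [hφ, map_sub, hf n z hz, sub_zero, Ideal.map_pow] at h1
    exact Ideal.pow_right_mono hmem k h1
  have hmem : h x ∈ maximalIdeal Sx ^ k • (⊤ : Submodule Sx _) := by
    have hA : ∀ A ∈ maximalIdeal Sx ^ k • (⊤ : Submodule Sx (Matrix (Fin (d i)) (Fin (d i)) Sx)),
        (A, (0 : Sx ⧸ augIdeal O (FrameVar S.T S.p) (Fin r))) ∈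
          maximalIdeal Sx ^ k • (⊤ : Submodule Sx _) := fun A hA => by
      have := Submodule.mem_map_of_mem (f := LinearMap.inl Sx _
        (Sx ⧸ augIdeal O (FrameVar S.T S.p) (Fin r))) hA
      rw [Submodule.map_smul''] at this
      exact Submodule.smul_mono le_rfl le_top this
    have hb : C (f (Pt.φ x)) ∈ maximalIdeal Sx ^ k := by
      refine Ideal.pow_right_mono (Ideal.map_le_iff_le_comap.mpr fun c hc => ?_) k
        (Ideal.map_pow (C : O →+* Sx) _ k ▸ Ideal.mem_map_of_mem _ hfx)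
      exact mem_maximalIdeal_iff_coeff.mpr (by simpa using hc)
    let A : Matrix (Fin (d i)) (Fin (d i)) Sx := Pt.act i x
    have he : h x = (A, 0) + (C (f (Pt.φ x)) : Sx) • ((0 : Matrix (Fin (d i)) (Fin (d i)) Sx), mk 1) := by
      refine Prod.ext (show A = A + (C (f (Pt.φ x)) : Sx) • (0 : Matrix (Fin (d i)) (Fin (d i)) Sx) by
        rw [smul_zero, add_zero]) ?_
      show mk (C (f (Pt.φ x))) = 0 + (C (f (Pt.φ x)) : Sx) • mk 1
      rw [zero_add, Algebra.smul_def, Ideal.Quotient.algebraMap_eq, ← map_mul, mul_one]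
    rw [he]
    exact add_mem (hA _ (matrix_mem_smul_top hact))
      (Submodule.smul_mem_smul hb Submodule.mem_top)
  obtain ⟨y, hy, hxy⟩ := hk x hmem
  refine Submodule.mem_sup.mpr ⟨x - y, ⟨congrArg Prod.fst hxy, RingHom.mem_ker.mpr ?_⟩, y, hy,
    sub_add_cancel x y⟩
  have h2 : mk (C (f (Pt.φ (x - y)))) = 0 := congrArg Prod.snd hxy
  rw [Ideal.Quotient.eq_zero_iff_mem, RingHom.mem_ker, constantCoeff_C] at h2
  exact h2

/-- A tangent vector of the presentation ring factoring through depth `n`: a tangent vector of the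
carried algebra and the derivative of the frame at `p`. -/
theorem exists_tangent (n : ℕ) {E : MvPowerSeries (S.Var g) O →+* Dual} (hE : IsTangent E)
    (hker : ∀ x, evalAt hg inp n x = 0 → E x = 0) :
    ∃ (t : ↥(tangent (inp n).C.π O)) (Y : M2 kO),
      (∀ x z, evalAt hg inp n x = C z → t.1 z = (E x).snd) ∧
      ∀ l : Fin S.m, (E (X (Sum.inr (Sum.inl l)))).snd =
        ((tgVal (inp n).C.rR S.rb t (S.e l).1 + Y - S.rb (S.e l).1 * Y * S.rb (S.e l).1⁻¹) *
          S.rb (S.e l).1) (S.e l).2.1 (S.e l).2.2 := by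
  let ev := evalAt hg inp n
  have hs : Function.Surjective ev := Classical.choose_spec ((inp n).extra_spec hg)
  let F : MvPowerSeries (FrameVar S.T S.p) (inp n).C.R →+* Dual :=
    ev.liftOfSurjective hs ⟨E, fun x hx => RingHom.mem_ker.mpr (hker x hx)⟩
  have hF : ∀ x, F (ev x) = E x := fun x =>
    RingHom.liftOfRightInverse_comp_apply ev _ (Function.surjInv_eq hs)
      ⟨E, fun x hx => RingHom.mem_ker.mpr (hker x hx)⟩ x
  let red := framedRed (T := S.T) (v₀ := S.p) (inp n).C.π
  have hred : ∀ f, (F f).fst = red f := fun f => by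
    obtain ⟨x, rfl⟩ := hs f
    rw [hF, hE.fst]
    refine (red_unique (red.comp ev) (fun c => ?_) x).symm
    show (inp n).C.π (constantCoeff (ev (C c))) = _
    rw [show ev (C c) = C (algebraMap O (inp n).C.R c) from evalHom_C _ _ _ _, constantCoeff_C]
    exact RingHom.congr_fun (inp n).C.π_algebraMap c
  let dd : ↥(tangent red O) := ⟨fun f => (F f).snd, fun a b => by simp,
    fun a b => by
      beta_reduce
      rw [map_mul, DualNumber.snd_mul, hred, hred]
      ring,
    fun c => by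
      beta_reduce
      rw [MvPowerSeries.algebraMap_apply,
        ← show ev (C c) = C (algebraMap O (inp n).C.R c) from evalHom_C _ _ _ _, hF, hE c]
      simp⟩
  let v : ↥S.T := ⟨S.p, S.p_mem_T⟩
  refine ⟨restrictC (inp n).C.π dd, frameValue (inp n).C.π v dd, fun x z hx => ?_, fun l => ?_⟩
  · show (F (C z)).snd = _
    rw [← hx, hF]
  · obtain ⟨σ, a, b, he⟩ : ∃ σ a b, S.e l = (σ, a, b) := ⟨_, _, _, rfl⟩
    have hx : ev (X (Sum.inr (Sum.inl l))) = S.coord (inp n).C (.inr l) := by
      simp [ev, evalAt, evalVals, vals]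
    have hd : ∀ f f', dd.1 (f - f') = dd.1 f - dd.1 f' := fun f f' => by
      show (F (f - f')).snd = _
      rw [map_sub, TrivSqZeroExt.snd_sub]
    rw [← hF, hx]
    show dd.1 (S.coord (inp n).C (.inr l)) = _
    simp only [coord, entry, he]
    rw [hd, dd.2.2.2, sub_zero]
    have hl : ((inp n).C.rR σ).map (inp n).C.π = S.rb σ := DFunLike.congr_fun (inp n).C.lift σ
    have h := congrFun (congrFun
      (map_framed_tangent (inp n).C.π dd v ((inp n).C.rR σ)) a) b
    rw [Matrix.map_apply] at h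
    rw [h, hl, ← tgVal_mul_rb (inp n).C.rR S.rb (restrictC (inp n).C.π dd) σ]
    rw [sub_mul, add_mul, Matrix.mul_assoc (S.rb σ * _), map_inv_mul_map, Matrix.mul_one]
    abel_nf

/-- The selected entries see the class `c`. -/
def Seen (S : FA.RT.Setup O) {a : ℕ} (idx : Fin a → Fin S.m) (c : GQ → M2 kO) : Prop :=
  ∀ Y : M2 kO, (∀ l, ((c (S.e (idx l)).1 + Y -
      S.rb (S.e (idx l)).1 * Y * S.rb (S.e (idx l)).1⁻¹) * S.rb (S.e (idx l)).1)
        (S.e (idx l)).2.1 (S.e (idx l)).2.2 = 0) →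
    ∀ σ ∈ S.P.dec S.p, c σ + Y - S.rb σ * Y * S.rb σ⁻¹ = 0

/-- Detection from one depth. -/
theorem detects_of_seen {a : ℕ} {idx : Fin a → Fin S.m} {I : Ideal (MvPowerSeries (S.Var g) O)}
    (h : ∀ E : MvPowerSeries (S.Var g) O →+* Dual, IsTangent E → I ≤ RingHom.ker E →
      ∃ n, (∀ x, evalAt hg inp n x = 0 → E x = 0) ∧ ∀ t : ↥(tangent (inp n).C.π O),
        (∀ x z, evalAt hg inp n x = C z → t.1 z = (E x).snd) → S.Seen idx (tgVal (inp n).C.rR S.rb t)) :
    Detects I (Sum.map idx id : Fin a ⊕ Fin g → Fin S.m ⊕ Fin g) := by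
  intro E hE hI _ hsel z
  obtain ⟨n, hn, hseen⟩ := h E hE hI
  obtain ⟨t, Y, ht, hY⟩ := exists_tangent hg inp n hE hn
  have hfst : ∀ v, (E (X v)).fst = 0 := fun v => by rw [hE.fst]; simp
  rcases z with l | y
  · refine TrivSqZeroExt.ext (hfst _) ?_
    rw [hY, hseen t ht Y (fun l' => ?_) _ (S.e_mem l), Matrix.zero_mul]
    · rfl
    · rw [← hY]
      exact congrArg TrivSqZeroExt.snd (hsel (Sum.inl l'))
  · exact hsel (Sum.inr y)

/-- Tangent vectors kill second order. -/
theorem apply_eq_zero_of_mem_sup_sq {τ : Type} {E : MvPowerSeries τ O →+* Dual}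
    (hE : IsTangent E) {I : Ideal (MvPowerSeries τ O)} (hI : I ≤ RingHom.ker E)
    {x : MvPowerSeries τ O} (hx : x ∈ I ⊔ maximalIdeal (MvPowerSeries τ O) ^ 2) : E x = 0 := by
  refine RingHom.mem_ker.mp ((sup_le hI ?_ : I ⊔ _ ≤ RingHom.ker E) hx)
  intro y hy
  rw [RingHom.mem_ker, ← Ideal.mem_bot, ← FA.TW.maximalIdeal_dualNumber_sq]
  refine Ideal.pow_right_mono (Ideal.map_le_iff_le_comap.mpr fun v hv => ?_) 2
    (Ideal.map_pow E _ 2 ▸ Ideal.mem_map_of_mem E hy)
  refine (FA.TW.fst_eq_zero_iff _).mpr ?_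
  rw [hE.fst, residue_eq_zero_iff]
  exact mem_maximalIdeal_iff_coeff.mp hv

/-- Entries detecting the tangents killing `K` detect the tangents killing what `K` sees. -/
theorem Covers.detects {a : ℕ} {idx : Fin a → Fin S.m} {I : Ideal (MvPowerSeries (S.Var g) O)}
    (hC : Covers hg inp Pt K I)
    (hdet : ∀ n (t : ↥(tangent (inp n).C.π O)), (∀ z ∈ K n, t.1 z = 0) →
      S.Seen idx (tgVal (inp n).C.rR S.rb t)) :
    Detects I (Sum.map idx id : Fin a ⊕ Fin g → Fin S.m ⊕ Fin g) := by
  refine detects_of_seen hg inp fun E hE hI => ?_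
  obtain ⟨k, hk⟩ := hC
  obtain ⟨n, hn⟩ := exists_near hg inp Pt k
  refine ⟨n, fun x hx => apply_eq_zero_of_mem_sup_sq hE hI
    (hk n hn x 0 (K n).zero_mem (by rw [hx, map_zero])), fun t ht => hdet n t fun z hz => ?_⟩
  obtain ⟨x, hx⟩ := (Classical.choose_spec ((inp n).extra_spec hg) : Function.Surjective _) (C z)
  rw [ht x z hx, apply_eq_zero_of_mem_sup_sq hE hI (hk n hn x z hz hx)]
  rfl

/-- Entries detecting the common tangents detect the tangents killing both. -/
theorem Covers.detects_sup {a : ℕ} {idx : Fin a → Fin S.m}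
    {K' : ∀ n, Ideal (inp n).C.R} {I J : Ideal (MvPowerSeries (S.Var g) O)}
    (hC : Covers hg inp Pt K I) (hC' : Covers hg inp Pt K' J)
    (hdet : ∀ n (t : ↥(tangent (inp n).C.π O)), (∀ z ∈ K n, t.1 z = 0) → (∀ z ∈ K' n, t.1 z = 0) →
      S.Seen idx (tgVal (inp n).C.rR S.rb t)) :
    Detects (I ⊔ J) (Sum.map idx id : Fin a ⊕ Fin g → Fin S.m ⊕ Fin g) := by
  refine detects_of_seen hg inp fun E hE hIJ => ?_
  obtain ⟨k, hk⟩ := hC
  obtain ⟨k', hk'⟩ := hC'
  obtain ⟨n, hn⟩ := exists_near hg inp Pt (max k k')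
  have hI : I ≤ RingHom.ker E := le_sup_left.trans hIJ
  have hJ : J ≤ RingHom.ker E := le_sup_right.trans hIJ
  have h1 := hk n (hn.mono hg inp Pt (le_max_left k k'))
  have h2 := hk' n (hn.mono hg inp Pt (le_max_right k k'))
  refine ⟨n, fun x hx => apply_eq_zero_of_mem_sup_sq hE hI
    (h1 x 0 (K n).zero_mem (by rw [hx, map_zero])), fun t ht => hdet n t ?_ ?_⟩ <;>
    intro z hz <;>
    obtain ⟨x, hx⟩ := (Classical.choose_spec ((inp n).extra_spec hg) : Function.Surjective _) (C z) <;>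
    rw [ht x z hx]
  · rw [apply_eq_zero_of_mem_sup_sq hE hI (h1 x z hz hx)]; rfl
  · rw [apply_eq_zero_of_mem_sup_sq hE hJ (h2 x z hz hx)]; rfl

/-- The two kinds of lifts at every depth and the entries detecting them. -/
structure UnionWorlds where
  /-- the ideal of the flat lifts -/
  KF : ∀ n, Ideal (inp n).C.R
  /-- the ideal of the strict lifts -/
  KS : ∀ n, Ideal (inp n).C.R
  /-- the entries of the flat lifts -/
  iF : Fin 4 → Fin S.m
  /-- the entries of the strict lifts -/
  iS : Fin 4 → Fin S.m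
  /-- the entries of the common tangents -/
  iB : Fin 3 → Fin S.m
  detectF : ∀ n (t : ↥(tangent (inp n).C.π O)), (∀ z ∈ KF n, t.1 z = 0) →
    S.Seen iF (tgVal (inp n).C.rR S.rb t)
  detectS : ∀ n (t : ↥(tangent (inp n).C.π O)), (∀ z ∈ KS n, t.1 z = 0) →
    S.Seen iS (tgVal (inp n).C.rR S.rb t)
  detectB : ∀ n (t : ↥(tangent (inp n).C.π O)), (∀ z ∈ KF n, t.1 z = 0) →
    (∀ z ∈ KS n, t.1 z = 0) → S.Seen iB (tgVal (inp n).C.rR S.rb t)

variable {inp}

/-- A flat index. -/
def UnionWorlds.InFlat (W : UnionWorlds inp) (i : ι) : Prop :=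
  ∀ n, ∀ z ∈ W.KF n, (inp n).act i z = 0

/-- A strict index. -/
def UnionWorlds.InStrict (W : UnionWorlds inp) (i : ι) : Prop :=
  ∀ n, ∀ z ∈ W.KS n, (inp n).act i z = 0

/-- The flat coordinates. -/
def UnionWorlds.aF (W : UnionWorlds inp) : Fin 4 ⊕ Fin g → Fin S.m ⊕ Fin g := Sum.map W.iF id

/-- The strict coordinates. -/
def UnionWorlds.aS (W : UnionWorlds inp) : Fin 4 ⊕ Fin g → Fin S.m ⊕ Fin g := Sum.map W.iS id

variable (W : UnionWorlds inp)

theorem UnionWorlds.detects_flat {i : ι} (hi : W.InFlat i) :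
    Detects (RingHom.ker (Pt.act i) : Ideal (MvPowerSeries (S.Var g) O)) W.aF :=
  (covers_ker hg inp Pt hi).detects hg inp Pt W.detectF

theorem UnionWorlds.detects_strict {i : ι} (hi : W.InStrict i) :
    Detects (RingHom.ker (Pt.act i) : Ideal (MvPowerSeries (S.Var g) O)) W.aS :=
  (covers_ker hg inp Pt hi).detects hg inp Pt W.detectS

/-- **No prime with free tangents lies over both kinds.** -/
theorem UnionWorlds.pair_false {i i' : ι} (hi : W.InFlat i) (hi' : W.InStrict i')
    {W' : Ideal (MvPowerSeries (S.Var g) O)} (h : RingHom.ker (Pt.act i) ≤ W')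
    (h' : RingHom.ker (Pt.act i') ≤ W')
    (hfree : FreeTangent (W'.comap (sel (Q := ↥S.Sig) (O := O) W.aS))) : False :=
  not_le_of_freeTangent (W.detects_strict hg Pt hi').surjective
    ((covers_ker hg inp Pt hi).detects_sup hg inp Pt (covers_ker hg inp Pt hi') W.detectB)
    (by simp) h' hfree (sup_le h h')

variable (hcycΦ : ∀ q : ↥S.Sig, S.cyc (S.Φ q) = (q.1 : O))
  (hcycs : ∀ q : ↥S.Sig, S.cyc (S.tame q) = 1)

include hcycΦ hcycs in
/-- Minimal primes of a detected action are components in its four coordinates. -/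
theorem exists_comap_eq_comp [CharZero O] {i : ι} {a : Fin 4 ⊕ Fin g → Fin S.m ⊕ Fin g}
    (hd : Detects (RingHom.ker (Pt.act i) : Ideal (MvPowerSeries (S.Var g) O)) a)
    {c : Ideal (MvPowerSeries (S.Var g) O)} (hc : c ∈ (RingHom.ker (Pt.act i)).minimalPrimes) :
    ∃ (t : ↥S.Sig → Ty) (ht : Valid S.localData t),
      c.comap (sel (Q := ↥S.Sig) (O := O) a) = comp S.localData t ht := by
  obtain ⟨ee⟩ := exists_paramEmbedding_four (S := S) hg
  exact exists_comap_sel_eq_comp (Pt.isScalarLift i) (patched_j_C hg inp Pt)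
    (fun v => patched_j_mem hg inp Pt (mem_maximalIdeal_iff_coeff.mpr (by simp))) hd
    (isIntegral_paramHom isUnit_qv ee) (patched_relIdeal_le_ker hg inp Pt hcycΦ hcycs i) isUnit_qv hc

end Setup

end FA.RT
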