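import Fermat.Agent.RT.Components
import Fermat.Agent.Patch.Surject
import Fermat.Agent.Patch.LevelData
import Fermat.Agent.TW.Core

/-!
# Worlds inside a larger coordinate ring

A union of two conditions at `p` needs more coordinates than each of them. Where selected
coordinates detect every tangent vector of a patched action, they generate its image, so its
minimal primes are components in the selected coordinates. A prime with free tangents in the
selected coordinates does not lie over two actions detected by fewer coordinates.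
-/

set_option autoImplicit false

noncomputable section

open MvPowerSeries IsLocalRing Matrix FA.LocalComp

namespace FA.RT

local notation "M₂" => Matrix (Fin 2) (Fin 2)

/-- Quotients of complete noetherian local rings are complete. -/
theorem isAdicComplete_quotient {P : Type*} [CommRing P] [IsLocalRing P] [IsNoetherianRing P]
    [IsAdicComplete (maximalIdeal P) P] (I : Ideal P) [IsLocalRing (P ⧸ I)] :
    IsAdicComplete (maximalIdeal (P ⧸ I)) (P ⧸ I) := by
  have hm : maximalIdeal (P ⧸ I) = (maximalIdeal P).map (Ideal.Quotient.mk I) :=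
    (IsLocalRing.map_maximalIdeal_of_surjective _ Ideal.Quotient.mk_surjective).symm
  refine { haus' := fun x hx => ?_, prec' := fun f hf => ?_ }
  · have hinf : x ∈ ⨅ k : ℕ, maximalIdeal (P ⧸ I) ^ k := by
      rw [Ideal.mem_iInf]
      intro k
      have := hx k
      rwa [SModEq.zero, smul_eq_mul, Ideal.mul_top] at this
    rwa [Ideal.iInf_pow_eq_bot_of_isLocalRing _ (maximalIdeal.isMaximal _).ne_top,
      Ideal.mem_bot] at hinf
  · have hstep : ∀ k, ∃ y : P, y ∈ maximalIdeal P ^ k ∧
        Ideal.Quotient.mk I y = f (k + 1) - f k := by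
      intro k
      have h := hf (Nat.le_succ k)
      rw [SModEq.sub_mem, smul_eq_mul, Ideal.mul_top] at h
      have h' : f (k + 1) - f k ∈ maximalIdeal (P ⧸ I) ^ k := by simpa using neg_mem h
      rw [hm, ← Ideal.map_pow] at h'
      exact (Ideal.mem_map_iff_of_surjective _ Ideal.Quotient.mk_surjective).mp h'
    choose y hy hy' using hstep
    obtain ⟨x₀, hx₀⟩ := Ideal.Quotient.mk_surjective (I := I) (f 0)
    let g : ℕ → P := fun n => x₀ + ∑ i ∈ Finset.range n, y i
    have hg : ∀ n, Ideal.Quotient.mk I (g n) = f n := fun n => by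
      induction n with
      | zero => simp [g, hx₀]
      | succ n ih =>
        simp only [g, Finset.sum_range_succ, ← add_assoc, map_add _ _ (y n), hy']
        rw [show Ideal.Quotient.mk I (x₀ + ∑ i ∈ Finset.range n, y i) = f n from ih]
        ring
    obtain ⟨L, hL⟩ := FA.Patch.exists_lim (maximalIdeal P) g fun k => by
      simpa [g, Finset.sum_range_succ] using hy k
    refine ⟨Ideal.Quotient.mk I L, fun n => ?_⟩
    rw [SModEq.sub_mem, smul_eq_mul, Ideal.mul_top, ← hg n, ← map_sub, hm, ← Ideal.map_pow]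
    exact Ideal.mem_map_of_mem _ (by simpa using neg_mem (hL n))

variable {Q ρ ρw : Type} [Fintype Q] [Fintype ρ] [Fintype ρw] {O : Type} [CommRing O]
  [IsDomain O] [IsDiscreteValuationRing O] [IsAdicComplete (maximalIdeal O) O]

local notation "Pu" => MvPowerSeries (Var Q ρ) O
local notation "Pw" => MvPowerSeries (Var Q ρw) O
local notation "kO" => ResidueField O
local notation "Dual" => DualNumber (ResidueField O)

section Sel

/-- The renaming of the further coordinates along `a`. -/
def sel (a : ρw → ρ) : Pw →+* Pu :=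
  FA.Patch.evalHom (maximalIdeal Pu) C (fun v => X (Sum.map id a v))
    fun _ => FA.Patch.mem_maximalIdeal_iff_coeff.mpr (by simp)

variable (a : ρw → ρ)

@[simp] theorem sel_C (c : O) : sel (Q := Q) a (C c) = C c :=
  FA.Patch.evalHom_C _ _ _ _

@[simp] theorem sel_X (v : Var Q ρw) : sel (O := O) a (X v) = X (Sum.map id a v) :=
  FA.Patch.evalHom_X _ _ _ _

variable (L : LocalData Q O)

theorem map_sel_phi (q : Q) : (L.phi q).map (sel a) = L.phi (ρ := ρ) q := by
  refine Matrix.ext fun i j => ?_
  simp [LocalData.phi]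

theorem map_sel_sig (q : Q) : (L.sig q).map (sel a) = L.sig (ρ := ρ) q := by
  refine Matrix.ext fun i j => ?_
  simp [LocalData.sig]

theorem image_typeSet (q : Q) (ty : Ty) :
    sel a '' L.typeSet q ty = L.typeSet (ρ := ρ) q ty := by
  have hN : (L.sig q - 1).map (sel a) = L.sig (ρ := ρ) q - 1 := by
    rw [FA.LocalComp.map_sub_one, map_sel_sig]
  cases ty with
  | unr =>
    simp only [LocalData.typeSet, ← Set.range_comp]
    congr 1
    funext x
    exact congrFun (congrFun hN x.1) x.2
  | st n =>
    simp only [LocalData.typeSet, Set.image_union, Set.image_singleton, ← Set.range_comp]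
    congr 1
    · congr 1
      rw [map_sub, map_mul, map_add, map_one, map_natCast, map_sgn,
        AddMonoidHom.map_trace (sel a), map_sel_phi]
    · congr 1
      funext x
      show sel a _ = _
      have h : ((L.phi q * (L.sig q - 1) -
          (sgn n * (L.qv q : Pw)) • (L.sig q - 1)) : M₂ Pw).map (sel a) =
          L.phi q * (L.sig q - 1) - (sgn n * (L.qv q : Pu)) • (L.sig q - 1) := by
        rw [Matrix.map_sub _ (map_sub _), Matrix.map_mul, map_sel_phi, hN,
          Matrix.map_smul' _ _ _ (map_mul _), hN, map_mul, map_natCast, map_sgn]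
      exact congrFun (congrFun h x.1) x.2

theorem image_relSet (q : Q) : sel a '' L.relSet q = L.relSet (ρ := ρ) q := by
  have hN : (L.sig q - 1).map (sel a) = L.sig (ρ := ρ) q - 1 := by
    rw [FA.LocalComp.map_sub_one, map_sel_sig]
  simp only [LocalData.relSet, Set.image_union, Set.image_insert_eq, Set.image_singleton,
    ← Set.range_comp]
  congr 1
  · rw [map_sub, map_sub, map_sub, RingHom.map_det, RingHom.map_det,
      AddMonoidHom.map_trace (sel a), RingHom.mapMatrix_apply, RingHom.mapMatrix_apply,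
      map_sel_phi, map_sel_sig, map_natCast, map_ofNat, map_one]
  · congr 1
    funext x
    show sel a _ = _
    have h : ((L.phi q * (L.sig q - 1) -
        (L.qv q : Pw) • ((L.sig q - 1) * L.phi q)) : M₂ Pw).map (sel a) =
        L.phi q * (L.sig q - 1) - (L.qv q : Pu) • ((L.sig q - 1) * L.phi q) := by
      rw [Matrix.map_sub _ (map_sub _), Matrix.map_mul, map_sel_phi, hN,
        Matrix.map_smul' _ _ _ (map_mul _), Matrix.map_mul, hN, map_sel_phi, map_natCast]
    exact congrFun (congrFun h x.1) x.2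

theorem map_relIdeal : (L.relIdeal (ρ := ρw)).map (sel a) = L.relIdeal (ρ := ρ) := by
  rw [LocalData.relIdeal, Ideal.map_span, Set.image_iUnion]
  simp_rw [image_relSet]
  rfl

theorem relIdeal_le_comap {I : Ideal Pu} (h : L.relIdeal ≤ I) :
    L.relIdeal (ρ := ρw) ≤ I.comap (sel a) :=
  Ideal.map_le_iff_le_comap.mp ((map_relIdeal a L).le.trans h)

theorem typeSet_subset_iff {J : Ideal Pu} {q : Q} {ty : Ty} :
    L.typeSet q ty ⊆ (J : Set Pu) ↔
      L.typeSet (ρ := ρw) q ty ⊆ (J.comap (sel a) : Set Pw) := by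
  rw [← image_typeSet a L, Set.image_subset_iff]
  rfl

end Sel

section Tangent

/-- Reduction is the only homomorphism to the residue field extending the residue map. -/
theorem red_unique {τ : Type} (φ : MvPowerSeries τ O →+* kO)
    (hC : ∀ c, φ (C c) = residue O c) (f : MvPowerSeries τ O) :
    φ f = residue O (constantCoeff f) := by
  have hs : Function.Surjective φ := fun x => by
    obtain ⟨c, rfl⟩ := residue_surjective x
    exact ⟨C c, hC c⟩
  have h : f - C (constantCoeff f) ∈ maximalIdeal (MvPowerSeries τ O) :=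
    FA.Patch.mem_maximalIdeal_iff_coeff.mpr (by simp)
  rw [← FA.TW.ker_eq_maximalIdeal hs, RingHom.mem_ker, map_sub, sub_eq_zero, hC] at h
  exact h

/-- Tangent points at the closed point. -/
def IsTangent {τ : Type} (E : MvPowerSeries τ O →+* Dual) : Prop :=
  ∀ c, E (C c) = TrivSqZeroExt.inl (residue O c)

theorem IsTangent.fst {τ : Type} {E : MvPowerSeries τ O →+* Dual} (hE : IsTangent E)
    (f : MvPowerSeries τ O) : (E f).fst = residue O (constantCoeff f) :=
  red_unique ((TrivSqZeroExt.fstHom kO kO kO).toRingHom.comp E)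
    (fun c => by simp [hE c]) f

theorem IsTangent.X_mem {τ : Type} {E : MvPowerSeries τ O →+* Dual} (hE : IsTangent E) (v : τ) :
    E (X v) ∈ maximalIdeal Dual :=
  (FA.TW.fst_eq_zero_iff _).mpr (by rw [hE.fst]; simp)

instance isAdicComplete_dual : IsAdicComplete (maximalIdeal Dual) Dual :=
  FA.TW.isAdicComplete_of_pow_eq_bot (FA.TW.maximalIdeal_dualNumber_sq _)

/-- The tangent point with given values at the variables. -/
def tangentAt {τ : Type} [Finite τ] (ξ : τ → kO) : MvPowerSeries τ O →+* Dual :=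
  FA.Patch.evalHom (maximalIdeal Dual) ((TrivSqZeroExt.inlHom kO kO).comp (residue O))
    (fun v => TrivSqZeroExt.inr (ξ v))
    fun _ => (FA.TW.fst_eq_zero_iff _).mpr (TrivSqZeroExt.fst_inr _ _)

theorem isTangent_tangentAt {τ : Type} [Finite τ] (ξ : τ → kO) :
    IsTangent (tangentAt (O := O) ξ) := fun _ => FA.Patch.evalHom_C _ _ _ _

theorem tangentAt_X {τ : Type} [Finite τ] (ξ : τ → kO) (v : τ) :
    tangentAt (O := O) ξ (X v) = TrivSqZeroExt.inr (ξ v) :=
  FA.Patch.evalHom_X _ _ _ _

/-- The selected coordinates, with those of the places, see all tangent vectors killing `I`. -/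
def Detects (I : Ideal Pu) (a : ρw → ρ) : Prop :=
  ∀ E : Pu →+* Dual, IsTangent E → I ≤ RingHom.ker E → (∀ x, E (X (Sum.inl x)) = 0) →
    (∀ y, E (X (Sum.inr (a y))) = 0) → ∀ z, E (X (Sum.inr z)) = 0

/-- **Detecting coordinates generate.** -/
theorem Detects.surjective {I : Ideal Pu} {a : ρw → ρ} (hd : Detects I a) :
    Function.Surjective ((Ideal.Quotient.mk I).comp (sel a)) := by
  classical
  by_cases htop : I = ⊤
  · intro x
    refine ⟨0, ?_⟩
    have : Subsingleton (Pu ⧸ I) := Ideal.Quotient.subsingleton_iff.mpr htop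
    exact Subsingleton.elim _ _
  have : Nontrivial (Pu ⧸ I) := Ideal.Quotient.nontrivial_iff.mpr htop
  have : IsLocalRing (Pu ⧸ I) :=
    IsLocalRing.of_surjective' (Ideal.Quotient.mk I) Ideal.Quotient.mk_surjective
  have : IsNoetherianRing Pu := MvPowerSeries.isNoetherianRing O
  have := isAdicComplete_quotient I
  let red : Pu →+* kO := (residue O).comp constantCoeff
  have hI : I ≤ RingHom.ker red := fun f hf => by
    rw [RingHom.mem_ker, RingHom.comp_apply, residue_eq_zero_iff,
      ← FA.Patch.mem_maximalIdeal_iff_coeff]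
    exact IsLocalRing.le_maximalIdeal htop hf
  let π : Pu ⧸ I →+* kO := Ideal.Quotient.lift I red hI
  have halg : ∀ c : O, algebraMap O (Pu ⧸ I) c = Ideal.Quotient.mk I (C c) := fun c => by
    rw [IsScalarTower.algebraMap_apply O Pu (Pu ⧸ I), MvPowerSeries.algebraMap_apply,
      Ideal.Quotient.algebraMap_eq]
    rfl
  have hπ : π.comp (algebraMap O (Pu ⧸ I)) = residue O := RingHom.ext fun c => by
    rw [RingHom.comp_apply, halg]
    show red (C c) = _
    simp [red]
  obtain ⟨ϖ, hϖ⟩ := IsDiscreteValuationRing.exists_irreducible O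
  have hker : RingHom.ker (residue O) = Ideal.span {ϖ} := by
    rw [IsLocalRing.ker_residue]
    exact hϖ.maximalIdeal_eq
  have hsurj : Function.Surjective π := fun x => by
    obtain ⟨c, rfl⟩ := residue_surjective x
    exact ⟨algebraMap O _ c, RingHom.congr_fun hπ c⟩
  let e := (Fintype.equivFin (Var Q ρw))
  let x : Fin (Fintype.card (Var Q ρw)) → Pu ⧸ I :=
    fun i => Ideal.Quotient.mk I (sel a (X (e.symm i)))
  have hxm : ∀ i, x i ∈ maximalIdeal (Pu ⧸ I) := fun i => by
    rw [← FA.TW.ker_eq_maximalIdeal hsurj, RingHom.mem_ker]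
    show red (sel a (X (e.symm i))) = 0
    simp [red]
  have hdet : ∀ d : ↥(FA.TW.tangent π O), (∀ i, d.1 (x i) = 0) → d = 0 := by
    intro d hdx
    let E : Pu →+* Dual :=
      { toFun := fun f => TrivSqZeroExt.inl (red f) + TrivSqZeroExt.inr (d.1 (Ideal.Quotient.mk I f))
        map_one' := by
          have h1 : d.1 1 = 0 := by simpa using d.2.2.2 1
          simp [h1]
        map_mul' := fun f g => by
          refine TrivSqZeroExt.ext ?_ ?_
          · simp
          · simp only [TrivSqZeroExt.snd_add, TrivSqZeroExt.snd_inl, TrivSqZeroExt.snd_inr,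
              zero_add, map_mul, d.2.2.1, DualNumber.snd_mul, TrivSqZeroExt.fst_add,
              TrivSqZeroExt.fst_inl, TrivSqZeroExt.fst_inr, add_zero]
            show red f * _ + red g * _ = _
            ring
        map_zero' := by
          have h0 : d.1 0 = 0 := by rw [← FA.TW.tangentHom_apply d, map_zero]
          simp [h0]
        map_add' := fun f g => by
          refine TrivSqZeroExt.ext ?_ ?_ <;> simp [d.2.1] }
    have hE : IsTangent E := fun c => by
      show TrivSqZeroExt.inl (red (C c)) + TrivSqZeroExt.inr (d.1 (Ideal.Quotient.mk I (C c))) = _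
      rw [← halg, d.2.2.2]
      simp [red]
    have hEI : I ≤ RingHom.ker E := fun f hf => by
      show TrivSqZeroExt.inl (red f) + TrivSqZeroExt.inr (d.1 (Ideal.Quotient.mk I f)) = 0
      rw [hI hf, Ideal.Quotient.eq_zero_iff_mem.mpr hf,
        show d.1 0 = 0 by rw [← FA.TW.tangentHom_apply d, map_zero]]
      simp
    have hsel : ∀ v, E (X (Sum.map id a v)) = 0 := fun v => by
      have := hdx (e v)
      simp only [x, Equiv.symm_apply_apply] at this
      rw [sel_X] at this
      show TrivSqZeroExt.inl _ + TrivSqZeroExt.inr _ = (0 : Dual)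
      rw [this]
      simp [red]
    have hall : ∀ v, E (X v) = 0 := fun v => by
      rcases v with v | z
      · exact hsel (Sum.inl v)
      · exact hd E hE hEI (fun x => hsel (Sum.inl x)) (fun y => hsel (Sum.inr y)) z
    have hconst : E = (TrivSqZeroExt.inlHom kO kO).comp red := by
      refine FA.Patch.mvPowerSeries_hom_ext (maximalIdeal Dual) (fun c => ?_) (fun v => ?_)
        fun v => hE.X_mem v
      · rw [hE c]; simp [red]
      · rw [hall v]; simp [red]
    refine Subtype.ext (funext fun z => ?_)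
    obtain ⟨f, rfl⟩ := Ideal.Quotient.mk_surjective z
    have := congrArg TrivSqZeroExt.snd (RingHom.congr_fun hconst f)
    simpa [E] using this
  have hgen := FA.TW.maximalIdeal_le_of_detect residue_surjective hπ hker x hdet
  have hϖm : ϖ ∈ maximalIdeal O := hϖ.maximalIdeal_eq ▸ Ideal.mem_span_singleton_self ϖ
  have hϖA : algebraMap O (Pu ⧸ I) ϖ ∈ maximalIdeal (Pu ⧸ I) := by
    rw [← FA.TW.ker_eq_maximalIdeal hsurj, RingHom.mem_ker, ← RingHom.comp_apply, hπ,
      residue_eq_zero_iff]
    exact hϖm
  have hres : Function.Surjective (residue (Pu ⧸ I) ∘ algebraMap O (Pu ⧸ I)) := fun z => by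
    obtain ⟨y, rfl⟩ := residue_surjective z
    obtain ⟨c, hc⟩ := residue_surjective (π y)
    refine ⟨c, ?_⟩
    rw [Function.comp_apply, ← sub_eq_zero, ← map_sub, residue_eq_zero_iff,
      ← FA.TW.ker_eq_maximalIdeal hsurj, RingHom.mem_ker, map_sub, ← RingHom.comp_apply, hπ, hc,
      sub_self]
  intro y
  obtain ⟨s, rfl⟩ := FA.Patch.evalHom_surjective_of_gen hxm hϖm hϖA hres hgen y
  let h : MvPowerSeries (Fin (Fintype.card (Var Q ρw))) O →+* Pw :=
    FA.Patch.evalHom (maximalIdeal Pw) C (fun i => X (e.symm i))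
      fun _ => FA.Patch.mem_maximalIdeal_iff_coeff.mpr (by simp)
  refine ⟨h s, RingHom.congr_fun (FA.Patch.mvPowerSeries_hom_ext (maximalIdeal (Pu ⧸ I))
    (f := ((Ideal.Quotient.mk I).comp (sel a)).comp h) (fun c => ?_) (fun i => ?_) fun i => ?_) s⟩
  · simp [h, halg, sel_C]
  · simp [h, x]
  · simp only [RingHom.coe_comp, Function.comp_apply, h, FA.Patch.evalHom_X]
    exact hxm i

end Tangent

section Support

variable {I : Ideal (MvPowerSeries (Var Q ρ) O)} {a : ρw → ρ}

/-- Primes above `I` are ordered as their traces on the selected coordinates. -/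
theorem le_of_comap_sel_le (hs : Function.Surjective ((Ideal.Quotient.mk I).comp (sel (Q := Q) (O := O) a)))
    {c c' : Ideal Pu} (hc' : I ≤ c') (hI : I ≤ c)
    (h : c.comap (sel (Q := Q) (O := O) a) ≤ c'.comap (sel (Q := Q) (O := O) a)) : c ≤ c' := by
  intro x hx
  obtain ⟨y, hy⟩ := hs (Ideal.Quotient.mk I x)
  rw [RingHom.comp_apply, Ideal.Quotient.mk_eq_mk_iff_sub_mem] at hy
  have h1 : sel a y ∈ c := by simpa using c.add_mem (hI hy) hx
  simpa using c'.sub_mem (h (Ideal.mem_comap.mpr h1)) (hc' hy)

/-- A prime of the selected coordinates over the trace of `I` comes from a prime over `I`. -/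
theorem exists_prime_over (hs : Function.Surjective ((Ideal.Quotient.mk I).comp (sel (Q := Q) (O := O) a)))
    {W : Ideal Pw} [W.IsPrime] (hW : I.comap (sel (Q := Q) (O := O) a) ≤ W) :
    ∃ W' : Ideal Pu, W'.IsPrime ∧ I ≤ W' ∧ W'.comap (sel (Q := Q) (O := O) a) = W := by
  let π := (Ideal.Quotient.mk I).comp (sel (Q := Q) (O := O) a)
  have hker : RingHom.ker π ≤ W := fun y hy => hW (Ideal.mem_comap.mpr
    (Ideal.Quotient.eq_zero_iff_mem.mp (RingHom.mem_ker.mp hy)))
  have : (W.map π).IsPrime := Ideal.map_isPrime_of_surjective hs hker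
  refine ⟨(W.map π).comap (Ideal.Quotient.mk I), Ideal.comap_isPrime _ _, fun x hx => ?_, ?_⟩
  · rw [Ideal.mem_comap, Ideal.Quotient.eq_zero_iff_mem.mpr hx]
    exact zero_mem _
  · rw [Ideal.comap_comap, Ideal.comap_map_of_surjective _ hs, ← RingHom.ker_eq_comap_bot]
    exact sup_eq_left.mpr hker

/-- The trace of a minimal prime is minimal. -/
theorem comap_mem_minimalPrimes (hs : Function.Surjective ((Ideal.Quotient.mk I).comp (sel (Q := Q) (O := O) a)))
    {c : Ideal Pu} (hc : c ∈ I.minimalPrimes) :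
    c.comap (sel (Q := Q) (O := O) a) ∈ (I.comap (sel (Q := Q) (O := O) a)).minimalPrimes := by
  have : c.IsPrime := hc.1.1
  refine ⟨⟨Ideal.comap_isPrime _ _, Ideal.comap_mono hc.1.2⟩, fun W hW hWc => ?_⟩
  have : W.IsPrime := hW.1
  obtain ⟨W', hW', hIW', rfl⟩ := exists_prime_over hs hW.2
  exact Ideal.comap_mono (hc.2 ⟨hW', hIW'⟩ (le_of_comap_sel_le hs hc.1.2 hIW' hWc))

variable {σ : Type} [Finite σ] {d : ℕ}
  {act : MvPowerSeries (Var Q ρ) O →+* Matrix (Fin d) (Fin d) (MvPowerSeries σ O)}
  {j : MvPowerSeries σ O →+* MvPowerSeries (Var Q ρ) O}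

/-- The scalars lift to the selected coordinates. -/
theorem exists_scalarLift (hj : FA.Patch.IsScalarLift act j) (hjC : ∀ c : O, j (C c) = C c)
    (hjm : ∀ i, j (X i) ∈ maximalIdeal Pu)
    (hs : Function.Surjective ((Ideal.Quotient.mk (RingHom.ker act : Ideal Pu)).comp (sel (Q := Q) (O := O) a))) :
    ∃ jw : MvPowerSeries σ O →+* Pw, FA.Patch.IsScalarLift (act.comp (sel (Q := Q) (O := O) a)) jw := by
  by_cases htop : RingHom.ker act = ⊤
  · have hzero : ∀ x, act x = 0 := fun x =>
      RingHom.mem_ker.mp (htop ▸ Submodule.mem_top : x ∈ RingHom.ker act)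
    exact ⟨FA.Patch.evalHom (maximalIdeal Pw) C (fun _ => 0) fun _ => zero_mem _, fun s => by
      rw [← hj s, RingHom.comp_apply, hzero, hzero]⟩
  have : Nontrivial (Pu ⧸ RingHom.ker act) := Ideal.Quotient.nontrivial_iff.mpr htop
  have : IsLocalRing (Pu ⧸ RingHom.ker act) :=
    IsLocalRing.of_surjective' (Ideal.Quotient.mk _) Ideal.Quotient.mk_surjective
  have : IsNoetherianRing Pu := MvPowerSeries.isNoetherianRing O
  have := isAdicComplete_quotient (RingHom.ker act)
  let q := Ideal.Quotient.mk (RingHom.ker act)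
  have hq : ∀ i, q (j (X i)) ∈ maximalIdeal (Pu ⧸ RingHom.ker act) := fun i => by
    rw [← IsLocalRing.map_maximalIdeal_of_surjective _ Ideal.Quotient.mk_surjective]
    exact Ideal.mem_map_of_mem _ (hjm i)
  choose y hy using fun i => hs (q (j (X i)))
  have hym : ∀ i, y i ∈ maximalIdeal Pw := fun i => by
    rw [mem_maximalIdeal, mem_nonunits_iff]
    intro hu
    exact (IsLocalRing.mem_maximalIdeal _).mp (hy i ▸ hq i) (hu.map _)
  let jw := FA.Patch.evalHom (maximalIdeal Pw) C y hym
  have h : (q.comp (sel (Q := Q) (O := O) a)).comp jw = q.comp j := by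
    refine FA.Patch.mvPowerSeries_hom_ext (maximalIdeal (Pu ⧸ RingHom.ker act)) (fun c => ?_)
      (fun i => ?_) fun i => ?_
    · simp [jw, hjC, sel_C]
    · simp only [RingHom.coe_comp, Function.comp_apply, jw, FA.Patch.evalHom_X]
      exact hy i
    · simp only [RingHom.coe_comp, Function.comp_apply, jw, FA.Patch.evalHom_X]
      exact (hy i).symm ▸ hq i
  refine ⟨jw, fun s => ?_⟩
  have := (Ideal.Quotient.mk_eq_mk_iff_sub_mem _ _).mp (RingHom.congr_fun h s)
  rw [RingHom.mem_ker, map_sub, sub_eq_zero] at this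
  rw [← hj s]
  exact this

/-- **Minimal primes of a detected action are components in the selected coordinates.** -/
theorem exists_comap_sel_eq_comp [CharZero O] [FiniteRingKrullDim (MvPowerSeries σ O)]
    {L : LocalData Q O} (hj : FA.Patch.IsScalarLift act j) (hjC : ∀ c : O, j (C c) = C c)
    (hjm : ∀ i, j (X i) ∈ maximalIdeal Pu) (hd : Detects (RingHom.ker act : Ideal Pu) a)
    {g : MvPowerSeries σ O →+* Pw}
    (hg : ((Ideal.Quotient.mk (L.relIdeal (ρ := ρw))).comp g).IsIntegral)
    (hI : L.relIdeal ≤ RingHom.ker act) (hqu : ∀ q, IsUnit (L.qv q : O))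
    {c : Ideal Pu} (hc : c ∈ (RingHom.ker act).minimalPrimes) :
    ∃ (t : Q → Ty) (ht : Valid L t), c.comap (sel (Q := Q) (O := O) a) = comp L t ht := by
  have : IsDomain (MvPowerSeries σ O) := NoZeroDivisors.to_isDomain _
  have : IsNoetherianRing O := inferInstance
  obtain ⟨jw, hjw⟩ := exists_scalarLift hj hjC hjm hd.surjective
  have hker : RingHom.ker (act.comp (sel (Q := Q) (O := O) a)) = (RingHom.ker act).comap (sel (Q := Q) (O := O) a) := rfl
  exact eq_comp_of_mem_minimalPrimes hjw hg (hker.symm ▸ relIdeal_le_comap a L hI) hqu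
    (hker.symm ▸ comap_mem_minimalPrimes hd.surjective hc)

end Support

section Free

/-- The values of a tangent point are linear in its values at the variables. -/
theorem snd_tangentAt {τ : Type} [Fintype τ] (ξ : τ → kO) (f : MvPowerSeries τ O) :
    (tangentAt ξ f).snd = ∑ v, ξ v * residue O (coeff (Finsupp.single v 1) f) := by
  classical
  let lin : MvPowerSeries τ O := C (constantCoeff f) +
    ∑ z, C (coeff (Finsupp.single z 1) f) * X z
  have h2 : f - lin ∈ Ideal.span (Set.range (X : τ → MvPowerSeries τ O)) ^ 2 := by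
    refine FA.Patch.mem_span_X_pow fun x hx => ?_
    rcases Nat.lt_succ_iff.mp hx |>.lt_or_eq with h | h
    · obtain rfl := (Finsupp.degree_eq_zero_iff x).mp (Nat.lt_one_iff.mp h)
      simp [lin, coeff_zero_eq_constantCoeff_apply, map_sum]
    · obtain ⟨z, rfl⟩ : ∃ z, x = Finsupp.single z 1 := by
        have hne : x ≠ 0 := by rintro rfl; simp at h
        obtain ⟨z, hz⟩ := Finsupp.support_nonempty_iff.mpr hne
        refine ⟨z, ?_⟩
        have hz1 : 1 ≤ x z := Nat.one_le_iff_ne_zero.mpr (Finsupp.mem_support_iff.mp hz)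
        obtain ⟨y, rfl⟩ := le_iff_exists_add.mp (Finsupp.single_le_iff.mpr hz1)
        rw [map_add, Finsupp.degree_single, add_eq_left, Finsupp.degree_eq_zero_iff] at h
        rw [h, add_zero]
      simp [lin, map_sum, coeff_C, coeff_C_mul, coeff_X, Finsupp.single_eq_single_iff,
        Finsupp.single_eq_zero]
  have h3 : tangentAt ξ (f - lin) = 0 := by
    have h4 := Ideal.mem_map_of_mem (tangentAt ξ) h2
    rw [Ideal.map_pow] at h4
    rw [← Ideal.mem_bot, ← FA.TW.maximalIdeal_dualNumber_sq]
    refine Ideal.pow_right_mono ?_ 2 h4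
    rw [Ideal.map_span, Ideal.span_le]
    rintro _ ⟨_, ⟨i, rfl⟩, rfl⟩
    exact (isTangent_tangentAt ξ).X_mem i
  rw [map_sub, sub_eq_zero] at h3
  rw [h3]
  simp only [lin, map_add, map_sum, map_mul, isTangent_tangentAt ξ _, tangentAt_X,
    TrivSqZeroExt.snd_add, TrivSqZeroExt.snd_inl, TrivSqZeroExt.snd_sum, zero_add]
  exact Finset.sum_congr rfl fun v _ => by simp [mul_comm]

/-- Every tangent direction in the further coordinates kills `W`. -/
def FreeTangent (W : Ideal Pw) : Prop :=
  ∀ η : ρw → kO, W ≤ RingHom.ker (tangentAt (O := O) (Sum.elim (0 : (Q × Fin 2 × Fin 2 × Fin 2) → kO) η))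

/-- **A prime with free tangents is not over two actions detected by fewer coordinates.** -/
theorem not_le_of_freeTangent {ρb : Type} [Fintype ρb] {I J : Ideal Pu} {a : ρw → ρ} {b : ρb → ρ}
    (ha : Function.Surjective ((Ideal.Quotient.mk I).comp (sel (Q := Q) (O := O) a)))
    (hb : Detects J b) (hcard : Fintype.card ρb < Fintype.card ρw)
    {W' : Ideal Pu} (hIW : I ≤ W') (hfree : FreeTangent (W'.comap (sel (Q := Q) (O := O) a))) : ¬ J ≤ W' := by
  classical
  intro hJ
  let π := (Ideal.Quotient.mk I).comp (sel (Q := Q) (O := O) a)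
  choose y hy using fun v => ha (Ideal.Quotient.mk I (X v))
  let Φ : (ρw → kO) →ₗ[kO] (ρb → kO) :=
    { toFun := fun η z => ∑ w, η w * residue O (coeff (Finsupp.single (Sum.inr w) 1) (y (Sum.inr (b z))))
      map_add' := fun η η' => funext fun z => by
        simp [add_mul, Finset.sum_add_distrib]
      map_smul' := fun r η => funext fun z => by
        simp [Finset.mul_sum, mul_assoc] }
  obtain ⟨η, hη, hη0⟩ : ∃ η, Φ η = 0 ∧ η ≠ 0 := by
    by_contra hc
    push Not at hc
    have hinj : Function.Injective Φ := (injective_iff_map_eq_zero Φ).mpr hc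
    have := LinearMap.finrank_le_finrank_of_injective hinj
    simp only [Module.finrank_fintype_fun_eq_card] at this
    omega
  let Ew : Pw →+* Dual := tangentAt (Sum.elim (0 : (Q × Fin 2 × Fin 2 × Fin 2) → kO) η)
  have hker : RingHom.ker π ≤ RingHom.ker Ew := fun x hx => hfree η (Ideal.mem_comap.mpr
    (hIW (Ideal.Quotient.eq_zero_iff_mem.mp (RingHom.mem_ker.mp hx))))
  let E₀ : Pu ⧸ I →+* Dual := π.liftOfSurjective ha ⟨Ew, hker⟩
  let E : Pu →+* Dual := E₀.comp (Ideal.Quotient.mk I)
  have hlift : ∀ x, E₀ (π x) = Ew x := fun x =>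
    RingHom.liftOfRightInverse_comp_apply π _ (Function.surjInv_eq ha) ⟨Ew, hker⟩ x
  have hEsel : ∀ x, E (sel a x) = Ew x := hlift
  have hEX : ∀ v, E (X v) = Ew (y v) := fun v => by
    show E₀ _ = _
    rw [← hy v]
    exact hlift (y v)
  have hE : IsTangent E := fun c => by
    rw [← sel_C (ρw := ρw) (Q := Q) a c, hEsel]
    exact isTangent_tangentAt _ c
  have hEW : W' ≤ RingHom.ker E := fun x hx => by
    obtain ⟨z, hz⟩ := ha (Ideal.Quotient.mk I x)
    have hzW : sel a z ∈ W' := by
      have h1 := hIW ((Ideal.Quotient.mk_eq_mk_iff_sub_mem _ _).mp hz)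
      simpa using W'.add_mem h1 hx
    show E₀ _ = 0
    rw [← hz, hlift z]
    exact RingHom.mem_ker.mp (hfree η (Ideal.mem_comap.mpr hzW))
  have hall := hb E hE (hJ.trans hEW)
    (fun x => by
      rw [show (X (Sum.inl x) : Pu) = sel a (X (Sum.inl x)) by rw [sel_X]; rfl, hEsel]
      show tangentAt _ _ = 0
      rw [tangentAt_X]
      simp)
    (fun z => by
      refine TrivSqZeroExt.ext ?_ ?_
      · rw [(FA.TW.fst_eq_zero_iff _).mp (hE.X_mem _)]; rfl
      · rw [hEX]
        show (tangentAt _ _).snd = 0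
        rw [snd_tangentAt, Fintype.sum_sum_type]
        simpa [Φ] using congrFun hη z)
  refine hη0 (funext fun w => ?_)
  have h1 := hall (a w)
  rw [show (X (Sum.inr (a w)) : Pu) = sel a (X (Sum.inr w)) by rw [sel_X]; rfl, hEsel] at h1
  have h2 : tangentAt (Sum.elim (0 : (Q × Fin 2 × Fin 2 × Fin 2) → kO) η) (X (Sum.inr w) : Pw) = 0 := h1
  rw [tangentAt_X] at h2
  simpa using congrArg TrivSqZeroExt.snd h2

/-- Charts composed with maps fixing the further coordinates to first order have free tangents. -/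
theorem freeTangent_ker {L : LocalData Q O} {t : Q → Ty} {B : Q → Base O}
    (hB : ∀ r, IsBase L r (t r) (B r))
    (φ : MvPowerSeries (Par Q ρw) O →+* MvPowerSeries (Par Q ρw) O) (hφC : ∀ c, φ (C c) = C c)
    (hφ : ∀ (η : ρw → kO) (z : Par Q ρw),
      tangentAt (O := O) (Sum.elim (0 : Q × Fin 3 → kO) η) (φ (X z)) =
        TrivSqZeroExt.inr (Sum.elim (0 : Q × Fin 3 → kO) η z)) :
    FreeTangent (RingHom.ker (φ.comp (typeHom (ρ := ρw) hB))) := by
  intro η
  let ζ : Par Q ρw → kO := Sum.elim (0 : Q × Fin 3 → kO) η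
  let E : MvPowerSeries (Par Q ρw) O →+* Dual := tangentAt ζ
  let π : Pw →+* MvPowerSeries (Par Q ρw) O := φ.comp (typeHom hB)
  have hπC : ∀ c, π (C c) = C c := fun c => by
    simp only [π, RingHom.comp_apply, typeHom_C, hφC]
  have hEπ : IsTangent (E.comp π) := fun c => by
    rw [RingHom.comp_apply, hπC]
    exact isTangent_tangentAt ζ c
  have hχ : ∀ P : MvPolynomial (Par Q ρw) O,
      E (φ (P : MvPowerSeries (Par Q ρw) O)) = MvPolynomial.eval₂
        ((TrivSqZeroExt.inlHom kO kO).comp (residue O)) (fun z => TrivSqZeroExt.inr (ζ z)) P := by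
    intro P
    have e : (E.comp φ).comp MvPolynomial.coeToMvPowerSeries.ringHom =
        MvPolynomial.eval₂Hom ((TrivSqZeroExt.inlHom kO kO).comp (residue O))
          (fun z => TrivSqZeroExt.inr (ζ z)) := by
      refine MvPolynomial.ringHom_ext (fun c => ?_) fun z => ?_
      · simp only [RingHom.coe_comp, Function.comp_apply, MvPolynomial.coeToMvPowerSeries.ringHom_apply,
          MvPolynomial.coe_C, hφC, MvPolynomial.eval₂Hom_C]
        exact isTangent_tangentAt ζ c
      · simp only [RingHom.coe_comp, Function.comp_apply, MvPolynomial.coeToMvPowerSeries.ringHom_apply,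
          MvPolynomial.coe_X, MvPolynomial.eval₂Hom_X']
        exact hφ η z
    exact RingHom.congr_fun e P
  have h : E.comp π = tangentAt (Sum.elim (0 : (Q × Fin 2 × Fin 2 × Fin 2) → kO) η) := by
    refine FA.Patch.mvPowerSeries_hom_ext (maximalIdeal Dual) (fun c => ?_) (fun v => ?_)
      fun v => hEπ.X_mem v
    · rw [hEπ c, isTangent_tangentAt _ c]
    rw [tangentAt_X]
    refine TrivSqZeroExt.ext ?_ ?_
    · rw [hEπ.fst, constantCoeff_X, map_zero, TrivSqZeroExt.fst_inr]
    show (E (φ (typeHom hB (X v)))).snd = _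
    rw [typeHom_X, hχ]
    rcases v with ⟨r, k, i, j⟩ | y
    swap
    · simp [chartPoly, ζ]
    -- the chart at the places only involves their coordinates
    let χ := MvPolynomial.eval₂Hom ((TrivSqZeroExt.inlHom kO kO).comp (residue O))
      (fun z => TrivSqZeroExt.inr (ζ z))
    show (χ (chartPoly L t B (Sum.inl (r, k, i, j)))).snd = 0
    have hpv : ∀ a, χ (parVal B r a) = TrivSqZeroExt.inl (residue O ((B r).v a)) := fun a => by
      simp [χ, parVal, ζ]
    have hχC : χ.comp MvPolynomial.C = (TrivSqZeroExt.inlHom kO kO).comp (residue O) :=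
      RingHom.ext fun c => by simp [χ]
    have hsub : ∀ (M : Matrix (Fin 2) (Fin 2) (MvPolynomial (Par Q ρw) O)) (c : O),
        (∃ x : kO, M.map χ i j = TrivSqZeroExt.inl x) →
          (χ (M i j - MvPolynomial.C c)).snd = 0 := fun M c ⟨x, hx⟩ => by
      rw [map_sub, show χ (M i j) = _ from hx, show χ (MvPolynomial.C c) = _ from
        RingHom.congr_fun hχC c]
      simp
    simp only [chartPoly]
    split_ifs
    · refine hsub _ _ ⟨phiForm (residue O) (L.qv r) (B r).G (B r).e (t r)
        (fun a => residue O ((B r).v a)) i j, ?_⟩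
      rw [map_phiForm, funext hpv, hχC]
      exact (congrFun (congrFun (map_phiForm (residue O) (TrivSqZeroExt.inlHom kO kO) (L.qv r)
        (B r).G (B r).e (t r) fun a => residue O ((B r).v a)).symm i) j).trans rfl
    · refine hsub _ _ ⟨(1 + nForm (B r).e (t r) (fun a => residue O ((B r).v a)) :
        Matrix (Fin 2) (Fin 2) kO) i j, ?_⟩
      rw [FA.LocalComp.map_one_add, map_nForm, funext hpv]
      have e : (1 + nForm (B r).e (t r) fun a => residue O ((B r).v a) :
          Matrix (Fin 2) (Fin 2) kO).map (TrivSqZeroExt.inlHom kO kO) =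
          1 + nForm (B r).e (t r) fun a => TrivSqZeroExt.inlHom kO kO (residue O ((B r).v a)) := by
        rw [FA.LocalComp.map_one_add, map_nForm]
      exact (congrFun (congrFun e i) j).symm
  intro f hf
  rw [RingHom.mem_ker] at hf ⊢
  rw [← h, RingHom.comp_apply, show π f = 0 from hf, map_zero]

/-- **The wall has free tangents.** -/
theorem exists_wall_free [DecidableEq Q] [CharZero O] {L : LocalData Q O}
    (hqu : ∀ q, IsUnit (L.qv q : O)) {q : Q} {n : Bool} {t : Q → Ty} (hn : t q = .st n)
    (ht : Valid L t) (ht₀ : Valid L (Function.update t q .unr)) :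
    ∃ W : Ideal Pw, W.IsPrime ∧ L.relIdeal ≤ W ∧ (∀ c : O, C c ∈ W → c = 0) ∧ comp L t ht ≤ W ∧
      comp L (Function.update t q .unr) ht₀ ≤ W ∧
      (∀ t', L.typeIdeal t' ≤ W → t' = t ∨ t' = Function.update t q .unr) ∧ FreeTangent W := by
  classical
  have : IsNoetherianRing O := inferInstance
  obtain ⟨W, ⟨h1, h2, h3, h4, h5, h6⟩, B, hB, hv, hW⟩ :=
    exists_wall_hom (ρ := ρw) hqu hn ht ht₀
  refine ⟨W, h1, h2, h3, h4, h5, h6, hW ▸ freeTangent_ker hB _ (fun c => killHom_C ..) fun η z => ?_⟩
  rw [killHom, FA.Patch.evalHom_X]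
  split_ifs with h
  · subst h
    rw [map_neg, isTangent_tangentAt _, (residue_eq_zero_iff _).mpr hv]
    simp
  · exact tangentAt_X _ z

/-- **A component has free tangents.** -/
theorem freeTangent_comp {L : LocalData Q O} {t : Q → Ty} (ht : Valid L t) :
    FreeTangent (comp (ρ := ρw) L t ht) := fun η =>
  le_trans (fun _ hf => hf) (freeTangent_ker (ρw := ρw) (isBase_baseOf ht) (RingHom.id _)
    (fun _ => rfl) (fun η z => tangentAt_X _ z) η)

end Free

end FA.RT
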